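import Fermat.Agent.MUL.S36.Norm.VertW
import Fermat.Agent.MUL.Lib.Kronecker.NormProd
import Fermat.Agent.MUL.S36.G.SeedInput

section MergeWrap_S36_HPVal_DegIota -- from S36/HPVal/DegIota.lean

set_option autoImplicit false
set_option linter.style.haveILetI false
set_option linter.unusedSectionVars false

noncomputable section
attribute [local instance 10000] SubalgebraClass.toAlgebra HahnSeries.powerSeriesAlgebra

namespace Fermat.Agent.S36G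

open ModularCurve AlgebraicCurve Fermat.Agent.F3 Fermat.Agent.F3G Fermat.Agent.GaussInt
  Fermat.Agent.AtkinLehner Fermat.Agent.Kronecker Fermat.Agent.BadRed Fermat.Agent.HeckeComm
  Fermat.Agent.S36N

local notation "Qb" => AlgebraicClosure ℚ

set_option synthInstance.maxHeartbeats 400000

section Generic

variable {K F₀ F₁ F₂ : Type*} [Field K] [Field F₀] [Field F₁] [Field F₂]
  [Algebra K F₀] [Algebra K F₁] [Algebra K F₂]

/-- the tower law for `finrankAlong`. -/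
theorem wpd_finrankAlong_comp (φ : F₀ →ₐ[K] F₁) (ψ : F₁ →ₐ[K] F₂) :
    finrankAlong K (ψ.comp φ) = finrankAlong K φ * finrankAlong K ψ := by
  letI a1 : Algebra F₀ F₁ := algebraAlong φ
  letI a2 : Algebra F₁ F₂ := algebraAlong ψ
  letI a3 : Algebra F₀ F₂ := algebraAlong (ψ.comp φ)
  haveI : IsScalarTower F₀ F₁ F₂ := IsScalarTower.of_algebraMap_eq fun x => rfl
  exact (Module.finrank_mul_finrank F₀ F₁ F₂).symm

end Generic

section Beta

variable {N ℓ : ℕ} [NeZero N] [NeZero ℓ]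

/-- `[F_{N ℓ} : β F_N] = [F_{N ℓ} : α F_N]` for `ℓ` coprime to `N` (Atkin–Lehner). -/
theorem wpd_finrank_beta_eq_alpha (hcop : Nat.Coprime ℓ N) :
    finrankAlong Qb (heckeBetaBar Qb N ℓ) = finrankAlong Qb (heckeAlphaBar Qb N ℓ) := by
  have hNpos : 0 < N := Nat.pos_of_ne_zero (NeZero.ne N)
  have hℓpos : 0 < ℓ := Nat.pos_of_ne_zero (NeZero.ne ℓ)
  obtain ⟨D₁, h1Q, h1R⟩ := ALData.exists_of_coprime (Q := 1) (R := N) one_pos hNpos
    (Nat.coprime_one_left N)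
  obtain ⟨D₂, h2Q, h2R⟩ := ALData.exists_of_coprime (Q := ℓ) (R := N) hℓpos hNpos hcop
  have hQ : D₂.Q = D₁.Q * ℓ := by rw [h2Q, h1Q, one_mul]
  have hR : D₂.R = D₁.R := by rw [h2R, h1R]
  have hN : N = D₁.Q * D₁.R := by rw [h1Q, h1R, one_mul]
  have hNℓ : N * ℓ = D₂.Q * D₂.R := by rw [h2Q, h2R, mul_comm]
  have hc : (@algebraMap (FBar N) (FBar (N * ℓ)) _ _ (algebraAlong (heckeAlphaBar Qb N ℓ))).comp
      ((wAt D₁ hN : FBar N ≃ₐ[Qb] FBar N) : FBar N ≃+* FBar N).toRingHom =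
      ((wAt D₂ hNℓ : FBar (N * ℓ) ≃ₐ[Qb] FBar (N * ℓ)) :
          FBar (N * ℓ) ≃+* FBar (N * ℓ)).toRingHom.comp
        (@algebraMap (FBar N) (FBar (N * ℓ)) _ _ (algebraAlong (heckeBetaBar Qb N ℓ))) := by
    refine RingHom.ext fun x => ?_
    exact (wAt_beta D₁ D₂ hQ hR hN hNℓ x).symm
  exact @Algebra.finrank_eq_of_equiv_equiv (FBar N) (FBar (N * ℓ)) _ _
    (algebraAlong (heckeBetaBar Qb N ℓ)) (FBar N) (FBar (N * ℓ)) _ _
    (algebraAlong (heckeAlphaBar Qb N ℓ))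
    ((wAt D₁ hN : FBar N ≃ₐ[Qb] FBar N) : FBar N ≃+* FBar N)
    ((wAt D₂ hNℓ : FBar (N * ℓ) ≃ₐ[Qb] FBar (N * ℓ)) : FBar (N * ℓ) ≃+* FBar (N * ℓ)) hc

/-- **`[F_{N ℓ} : β F_N] = ℓ + 1`** for a prime `ℓ ∤ N`. -/
theorem wpd_finrank_beta (hℓ : ℓ.Prime) (hℓN : ¬ ℓ ∣ N) :
    letI := algebraAlong (heckeBetaBar Qb N ℓ)
    FiniteDimensional (FBar N) (FBar (N * ℓ)) ∧
      Module.finrank (FBar N) (FBar (N * ℓ)) = ℓ + 1 := by
  have h1 := wpd_finrank_beta_eq_alpha (N := N) (ℓ := ℓ)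
    ((Nat.Prime.coprime_iff_not_dvd hℓ).mpr hℓN)
  obtain ⟨-, h2⟩ := Fermat.Agent.Kronecker.finrank_heckeAlphaBar N ℓ hℓ hℓN
  letI := algebraAlong (heckeBetaBar Qb N ℓ)
  have h : Module.finrank (FBar N) (FBar (N * ℓ)) = ℓ + 1 := h1.trans h2
  exact ⟨Module.finite_of_finrank_pos (by rw [h]; exact Nat.succ_pos ℓ), h⟩

end Beta

section Iota

variable (M₀ q : ℕ) [NeZero M₀] [NeZero q]

/-- `ι₁ : F_{M₀} → F_{M₀ q²}`, `f ↦ f(qz)`, as `α ∘ β`. -/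
def wpdIota1 : FBar M₀ →ₐ[Qb] FBar (M₀ * q * q) :=
  (heckeAlphaBar Qb (M₀ * q) q).comp (heckeBetaBar Qb M₀ q)

theorem coe_wpdIota1 (x : FBar M₀) :
    ((wpdIota1 M₀ q x : FBar (M₀ * q * q)) : LaurentSeries Qb) =
      qExpand Qb q (x : LaurentSeries Qb) := by
  rw [wpdIota1, AlgHom.comp_apply, coe_heckeAlphaBar, coe_heckeBetaBar]

/-- `ι₁ = β ∘ α`. -/
theorem wpdIota1_eq_beta_alpha :
    wpdIota1 M₀ q = (heckeBetaBar Qb (M₀ * q) q).comp (heckeAlphaBar Qb M₀ q) := by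
  refine AlgHom.ext fun x => Subtype.ext ?_
  rw [coe_wpdIota1, AlgHom.comp_apply, coe_heckeBetaBar, coe_heckeAlphaBar]

/-- **`[F_{M₀ q²} : ι₁ F_{M₀}] = q (q + 1)`** for a prime `q ∤ M₀`, `finrankAlong` form. -/
theorem wpd_finrankAlong_iota1 (hq : q.Prime) (hqM : ¬ q ∣ M₀) :
    finrankAlong Qb (wpdIota1 M₀ q) = q * (q + 1) := by
  obtain ⟨hfdβ, hβ⟩ := wpd_finrank_beta (N := M₀) (ℓ := q) hq hqM
  obtain ⟨hfdα, hα⟩ := finrank_alpha (N := M₀ * q) (ℓ := q) hq (dvd_mul_left q M₀)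
  have h := wpd_finrankAlong_comp (K := Qb) (heckeBetaBar Qb M₀ q) (heckeAlphaBar Qb (M₀ * q) q)
  have hβ' : finrankAlong Qb (heckeBetaBar Qb M₀ q) = q + 1 := hβ
  have hα' : finrankAlong Qb (heckeAlphaBar Qb (M₀ * q) q) = q := hα
  rw [hβ', hα'] at h
  rw [wpdIota1, h, mul_comm]

/-- **`[F_{M₀ q²} : ι₁ F_{M₀}] = q (q + 1)`** for a prime `q ∤ M₀`. -/
theorem wpd_finrank_iota1 (hq : q.Prime) (hqM : ¬ q ∣ M₀) :
    letI := algebraAlong (wpdIota1 M₀ q)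
    FiniteDimensional (FBar M₀) (FBar (M₀ * q * q)) ∧
      Module.finrank (FBar M₀) (FBar (M₀ * q * q)) = q * (q + 1) := by
  letI := algebraAlong (wpdIota1 M₀ q)
  have h : Module.finrank (FBar M₀) (FBar (M₀ * q * q)) = q * (q + 1) :=
    wpd_finrankAlong_iota1 M₀ q hq hqM
  exact ⟨Module.finite_of_finrank_pos (by rw [h]; exact Nat.mul_pos hq.pos (Nat.succ_pos q)), h⟩

end Iota

end Fermat.Agent.S36G
end
end MergeWrap_S36_HPVal_DegIota
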