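import Mathlib
import Fermat.Agent.MUL.Lib.GaussInt.ModularInst
import Fermat.Agent.MUL.S24.EmbF
import Fermat.Agent.MUL.S36.HPVal.DegIota

section MergeWrap_S36_HPVal_ExTDefs -- from S36/HPVal/ExTDefs.lean

set_option autoImplicit false
set_option synthInstance.maxHeartbeats 400000

noncomputable section
attribute [local instance 10000] SubalgebraClass.toAlgebra HahnSeries.powerSeriesAlgebra

namespace Fermat.Agent.S36G

open ModularCurve AlgebraicCurve Fermat.Agent.Deuring Fermat.Agent.GaussInt

/-- **the datum `t` of W-P** at the place `P`: rational, `q`-integral, poles at the cusps only,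
reduction a uniformiser at `P`. -/
structure ExTDatum (A : ValuationSubring (AlgebraicClosure ℚ)) (q M0 : ℕ) [NeZero M0]
    (hq : q.Prime) (hA : A.LiesOverPrime q) (hqM : ¬ q ∣ M0)
    (P : Place (IsLocalRing.ResidueField A)
      (modularFunctionFieldFullC (IsLocalRing.ResidueField A) M0))
    (t0 : LaurentSeries ℚ) : Prop where
  /-- `t0` is a rational modular function of level `M0` -/
  mem : t0 ∈ modularFunctionFieldFull M0
  /-- the `q`-expansion is `q`-integral -/
  int : ∀ n : ℤ, algebraMap ℚ (AlgebraicClosure ℚ) (t0.coeff n) ∈ A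
  /-- `t0` is Gauss-integral -/
  mem_Ov : ∀ h : coeffEmb (AlgebraicClosure ℚ) t0 ∈ modularFunctionFieldBar M0,
    (⟨coeffEmb (AlgebraicClosure ℚ) t0, h⟩ : modularFunctionFieldBar M0) ∈
      (modularValSetup A q M0 hq hA hqM).Ov
  /-- the reduction is the coefficientwise reduction -/
  red_coeff : ∀ (h : coeffEmb (AlgebraicClosure ℚ) t0 ∈ modularFunctionFieldBar M0) (n : ℤ)
    (hn : algebraMap ℚ (AlgebraicClosure ℚ) (t0.coeff n) ∈ A),
    (((modularValSetup A q M0 hq hA hqM).red
        (⟨coeffEmb (AlgebraicClosure ℚ) t0, h⟩ : modularFunctionFieldBar M0) :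
        modularFunctionFieldFullC (IsLocalRing.ResidueField A) M0) :
        LaurentSeries (IsLocalRing.ResidueField A)).coeff n =
      IsLocalRing.residue A ⟨algebraMap ℚ (AlgebraicClosure ℚ) (t0.coeff n), hn⟩
  /-- the poles of `t0` are poles of `j` -/
  poles : ∀ (h : coeffEmb (AlgebraicClosure ℚ) t0 ∈ modularFunctionFieldBar M0)
    (Q : Place (AlgebraicClosure ℚ) (modularFunctionFieldBar M0)),
    0 ≤ Q.ord (Fermat.Agent.S24.jBar M0) →
      0 ≤ Q.ord (⟨coeffEmb (AlgebraicClosure ℚ) t0, h⟩ : modularFunctionFieldBar M0)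
  /-- the reduction is a uniformiser at `P` -/
  unif : ∀ h : coeffEmb (AlgebraicClosure ℚ) t0 ∈ modularFunctionFieldBar M0,
    P.ord ((modularValSetup A q M0 hq hA hqM).red
      (⟨coeffEmb (AlgebraicClosure ℚ) t0, h⟩ : modularFunctionFieldBar M0)) = 1

/-- **EX_t**: existence of the datum `t` at every non-cuspidal place, under good reduction. -/
def ExTStatement (q M0 : ℕ) [NeZero M0] : Prop :=
  ∀ (A : ValuationSubring (AlgebraicClosure ℚ)) (hq : q.Prime) (hA : A.LiesOverPrime q)
    (hqM : ¬ q ∣ M0),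
    genusFF (AlgebraicClosure ℚ) ↥(modularFunctionFieldBar M0) =
      genusFF (IsLocalRing.ResidueField A)
        ↥(modularFunctionFieldFullC (IsLocalRing.ResidueField A) M0) →
    ∀ P : Place (IsLocalRing.ResidueField A)
        (modularFunctionFieldFullC (IsLocalRing.ResidueField A) M0),
      0 ≤ P.ord (Fermat.Agent.RRMod.jC (IsLocalRing.ResidueField A) M0) →
      ∃ t0 : LaurentSeries ℚ, ExTDatum A q M0 hq hA hqM P t0

end Fermat.Agent.S36G
end
end MergeWrap_S36_HPVal_ExTDefs
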