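import Mathlib
import Fermat.Agent.MUL.Orig.Lib.BadRed.HPVal.DiscPoints
import Fermat.Agent.MUL.S36.HPVal.ExTDefs
import Fermat.Agent.MUL.Lib.BadRed.Mod.OldSep
import Fermat.Agent.MUL.Lib.FF.RedValue
import Fermat.Agent.MUL.E.Desc.Kp.ValI
import Fermat.Agent.MUL.S17.Pts.Orbit

section MergeWrap_S36_HPVal_DiscMod -- from S36/HPVal/DiscMod.lean

set_option autoImplicit false
set_option linter.style.haveILetI false
set_option linter.unusedSectionVars false
set_option synthInstance.maxHeartbeats 400000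

noncomputable section

namespace Fermat.Agent.S36G

open ModularCurve AlgebraicCurve Fermat.Agent.Deuring Fermat.Agent.GaussInt Fermat.Agent.FF
  Fermat.Agent.HPVal Fermat.Agent.S18Key Fermat.Agent.RR Fermat.Agent.BadRed

local notation "Qb" => AlgebraicClosure ℚ

attribute [local instance 10000] SubalgebraClass.toAlgebra HahnSeries.powerSeriesAlgebra

section Setup

variable (A : ValuationSubring Qb) (q M : ℕ) [NeZero M]
  (hq : q.Prime) (hA : A.LiesOverPrime q) (hqM : ¬ q ∣ M)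
  (hg : genusFF Qb (modularFunctionFieldBar M) =
    genusFF (IsLocalRing.ResidueField A)
      (modularFunctionFieldFullC (IsLocalRing.ResidueField A) M))

/-- **the good reduction of `X₀(M)` at a place `A` of `ℚ̄` over `q ∤ M`** as a reduction
package: the Gauss valuation with Deuring's reduction map of places. -/
def wpdSetup :
    RedSetup Qb (modularFunctionFieldBar M) (IsLocalRing.ResidueField A)
      (modularFunctionFieldFullC (IsLocalRing.ResidueField A) M) :=
  (isReduction_redPlace A q M hq hA hqM hg).redSetup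

theorem wpdSetup_A : (wpdSetup A q M hq hA hqM hg).A = A := rfl

theorem wpdSetup_Ov :
    (wpdSetup A q M hq hA hqM hg).Ov = (modularValSetup A q M hq hA hqM).Ov := rfl

theorem wpdSetup_r : (wpdSetup A q M hq hA hqM hg).r = redPlace A q M hq hA hqM hg := rfl

theorem wpdSetup_res : (wpdSetup A q M hq hA hqM hg).res = IsLocalRing.residue A := rfl

theorem wpdSetup_red (f : modularFunctionFieldBar M) :
    (wpdSetup A q M hq hA hqM hg).red f = (modularValSetup A q M hq hA hqM).red f := rfl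

theorem mem_wpdSetup_Ov_iff (f : modularFunctionFieldBar M) :
    f ∈ (wpdSetup A q M hq hA hqM hg).Ov ↔ f ∈ (modularValSetup A q M hq hA hqM).Ov := Iff.rfl

/-- the reduction map of the package is a Deuring reduction of the Gauss valuation: besides
`push` it has the LIFT property `gr` (`red (L(B) ∩ Ov) = L (r_* B)` for `deg B ≥ 2g`) and `deg`. -/
theorem wpd_isReduction :
    IsReduction (modularValSetup A q M hq hA hqM) (wpdSetup A q M hq hA hqM hg).r :=
  isReduction_redPlace A q M hq hA hqM hg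

/-- **LIFT** for the reduction map of `wpdSetup`. -/
theorem wpd_gr (B : Divisor Qb (modularFunctionFieldBar M))
    (hB : 2 * (genusFF Qb (modularFunctionFieldBar M) : ℤ) ≤ Divisor.degree B) :
    redSpace (modularValSetup A q M hq hA hqM) (riemannRochSpace B) =
      riemannRochSpace (Finsupp.mapDomain (wpdSetup A q M hq hA hqM hg).r B) :=
  (wpd_isReduction A q M hq hA hqM hg).gr B hB

/-- the reduction map of `wpdSetup` preserves degrees. -/
theorem wpd_deg (B : Divisor Qb (modularFunctionFieldBar M)) :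
    Divisor.degree (Finsupp.mapDomain (wpdSetup A q M hq hA hqM hg).r B) = Divisor.degree B :=
  (wpd_isReduction A q M hq hA hqM hg).deg B

/-- the reduction map of `wpdSetup` is surjective. -/
theorem wpd_r_surjective : Function.Surjective (wpdSetup A q M hq hA hqM hg).r :=
  redPlace_surjective A q M hq hA hqM hg

/-- the Riemann–Roch package of the special fibre. -/
theorem wpd_hFk :
    IsRRField (IsLocalRing.ResidueField A)
      (modularFunctionFieldFullC (IsLocalRing.ResidueField A) M) :=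
  haveI := isAlgClosed_residue A
  Fermat.Agent.RRMod.isRRField_fullC' (IsLocalRing.ResidueField A) M

/-! ### cusps reduce to cusps -/

/-- **cusps reduce to cusps**: a pole of `j` reduces to a pole of `j̄`. -/
theorem wpd_ord_jC_neg {x : Place Qb (modularFunctionFieldBar M)}
    (hx : x.ord (Fermat.Agent.S24.jBar M) < 0) :
    ((wpdSetup A q M hq hA hqM hg).r x).ord
      (Fermat.Agent.RRMod.jC (IsLocalRing.ResidueField A) M) < 0 := by
  haveI := isAlgClosed_residue A
  have hred := isReduction_redPlace A q M hq hA hqM hg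
  have hjred := oldSep_red_jBar A q M hq hA hqM
  have htr : Transcendental (IsLocalRing.ResidueField A)
      ((modularValSetup A q M hq hA hqM).red (Fermat.Agent.S24.jBar M)) := by
    rw [hjred]
    exact Fermat.Agent.RRMod.transcendental_jC (IsLocalRing.ResidueField A) M
  have hdeg : Divisor.degree (poleDiv (modularValSetup A q M hq hA hqM).hFk
        ((modularValSetup A q M hq hA hqM).red (Fermat.Agent.S24.jBar M))) =
      Divisor.degree (poleDiv (modularValSetup A q M hq hA hqM).hF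
        (Fermat.Agent.S24.jBar M)) := by
    rw [hjred]
    exact (oldSep_degree_poleDiv_jC A q M hq hA hqM).trans (oldSep_degree_poleDiv_jBar M).symm
  have hneg := hred.ord_red_neg (oldSep_jBar_mem A q M hq hA hqM) htr hdeg hx
  rw [hjred] at hneg
  exact hneg

/-- a place over a non-cuspidal point of the special fibre is not a cusp. -/
theorem wpd_ord_jBar_nonneg {x : Place Qb (modularFunctionFieldBar M)}
    {P : Place (IsLocalRing.ResidueField A)
      (modularFunctionFieldFullC (IsLocalRing.ResidueField A) M)}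
    (hx : (wpdSetup A q M hq hA hqM hg).r x = P)
    (hP : 0 ≤ P.ord (Fermat.Agent.RRMod.jC (IsLocalRing.ResidueField A) M)) :
    0 ≤ x.ord (Fermat.Agent.S24.jBar M) := by
  by_contra hcon
  rw [not_le] at hcon
  have := wpd_ord_jC_neg A q M hq hA hqM hg hcon
  rw [hx] at this
  omega

/-- **a Gauss-integral function with poles only at the cusps lies in `R_P`**, for every
non-cuspidal place `P` of the special fibre. -/
theorem wpd_mem_discRing {g : modularFunctionFieldBar M}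
    (hgO : g ∈ (modularValSetup A q M hq hA hqM).Ov)
    (hpoles : ∀ v : Place Qb (modularFunctionFieldBar M),
      0 ≤ v.ord (Fermat.Agent.S24.jBar M) → 0 ≤ v.ord g)
    {P : Place (IsLocalRing.ResidueField A)
      (modularFunctionFieldFullC (IsLocalRing.ResidueField A) M)}
    (hP : 0 ≤ P.ord (Fermat.Agent.RRMod.jC (IsLocalRing.ResidueField A) M)) :
    g ∈ discRing (wpdSetup A q M hq hA hqM hg) P :=
  ⟨hgO, fun x hx => hpoles x (wpd_ord_jBar_nonneg A q M hq hA hqM hg hx hP)⟩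

/-- `j` itself lies in `R_P` for every non-cuspidal `P`. -/
theorem wpd_jBar_mem_discRing
    {P : Place (IsLocalRing.ResidueField A)
      (modularFunctionFieldFullC (IsLocalRing.ResidueField A) M)}
    (hP : 0 ≤ P.ord (Fermat.Agent.RRMod.jC (IsLocalRing.ResidueField A) M)) :
    Fermat.Agent.S24.jBar M ∈ discRing (wpdSetup A q M hq hA hqM hg) P :=
  wpd_mem_discRing A q M hq hA hqM hg (oldSep_jBar_mem A q M hq hA hqM) (fun _ h => h) hP

/-! ### a place outside the disc -/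

/-- there is a cusp. -/
theorem wpd_exists_cusp :
    ∃ Q₀ : Place Qb (modularFunctionFieldBar M), Q₀.ord (Fermat.Agent.S24.jBar M) < 0 := by
  by_contra hcon
  have hall : ∀ Q : Place Qb (modularFunctionFieldBar M),
      0 ≤ Q.ord (Fermat.Agent.S24.jBar M) := fun Q => by
    by_contra h
    exact hcon ⟨Q, not_le.mp h⟩
  have hF := Fermat.Agent.RRMod.isRRField_bar M
  have hpos : 0 < Divisor.degree (poleDiv hF (Fermat.Agent.S24.jBar M)) :=
    Fermat.Agent.RRHur.degree_poleDiv_pos hF (Fermat.Agent.S24.transcendental_jBar M)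
  have hzero : poleDiv hF (Fermat.Agent.S24.jBar M) = 0 := by
    ext Q
    rw [poleDiv_apply, Finsupp.coe_zero, Pi.zero_apply]
    exact max_eq_right (by have := hall Q; omega)
  rw [hzero, map_zero] at hpos
  exact lt_irrefl _ hpos

/-- **a place which does not reduce to `P`** (a cusp), for every non-cuspidal `P`. -/
theorem wpd_exists_not_over
    (P : Place (IsLocalRing.ResidueField A)
      (modularFunctionFieldFullC (IsLocalRing.ResidueField A) M))
    (hP : 0 ≤ P.ord (Fermat.Agent.RRMod.jC (IsLocalRing.ResidueField A) M)) :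
    ∃ Q₀ : Place Qb (modularFunctionFieldBar M), (wpdSetup A q M hq hA hqM hg).r Q₀ ≠ P := by
  obtain ⟨Q₀, hQ₀⟩ := wpd_exists_cusp M
  refine ⟨Q₀, fun h => ?_⟩
  have := wpd_ord_jBar_nonneg A q M hq hA hqM hg h hP
  omega

/-- **`F₀ = Frac R_P`**: every function has a denominator in `R_P`. -/
theorem wpd_frac
    (P : Place (IsLocalRing.ResidueField A)
      (modularFunctionFieldFullC (IsLocalRing.ResidueField A) M))
    (hP : 0 ≤ P.ord (Fermat.Agent.RRMod.jC (IsLocalRing.ResidueField A) M))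
    (f : modularFunctionFieldBar M) :
    ∃ g ∈ discRing (wpdSetup A q M hq hA hqM hg) P, g ≠ 0 ∧
      f * g ∈ discRing (wpdSetup A q M hq hA hqM hg) P := by
  obtain ⟨Q₀, hQ₀⟩ := wpd_exists_not_over A q M hq hA hqM hg P hP
  exact discRing_frac (wpdSetup A q M hq hA hqM hg) P Q₀ hQ₀ f

/-! ### the datum `t` -/

/-- the function of `F₀ = ℚ̄ · F_M` attached to a rational modular function. -/
def wpdT (t0 : LaurentSeries ℚ) (h : t0 ∈ modularFunctionFieldFull M) :
    modularFunctionFieldBar M :=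
  ⟨coeffEmb Qb t0, coeffEmb_mem_laurentBaseChange Qb h⟩

theorem coe_wpdT (t0 : LaurentSeries ℚ) (h : t0 ∈ modularFunctionFieldFull M) :
    ((wpdT M t0 h : modularFunctionFieldBar M) : LaurentSeries Qb) = coeffEmb Qb t0 := rfl

variable {P : Place (IsLocalRing.ResidueField A)
  (modularFunctionFieldFullC (IsLocalRing.ResidueField A) M)}

/-- the datum of EX_t lies in `R_P`. -/
theorem wpd_exT_mem_discRing {t0 : LaurentSeries ℚ}
    (hP : 0 ≤ P.ord (Fermat.Agent.RRMod.jC (IsLocalRing.ResidueField A) M))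
    (D : ExTDatum A q M hq hA hqM P t0) :
    wpdT M t0 D.mem ∈ discRing (wpdSetup A q M hq hA hqM hg) P :=
  wpd_mem_discRing A q M hq hA hqM hg (D.mem_Ov _) (D.poles _) hP

/-- **the datum of EX_t gives a `DiscPoint`**: the centre `Pt` is the unique zero of `t` on the
residue disc of `P`. -/
theorem wpd_discPoint_of_exT {t0 : LaurentSeries ℚ}
    (hP : 0 ≤ P.ord (Fermat.Agent.RRMod.jC (IsLocalRing.ResidueField A) M))
    (D : ExTDatum A q M hq hA hqM P t0) :
    ∃ Pt : Place Qb (modularFunctionFieldBar M),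
      DiscPoint (wpdSetup A q M hq hA hqM hg) P Pt (wpdT M t0 D.mem) :=
  exists_discPoint (wpd_exT_mem_discRing A q M hq hA hqM hg hP D) (D.unif _)

/-- **the `DiscPoint` at every non-cuspidal place**, from EX_t. -/
theorem wpd_exists_discPoint (hT : ExTStatement q M)
    (P : Place (IsLocalRing.ResidueField A)
      (modularFunctionFieldFullC (IsLocalRing.ResidueField A) M))
    (hP : 0 ≤ P.ord (Fermat.Agent.RRMod.jC (IsLocalRing.ResidueField A) M)) :
    ∃ (t0 : LaurentSeries ℚ) (h : t0 ∈ modularFunctionFieldFull M)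
      (Pt : Place Qb (modularFunctionFieldBar M)),
      ExTDatum A q M hq hA hqM P t0 ∧
        DiscPoint (wpdSetup A q M hq hA hqM hg) P Pt (wpdT M t0 h) := by
  obtain ⟨t0, D⟩ := hT A hq hA hqM hg P hP
  obtain ⟨Pt, hPt⟩ := wpd_discPoint_of_exT A q M hq hA hqM hg hP D
  exact ⟨t0, D.mem, Pt, D, hPt⟩

end Setup

/-! ### the constants -/

section Const

variable {A : ValuationSubring Qb}

/-- a valuation ring is closed under roots. -/
theorem wpd_mem_of_pow_mem {x : Qb} {n : ℕ} (hn : n ≠ 0) (h : x ^ n ∈ A) : x ∈ A := by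
  by_contra hx
  have hinv : x⁻¹ ∈ A := (A.mem_or_inv_mem x).resolve_left hx
  have hx0 : x ≠ 0 := fun h0 => hx (h0 ▸ A.zero_mem)
  -- `x = x ^ n * (x⁻¹) ^ (n - 1)`
  have h1 : x = x ^ n * x⁻¹ ^ (n - 1) := by
    obtain ⟨m, rfl⟩ := Nat.exists_eq_succ_of_ne_zero hn
    rw [Nat.succ_sub_one, pow_succ, inv_pow, mul_assoc, mul_comm x, ← mul_assoc,
      mul_inv_cancel₀ (pow_ne_zero m hx0), one_mul]
  apply hx
  rw [h1]
  exact A.mul_mem _ _ h (pow_mem hinv _)

/-- **the constant `ϖ`**: `ϖ ^ (q + 1) = q`, `ϖ ∈ m_A`, `ϖ ≠ 0`. -/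
theorem wpd_exists_pi {q : ℕ} (hq : q.Prime) (hA : A.LiesOverPrime q) :
    ∃ ϖ : Qb, ϖ ^ (q + 1) = (q : Qb) ∧ ϖ ≠ 0 ∧ ϖ ∈ A ∧ ϖ⁻¹ ∉ A := by
  obtain ⟨ϖ, hϖ⟩ := IsAlgClosed.exists_pow_nat_eq (q : Qb) (Nat.succ_pos q)
  have hq0 : (q : Qb) ≠ 0 := Nat.cast_ne_zero.mpr hq.ne_zero
  have hϖ0 : ϖ ≠ 0 := by
    rintro rfl
    rw [zero_pow (Nat.succ_ne_zero q)] at hϖ
    exact hq0 hϖ.symm
  have hqA : (q : Qb) ∈ A := natCast_mem A q
  have hqinv : (q : Qb)⁻¹ ∉ A := by
    have h2 : (q : Qb) ∈ A.nonunits := hA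
    rw [ValuationSubring.mem_nonunits_iff_or] at h2
    exact h2.resolve_left hq0
  refine ⟨ϖ, hϖ, hϖ0, wpd_mem_of_pow_mem (Nat.succ_ne_zero q) (hϖ ▸ hqA), fun hinv => ?_⟩
  apply hqinv
  rw [← hϖ, ← inv_pow]
  exact pow_mem hinv _

/-- the residue of a constant of `m_A` is `0`. -/
theorem wpd_residue_eq_zero {ϖ : Qb} (hϖA : ϖ ∈ A) (hϖ : ϖ = 0 ∨ ϖ⁻¹ ∉ A) :
    IsLocalRing.residue A ⟨ϖ, hϖA⟩ = 0 := by
  rw [IsLocalRing.residue_eq_zero_iff]
  intro hu
  rcases hϖ with h0 | hinv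
  · subst h0
    exact not_isUnit_zero (M₀ := A) hu
  · apply hinv
    obtain ⟨u, hu'⟩ := hu
    have h1 : (ϖ : Qb) * ((u⁻¹ : Aˣ) : A) = 1 := by
      have := congrArg (fun a : A => (a : Qb)) u.mul_inv
      simp only [MulMemClass.coe_mul, OneMemClass.coe_one] at this
      rw [hu'] at this
      exact this
    rw [← eq_inv_of_mul_eq_one_right h1]
    exact ((u⁻¹ : Aˣ) : A).2

/-- **the value group of `A` is archimedean**: the powers of a non-zero constant of `m_A` are
cofinal. -/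
theorem wpd_arch {q : ℕ} (hq : q.Prime) (hA : A.LiesOverPrime q) {ϖ : Qb} (hϖ0 : ϖ ≠ 0)
    (hϖ : ϖ⁻¹ ∉ A) (c : Qb) (hc : c ≠ 0) :
    ∃ N : ℕ, A.valuation (ϖ ^ N) < A.valuation c := by
  have hq0 : (q : Qb) ≠ 0 := Nat.cast_ne_zero.mpr hq.ne_zero
  set v := A.valuation with hv
  have hvq0 : v (q : Qb) ≠ 0 := (Valuation.ne_zero_iff _).2 hq0
  have hvq1 : v (q : Qb) < 1 := (ValuationSubring.mem_nonunits_iff (A := A)).mp hA
  have hvϖ1 : v ϖ < 1 := by
    rw [hv, ← ValuationSubring.mem_nonunits_iff, ValuationSubring.mem_nonunits_iff_or]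
    exact Or.inr hϖ
  have hvϖ0 : v ϖ ≠ 0 := (Valuation.ne_zero_iff _).2 hϖ0
  have hvc0 : v c ≠ 0 := (Valuation.ne_zero_iff _).2 hc
  obtain ⟨b₁, hb₁, a₁, h₁⟩ := Fermat.Agent.EKp.rankOne q hq A hA ϖ hϖ0
  obtain ⟨b₂, hb₂, a₂, h₂⟩ := Fermat.Agent.EKp.rankOne q hq A hA c hc
  -- `a₁ > 0` since `v ϖ < 1`
  have hqpos : 0 < v (q : Qb) := zero_lt_iff.mpr hvq0
  have ha₁ : 0 < a₁ := by
    by_contra hcon
    rw [not_lt] at hcon
    have h3 : 1 ≤ v (q : Qb) ^ a₁ := by
      obtain ⟨n, hn⟩ := Int.exists_eq_neg_ofNat hcon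
      rw [hn, zpow_neg, zpow_natCast]
      rw [one_le_inv₀ (pow_pos hqpos n)]
      exact pow_le_one₀ (le_of_lt hqpos) hvq1.le
    have h4 : v ϖ ^ b₁ < 1 := pow_lt_one₀ zero_le hvϖ1 hb₁.ne'
    rw [← h₁] at h3
    exact absurd h3 (not_le.mpr h4)
  -- choose `N` with `N a₁ b₂ > a₂ b₁`
  obtain ⟨N, hN⟩ : ∃ N : ℕ, a₂ * b₁ < N * (a₁ * b₂) := by
    have hpos : 0 < a₁ * b₂ := mul_pos ha₁ (by exact_mod_cast hb₂)
    refine ⟨(a₂ * b₁).toNat + 1, ?_⟩
    have h5 : a₂ * b₁ ≤ ((a₂ * b₁).toNat : ℤ) := Int.self_le_toNat _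
    have h6 : (((a₂ * b₁).toNat + 1 : ℕ) : ℤ) * 1 ≤ (((a₂ * b₁).toNat + 1 : ℕ) : ℤ) * (a₁ * b₂) :=
      mul_le_mul_of_nonneg_left (by omega) (by positivity)
    push_cast at h6 ⊢
    omega
  refine ⟨N, ?_⟩
  by_contra hcon
  rw [not_lt] at hcon
  -- raise to the power `b₁ b₂`
  have h7 : v c ^ (b₁ * b₂) ≤ v (ϖ ^ N) ^ (b₁ * b₂) := pow_le_pow_left₀ zero_le hcon _
  have h8 : v c ^ (b₁ * b₂) = v (q : Qb) ^ (a₂ * b₁) := by
    rw [mul_comm b₁ b₂, pow_mul, h₂, ← zpow_natCast, ← zpow_mul]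
  have h9 : v (ϖ ^ N) ^ (b₁ * b₂) = v (q : Qb) ^ ((N : ℤ) * (a₁ * b₂)) := by
    rw [map_pow, ← pow_mul, mul_comm N, mul_assoc, pow_mul, h₁, ← zpow_natCast, ← zpow_mul]
    congr 1
    push_cast
    ring
  rw [h8, h9] at h7
  -- `v q < 1`, so the exponents are reversed
  have h10 : v (q : Qb) ^ ((N : ℤ) * (a₁ * b₂)) < v (q : Qb) ^ (a₂ * b₁) :=
    zpow_lt_zpow_right_of_lt_one₀ hqpos hvq1 hN
  exact absurd h7 (not_le.mpr h10)

end Const

/-! ### the circle data and the disc valuation -/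

section Circle

variable (A : ValuationSubring Qb) (q M : ℕ) [NeZero M]
  (hq : q.Prime) (hA : A.LiesOverPrime q) (hqM : ¬ q ∣ M)
  (hg : genusFF Qb (modularFunctionFieldBar M) =
    genusFF (IsLocalRing.ResidueField A)
      (modularFunctionFieldFullC (IsLocalRing.ResidueField A) M))
  {P : Place (IsLocalRing.ResidueField A)
    (modularFunctionFieldFullC (IsLocalRing.ResidueField A) M)}
  {Pt : Place Qb (modularFunctionFieldBar M)} {t : modularFunctionFieldBar M}

/-- `res ϖ = 0` in the modular reduction package, for `ϖ ∈ m_A`. -/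
theorem wpd_res_eq_zero {ϖ : Qb} (hϖA : ϖ ∈ A) (hϖ : ϖ⁻¹ ∉ A) :
    (wpdSetup A q M hq hA hqM hg).res ⟨ϖ, hϖA⟩ = 0 :=
  wpd_residue_eq_zero hϖA (Or.inr hϖ)

/-- **the `CircleData`** of the disc `|t| ≤ |ϖ|` around `Pt`, for every non-zero `ϖ ∈ m_A`. -/
theorem wpd_circleData (D : DiscPoint (wpdSetup A q M hq hA hqM hg) P Pt t) {ϖ : Qb}
    (hϖ0 : ϖ ≠ 0) (hϖA : ϖ ∈ A) (hϖ : ϖ⁻¹ ∉ A) :
    CircleData (wpdSetup A q M hq hA hqM hg).Ov.toSubring
      (discRing (wpdSetup A q M hq hA hqM hg) P)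
      (algebraMap Qb (modularFunctionFieldBar M) ϖ) t
      (discEv (wpdSetup A q M hq hA hqM hg) P (wpd_hFk A M)) :=
  D.circleData (wpd_hFk A M) hϖ0 hϖA (wpd_res_eq_zero A q M hq hA hqM hg hϖA hϖ)

/-- **the disc valuation exists**: a valuation ring `V ⊇ R_P [t / ϖ]` of `F₀` in which `t / ϖ` is
a unit, `g ∈ R_P` is a non-unit iff `(red g)(P) = 0`, and `G (t / ϖ)` is a non-unit iff `G`
reduces to `0` in `k[X]`. -/
theorem wpd_exists_disc (D : DiscPoint (wpdSetup A q M hq hA hqM hg) P Pt t) {ϖ : Qb}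
    (hϖ0 : ϖ ≠ 0) (hϖA : ϖ ∈ A) (hϖ : ϖ⁻¹ ∉ A) :
    ∃ V : ValuationSubring (modularFunctionFieldBar M),
      (∀ b ∈ discRing (wpdSetup A q M hq hA hqM hg) P, b ∈ V) ∧
      t * (algebraMap Qb (modularFunctionFieldBar M) ϖ)⁻¹ ∈ V ∧
      (t * (algebraMap Qb (modularFunctionFieldBar M) ϖ)⁻¹)⁻¹ ∈ V ∧
      (∀ b : discRing (wpdSetup A q M hq hA hqM hg) P,
        (b : modularFunctionFieldBar M) ∈ V.nonunits ↔
          discEv (wpdSetup A q M hq hA hqM hg) P (wpd_hFk A M) b = 0) ∧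
      (∀ G : Polynomial (discRing (wpdSetup A q M hq hA hqM hg) P),
        (CircleData.evalHom (discRing (wpdSetup A q M hq hA hqM hg) P)
            (algebraMap Qb (modularFunctionFieldBar M) ϖ) t G ∈ V.nonunits ↔
          G.map (discEv (wpdSetup A q M hq hA hqM hg) P (wpd_hFk A M)) = 0)) ∧
      (∀ G : Polynomial (discRing (wpdSetup A q M hq hA hqM hg) P),
        G.map (discEv (wpdSetup A q M hq hA hqM hg) P (wpd_hFk A M)) ≠ 0 →
        CircleData.evalHom (discRing (wpdSetup A q M hq hA hqM hg) P)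
            (algebraMap Qb (modularFunctionFieldBar M) ϖ) t G ∈ V ∧
          (CircleData.evalHom (discRing (wpdSetup A q M hq hA hqM hg) P)
            (algebraMap Qb (modularFunctionFieldBar M) ϖ) t G)⁻¹ ∈ V) :=
  D.exists_disc (wpd_hFk A M) hϖ0 hϖA (wpd_res_eq_zero A q M hq hA hqM hg hϖA hϖ)

end Circle

end Fermat.Agent.S36G
end
end MergeWrap_S36_HPVal_DiscMod
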