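import Mathlib
import Fermat.Prelude.Thm_ModularCurve_coeffMap_qExpand
import Fermat.Agent.MUL.Orig.Lib.Kronecker.Formal
import Fermat.Agent.MUL.Lib.BadRed.KroneckerCharpoly
import Fermat.Agent.MUL.S36.Seed.Old

section MergeWrap_S36_HPVal_KCtFormal -- from S36/HPVal/KCtFormal.lean

set_option autoImplicit false
set_option linter.unusedSectionVars false
set_option linter.unusedVariables false
set_option linter.style.haveILetI false

noncomputable section
attribute [local instance 10000] SubalgebraClass.toAlgebra HahnSeries.powerSeriesAlgebra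

namespace Fermat.Agent.S36

open Finset ModularCurve Fermat.Agent.Kronecker

section Newton

variable {S : Type*} [CommRing S]

theorem kct_esymm_zero (s : Multiset S) : s.esymm 0 = 1 := by
  simp [Multiset.esymm]

/-- Newton's identity for a finite family of elements of a commutative ring. -/
theorem kct_newton {ι : Type*} [Fintype ι] (x : ι → S) (k : ℕ) :
    (k : S) * (Finset.univ.val.map x).esymm k =
      (-1) ^ (k + 1) * ∑ a ∈ (antidiagonal k).filter (fun a => a.1 < k),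
        (-1) ^ a.1 * (Finset.univ.val.map x).esymm a.1 * ∑ i, x i ^ a.2 := by
  have h := congrArg (MvPolynomial.aeval (R := ℤ) x) (MvPolynomial.mul_esymm_eq_sum ι ℤ k)
  simp only [map_mul, map_natCast, map_pow, map_neg, map_one, map_sum,
    MvPolynomial.aeval_esymm_eq_multiset_esymm, MvPolynomial.psum, MvPolynomial.aeval_X] at h
  exact h

/-- the elementary symmetric functions of index `0 < i < ℓ` are divisible by `ℓ` when all power
sums are. -/
theorem kct_esymm_mem {ι : Type*} [Fintype ι] (x : ι → S) (ℓ : ℕ)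
    (hunit : ∀ i : ℕ, 0 < i → i < ℓ → IsUnit (i : S))
    (hP : ∀ m : ℕ, 0 < m → ∑ b, x b ^ m ∈ Ideal.span {(ℓ : S)})
    (i : ℕ) (hi0 : 0 < i) (hi : i < ℓ) :
    (Finset.univ.val.map x).esymm i ∈ Ideal.span {(ℓ : S)} := by
  have h := kct_newton x i
  have hmem : (i : S) * (Finset.univ.val.map x).esymm i ∈ Ideal.span {(ℓ : S)} := by
    rw [h]
    refine Ideal.mul_mem_left _ _ (Ideal.sum_mem _ fun a ha => ?_)
    rw [mem_filter, HasAntidiagonal.mem_antidiagonal] at ha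
    exact Ideal.mul_mem_left _ _ (hP a.2 (by omega))
  obtain ⟨u, hu⟩ := hunit i hi0 hi
  have : (Finset.univ.val.map x).esymm i =
      ((u⁻¹ : Sˣ) : S) * ((i : S) * (Finset.univ.val.map x).esymm i) := by
    rw [← mul_assoc, ← hu, Units.inv_mul, one_mul]
  rw [this]
  exact Ideal.mul_mem_left _ _ hmem

/-- **Kronecker, symmetric function form.**  If all power sums of `x₁, …, x_ℓ` (`ℓ` prime) are
divisible by `ℓ`, `p_m = ℓ P_m`, then `∏ (c - x_b) ≡ c ^ ℓ - P_ℓ` modulo `ℓ`. -/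
theorem kct_prod_sub_of_psum {ι : Type*} [Fintype ι] (x : ι → S) (ℓ : ℕ) (hℓ : ℓ.Prime)
    (hcard : Fintype.card ι = ℓ)
    (hunit : ∀ i : ℕ, 0 < i → i < ℓ → IsUnit (i : S))
    (htor : ∀ y : S, (ℓ : S) * y = 0 → y = 0)
    (P : ℕ → S) (hP : ∀ m : ℕ, 0 < m → ∑ b, x b ^ m = (ℓ : S) * P m) (c : S) :
    ∃ E : S, ∏ b, (c - x b) = c ^ ℓ - P ℓ + (ℓ : S) * E := by
  classical
  set s : Multiset S := Finset.univ.val.map x with hs
  have hscard : Multiset.card s = ℓ := by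
    rw [hs, Multiset.card_map]
    exact hcard
  have hPmem : ∀ m : ℕ, 0 < m → ∑ b, x b ^ m ∈ Ideal.span {(ℓ : S)} := fun m hm => by
    rw [hP m hm]
    exact Ideal.mul_mem_right _ _ (Ideal.subset_span rfl)
  have hmid : ∀ i : ℕ, 0 < i → i < ℓ → s.esymm i ∈ Ideal.span {(ℓ : S)} :=
    fun i hi0 hi => kct_esymm_mem x ℓ hunit hPmem i hi0 hi
  -- the top symmetric function
  have htop : ∃ D : S, s.esymm ℓ = (-1) ^ (ℓ + 1) * (P ℓ + (ℓ : S) * D) := by
    have h := kct_newton x ℓ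
    have h0 : ((0 : ℕ), ℓ) ∈ (antidiagonal ℓ).filter (fun a => a.1 < ℓ) := by
      rw [mem_filter, HasAntidiagonal.mem_antidiagonal]
      exact ⟨by simp, hℓ.pos⟩
    rw [← Finset.add_sum_erase _ _ h0] at h
    simp only [pow_zero, kct_esymm_zero, one_mul] at h
    have hrest : ∑ a ∈ ((antidiagonal ℓ).filter (fun a => a.1 < ℓ)).erase ((0 : ℕ), ℓ),
        (-1) ^ a.1 * s.esymm a.1 * ∑ i, x i ^ a.2 ∈ Ideal.span {(ℓ : S) * (ℓ : S)} := by
      refine Ideal.sum_mem _ fun a ha => ?_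
      rw [mem_erase, mem_filter, HasAntidiagonal.mem_antidiagonal] at ha
      have ha1 : 0 < a.1 := by
        rcases Nat.eq_zero_or_pos a.1 with h1 | h1
        · exfalso
          apply ha.1
          have h2 : a.2 = ℓ := by omega
          exact Prod.ext h1 h2
        · exact h1
      have h1 := hmid a.1 ha1 ha.2.2
      have h2 := hPmem a.2 (by omega)
      rw [← Ideal.span_singleton_mul_span_singleton, mul_assoc]
      exact Ideal.mul_mem_left _ _ (Ideal.mul_mem_mul h1 h2)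
    obtain ⟨D, hD⟩ := Ideal.mem_span_singleton'.mp hrest
    refine ⟨D, ?_⟩
    have key : (ℓ : S) * (s.esymm ℓ - (-1) ^ (ℓ + 1) * (P ℓ + (ℓ : S) * D)) = 0 := by
      rw [mul_sub, h, ← hD, hP ℓ hℓ.pos]
      ring
    exact sub_eq_zero.mp (htor _ key)
  obtain ⟨D, hD⟩ := htop
  -- Vieta
  have hprod : ∏ b, (c - x b) =
      ∑ j ∈ Finset.range (ℓ + 1), (-1) ^ j * (s.esymm j * c ^ (ℓ - j)) := by
    have h := congrArg (Polynomial.eval c) (Multiset.prod_X_sub_X_eq_sum_esymm s)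
    rw [hscard, Polynomial.eval_finsetSum] at h
    simp only [Polynomial.eval_mul, Polynomial.eval_pow, Polynomial.eval_neg, Polynomial.eval_one,
      Polynomial.eval_C, Polynomial.eval_X] at h
    rw [← h, hs, Multiset.map_map, Polynomial.eval_multiset_prod, Multiset.map_map]
    simp only [Function.comp_apply, Polynomial.eval_sub, Polynomial.eval_X, Polynomial.eval_C]
    rfl
  obtain ⟨n, rfl⟩ : ∃ n, ℓ = n + 1 := ⟨ℓ - 1, by have := hℓ.pos; omega⟩
  rw [hprod, Finset.sum_range_succ, Finset.sum_range_succ']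
  simp only [pow_zero, kct_esymm_zero, one_mul, Nat.sub_zero, Nat.sub_self, mul_one]
  have hmidsum : ∑ j ∈ Finset.range n,
      (-1) ^ (j + 1) * (s.esymm (j + 1) * c ^ (n + 1 - (j + 1))) ∈
        Ideal.span {((n + 1 : ℕ) : S)} := by
    refine Ideal.sum_mem _ fun j hj => ?_
    rw [Finset.mem_range] at hj
    exact Ideal.mul_mem_left _ _ (Ideal.mul_mem_right _ _ (hmid (j + 1) (by omega) (by omega)))
  obtain ⟨E, hE⟩ := Ideal.mem_span_singleton'.mp hmidsum
  refine ⟨E - D, ?_⟩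
  rw [← hE, hD]
  have hsign : ((-1 : S) ^ (n + 1)) * (-1) ^ (n + 1 + 1) = -1 := by
    rw [← pow_add]
    have : n + 1 + (n + 1 + 1) = 2 * (n + 1) + 1 := by ring
    rw [this, pow_succ, pow_mul]
    simp
  linear_combination (P (n + 1) + ((n + 1 : ℕ) : S) * D) * hsign

end Newton

section Series

variable {A : Type*} [CommRing A]

theorem kct_natCast_eq (ℓ : ℕ) : ((ℓ : ℕ) : LaurentSeries A) = HahnSeries.C (ℓ : A) :=
  (map_natCast (HahnSeries.C : A →+* LaurentSeries A) ℓ).symm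

theorem kct_coeff_natCast_mul (ℓ : ℕ) (G : LaurentSeries A) (n : ℤ) :
    (((ℓ : ℕ) : LaurentSeries A) * G).coeff n = (ℓ : A) * G.coeff n := by
  rw [kct_natCast_eq, HahnSeries.C_mul_eq_smul, HahnSeries.coeff_smul, smul_eq_mul]

/-- a series all of whose coefficients are divisible by `ℓ` is `ℓ` times a series. -/
theorem kct_exists_mul (ℓ : ℕ) (z : LaurentSeries A) (hz : ∀ n, ∃ a : A, z.coeff n = (ℓ : A) * a) :
    ∃ G : LaurentSeries A, z = ((ℓ : ℕ) : LaurentSeries A) * G := by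
  classical
  choose g hg using hz
  have hsupp : (Function.support fun n => if z.coeff n = 0 then (0 : A) else g n) ⊆ z.support := by
    intro n hn
    rw [Function.mem_support] at hn
    rw [HahnSeries.mem_support]
    intro h
    exact hn (if_pos h)
  refine ⟨⟨fun n => if z.coeff n = 0 then 0 else g n, z.isPWO_support.mono hsupp⟩, ?_⟩
  ext n
  rw [kct_coeff_natCast_mul]
  show z.coeff n = (ℓ : A) * (if z.coeff n = 0 then 0 else g n)
  split_ifs with h
  · rw [h, mul_zero]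
  · exact hg n

/-- the projection onto the coefficients of index divisible by `ℓ`. -/
def kctProj (ℓ : ℕ) (f : LaurentSeries A) : LaurentSeries A where
  coeff n := by
    classical
    exact if (ℓ : ℤ) ∣ n then f.coeff n else 0
  isPWO_support' := f.isPWO_support.mono (fun n hn => by
    classical
    rw [Function.mem_support] at hn
    rw [HahnSeries.mem_support]
    intro h
    apply hn
    show (if (ℓ : ℤ) ∣ n then f.coeff n else 0) = 0
    rw [h, ite_self])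

theorem kctProj_coeff_of_dvd (ℓ : ℕ) (f : LaurentSeries A) {n : ℤ} (hn : (ℓ : ℤ) ∣ n) :
    (kctProj ℓ f).coeff n = f.coeff n := by
  classical
  show (if (ℓ : ℤ) ∣ n then f.coeff n else 0) = _
  rw [if_pos hn]

theorem kctProj_coeff_of_not_dvd (ℓ : ℕ) (f : LaurentSeries A) {n : ℤ} (hn : ¬ (ℓ : ℤ) ∣ n) :
    (kctProj ℓ f).coeff n = 0 := by
  classical
  show (if (ℓ : ℤ) ∣ n then f.coeff n else 0) = _
  rw [if_neg hn]

theorem kctProj_add (ℓ : ℕ) (f g : LaurentSeries A) :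
    kctProj ℓ (f + g) = kctProj ℓ f + kctProj ℓ g := by
  ext n
  by_cases hn : (ℓ : ℤ) ∣ n
  · rw [HahnSeries.coeff_add, kctProj_coeff_of_dvd ℓ _ hn, kctProj_coeff_of_dvd ℓ _ hn,
      kctProj_coeff_of_dvd ℓ _ hn, HahnSeries.coeff_add]
  · rw [HahnSeries.coeff_add, kctProj_coeff_of_not_dvd ℓ _ hn, kctProj_coeff_of_not_dvd ℓ _ hn,
      kctProj_coeff_of_not_dvd ℓ _ hn, add_zero]

theorem kctProj_natCast_mul (ℓ : ℕ) (G : LaurentSeries A) :
    kctProj ℓ (((ℓ : ℕ) : LaurentSeries A) * G) = ((ℓ : ℕ) : LaurentSeries A) * kctProj ℓ G := by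
  ext n
  by_cases hn : (ℓ : ℤ) ∣ n
  · rw [kctProj_coeff_of_dvd ℓ _ hn, kct_coeff_natCast_mul, kct_coeff_natCast_mul,
      kctProj_coeff_of_dvd ℓ _ hn]
  · rw [kctProj_coeff_of_not_dvd ℓ _ hn, kct_coeff_natCast_mul,
      kctProj_coeff_of_not_dvd ℓ _ hn, mul_zero]

theorem kctProj_qExpand (ℓ : ℕ) [NeZero ℓ] (f : LaurentSeries A) :
    kctProj ℓ (qExpand A ℓ f) = qExpand A ℓ f := by
  ext n
  by_cases hn : (ℓ : ℤ) ∣ n
  · rw [kctProj_coeff_of_dvd ℓ _ hn]
  · rw [kctProj_coeff_of_not_dvd ℓ _ hn, qExpand_coeff_of_not_dvd ℓ _ hn]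

/-- a series supported on the multiples of `ℓ` is a series in `q ^ ℓ`. -/
theorem kct_exists_qExpand (ℓ : ℕ) [NeZero ℓ] (P : LaurentSeries A)
    (hP : ∀ n : ℤ, ¬ (ℓ : ℤ) ∣ n → P.coeff n = 0) : ∃ W : LaurentSeries A, qExpand A ℓ W = P := by
  have hℓ : (0 : ℤ) < ℓ := by exact_mod_cast Nat.pos_of_ne_zero (NeZero.ne ℓ)
  have hbdd : BddBelow (Function.support fun m : ℤ => P.coeff ((ℓ : ℤ) * m)) := by
    by_cases hP0 : P = 0
    · subst hP0
      refine ⟨0, fun m hm => ?_⟩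
      simp at hm
    · refine ⟨min P.order 0, fun m hm => ?_⟩
      rw [Function.mem_support] at hm
      have h1 : P.order ≤ (ℓ : ℤ) * m := HahnSeries.order_le_of_coeff_ne_zero hm
      by_cases hm0 : 0 ≤ m
      · exact le_trans (min_le_right _ _) hm0
      · rw [not_le] at hm0
        have h2 : (ℓ : ℤ) * m ≤ m := by nlinarith
        exact le_trans (min_le_left _ _) (le_trans h1 h2)
  refine ⟨⟨fun m => P.coeff ((ℓ : ℤ) * m), hbdd.isWF.isPWO⟩, ?_⟩
  ext n
  by_cases hn : (ℓ : ℤ) ∣ n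
  · obtain ⟨m, rfl⟩ := hn
    rw [qExpand_coeff_mul]
  · rw [qExpand_coeff_of_not_dvd ℓ _ hn, hP n hn]

theorem kct_scaleL_single_zero (z : Aˣ) (c : A) :
    scaleL z (HahnSeries.single 0 c : LaurentSeries A) = HahnSeries.single 0 c := by
  ext n
  rw [scaleL_coeff]
  rcases eq_or_ne n 0 with rfl | hn
  · rw [zpow_zero, Units.val_one, one_mul]
  · rw [HahnSeries.coeff_single_of_ne hn, mul_zero]

/-- **power sums of the conjugates**: `∑_{b<ℓ} f(ζ^b q) = ℓ · proj_ℓ f`. -/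
theorem kct_sum_scaleL [IsDomain A] (ℓ : ℕ) [NeZero ℓ] (ζ : Aˣ) (hζ : IsPrimitiveRoot ζ ℓ)
    (f : LaurentSeries A) :
    ∑ b ∈ Finset.range ℓ, scaleL (ζ ^ b) f = ((ℓ : ℕ) : LaurentSeries A) * kctProj ℓ f := by
  ext n
  rw [kct_coeff_natCast_mul]
  have hsum : (∑ b ∈ Finset.range ℓ, scaleL (ζ ^ b) f).coeff n =
      ∑ b ∈ Finset.range ℓ, (scaleL (ζ ^ b) f).coeff n := by
    simp only [← HahnSeries.coeff.addMonoidHom_apply]
    exact map_sum _ _ _
  rw [hsum]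
  simp only [scaleL_coeff]
  rw [← Finset.sum_mul]
  have hpow : ∀ b : ℕ, (((ζ ^ b) ^ n : Aˣ) : A) = (((ζ ^ n : Aˣ) : A)) ^ b := by
    intro b
    rw [← Units.val_pow_eq_pow_val, ← zpow_natCast, ← zpow_natCast, ← zpow_mul, ← zpow_mul,
      mul_comm]
  simp only [hpow]
  by_cases hn : (ℓ : ℤ) ∣ n
  · rw [kctProj_coeff_of_dvd ℓ _ hn]
    have h1 : (ζ ^ n : Aˣ) = 1 := (hζ.zpow_eq_one_iff_dvd n).mpr hn
    rw [h1, Units.val_one]
    simp
  · rw [kctProj_coeff_of_not_dvd ℓ _ hn, mul_zero]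
    have h1 : (ζ ^ n : Aˣ) ≠ 1 := fun h => hn ((hζ.zpow_eq_one_iff_dvd n).mp h)
    have h2 : (((ζ ^ n : Aˣ) : A)) ≠ 1 := fun h => h1 (Units.ext (by rw [h, Units.val_one]))
    have h3 : (((ζ ^ n : Aˣ) : A)) ^ ℓ = 1 := by
      rw [← Units.val_pow_eq_pow_val, ← zpow_natCast, ← zpow_mul, mul_comm, zpow_mul,
        zpow_natCast, hζ.pow_eq_one, one_zpow, Units.val_one]
    have h4 := mul_geom_sum (((ζ ^ n : Aˣ) : A)) ℓ
    rw [h3, sub_self] at h4
    rcases mul_eq_zero.mp h4 with h5 | h5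
    · exact absurd (sub_eq_zero.mp h5) h2
    · rw [h5, zero_mul]

/-- **Frobenius congruence**: `t ^ ℓ = t(q^ℓ) + ℓ G` when the coefficients of `t` are
Frobenius-stable modulo `ℓ`. -/
theorem kct_frobenius (ℓ : ℕ) [NeZero ℓ] [Fact ℓ.Prime] (hnu : (ℓ : A) ∈ nonunits A)
    (t : LaurentSeries A) (ht : ∀ n, ∃ a : A, t.coeff n ^ ℓ - t.coeff n = (ℓ : A) * a) :
    ∃ G : LaurentSeries A, t ^ ℓ = qExpand A ℓ t + ((ℓ : ℕ) : LaurentSeries A) * G := by
  haveI : CharP (A ⧸ (Ideal.span ({(ℓ : A)} : Set A) : Ideal A)) ℓ := CharP.quotient A ℓ hnu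
  set π : A →+* A ⧸ (Ideal.span ({(ℓ : A)} : Set A) : Ideal A) := Ideal.Quotient.mk _ with hπ
  have hfrob : coeffMap (frobenius (A ⧸ (Ideal.span ({(ℓ : A)} : Set A) : Ideal A)) ℓ)
      (coeffMap π t) = coeffMap π t := by
    ext n
    rw [coeffMap_coeff, coeffMap_coeff, frobenius_def, ← map_pow]
    obtain ⟨a, ha⟩ := ht n
    rw [← sub_eq_zero, ← map_sub, ha, hπ]
    exact Ideal.Quotient.eq_zero_iff_mem.mpr (Ideal.mul_mem_right _ _ (Ideal.subset_span rfl))
  have h1 : coeffMap π (t ^ ℓ - qExpand A ℓ t) = 0 := by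
    rw [map_sub, map_pow, pow_char_eq_qExpand_frobenius ℓ, hfrob, coeffMap_qExpand, sub_self]
  obtain ⟨G, hG⟩ := kct_exists_mul ℓ (t ^ ℓ - qExpand A ℓ t) (fun n => by
    have h2 := congrArg (fun z => z.coeff n) h1
    simp only [coeffMap_coeff, HahnSeries.coeff_zero] at h2
    have h3 := Ideal.Quotient.eq_zero_iff_mem.mp h2
    obtain ⟨a, ha⟩ := Ideal.mem_span_singleton'.mp h3
    exact ⟨a, by rw [← ha, mul_comm]⟩)
  exact ⟨G, by rw [← hG]; ring⟩

theorem kct_natCast_mul_eq_zero [IsDomain A] (ℓ : ℕ) (hℓ0 : (ℓ : A) ≠ 0) (y : LaurentSeries A)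
    (hy : ((ℓ : ℕ) : LaurentSeries A) * y = 0) : y = 0 := by
  ext n
  have h := congrArg (fun z => z.coeff n) hy
  simp only [kct_coeff_natCast_mul, HahnSeries.coeff_zero] at h
  rcases mul_eq_zero.mp h with h1 | h1
  · exact absurd h1 hℓ0
  · exact h1

/-- **Kronecker congruence modulo `ℓ`, formal form.**  If `W(q^ℓ) = ∏_{b<ℓ} (c - t(ζ^b q))` and the
coefficients of `t` are Frobenius-stable modulo `ℓ`, then
`(c - t(q^ℓ)) · W = (c - t^ℓ)(c^ℓ - t) + ℓ E`. -/
theorem kct_formal [IsDomain A] (ℓ : ℕ) [NeZero ℓ] [Fact ℓ.Prime] (hnu : (ℓ : A) ∈ nonunits A)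
    (hℓ0 : (ℓ : A) ≠ 0) (hunit : ∀ i : ℕ, 0 < i → i < ℓ → IsUnit (i : A))
    (ζ : Aˣ) (hζ : IsPrimitiveRoot ζ ℓ)
    (t : LaurentSeries A) (ht : ∀ n, ∃ a : A, t.coeff n ^ ℓ - t.coeff n = (ℓ : A) * a)
    (c : A) (W : LaurentSeries A)
    (hW : qExpand A ℓ W =
      ∏ b ∈ Finset.range ℓ, scaleL (ζ ^ b) ((HahnSeries.single 0 c : LaurentSeries A) - t)) :
    ∃ E : LaurentSeries A,
      qExpand A ℓ ((HahnSeries.single 0 c : LaurentSeries A) - t) * W =
        ((HahnSeries.single 0 c : LaurentSeries A) - t ^ ℓ) *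
          ((HahnSeries.single 0 (c ^ ℓ) : LaurentSeries A) - t) +
        ((ℓ : ℕ) : LaurentSeries A) * E := by
  classical
  have hℓp : ℓ.Prime := Fact.out
  set cc : LaurentSeries A := HahnSeries.single 0 c with hcc
  have hccpow : cc ^ ℓ = (HahnSeries.single 0 (c ^ ℓ) : LaurentSeries A) := by
    rw [hcc, ← HahnSeries.C_apply, ← HahnSeries.C_apply, map_pow]
  -- the product as a product over `Fin ℓ`
  have hprod : ∏ b ∈ Finset.range ℓ, scaleL (ζ ^ b) (cc - t) =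
      ∏ b : Fin ℓ, (cc - scaleL (ζ ^ (b : ℕ)) t) := by
    rw [Finset.prod_range]
    refine Finset.prod_congr rfl fun b _ => ?_
    rw [map_sub, hcc, kct_scaleL_single_zero]
  have hpsum : ∀ m : ℕ, 0 < m → ∑ b : Fin ℓ, (scaleL (ζ ^ (b : ℕ)) t) ^ m =
      ((ℓ : ℕ) : LaurentSeries A) * kctProj ℓ (t ^ m) := by
    intro m _
    rw [← kct_sum_scaleL ℓ ζ hζ (t ^ m), Finset.sum_range]
    refine Finset.sum_congr rfl fun b _ => ?_
    rw [map_pow]
  have hunitS : ∀ i : ℕ, 0 < i → i < ℓ → IsUnit ((i : ℕ) : LaurentSeries A) := by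
    intro i hi0 hi
    rw [kct_natCast_eq]
    exact (hunit i hi0 hi).map (HahnSeries.C : A →+* LaurentSeries A)
  obtain ⟨E1, hE1⟩ := kct_prod_sub_of_psum (fun b : Fin ℓ => scaleL (ζ ^ (b : ℕ)) t) ℓ hℓp
    (Fintype.card_fin ℓ) hunitS (kct_natCast_mul_eq_zero ℓ hℓ0)
    (fun m => kctProj ℓ (t ^ m)) hpsum cc
  obtain ⟨G, hG⟩ := kct_frobenius ℓ hnu t ht
  have hproj : kctProj ℓ (t ^ ℓ) = qExpand A ℓ t + ((ℓ : ℕ) : LaurentSeries A) * kctProj ℓ G := by
    rw [hG, kctProj_add, kctProj_qExpand, kctProj_natCast_mul]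
  -- the remainder is a series in `q ^ ℓ`
  have hrem : ((ℓ : ℕ) : LaurentSeries A) * (E1 - kctProj ℓ G) =
      qExpand A ℓ (W - (HahnSeries.single 0 (c ^ ℓ) : LaurentSeries A) + t) := by
    have hq : qExpand A ℓ (HahnSeries.single 0 (c ^ ℓ) : LaurentSeries A) =
        (HahnSeries.single 0 (c ^ ℓ) : LaurentSeries A) := by
      rw [qExpand_single, mul_zero]
    rw [map_add, map_sub, hW, hprod, hE1, hproj, hccpow, hq]
    ring
  have hzero : ∀ n : ℤ, ¬ (ℓ : ℤ) ∣ n → (E1 - kctProj ℓ G).coeff n = 0 := by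
    intro n hn
    have h := congrArg (fun z => z.coeff n) hrem
    simp only [kct_coeff_natCast_mul] at h
    rw [qExpand_coeff_of_not_dvd ℓ _ hn] at h
    rcases mul_eq_zero.mp h with h1 | h1
    · exact absurd h1 hℓ0
    · exact h1
  obtain ⟨E2, hE2⟩ := kct_exists_qExpand ℓ (E1 - kctProj ℓ G) hzero
  have hWeq : W = (HahnSeries.single 0 (c ^ ℓ) : LaurentSeries A) - t +
      ((ℓ : ℕ) : LaurentSeries A) * E2 := by
    apply qExpand_injective (R := A) ℓ
    have h1 : qExpand A ℓ W = qExpand A ℓ (W - (HahnSeries.single 0 (c ^ ℓ) : LaurentSeries A) + t)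
        + qExpand A ℓ ((HahnSeries.single 0 (c ^ ℓ) : LaurentSeries A) - t) := by
      rw [← map_add]
      congr 1
      ring
    rw [h1, ← hrem, ← hE2, map_add (qExpand A ℓ) _ (_ * _), map_mul, map_natCast]
    ring
  refine ⟨G * ((HahnSeries.single 0 (c ^ ℓ) : LaurentSeries A) - t +
      ((ℓ : ℕ) : LaurentSeries A) * E2) + (cc - t ^ ℓ) * E2, ?_⟩
  have hq1 : qExpand A ℓ (cc - t) = cc - qExpand A ℓ t := by
    rw [map_sub, hcc, qExpand_single, mul_zero]
  rw [hq1, hWeq]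
  linear_combination ((HahnSeries.single 0 (c ^ ℓ) : LaurentSeries A) - t +
      ((ℓ : ℕ) : LaurentSeries A) * E2) * hG

end Series

end Fermat.Agent.S36
end
end MergeWrap_S36_HPVal_KCtFormal

section MergeWrap_S36_HPVal_KCt -- from S36/HPVal/KCt.lean

set_option autoImplicit false
set_option linter.style.haveILetI false
set_option linter.unusedSectionVars false
set_option linter.unusedVariables false

noncomputable section
attribute [local instance 10000] SubalgebraClass.toAlgebra HahnSeries.powerSeriesAlgebra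

namespace Fermat.Agent.S36

open ModularCurve AlgebraicCurve Fermat.Agent.GaussInt Polynomial Fermat.Agent.Kronecker
  Fermat.Agent.F3G Fermat.Agent.S24 Fermat.Agent.BadRed

variable (N ℓ : ℕ) [NeZero N] [NeZero ℓ]

/-- Frobenius-stable coefficients modulo `ℓ`. -/
def KctFrobStable (A : ValuationSubring Qb) (z : LaurentSeries A) : Prop :=
  ∀ n, ∃ a : A, z.coeff n ^ ℓ - z.coeff n = (ℓ : A) * a

section Values

variable (A : ValuationSubring Qb)

theorem kct_natCast_unit (hℓ : ℓ.Prime) (hA : A.LiesOverPrime ℓ) (i : ℕ) (hi0 : 0 < i)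
    (hi : i < ℓ) : IsUnit (i : A) := by
  haveI : CharP (IsLocalRing.ResidueField A) ℓ := charP_residueField_of_liesOverPrime A ℓ hℓ hA
  by_contra hnu
  have h1 : IsLocalRing.residue A (i : A) = 0 :=
    (IsLocalRing.residue_eq_zero_iff _).mpr ((IsLocalRing.mem_maximalIdeal _).mpr hnu)
  rw [map_natCast, CharP.cast_eq_zero_iff (IsLocalRing.ResidueField A) ℓ] at h1
  exact absurd (Nat.le_of_dvd hi0 h1) (not_le.mpr hi)

theorem kct_natCast_nonunit (hA : A.LiesOverPrime ℓ) : (ℓ : A) ∈ nonunits A := by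
  have h1 : ((ℓ : A) : Qb) ∈ A.nonunits := by
    have : ((ℓ : A) : Qb) = (ℓ : Qb) := by simp
    rw [this]
    exact hA
  exact ValuationSubring.coe_mem_nonunits_iff.mp h1

theorem kct_natCast_ne_zero : (ℓ : A) ≠ 0 := by
  intro h
  have h1 : ((ℓ : A) : Qb) = 0 := by rw [h]; rfl
  have h2 : (ℓ : Qb) = 0 := by simpa using h1
  exact NeZero.ne ℓ (by exact_mod_cast h2)

theorem kct_natCast_ne_zero_L : ((ℓ : ℕ) : LaurentSeries Qb) ≠ 0 := by
  rw [← map_natCast (algebraMap Qb (LaurentSeries Qb))]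
  intro h
  have h2 : ((ℓ : ℕ) : Qb) = 0 := (algebraMap Qb (LaurentSeries Qb)).injective (by rw [h, map_zero])
  exact NeZero.ne ℓ (by exact_mod_cast h2)

/-- the series `c - t` -/
theorem kct_emb_sub_mem (z : LaurentSeries A) (hz : emb A z ∈ modularFunctionFieldBar N) (c : A) :
    emb A (constA A c - z) ∈ modularFunctionFieldBar N := by
  rw [map_sub, emb_constA]
  exact sub_mem ((modularFunctionFieldBar N).algebraMap_mem _) hz

theorem kct_sub_eq (z : LaurentSeries A) (hz : emb A z ∈ modularFunctionFieldBar N) (c : A) :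
    (⟨emb A (constA A c - z), kct_emb_sub_mem N A z hz c⟩ : ↥(modularFunctionFieldBar N)) =
      algebraMap Qb ↥(modularFunctionFieldBar N) (c : Qb) - ⟨emb A z, hz⟩ := by
  apply Subtype.ext
  show emb A (constA A c - z) = _
  rw [map_sub, emb_constA]
  rfl

/-- **values of the charpoly at constants, modulo `ℓ`**:
`Norm(β (c - t)) = (c - t^ℓ)(c^ℓ - t) + ℓ E` with `E` integral. -/
theorem kct_heckeFun_const_sub (hℓ : ℓ.Prime) (hℓN : ¬ ℓ ∣ N) (hA : A.LiesOverPrime ℓ)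
    (z : LaurentSeries A) (hz : emb A z ∈ modularFunctionFieldBar N)
    (hfrob : KctFrobStable ℓ A z) (c : A) :
    ∃ E : LaurentSeries A,
      ((heckeFun Qb N ℓ (algebraMap Qb ↥(modularFunctionFieldBar N) (c : Qb) - ⟨emb A z, hz⟩) :
        ↥(modularFunctionFieldBar N)) : LaurentSeries Qb) =
      emb A ((constA A c - z ^ ℓ) * (constA A (c ^ ℓ) - z) + ((ℓ : ℕ) : LaurentSeries A) * E) := by
  have : Fact ℓ.Prime := ⟨hℓ⟩
  obtain ⟨ζ, hζ, hform⟩ := normProductFormula N ℓ hℓ hℓN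
  have hℓpos : 0 < ℓ := hℓ.pos
  have hζpow : ((ζ : Qbˣ) : Qb) ^ ℓ = 1 := by
    rw [← Units.val_pow_eq_pow_val, hζ.pow_eq_one, Units.val_one]
  have hζinv : ((ζ⁻¹ : Qbˣ) : Qb) ^ ℓ = 1 := by
    rw [← Units.val_pow_eq_pow_val, inv_pow, hζ.pow_eq_one, inv_one, Units.val_one]
  have hmem : (ζ : Qb) ∈ A := mem_valuationSubring_of_pow_eq_one A hℓpos hζpow
  have hmem' : ((ζ⁻¹ : Qbˣ) : Qb) ∈ A := mem_valuationSubring_of_pow_eq_one A hℓpos hζinv
  let ζA : (↥A)ˣ := ⟨⟨ζ, hmem⟩, ⟨((ζ⁻¹ : Qbˣ) : Qb), hmem'⟩,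
    Subtype.ext (by simp), Subtype.ext (by simp)⟩
  have hmap : Units.map (A.subtype : ↥A →* Qb) ζA = ζ := Units.ext rfl
  have hinj : Function.Injective (Units.map (A.subtype : ↥A →* Qb)) :=
    Units.map_injective Subtype.val_injective
  have hζA : IsPrimitiveRoot ζA ℓ :=
    IsPrimitiveRoot.of_map_of_injective (f := Units.map (A.subtype : ↥A →* Qb))
      (by rw [hmap]; exact hζ) hinj
  set y : LaurentSeries A := constA A c - z with hy
  have hymem : emb A y ∈ modularFunctionFieldBar N := kct_emb_sub_mem N A z hz c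
  obtain ⟨W, hW⟩ := exists_qExpand_eq_of_scaleL_eq ℓ ζA hζA
    (∏ b ∈ Finset.range ℓ, scaleL (ζA ^ b) y) (scaleL_prod_scaleL ℓ ζA hζA.pow_eq_one y)
  have hemb : emb A (qExpand ↥A ℓ y * W) =
      ((heckeFun Qb N ℓ ⟨emb A y, hymem⟩ : ↥(modularFunctionFieldBar N)) : LaurentSeries Qb) := by
    apply qExpand_injective (R := Qb) ℓ
    rw [hform ⟨emb A y, hymem⟩, map_mul, map_mul, ← coeffMap_qExpand, ← coeffMap_qExpand,
      ← coeffMap_qExpand, qExpand_qExpand, hW, map_prod]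
    congr 1
    refine Finset.prod_congr rfl fun b _ => ?_
    rw [coeffMap_scaleL, map_pow]
    show scaleL (Units.map (A.subtype : ↥A →* Qb) ζA ^ b) _ = _
    rw [hmap]
  obtain ⟨E, hE⟩ := kct_formal (A := ↥A) ℓ (kct_natCast_nonunit ℓ A hA) (kct_natCast_ne_zero ℓ A)
    (kct_natCast_unit ℓ A hℓ hA) ζA hζA z hfrob c W hW
  refine ⟨E, ?_⟩
  rw [← kct_sub_eq N A z hz c, ← hemb]
  congr 1

end Values

section KC

variable {ℓ}

/-- the main term `(X - t^ℓ)(X^ℓ - t)`. -/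
def kctMain (t : ↥(modularFunctionFieldBar N)) : Polynomial ↥(modularFunctionFieldBar N) :=
  (X - Polynomial.C (t ^ ℓ)) * (X ^ ℓ - Polynomial.C t)

theorem kctMain_monic (t : ↥(modularFunctionFieldBar N)) : (kctMain (ℓ := ℓ) N t).Monic :=
  (Polynomial.monic_X_sub_C _).mul (Polynomial.monic_X_pow_sub_C _ (NeZero.ne ℓ))

theorem kctMain_natDegree (t : ↥(modularFunctionFieldBar N)) :
    (kctMain (ℓ := ℓ) N t).natDegree = ℓ + 1 := by
  rw [kctMain, ((Polynomial.monic_X_sub_C _).natDegree_mul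
    (Polynomial.monic_X_pow_sub_C _ (NeZero.ne ℓ))), Polynomial.natDegree_X_sub_C,
    Polynomial.natDegree_X_pow_sub_C, add_comm]

theorem kct_finiteAlong (hℓ : ℓ.Prime) (hℓN : ¬ ℓ ∣ N) :
    FiniteAlong Qb (heckeAlphaBar Qb N ℓ) :=
  (finrank_heckeAlphaBar N ℓ hℓ hℓN).1

/-- the characteristic polynomial `Ψ_t` of `β t = t(q^ℓ)` over `F_N` (along `α`). -/
def kctPsi (hℓ : ℓ.Prime) (hℓN : ¬ ℓ ∣ N) (t : ↥(modularFunctionFieldBar N)) :
    Polynomial ↥(modularFunctionFieldBar N) :=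
  charpolyAlong (heckeAlphaBar Qb N ℓ) (kct_finiteAlong N hℓ hℓN) (heckeBetaBar Qb N ℓ t)

/-- the remainder `R_t = (Ψ_t - (X - t^ℓ)(X^ℓ - t)) / ℓ`. -/
def kctR (hℓ : ℓ.Prime) (hℓN : ¬ ℓ ∣ N) (t : ↥(modularFunctionFieldBar N)) :
    Polynomial ↥(modularFunctionFieldBar N) :=
  Polynomial.C (((ℓ : ℕ) : ↥(modularFunctionFieldBar N))⁻¹) *
    (kctPsi N hℓ hℓN t - kctMain (ℓ := ℓ) N t)

theorem kctPsi_monic (hℓ : ℓ.Prime) (hℓN : ¬ ℓ ∣ N) (t : ↥(modularFunctionFieldBar N)) :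
    (kctPsi N hℓ hℓN t).Monic := charpolyAlong_monic _ _ _

theorem kctPsi_natDegree (hℓ : ℓ.Prime) (hℓN : ¬ ℓ ∣ N) (t : ↥(modularFunctionFieldBar N)) :
    (kctPsi N hℓ hℓN t).natDegree = ℓ + 1 := by
  rw [kctPsi, charpolyAlong_natDegree]
  exact (finrank_heckeAlphaBar N ℓ hℓ hℓN).2

/-- `β t` is a root of `Ψ_t` (coefficients through `α`). -/
theorem kctPsi_root (hℓ : ℓ.Prime) (hℓN : ¬ ℓ ∣ N) (t : ↥(modularFunctionFieldBar N)) :
    Polynomial.eval₂ ((heckeAlphaBar (AlgebraicClosure ℚ) N ℓ : ↥(modularFunctionFieldBar N) →+*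
        ↥(modularFunctionFieldBar (N * ℓ))))
      (heckeBetaBar (AlgebraicClosure ℚ) N ℓ t) (kctPsi N hℓ hℓN t) = 0 :=
  aeval_charpolyAlong (heckeAlphaBar Qb N ℓ) _ _

theorem kct_natCast_ne_zero_F : ((ℓ : ℕ) : ↥(modularFunctionFieldBar N)) ≠ 0 := by
  exact_mod_cast (NeZero.ne ℓ)

/-- `Ψ_t = (X - t^ℓ)(X^ℓ - t) + ℓ R_t`. -/
theorem kctPsi_eq (hℓ : ℓ.Prime) (hℓN : ¬ ℓ ∣ N) (t : ↥(modularFunctionFieldBar N)) :
    kctPsi N hℓ hℓN t = kctMain (ℓ := ℓ) N t +
      Polynomial.C ((ℓ : ℕ) : ↥(modularFunctionFieldBar N)) * kctR N hℓ hℓN t := by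
  rw [kctR, ← mul_assoc, ← Polynomial.C_mul, mul_inv_cancel₀ (kct_natCast_ne_zero_F N), Polynomial.C_1,
    one_mul]
  ring

theorem kctR_natDegree_le (hℓ : ℓ.Prime) (hℓN : ¬ ℓ ∣ N) (t : ↥(modularFunctionFieldBar N)) :
    (kctR N hℓ hℓN t).natDegree ≤ ℓ := by
  have hCm := kctPsi_monic N hℓ hℓN t
  have hCd := kctPsi_natDegree N hℓ hℓN t
  have hDdeg : (kctPsi N hℓ hℓN t - kctMain (ℓ := ℓ) N t).natDegree ≤ ℓ := by
    have h1 : (kctPsi N hℓ hℓN t - kctMain (ℓ := ℓ) N t).degree < (kctPsi N hℓ hℓN t).degree := by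
      apply Polynomial.degree_sub_lt_left
      · rw [Polynomial.degree_eq_natDegree hCm.ne_zero,
          Polynomial.degree_eq_natDegree (kctMain_monic N t).ne_zero, hCd, kctMain_natDegree]
      · exact hCm.ne_zero
      · rw [hCm.leadingCoeff, (kctMain_monic N t).leadingCoeff]
    rw [Polynomial.degree_eq_natDegree hCm.ne_zero, hCd] at h1
    by_cases h0 : kctPsi N hℓ hℓN t - kctMain (ℓ := ℓ) N t = 0
    · rw [h0, Polynomial.natDegree_zero]; exact Nat.zero_le _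
    · rw [Polynomial.degree_eq_natDegree h0] at h1
      have h2 : (kctPsi N hℓ hℓN t - kctMain (ℓ := ℓ) N t).natDegree < ℓ + 1 := by
        exact_mod_cast h1
      omega
  rw [kctR]
  exact le_trans (Polynomial.natDegree_C_mul_le _ _) hDdeg

/-- the values of `R_t` at constants `c ∈ A` are integral series in `F_N`. -/
theorem kctR_eval_const (hℓ : ℓ.Prime) (A : ValuationSubring Qb) (hA : A.LiesOverPrime ℓ)
    (hℓN : ¬ ℓ ∣ N) (z : LaurentSeries A)
    (hz : emb A z ∈ modularFunctionFieldBar N) (hfrob : KctFrobStable ℓ A z) (c : A) :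
    ∃ E : LaurentSeries A,
      (((kctR N hℓ hℓN ⟨emb A z, hz⟩).eval
        (algebraMap Qb ↥(modularFunctionFieldBar N) (c : Qb)) : ↥(modularFunctionFieldBar N)) :
          LaurentSeries Qb) = emb A E := by
  set t : ↥(modularFunctionFieldBar N) := ⟨emb A z, hz⟩ with ht
  obtain ⟨E, hE⟩ := kct_heckeFun_const_sub N ℓ A hℓ hℓN hA z hz hfrob c
  refine ⟨E, ?_⟩
  set cF := algebraMap Qb ↥(modularFunctionFieldBar N) (c : Qb) with hcF
  have hCev : (kctPsi N hℓ hℓN t).eval cF = heckeFun Qb N ℓ (cF - t) := by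
    rw [kctPsi, eval_charpolyAlong_const]
    rfl
  have hP₀ev : (((kctMain (ℓ := ℓ) N t).eval cF : ↥(modularFunctionFieldBar N)) :
      LaurentSeries Qb) = emb A ((constA A c - z ^ ℓ) * (constA A (c ^ ℓ) - z)) := by
    rw [kctMain, Polynomial.eval_mul, Polynomial.eval_sub, Polynomial.eval_sub,
      Polynomial.eval_X, Polynomial.eval_pow, Polynomial.eval_X, Polynomial.eval_C,
      Polynomial.eval_C, map_mul, map_sub, map_sub, map_pow, emb_constA, emb_constA]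
    have hpow : algebraMap Qb (LaurentSeries Qb) ((c ^ ℓ : A) : Qb) =
        (algebraMap Qb (LaurentSeries Qb) ((c : A) : Qb)) ^ ℓ := by
      rw [← map_pow]; rfl
    rw [hpow]
    rfl
  have hℓL : ((ℓ : ℕ) : LaurentSeries Qb) ≠ 0 := kct_natCast_ne_zero_L ℓ
  have h2 : (((kctR N hℓ hℓN t).eval cF : ↥(modularFunctionFieldBar N)) : LaurentSeries Qb) =
      (((ℓ : ℕ) : LaurentSeries Qb))⁻¹ *
      ((((kctPsi N hℓ hℓN t).eval cF : ↥(modularFunctionFieldBar N)) : LaurentSeries Qb) -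
        (((kctMain (ℓ := ℓ) N t).eval cF : ↥(modularFunctionFieldBar N)) : LaurentSeries Qb)) := by
    rw [kctR, Polynomial.eval_mul, Polynomial.eval_C, Polynomial.eval_sub]
    rfl
  rw [h2, hCev, hE, hP₀ev, map_add, add_sub_cancel_left, map_mul, map_natCast,
    ← mul_assoc, inv_mul_cancel₀ hℓL, one_mul]

set_option maxHeartbeats 1000000 in
set_option synthInstance.maxHeartbeats 400000 in
/-- **(KC_t)**: the coefficients of `R_t` lie in the Gauss ring. -/
theorem kctR_coeff_mem (hℓ : ℓ.Prime) (A : ValuationSubring Qb) (hA : A.LiesOverPrime ℓ)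
    (hℓN : ¬ ℓ ∣ N) (z : LaurentSeries A)
    (hz : emb A z ∈ modularFunctionFieldBar N) (hfrob : KctFrobStable ℓ A z) (i : ℕ) :
    (kctR N hℓ hℓN ⟨emb A z, hz⟩).coeff i ∈ gaussOv N hℓ A hA := by
  classical
  set t : ↥(modularFunctionFieldBar N) := ⟨emb A z, hz⟩ with ht
  set R := kctR N hℓ hℓN t with hR
  have hRdeg : R.natDegree ≤ ℓ := kctR_natDegree_le N hℓ hℓN t
  -- the nodes
  obtain ⟨a, ha⟩ := exists_nodes A (ℓ + 1)
  set O := gaussOvS N hℓ A hA with hO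
  let c : Fin (ℓ + 1) → ↥(modularFunctionFieldBar N) :=
    fun i => algebraMap Qb ↥(modularFunctionFieldBar N) ((a i : A) : Qb)
  have hcO : ∀ i, c i ∈ O := fun i => const_mem_gaussOvS N hℓ A hA (a i)
  have hcinj : Function.Injective c := by
    intro i j hij
    apply ha
    have h1 : ((a i : A) : Qb) = ((a j : A) : Qb) :=
      (algebraMap Qb ↥(modularFunctionFieldBar N)).injective hij
    show IsLocalRing.residue A (a i) = IsLocalRing.residue A (a j)
    rw [Subtype.ext h1]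
  have hunit : ∀ i j, i ≠ j → (c i - c j)⁻¹ ∈ O := by
    intro i j hij
    have hne : IsLocalRing.residue A (a i - a j) ≠ 0 := by
      rw [map_sub, sub_ne_zero]
      exact fun h => hij (ha h)
    have hu : IsUnit (a i - a j) := by
      by_contra hnu
      exact hne ((IsLocalRing.residue_eq_zero_iff _).mpr ((IsLocalRing.mem_maximalIdeal _).mpr hnu))
    obtain ⟨u, hu⟩ := hu
    have h1 : (c i - c j)⁻¹ =
        algebraMap Qb ↥(modularFunctionFieldBar N) (((u⁻¹ : (↥A)ˣ) : A) : Qb) := by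
      rw [← map_sub, ← map_inv₀]
      congr 1
      have h2 : ((u : A) : Qb) * (((u⁻¹ : (↥A)ˣ) : A) : Qb) = 1 := by
        rw [← MulMemClass.coe_mul, Units.mul_inv]; rfl
      have h3 : ((a i : A) : Qb) - ((a j : A) : Qb) = ((u : A) : Qb) := by
        rw [hu]; rfl
      rw [h3]
      exact (eq_inv_of_mul_eq_one_right h2).symm
    rw [h1]
    exact const_mem_gaussOvS N hℓ A hA _
  -- values
  have hval : ∀ i, R.eval (c i) ∈ O := by
    intro i
    obtain ⟨E, hE⟩ := kctR_eval_const N hℓ A hA hℓN z hz hfrob (a i)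
    exact mem_gaussOvS_of_emb N hℓ A hA (z := E) hE.symm
  obtain ⟨P, hP⟩ := exists_lift_of_eval_mem O R ℓ hRdeg c hcinj hcO hunit hval
  rw [← hP, Polynomial.coeff_map]
  exact (P.coeff i).2

/-- **(KC_t)** Kronecker congruence modulo `ℓ` for the characteristic polynomial of `t(q^ℓ)` over
`F_N`, `t` with `A`-integral Frobenius-stable `q`-expansion: the polynomial
`R := (charpoly - (X - t^ℓ)(X^ℓ - t)) / ℓ` has degree `≤ ℓ` and coefficients in the Gauss ring. -/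
theorem kct_charpoly (hℓ : ℓ.Prime) (A : ValuationSubring Qb) (hA : A.LiesOverPrime ℓ)
    (hℓN : ¬ ℓ ∣ N) (z : LaurentSeries A)
    (hz : emb A z ∈ modularFunctionFieldBar N) (hfrob : KctFrobStable ℓ A z) :
    ∃ C R : Polynomial ↥(modularFunctionFieldBar N),
      C.Monic ∧ C.natDegree = ℓ + 1 ∧ R.natDegree ≤ ℓ ∧
      (∀ i, R.coeff i ∈ gaussOv N hℓ A hA) ∧
      C = kctMain (ℓ := ℓ) N ⟨emb A z, hz⟩ +
        Polynomial.C ((ℓ : ℕ) : ↥(modularFunctionFieldBar N)) * R ∧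
      Polynomial.eval₂ ((heckeAlphaBar (AlgebraicClosure ℚ) N ℓ : ↥(modularFunctionFieldBar N) →+*
          ↥(modularFunctionFieldBar (N * ℓ))))
        (heckeBetaBar (AlgebraicClosure ℚ) N ℓ ⟨emb A z, hz⟩) C = 0 :=
  ⟨kctPsi N hℓ hℓN ⟨emb A z, hz⟩, kctR N hℓ hℓN ⟨emb A z, hz⟩, kctPsi_monic N hℓ hℓN _,
    kctPsi_natDegree N hℓ hℓN _, kctR_natDegree_le N hℓ hℓN _,
    kctR_coeff_mem N hℓ A hA hℓN z hz hfrob, kctPsi_eq N hℓ hℓN _, kctPsi_root N hℓ hℓN _⟩

end KC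

end Fermat.Agent.S36
end
end MergeWrap_S36_HPVal_KCt
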