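import Fermat.Agent.MUL.S36.HPVal.DegIota
import Fermat.Agent.MUL.Lib.BadRed.PeuD.RatCoord

section MergeWrap_S36_HPVal_Deg -- from S36/HPVal/Deg.lean

set_option autoImplicit false
set_option linter.style.haveILetI false
set_option linter.unusedSectionVars false

noncomputable section
attribute [local instance 10000] SubalgebraClass.toAlgebra HahnSeries.powerSeriesAlgebra

namespace Fermat.Agent.S36G

open ModularCurve AlgebraicCurve Fermat.Agent.F3 Fermat.Agent.F3G Fermat.Agent.GaussInt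
  Fermat.Agent.AtkinLehner Fermat.Agent.Kronecker Fermat.Agent.BadRed Fermat.Agent.HeckeComm
  Fermat.Agent.S36N

local notation "Qb" => AlgebraicClosure ℚ

set_option synthInstance.maxHeartbeats 400000

/-! ### series with `f(q^n) = f` -/

section Series

variable {R : Type*} [CommRing R]

/-- a Laurent series with `f(q^n) = f`, `n ≥ 2`, has no non-constant term. -/
theorem wpd_coeff_eq_zero_of_qExpand_eq (n : ℕ) [NeZero n] (hn : 2 ≤ n) (f : LaurentSeries R)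
    (h : qExpand R n f = f) {k : ℤ} (hk : k ≠ 0) : f.coeff k = 0 := by
  have hn0 : (0 : ℤ) < n := by exact_mod_cast Nat.pos_of_ne_zero (NeZero.ne n)
  -- strong induction on `|k|`
  induction' hm : k.natAbs using Nat.strong_induction_on with m ih generalizing k
  by_cases hdvd : (n : ℤ) ∣ k
  · obtain ⟨k', rfl⟩ := hdvd
    have hk' : k' ≠ 0 := by
      rintro rfl
      exact hk (mul_zero _)
    have hlt : k'.natAbs < m := by
      rw [← hm, Int.natAbs_mul, Int.natAbs_natCast]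
      have h1 : 0 < k'.natAbs := Int.natAbs_pos.mpr hk'
      nlinarith
    have h2 : f.coeff ((n : ℤ) * k') = f.coeff k' := by
      conv_lhs => rw [← h]
      exact qExpand_coeff_mul n f k'
    rw [h2]
    exact ih _ hlt hk' rfl
  · rw [← h]
    exact qExpand_coeff_of_not_dvd n f hdvd

/-- a Laurent series with `f(q^n) = f`, `n ≥ 2`, is constant. -/
theorem wpd_eq_C_of_qExpand_eq (n : ℕ) [NeZero n] (hn : 2 ≤ n) (f : LaurentSeries R)
    (h : qExpand R n f = f) : f = HahnSeries.C (f.coeff 0) := by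
  ext k
  by_cases hk : k = 0
  · subst hk
    rw [HahnSeries.C_apply, HahnSeries.coeff_single_same]
  · rw [wpd_coeff_eq_zero_of_qExpand_eq n hn f h hk, HahnSeries.C_apply,
      HahnSeries.coeff_single_of_ne hk]

end Series

/-! ### the three embeddings -/

section Iota

variable (M₀ q : ℕ) [NeZero M₀] [NeZero q]

/-- `ι₀ : F_{M₀} → F_{M₀ q²}`, `f ↦ f(z)`, as `α ∘ α`. -/
def wpdIota0 : FBar M₀ →ₐ[Qb] FBar (M₀ * q * q) :=
  (heckeAlphaBar Qb (M₀ * q) q).comp (heckeAlphaBar Qb M₀ q)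

/-- `ι₂ : F_{M₀} → F_{M₀ q²}`, `f ↦ f(q² z)`, as `β ∘ β`. -/
def wpdIota2 : FBar M₀ →ₐ[Qb] FBar (M₀ * q * q) :=
  (heckeBetaBar Qb (M₀ * q) q).comp (heckeBetaBar Qb M₀ q)

theorem coe_wpdIota0 (x : FBar M₀) :
    ((wpdIota0 M₀ q x : FBar (M₀ * q * q)) : LaurentSeries Qb) = (x : LaurentSeries Qb) := by
  rw [wpdIota0, AlgHom.comp_apply, coe_heckeAlphaBar, coe_heckeAlphaBar]

theorem coe_wpdIota2 (x : FBar M₀) :
    ((wpdIota2 M₀ q x : FBar (M₀ * q * q)) : LaurentSeries Qb) =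
      qExpand Qb (q * q) (x : LaurentSeries Qb) := by
  rw [wpdIota2, AlgHom.comp_apply, coe_heckeBetaBar, coe_heckeBetaBar, qExpand_qExpand]

/-- **`ι₀ t ≠ ι₂ t`** for a non-constant `t` (`q ≥ 2`). -/
theorem wpd_iota0_ne_iota2 (hq : 2 ≤ q) (t : FBar M₀)
    (ht : ∀ c : Qb, t ≠ algebraMap Qb (FBar M₀) c) :
    wpdIota0 M₀ q t ≠ wpdIota2 M₀ q t := by
  intro h
  have h1 := congrArg (fun y : FBar (M₀ * q * q) => (y : LaurentSeries Qb)) h
  simp only [coe_wpdIota0, coe_wpdIota2] at h1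
  have hqq : 2 ≤ q * q := by nlinarith
  have h2 := wpd_eq_C_of_qExpand_eq (q * q) hqq (t : LaurentSeries Qb) h1.symm
  generalize (t : LaurentSeries Qb).coeff 0 = c at h2
  apply ht c
  apply Subtype.ext
  rw [h2, HahnSeries.C_apply]
  show _ = algebraMap Qb (LaurentSeries Qb) c
  rw [algebraMap_laurentSeries_eq_single]

end Iota

/-! ### Atkin–Lehner exchanges `α` and `β` -/

section AL

variable {M₀ q : ℕ} [NeZero M₀] [NeZero q]

/-- **`w_q ∘ α = β`** on `F_{M₀}`. -/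
theorem wpd_wAt_alpha (D : ALData) (hQ : D.Q = q) (hR : D.R = M₀) (hM : M₀ * q = D.Q * D.R)
    (x : FBar M₀) :
    wAt D hM (heckeAlphaBar Qb M₀ q x) = heckeBetaBar Qb M₀ q x := by
  let Φ₁ : FBar M₀ →+* FBar (M₀ * q) :=
    ((wAt D hM : FBar (M₀ * q) ≃ₐ[Qb] FBar (M₀ * q)) : FBar (M₀ * q) →+* FBar (M₀ * q)).comp
      (heckeAlphaBar Qb M₀ q).toRingHom
  let Φ₂ : FBar M₀ →+* FBar (M₀ * q) := (heckeBetaBar Qb M₀ q).toRingHom
  have key : Φ₁ = Φ₂ := by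
    apply ringHom_ext_FBar
    · intro c
      show wAt D hM (heckeAlphaBar Qb M₀ q (algebraMap Qb _ c)) =
        heckeBetaBar Qb M₀ q (algebraMap Qb _ c)
      rw [AlgHom.commutes, AlgEquiv.commutes, AlgHom.commutes]
    · intro d hdne hd
      show wAt D hM (heckeAlphaBar Qb M₀ q (jdBar M₀ d hd)) =
        heckeBetaBar Qb M₀ q (jdBar M₀ d hd)
      obtain ⟨f₂, hf₂⟩ := hd
      haveI : NeZero (1 * d) := ⟨by rw [one_mul]; exact NeZero.ne d⟩
      haveI : NeZero (q * d) := ⟨mul_ne_zero (NeZero.ne q) (NeZero.ne d)⟩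
      apply Subtype.ext
      have h := coe_wAt_of_coe_gen D hM 1 q d f₂ (by rw [one_mul, hQ]) (by rw [hR, hf₂])
        (heckeAlphaBar Qb M₀ q (jdBar M₀ d ⟨f₂, hf₂⟩))
        (by rw [coe_heckeAlphaBar, coe_jdBar]; exact qExpand_congr (one_mul d).symm _)
      rw [h, coe_heckeBetaBar, coe_jdBar, qExpand_qExpand]
  exact RingHom.congr_fun key x

/-- **`w_q ∘ β = α`** on `F_{M₀}`. -/
theorem wpd_wAt_beta (D : ALData) (hQ : D.Q = q) (hR : D.R = M₀) (hM : M₀ * q = D.Q * D.R)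
    (x : FBar M₀) :
    wAt D hM (heckeBetaBar Qb M₀ q x) = heckeAlphaBar Qb M₀ q x := by
  rw [← wpd_wAt_alpha D hQ hR hM x, wAt_wAt]

end AL

/-! ### the roots `ι₀ t`, `ι₂ t` of the Kronecker polynomial over `ι₁ F₀` -/

section Roots

variable (M₀ q : ℕ) [NeZero M₀] [NeZero q]

/-- **`ι₂ t` is a root of `Ψ^{ι₁}`**: apply `β : F₁ → F` to `Ψ^α (β t) = 0`. -/
theorem wpd_root_iota2 (Ψ : Polynomial (FBar M₀)) (t : FBar M₀)
    (h : Ψ.eval₂ (heckeAlphaBar Qb M₀ q).toRingHom (heckeBetaBar Qb M₀ q t) = 0) :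
    Ψ.eval₂ (wpdIota1 M₀ q).toRingHom (wpdIota2 M₀ q t) = 0 := by
  have h1 := congrArg (heckeBetaBar Qb (M₀ * q) q).toRingHom h
  rw [Polynomial.hom_eval₂, map_zero] at h1
  rw [wpdIota1_eq_beta_alpha]
  exact h1

/-- **`ι₀ t` is a root of `Ψ^{ι₁}`**: apply `w_q`, then `α : F₁ → F`, to `Ψ^α (β t) = 0`. -/
theorem wpd_root_iota0 (hcop : Nat.Coprime q M₀) (Ψ : Polynomial (FBar M₀)) (t : FBar M₀)
    (h : Ψ.eval₂ (heckeAlphaBar Qb M₀ q).toRingHom (heckeBetaBar Qb M₀ q t) = 0) :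
    Ψ.eval₂ (wpdIota1 M₀ q).toRingHom (wpdIota0 M₀ q t) = 0 := by
  obtain ⟨D, hQ, hR⟩ := ALData.exists_of_coprime (Q := q) (R := M₀)
    (Nat.pos_of_ne_zero (NeZero.ne q)) (Nat.pos_of_ne_zero (NeZero.ne M₀)) hcop
  have hM : M₀ * q = D.Q * D.R := by rw [hQ, hR, mul_comm]
  -- apply `w_q`
  have h1 := congrArg
    ((wAt D hM : FBar (M₀ * q) ≃ₐ[Qb] FBar (M₀ * q)) : FBar (M₀ * q) →+* FBar (M₀ * q)) h
  rw [Polynomial.hom_eval₂, map_zero] at h1
  have e1 : ((wAt D hM : FBar (M₀ * q) ≃ₐ[Qb] FBar (M₀ * q)) :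
      FBar (M₀ * q) →+* FBar (M₀ * q)).comp (heckeAlphaBar Qb M₀ q).toRingHom =
      (heckeBetaBar Qb M₀ q).toRingHom :=
    RingHom.ext fun x => wpd_wAt_alpha D hQ hR hM x
  have e2 : ((wAt D hM : FBar (M₀ * q) ≃ₐ[Qb] FBar (M₀ * q)) :
      FBar (M₀ * q) →+* FBar (M₀ * q)) (heckeBetaBar Qb M₀ q t) = heckeAlphaBar Qb M₀ q t :=
    wpd_wAt_beta D hQ hR hM t
  rw [e1, e2] at h1
  -- apply `α`
  have h2 := congrArg (heckeAlphaBar Qb (M₀ * q) q).toRingHom h1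
  rw [Polynomial.hom_eval₂, map_zero] at h2
  exact h2

/-- the `Polynomial.map` form of `wpd_root_iota2`. -/
theorem wpd_isRoot_iota2 (Ψ : Polynomial (FBar M₀)) (t : FBar M₀)
    (h : (Ψ.map (heckeAlphaBar Qb M₀ q).toRingHom).IsRoot (heckeBetaBar Qb M₀ q t)) :
    (Ψ.map (wpdIota1 M₀ q).toRingHom).IsRoot (wpdIota2 M₀ q t) := by
  rw [Polynomial.IsRoot.def, Polynomial.eval_map] at h ⊢
  exact wpd_root_iota2 M₀ q Ψ t h

/-- the `Polynomial.map` form of `wpd_root_iota0`. -/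
theorem wpd_isRoot_iota0 (hcop : Nat.Coprime q M₀) (Ψ : Polynomial (FBar M₀)) (t : FBar M₀)
    (h : (Ψ.map (heckeAlphaBar Qb M₀ q).toRingHom).IsRoot (heckeBetaBar Qb M₀ q t)) :
    (Ψ.map (wpdIota1 M₀ q).toRingHom).IsRoot (wpdIota0 M₀ q t) := by
  rw [Polynomial.IsRoot.def, Polynomial.eval_map] at h ⊢
  exact wpd_root_iota0 M₀ q hcop Ψ t h

end Roots

end Fermat.Agent.S36G
end
end MergeWrap_S36_HPVal_Deg
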