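import Mathlib
import Fermat.Agent.MUL.S36.HPVal.Defs
import Fermat.Agent.MUL.S36.HPVal.Centres
import Fermat.Agent.MUL.S36.G.ModSS
import Fermat.Agent.MUL.Lib.HP.Gal

section MergeWrap_S36_HPVal_ValFamily -- from S36/HPVal/ValFamily.lean

set_option autoImplicit false
set_option linter.style.haveILetI false
set_option linter.unusedSectionVars false
set_option linter.unusedVariables false
set_option synthInstance.maxHeartbeats 400000

noncomputable section
attribute [local instance 10000] SubalgebraClass.toAlgebra HahnSeries.powerSeriesAlgebra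

namespace Fermat.Agent.S36G

open ModularCurve AlgebraicCurve IntermediateField Fermat.Agent.F3 Fermat.Agent.F3G
  Fermat.Agent.GaussInt Fermat.Agent.Deuring Fermat.Agent.BadRed Fermat.Agent.HPVal
  Fermat.Agent.HP

local notation "Qb" => AlgebraicClosure ℚ

/-- **The family of the outputs of block W-P** over the supersingular points, with ONE
uniformiser `ϖ`, the Teichmüller constant `a = 0` and the centres `P' = Φ • P`. -/
structure WPFamily (M₀ q : ℕ) [NeZero M₀] [NeZero q] (A : ValuationSubring Qb)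
    [Fact q.Prime] [CharP (IsLocalRing.ResidueField A) q]
    [PerfectRing (IsLocalRing.ResidueField A) q]
    (S0 : Fermat.Agent.S18Key.RedSetup Qb (FBar M₀) (IsLocalRing.ResidueField A)
      ↥(modularFunctionFieldFullC (IsLocalRing.ResidueField A) M₀)) (ϖ : Qb) where
  /-- the residue fields `k(H_P)` -/
  FkP : ModSS A M₀ q → Type
  instField : ∀ P, Field (FkP P)
  instAlgebra : ∀ P, Algebra (IsLocalRing.ResidueField A) (FkP P)
  /-- the outputs -/
  O : ∀ P : ModSS A M₀ q, @WPOut M₀ q _ _ A S0 P.place (FkP P) (instField P) (instAlgebra P)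
  ϖ_eq : ∀ P, (O P).ϖ = ϖ
  a_eq : ∀ P, (O P).a = 0
  P'_eq : ∀ P, (O P).P' = frobAut (IsLocalRing.ResidueField A) M₀ q • P.place

attribute [instance] WPFamily.instField WPFamily.instAlgebra

section Choice

variable {M₀ q : ℕ} [NeZero M₀] [NeZero q] {A : ValuationSubring Qb}
  [Fact q.Prime] [CharP (IsLocalRing.ResidueField A) q]
  [PerfectRing (IsLocalRing.ResidueField A) q]
  {S0 : Fermat.Agent.S18Key.RedSetup Qb (FBar M₀) (IsLocalRing.ResidueField A)
    ↥(modularFunctionFieldFullC (IsLocalRing.ResidueField A) M₀)} {ϖ : Qb}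

/-- **the choice step**: from the per-`P` existence statement with exported witnesses to the
family over `ModSS A M₀ q`. -/
theorem wpFamily_nonempty
    (h : ∀ P : Place (IsLocalRing.ResidueField A)
        ↥(modularFunctionFieldFullC (IsLocalRing.ResidueField A) M₀),
      IsSSPlace (IsLocalRing.ResidueField A) M₀ q P →
      ∃ (FkP : Type) (_ : Field FkP) (_ : Algebra (IsLocalRing.ResidueField A) FkP)
        (O : WPOut M₀ q A S0 P FkP),
        O.ϖ = ϖ ∧ O.a = 0 ∧ O.P' = frobAut (IsLocalRing.ResidueField A) M₀ q • P) :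
    Nonempty (WPFamily M₀ q A S0 ϖ) := by
  choose FkP iF iA O hϖ ha hP' using fun P : ModSS A M₀ q => h P.place P.isSS
  exact ⟨{ FkP := FkP, instField := iF, instAlgebra := iA, O := O, ϖ_eq := hϖ, a_eq := ha,
           P'_eq := hP' }⟩

end Choice

namespace WPFamily

variable {M₀ q : ℕ} [NeZero M₀] [NeZero q] {A : ValuationSubring Qb}
  [Fact q.Prime] [CharP (IsLocalRing.ResidueField A) q]
  [PerfectRing (IsLocalRing.ResidueField A) q]
  {S0 : Fermat.Agent.S18Key.RedSetup Qb (FBar M₀) (IsLocalRing.ResidueField A)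
    ↥(modularFunctionFieldFullC (IsLocalRing.ResidueField A) M₀)} {ϖ : Qb}
  (W : WPFamily M₀ q A S0 ϖ)

/-- the constant reductions `w_P` (the argument `SP` of `vtxFamily`). -/
def S (P : ModSS A M₀ q) :
    ValSetup Qb (FBar (M₀ * q * q)) (IsLocalRing.ResidueField A) (W.FkP P) :=
  (W.O P).S

/-- the curves `H_P`. -/
def H (P : ModSS A M₀ q) : HPCurve (IsLocalRing.ResidueField A) (W.FkP P) q :=
  (W.O P).H

/-- the data `t_P`. -/
def t (P : ModSS A M₀ q) : FBar M₀ := (W.O P).t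

theorem A_eq (P : ModSS A M₀ q) : (W.S P).A = A := (W.O P).A_eq

theorem res_eq (P : ModSS A M₀ q) (c : Qb) (h : c ∈ (W.S P).A) (h' : c ∈ A) :
    (W.S P).res ⟨c, h⟩ = IsLocalRing.residue A ⟨c, h'⟩ :=
  (W.O P).res_eq c h h'

theorem lat (P : ModSS A M₀ q) : HasLattice (W.S P) := (W.O P).lat

include W in
/-- `ϖ ^ (q + 1) = q` (the type of the supersingular points is non-empty). -/
theorem ϖ_pow [Nonempty (ModSS A M₀ q)] : ϖ ^ (q + 1) = (q : Qb) := by
  obtain ⟨P⟩ := ‹Nonempty (ModSS A M₀ q)›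
  rw [← W.ϖ_eq P]
  exact (W.O P).ϖ_pow

include W in
/-- the centre of `ι₁` at `P` is supersingular. -/
theorem ss' (P : ModSS A M₀ q) :
    IsSSPlace (IsLocalRing.ResidueField A) M₀ q
      (frobAut (IsLocalRing.ResidueField A) M₀ q • P.place) := by
  rw [← W.P'_eq P]
  exact (W.O P).ss'

/-- `W_P = ι₀ t_P / ϖ` is integral for `w_P`, with reduction `X₁`. -/
theorem red_W (P : ModSS A M₀ q) :
    wpW M₀ q (W.t P) 0 ϖ ∈ (W.S P).Ov ∧ (W.S P).red (wpW M₀ q (W.t P) 0 ϖ) = (W.H P).X1 := by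
  have h1 := (W.O P).W_mem
  have h2 := (W.O P).red_W
  rw [W.ϖ_eq P, W.a_eq P] at h1 h2
  exact ⟨h1, h2⟩

/-- `Z_P = ι₂ t_P / ϖ` is integral for `w_P`, with reduction `X₂`. -/
theorem red_Z (P : ModSS A M₀ q) :
    wpZ M₀ q (W.t P) 0 ϖ ∈ (W.S P).Ov ∧ (W.S P).red (wpZ M₀ q (W.t P) 0 ϖ) = (W.H P).X2 := by
  have h1 := (W.O P).Z_mem
  have h2 := (W.O P).red_Z
  rw [W.ϖ_eq P, W.a_eq P] at h1 h2
  exact ⟨h1, h2⟩

/-- `Y_P = ι₁ t_P / ϖ ^ q` is integral for `w_P`, with reduction `Y`. -/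
theorem red_Y (P : ModSS A M₀ q) :
    wpY M₀ q (W.t P) 0 ϖ ∈ (W.S P).Ov ∧ (W.S P).red (wpY M₀ q (W.t P) 0 ϖ) = (W.H P).Yf := by
  have h1 := (W.O P).Y_mem
  have h2 := (W.O P).red_Y
  rw [W.ϖ_eq P, W.a_eq P] at h1 h2
  exact ⟨h1, h2⟩

/-- **(OLD)** for the family: `ι₀`, `ι₂` at `P`, `ι₁` at `Φ • P`. -/
theorem old0 (P : ModSS A M₀ q) : WPOld S0 P.place (wpIota0 M₀ q) (W.S P) := (W.O P).old0

theorem old2 (P : ModSS A M₀ q) : WPOld S0 P.place (wpIota2 M₀ q) (W.S P) := (W.O P).old2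

theorem old1 (P : ModSS A M₀ q) :
    WPOld S0 (frobAut (IsLocalRing.ResidueField A) M₀ q • P.place) (wpdIota1 M₀ q) (W.S P) := by
  rw [← W.P'_eq P]
  exact (W.O P).old1

end WPFamily

end Fermat.Agent.S36G
end
end MergeWrap_S36_HPVal_ValFamily
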