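import Mathlib
import Fermat.Agent.MUL.S36.HPVal.DiscMod
import Fermat.Agent.MUL.S36.HPVal.Defs
import Fermat.Agent.MUL.S36.Seed.OldSep
import Fermat.Agent.MUL.Lib.BadRed.HPVal.DiscLatAsm
import Fermat.Agent.MUL.S36.HPVal.Centres

section MergeWrap_S36_HPVal_DiscModG -- from S36/HPVal/DiscModG.lean

set_option autoImplicit false
set_option linter.style.haveILetI false
set_option linter.unusedSectionVars false
set_option synthInstance.maxHeartbeats 400000

noncomputable section

namespace Fermat.Agent.S36G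

open ModularCurve AlgebraicCurve Fermat.Agent.Deuring Fermat.Agent.GaussInt Fermat.Agent.FF
  Fermat.Agent.HPVal Fermat.Agent.S18Key Fermat.Agent.RR Fermat.Agent.BadRed

local notation "Qb" => AlgebraicClosure ℚ

attribute [local instance 10000] SubalgebraClass.toAlgebra HahnSeries.powerSeriesAlgebra

/-! ### abstract: poles reduce to poles -/

section Abstract

variable {K F k Fk : Type*} [Field K] [Field F] [Algebra K F] [Field k] [Field Fk] [Algebra k Fk]

/-- **no cancellation** for a reduction package with `push`: if `deg (x)_∞ ≤ deg (x̄)_∞` then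
`r_* (x)_∞ = (x̄)_∞`. -/
theorem wpd_push_poleDiv (S : RedSetup K F k Fk) (hFk : IsRRField k Fk) {x : F} (hx : S.IsU x)
    (hdeg : Divisor.degree (poleDiv S.hF x) ≤ Divisor.degree (poleDiv hFk (S.red x))) :
    redDiv S.r (poleDiv S.hF x) = poleDiv hFk (S.red x) := by
  have hpush : redDiv S.r (divOf S.hF x) = divOf hFk (S.red x) := by
    ext Q
    rw [divOf_apply, redDiv_apply]
    exact push_eq hx Q
  rw [fi_divOf_eq S.hF x, fi_divOf_eq hFk (S.red x), map_sub] at hpush
  have hZ1 : 0 ≤ redDiv S.r (poleDiv S.hF x⁻¹) := redDiv_nonneg S.r (poleDiv_nonneg S.hF _)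
  have hP1 : 0 ≤ redDiv S.r (poleDiv S.hF x) := redDiv_nonneg S.r (poleDiv_nonneg S.hF _)
  have hle : poleDiv hFk (S.red x) ≤ redDiv S.r (poleDiv S.hF x) := by
    rw [Finsupp.le_def]
    intro Q
    have hQ := DFunLike.congr_fun hpush Q
    rw [Finsupp.sub_apply, Finsupp.sub_apply] at hQ
    have h1 := hZ1 Q
    have h2 := hP1 Q
    rw [Finsupp.coe_zero, Pi.zero_apply] at h1 h2
    rw [poleDiv_apply] at hQ ⊢
    rw [poleDiv_apply, Place.ord_inv, neg_neg] at hQ
    rcases le_total (Q.ord (S.red x)) 0 with h0 | h0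
    · rw [max_eq_right h0, max_eq_left (by omega)] at hQ
      rw [max_eq_left (by omega)]
      omega
    · rw [max_eq_right (by omega)]
      exact h2
  refine (eq_of_le_of_degree_eq hFk hle (le_antisymm (degree_mono hFk hle) ?_)).symm
  rw [degree_redDiv_of_isRRField S.hF hFk]
  exact hdeg

/-- **poles reduce to poles** (no cancellation). -/
theorem wpd_push_ord_neg (S : RedSetup K F k Fk) (hFk : IsRRField k Fk) {x : F} (hx : S.IsU x)
    (hdeg : Divisor.degree (poleDiv S.hF x) ≤ Divisor.degree (poleDiv hFk (S.red x)))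
    {v : Place K F} (hv : v.ord x < 0) : (S.r v).ord (S.red x) < 0 := by
  have h1 := wpd_push_poleDiv S hFk hx hdeg
  have h2 : poleDiv S.hF x v ≤ redDiv S.r (poleDiv S.hF x) (S.r v) := by
    rw [redDiv_apply]
    exact le_mapDomain S.r _ (S.r v)
      (fun P' _ => by
        have := Finsupp.le_def.mp (poleDiv_nonneg S.hF x) P'
        simpa using this) v rfl
  rw [h1, poleDiv_apply, poleDiv_apply, max_eq_left (by omega)] at h2
  by_contra hcon
  rw [max_eq_right (by omega)] at h2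
  omega

end Abstract

/-! ### `wpdSetup` is a Gauss reduction package -/

section Inst

variable (A : ValuationSubring Qb) (q M : ℕ) [NeZero M]
  (hq : q.Prime) (hA : A.LiesOverPrime q) (hqM : ¬ q ∣ M)
  (hg : genusFF Qb (modularFunctionFieldBar M) =
    genusFF (IsLocalRing.ResidueField A)
      (modularFunctionFieldFullC (IsLocalRing.ResidueField A) M))

/-- **`wpdSetup` is a Gauss reduction package.** -/
theorem wpd_isGaussRed : IsGaussRed M A (wpdSetup A q M hq hA hqM hg) where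
  A_eq := rfl
  res_eq := fun _ _ _ => rfl
  mem_iff := fun _ => Iff.rfl
  coe_red := fun _ hf => coe_modularValSetup_red A q M hq hA hqM hf

end Inst

/-! ### the disc package for a Gauss reduction package -/

namespace IsGaussRed

variable {A : ValuationSubring Qb} {q M : ℕ} [NeZero M]
  {S0 : RedSetup Qb (modularFunctionFieldBar M) (IsLocalRing.ResidueField A)
    ↥(modularFunctionFieldFullC (IsLocalRing.ResidueField A) M)}

theorem mem_Ov_iff' (hS : IsGaussRed M A S0) (hq : q.Prime) (hA : A.LiesOverPrime q)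
    (hqM : ¬ q ∣ M) (f : modularFunctionFieldBar M) :
    f ∈ S0.Ov ↔ f ∈ (modularValSetup A q M hq hA hqM).Ov :=
  hS.mem_iff f

/-- the residue map of `S0` is the one of `GaussInt.modularValSetup`. -/
theorem red_eq (hS : IsGaussRed M A S0) (hq : q.Prime) (hA : A.LiesOverPrime q)
    (hqM : ¬ q ∣ M) (f : modularFunctionFieldBar M) :
    S0.red f = (modularValSetup A q M hq hA hqM).red f := by
  by_cases hf : f ∈ S0.Ov
  · apply Subtype.ext
    rw [hS.coe_red f hf, coe_modularValSetup_red A q M hq hA hqM ((hS.mem_iff f).mp hf)]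
  · have hf' : f ∉ (modularValSetup A q M hq hA hqM).Ov := fun h =>
      hf ((hS.mem_Ov_iff' hq hA hqM f).mpr h)
    rw [RedSetup.red, dif_neg hf, ValSetup.red, dif_neg hf']

theorem mem_A_iff (hS : IsGaussRed M A S0) (c : Qb) : c ∈ S0.A ↔ c ∈ A := by
  rw [hS.A_eq]

theorem jBar_mem (hS : IsGaussRed M A S0) (hq : q.Prime) (hA : A.LiesOverPrime q)
    (hqM : ¬ q ∣ M) : Fermat.Agent.S24.jBar M ∈ S0.Ov :=
  (hS.mem_Ov_iff' hq hA hqM _).mpr (oldSep_jBar_mem A q M hq hA hqM)

theorem red_jBar (hS : IsGaussRed M A S0) (hq : q.Prime) (hA : A.LiesOverPrime q)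
    (hqM : ¬ q ∣ M) :
    S0.red (Fermat.Agent.S24.jBar M) =
      Fermat.Agent.RRMod.jC (IsLocalRing.ResidueField A) M := by
  rw [hS.red_eq hq hA hqM, oldSep_red_jBar]

/-- **cusps reduce to cusps.** -/
theorem ord_jC_neg (hS : IsGaussRed M A S0) (hq : q.Prime) (hA : A.LiesOverPrime q)
    (hqM : ¬ q ∣ M) {x : Place Qb (modularFunctionFieldBar M)}
    (hx : x.ord (Fermat.Agent.S24.jBar M) < 0) :
    (S0.r x).ord (Fermat.Agent.RRMod.jC (IsLocalRing.ResidueField A) M) < 0 := by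
  haveI := isAlgClosed_residue A
  have hred := hS.red_jBar hq hA hqM
  have hne : S0.red (Fermat.Agent.S24.jBar M) ≠ 0 := by
    rw [hred]
    intro h0
    have htr := Fermat.Agent.RRMod.transcendental_jC (IsLocalRing.ResidueField A) M
    rw [h0] at htr
    exact htr isAlgebraic_zero
  have hU : S0.IsU (Fermat.Agent.S24.jBar M) :=
    isU_of_red_ne_zero (hS.jBar_mem hq hA hqM) hne
  have hdeg : Divisor.degree (poleDiv S0.hF (Fermat.Agent.S24.jBar M)) ≤
      Divisor.degree (poleDiv (wpd_hFk A M) (S0.red (Fermat.Agent.S24.jBar M))) := by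
    rw [hred]
    exact ((oldSep_degree_poleDiv_jBar M).trans
      (oldSep_degree_poleDiv_jC A q M hq hA hqM).symm).le
  have hneg := wpd_push_ord_neg S0 (wpd_hFk A M) hU hdeg hx
  rw [hred] at hneg
  exact hneg

/-- a place over a non-cuspidal point of the special fibre is not a cusp. -/
theorem ord_jBar_nonneg (hS : IsGaussRed M A S0) (hq : q.Prime) (hA : A.LiesOverPrime q)
    (hqM : ¬ q ∣ M) {x : Place Qb (modularFunctionFieldBar M)}
    {P : Place (IsLocalRing.ResidueField A)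
      (modularFunctionFieldFullC (IsLocalRing.ResidueField A) M)}
    (hx : S0.r x = P)
    (hP : 0 ≤ P.ord (Fermat.Agent.RRMod.jC (IsLocalRing.ResidueField A) M)) :
    0 ≤ x.ord (Fermat.Agent.S24.jBar M) := by
  by_contra hcon
  rw [not_le] at hcon
  have := hS.ord_jC_neg hq hA hqM hcon
  rw [hx] at this
  omega

/-- **a Gauss-integral function with poles only at the cusps lies in `R_P`**, for every
non-cuspidal place `P` of the special fibre. -/
theorem mem_discRing (hS : IsGaussRed M A S0) (hq : q.Prime) (hA : A.LiesOverPrime q)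
    (hqM : ¬ q ∣ M) {g : modularFunctionFieldBar M}
    (hgO : g ∈ (modularValSetup A q M hq hA hqM).Ov)
    (hpoles : ∀ v : Place Qb (modularFunctionFieldBar M),
      0 ≤ v.ord (Fermat.Agent.S24.jBar M) → 0 ≤ v.ord g)
    {P : Place (IsLocalRing.ResidueField A)
      (modularFunctionFieldFullC (IsLocalRing.ResidueField A) M)}
    (hP : 0 ≤ P.ord (Fermat.Agent.RRMod.jC (IsLocalRing.ResidueField A) M)) :
    g ∈ discRing S0 P :=
  ⟨(hS.mem_Ov_iff' hq hA hqM g).mpr hgO,
    fun x hx => hpoles x (hS.ord_jBar_nonneg hq hA hqM hx hP)⟩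

/-- the same at a supersingular place. -/
theorem mem_discRing_ss (hS : IsGaussRed M A S0) (hq : q.Prime) (hA : A.LiesOverPrime q)
    (hqM : ¬ q ∣ M) {g : modularFunctionFieldBar M}
    (hgO : g ∈ (modularValSetup A q M hq hA hqM).Ov)
    (hpoles : ∀ v : Place Qb (modularFunctionFieldBar M),
      0 ≤ v.ord (Fermat.Agent.S24.jBar M) → 0 ≤ v.ord g)
    {P : Place (IsLocalRing.ResidueField A)
      (modularFunctionFieldFullC (IsLocalRing.ResidueField A) M)}
    (hP : IsSSPlace (IsLocalRing.ResidueField A) M q P) :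
    g ∈ discRing S0 P :=
  hS.mem_discRing hq hA hqM hgO hpoles (seedOld_ord_jC_nonneg M hq hA hP)

/-- a cusp does not reduce to a non-cuspidal point. -/
theorem exists_not_over (hS : IsGaussRed M A S0) (hq : q.Prime) (hA : A.LiesOverPrime q)
    (hqM : ¬ q ∣ M)
    (P : Place (IsLocalRing.ResidueField A)
      (modularFunctionFieldFullC (IsLocalRing.ResidueField A) M))
    (hP : 0 ≤ P.ord (Fermat.Agent.RRMod.jC (IsLocalRing.ResidueField A) M)) :
    ∃ Q₀ : Place Qb (modularFunctionFieldBar M), S0.r Q₀ ≠ P := by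
  obtain ⟨Q₀, hQ₀⟩ := wpd_exists_cusp M
  refine ⟨Q₀, fun h => ?_⟩
  have := hS.ord_jBar_nonneg hq hA hqM h hP
  omega

/-- **`F₀ = Frac R_P`.** -/
theorem frac (hS : IsGaussRed M A S0) (hq : q.Prime) (hA : A.LiesOverPrime q)
    (hqM : ¬ q ∣ M)
    (P : Place (IsLocalRing.ResidueField A)
      (modularFunctionFieldFullC (IsLocalRing.ResidueField A) M))
    (hP : 0 ≤ P.ord (Fermat.Agent.RRMod.jC (IsLocalRing.ResidueField A) M))
    (f : modularFunctionFieldBar M) :
    ∃ g ∈ discRing S0 P, g ≠ 0 ∧ f * g ∈ discRing S0 P := by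
  obtain ⟨Q₀, hQ₀⟩ := hS.exists_not_over hq hA hqM P hP
  exact discRing_frac S0 P Q₀ hQ₀ f

/-! ### the datum of EX_t -/

variable {P : Place (IsLocalRing.ResidueField A)
  (modularFunctionFieldFullC (IsLocalRing.ResidueField A) M)}

/-- the datum of EX_t lies in `R_Q` for every non-cuspidal `Q`. -/
theorem exT_mem_discRing (hS : IsGaussRed M A S0) (hq : q.Prime) (hA : A.LiesOverPrime q)
    (hqM : ¬ q ∣ M) {t0 : LaurentSeries ℚ} (D : ExTDatum A q M hq hA hqM P t0)
    {Q : Place (IsLocalRing.ResidueField A)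
      (modularFunctionFieldFullC (IsLocalRing.ResidueField A) M)}
    (hQ : 0 ≤ Q.ord (Fermat.Agent.RRMod.jC (IsLocalRing.ResidueField A) M)) :
    wpdT M t0 D.mem ∈ discRing S0 Q :=
  hS.mem_discRing hq hA hqM (D.mem_Ov _) (D.poles _) hQ

/-- **the datum of EX_t gives a `DiscPoint`** of `S0`. -/
theorem discPoint_of_exT (hS : IsGaussRed M A S0) (hq : q.Prime) (hA : A.LiesOverPrime q)
    (hqM : ¬ q ∣ M) {t0 : LaurentSeries ℚ}
    (hP : 0 ≤ P.ord (Fermat.Agent.RRMod.jC (IsLocalRing.ResidueField A) M))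
    (D : ExTDatum A q M hq hA hqM P t0) :
    ∃ Pt : Place Qb (modularFunctionFieldBar M), DiscPoint S0 P Pt (wpdT M t0 D.mem) := by
  refine exists_discPoint (hS.exT_mem_discRing hq hA hqM D hP) ?_
  rw [hS.red_eq hq hA hqM]
  exact D.unif _

/-- **the `DiscPoint` at every non-cuspidal place**, from EX_t. -/
theorem exists_discPoint (hS : IsGaussRed M A S0) (hq : q.Prime) (hA : A.LiesOverPrime q)
    (hqM : ¬ q ∣ M)
    (hg : genusFF Qb (modularFunctionFieldBar M) =
      genusFF (IsLocalRing.ResidueField A)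
        (modularFunctionFieldFullC (IsLocalRing.ResidueField A) M))
    (hT : ExTStatement q M)
    (P : Place (IsLocalRing.ResidueField A)
      (modularFunctionFieldFullC (IsLocalRing.ResidueField A) M))
    (hP : 0 ≤ P.ord (Fermat.Agent.RRMod.jC (IsLocalRing.ResidueField A) M)) :
    ∃ (t0 : LaurentSeries ℚ) (h : t0 ∈ modularFunctionFieldFull M)
      (Pt : Place Qb (modularFunctionFieldBar M)),
      ExTDatum A q M hq hA hqM P t0 ∧ DiscPoint S0 P Pt (wpdT M t0 h) := by
  obtain ⟨t0, D⟩ := hT A hq hA hqM hg P hP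
  obtain ⟨Pt, hPt⟩ := hS.discPoint_of_exT hq hA hqM hP D
  exact ⟨t0, D.mem, Pt, D, hPt⟩

/-- **the `DiscPoint` at every supersingular place**, from EX_t. -/
theorem exists_discPoint_ss (hS : IsGaussRed M A S0) (hq : q.Prime) (hA : A.LiesOverPrime q)
    (hqM : ¬ q ∣ M)
    (hg : genusFF Qb (modularFunctionFieldBar M) =
      genusFF (IsLocalRing.ResidueField A)
        (modularFunctionFieldFullC (IsLocalRing.ResidueField A) M))
    (hT : ExTStatement q M)
    (P : Place (IsLocalRing.ResidueField A)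
      (modularFunctionFieldFullC (IsLocalRing.ResidueField A) M))
    (hP : IsSSPlace (IsLocalRing.ResidueField A) M q P) :
    ∃ (t0 : LaurentSeries ℚ) (h : t0 ∈ modularFunctionFieldFull M)
      (Pt : Place Qb (modularFunctionFieldBar M)),
      ExTDatum A q M hq hA hqM P t0 ∧ DiscPoint S0 P Pt (wpdT M t0 h) :=
  hS.exists_discPoint hq hA hqM hg hT P (seedOld_ord_jC_nonneg M hq hA hP)

/-! ### the constants and the disc valuation -/

variable {Pt : Place Qb (modularFunctionFieldBar M)} {t : modularFunctionFieldBar M}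

/-- `res ϖ = 0` in `S0`, for `ϖ ∈ m_A`. -/
theorem res_eq_zero (hS : IsGaussRed M A S0) {ϖ : Qb} (hϖA : ϖ ∈ S0.A) (hϖ : ϖ⁻¹ ∉ A) :
    S0.res ⟨ϖ, hϖA⟩ = 0 := by
  rw [hS.res_eq ϖ hϖA ((hS.mem_A_iff ϖ).mp hϖA)]
  exact wpd_residue_eq_zero _ (Or.inr hϖ)

/-- **the `CircleData`** of the disc `|t| ≤ |ϖ|` around `Pt`, for every non-zero `ϖ ∈ m_A`. -/
theorem circleData (hS : IsGaussRed M A S0) (D : DiscPoint S0 P Pt t) {ϖ : Qb}
    (hϖ0 : ϖ ≠ 0) (hϖA : ϖ ∈ A) (hϖ : ϖ⁻¹ ∉ A) :
    CircleData S0.Ov.toSubring (discRing S0 P)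
      (algebraMap Qb (modularFunctionFieldBar M) ϖ) t (discEv S0 P (wpd_hFk A M)) :=
  D.circleData (wpd_hFk A M) hϖ0 ((hS.mem_A_iff ϖ).mpr hϖA)
    (hS.res_eq_zero ((hS.mem_A_iff ϖ).mpr hϖA) hϖ)

/-- the value group of `S0.A` is archimedean. -/
theorem arch (hS : IsGaussRed M A S0) (hq : q.Prime) (hA : A.LiesOverPrime q) {ϖ : Qb}
    (hϖ0 : ϖ ≠ 0) (hϖ : ϖ⁻¹ ∉ A) (c : Qb) (hc : c ≠ 0) :
    ∃ N : ℕ, S0.A.valuation (ϖ ^ N) < S0.A.valuation c := by
  rw [hS.A_eq]
  exact wpd_arch hq hA hϖ0 hϖ c hc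

/-- the residue map of the constants is onto. -/
theorem res_surjective (hS : IsGaussRed M A S0) : Function.Surjective S0.res := by
  intro y
  obtain ⟨a, rfl⟩ := IsLocalRing.residue_surjective y
  exact ⟨⟨(a : Qb), (hS.mem_A_iff _).mpr a.2⟩, hS.res_eq _ _ a.2⟩

/-- **the `DiscData`** of the disc `|t| ≤ |ϖ|` around `Pt` (all hypotheses discharged). -/
theorem discData (hS : IsGaussRed M A S0) (hq : q.Prime) (hA : A.LiesOverPrime q)
    (D : DiscPoint S0 P Pt t) {ϖ : Qb} (hϖ0 : ϖ ≠ 0) (hϖA : ϖ ∈ A) (hϖ : ϖ⁻¹ ∉ A) :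
    DiscData S0.A S0.res S0.Ov.toSubring (discRing S0 P) ϖ t (discEv S0 P (wpd_hFk A M)) :=
  D.discData' (wpd_hFk A M) hϖ0 ((hS.mem_A_iff ϖ).mpr hϖA)
    (hS.res_eq_zero ((hS.mem_A_iff ϖ).mpr hϖA) hϖ) (hS.arch hq hA hϖ0 hϖ)

/-- **the disc valuation `|t| ≤ |ϖ|` around `Pt`**, with its residue map onto `k(X)` and its
lattice data (all hypotheses discharged). -/
theorem exists_discLatData (hS : IsGaussRed M A S0) (hq : q.Prime) (hA : A.LiesOverPrime q)
    (D : DiscPoint S0 P Pt t) {ϖ : Qb} (hϖ0 : ϖ ≠ 0) (hϖA : ϖ ∈ A) (hϖ : ϖ⁻¹ ∉ A) :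
    ∃ (V : ValuationSubring (modularFunctionFieldBar M))
      (ρ : V →+* RatFunc (IsLocalRing.ResidueField A)),
      IsDiscVal S0.A (discRing S0 P) ϖ t (discEv S0 P (wpd_hFk A M)) V ∧
      DiscLatData S0.A V S0.res ρ (discRing S0 P) t ϖ (Fermat.Agent.FF.valueAt S0.hF Pt) ∧
      Function.Surjective ρ ∧
      (∀ (b : discRing S0 P) (hb : (b : modularFunctionFieldBar M) ∈ V),
        ρ ⟨(b : modularFunctionFieldBar M), hb⟩ =
          algebraMap (IsLocalRing.ResidueField A) (RatFunc (IsLocalRing.ResidueField A))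
            (discEv S0 P (wpd_hFk A M) b)) ∧
      (∀ h : t * (algebraMap Qb (modularFunctionFieldBar M) ϖ)⁻¹ ∈ V,
        ρ ⟨t * (algebraMap Qb (modularFunctionFieldBar M) ϖ)⁻¹, h⟩ = RatFunc.X) ∧
      (∀ (G : Polynomial (discRing S0 P))
        (h : CircleData.evalHom (discRing S0 P)
          (algebraMap Qb (modularFunctionFieldBar M) ϖ) t G ∈ V),
        ρ ⟨CircleData.evalHom (discRing S0 P)
            (algebraMap Qb (modularFunctionFieldBar M) ϖ) t G, h⟩ =
          algebraMap (Polynomial (IsLocalRing.ResidueField A))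
            (RatFunc (IsLocalRing.ResidueField A)) (G.map (discEv S0 P (wpd_hFk A M)))) ∧
      (∀ f : modularFunctionFieldBar M, f ≠ 0 → ∃ c : Qb, c ≠ 0 ∧
        f * (algebraMap Qb (modularFunctionFieldBar M) c)⁻¹ ∈ V ∧
        (f * (algebraMap Qb (modularFunctionFieldBar M) c)⁻¹)⁻¹ ∈ V) :=
  D.exists_discLatData (wpd_hFk A M) hϖ0 ((hS.mem_A_iff ϖ).mpr hϖA)
    (hS.res_eq_zero ((hS.mem_A_iff ϖ).mpr hϖA) hϖ) (hS.arch hq hA hϖ0 hϖ) hS.res_surjective

end IsGaussRed

end Fermat.Agent.S36G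
end
end MergeWrap_S36_HPVal_DiscModG
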