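import Mathlib
import Fermat.Agent.MUL.S36.HPVal.Inert

section MergeWrap_S36_HPVal_InertInv -- from S36/HPVal/InertInv.lean

set_option autoImplicit false
set_option linter.unusedSectionVars false
set_option linter.unusedVariables false
set_option linter.style.haveILetI false

/-!
# S36 (cluster G), block W-P, seat WP-INERT: the hypothesis `(inv)` of Step 2  (helper65)

On top of `S36/HPVal/Inert.lean` (helper71: `wpiEquiv`, `wpiEquiv_eq_autEquiv`).

`S : ValSetup K F k Fk` a constant reduction, `t : SemilinearAut K F` stable and inertial for `S`.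

* `wpi_smul_ne_zero`, `wpi_smul_inv_mem` : small facts;
* `wpi_inv` : **the class of the reduction is fixed**: if `t • g = a uⁿ g` (the class of `g` modulo
  constants and `n`-th powers is fixed by `t`) and `g = c f` with `f` a unit of `Ov`, then
  `wpiEquiv S t _ _ (red f) = b vⁿ red f` with `b ∈ kˣ`, `v ≠ 0`;
* `wpi_inv_galK` : if `Fk` carries the curve `H : HPCurve k Fk q` (`H.X1 = red W`, `H.X2 = red Z`),
  a set `I` of stable inertial automorphisms realises every `η ∈ μ_{q+1}(k)` on `(W, Z)` (the tame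
  character is onto) and fixes the class of `g`, then the hypothesis `hinv` of
  `HPCurve.pow_eq_of_inv` / `HPCurve.pow_eq_of_norms` (Step 2, `Lib/HP/Step2.lean`) holds for
  `red f`:  `∀ σ ∈ H.galK, ∃ c u, σ (red f) = c * u ^ n * red f`.
-/

noncomputable section
attribute [local instance 10000] SubalgebraClass.toAlgebra HahnSeries.powerSeriesAlgebra

namespace Fermat.Agent.S36G

open AlgebraicCurve Fermat.Agent.Deuring Fermat.Agent.HP

variable {K F k Fk : Type*} [Field K] [Field F] [Algebra K F] [Field k]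
  [Field Fk] [Algebra k Fk]

variable {S : ValSetup K F k Fk}

theorem wpi_smul_ne_zero (t : SemilinearAut K F) {f : F} (hf : f ≠ 0) : t • f ≠ 0 := by
  intro h
  apply hf
  have := congrArg (fun x => t⁻¹ • x) h
  simpa using this

theorem wpi_smul_inv_mem {t : SemilinearAut K F} (hst : WpiStable S t) {f : F}
    (hf : f⁻¹ ∈ S.Ov) : (t • f)⁻¹ ∈ S.Ov := by
  rw [← smul_inv'']
  exact (hst f⁻¹).mp hf

/-- **the class of the reduction is fixed**: if `t • g = a uⁿ g` and `g = c f` with `f` a unit of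
`Ov`, then the residue automorphism of `t` multiplies `red f` by a constant times an `n`-th
power. -/
theorem wpi_inv {t : SemilinearAut K F} (hst : WpiStable S t) (hin : WpiInertial S t)
    (n : ℕ) {g u : F} {a : K} (hg : g ≠ 0)
    (htg : t • g = algebraMap K F a * u ^ n * g)
    {f : F} (hf : f ∈ S.Ov) (hf' : f⁻¹ ∈ S.Ov) {c : K} (hfg : g = algebraMap K F c * f) :
    ∃ (b : k) (v : Fk), b ≠ 0 ∧ v ≠ 0 ∧
      wpiEquiv S t hst hin (S.red f) = algebraMap k Fk b * v ^ n * S.red f := by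
  -- `c ≠ 0`, `f ≠ 0`
  have hf0 : f ≠ 0 := by
    rintro rfl
    apply hg
    rw [hfg, mul_zero]
  have hc0 : c ≠ 0 := by
    rintro rfl
    apply hg
    rw [hfg, map_zero, zero_mul]
  have hcF : algebraMap K F c ≠ 0 := by
    rw [Ne, map_eq_zero_iff _ (algebraMap K F).injective]
    exact hc0
  -- `a u ^ n ≠ 0`
  have htg0 : t • g ≠ 0 := wpi_smul_ne_zero t hg
  have haun : algebraMap K F a * u ^ n ≠ 0 := by
    intro h0
    apply htg0
    rw [htg, h0, zero_mul]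
  have haF : algebraMap K F a ≠ 0 := left_ne_zero_of_mul haun
  have hun : u ^ n ≠ 0 := right_ne_zero_of_mul haun
  -- replace `u` by a nonzero element with the same `n`-th power
  obtain ⟨u', hu'0, hu'n⟩ : ∃ u' : F, u' ≠ 0 ∧ u' ^ n = u ^ n := by
    by_cases hu : u = 0
    · refine ⟨1, one_ne_zero, ?_⟩
      rcases Nat.eq_zero_or_pos n with hn | hn
      · rw [hn, pow_zero, pow_zero]
      · exfalso
        apply hun
        rw [hu, zero_pow hn.ne']
    · exact ⟨u, hu, rfl⟩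
  -- scale `u'`
  obtain ⟨d, hd0, hd1, hd2⟩ := S.scale u' hu'0
  have hdF : algebraMap K F d ≠ 0 := by
    rw [Ne, map_eq_zero_iff _ (algebraMap K F).injective]
    exact hd0
  set w : F := u' * (algebraMap K F d)⁻¹ with hw
  have hw0 : w ≠ 0 := mul_ne_zero hu'0 (inv_ne_zero hdF)
  -- the constant
  set tc : K := SemilinearAut.baseAut t c with htc
  have htc0 : tc ≠ 0 := by
    rw [htc]
    intro h0
    apply hc0
    exact (SemilinearAut.baseAut t).injective (h0.trans (map_zero _).symm)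
  have htcF : algebraMap K F tc ≠ 0 := by
    rw [Ne, map_eq_zero_iff _ (algebraMap K F).injective]
    exact htc0
  set e : K := a * d ^ n * c * tc⁻¹ with he
  -- `t • f = e * w ^ n * f`
  have htf : t • f = algebraMap K F e * w ^ n * f := by
    have h1 : t • g = algebraMap K F tc * (t • f) := by
      rw [hfg, smul_mul', SemilinearAut.smul_algebraMap]
    have h2 : algebraMap K F tc * (t • f) =
        algebraMap K F a * u' ^ n * (algebraMap K F c * f) := by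
      rw [← h1, htg, hu'n, ← hfg]
    have h3 : t • f = (algebraMap K F tc)⁻¹ *
        (algebraMap K F a * u' ^ n * (algebraMap K F c * f)) := by
      rw [← h2, inv_mul_cancel_left₀ htcF]
    rw [h3, he, hw]
    simp only [map_mul, map_pow, map_inv₀, mul_pow, inv_pow]
    field_simp
  -- `e` is a unit of `A`
  have htf_mem : t • f ∈ S.Ov := (hst f).mp hf
  have htf_inv : (t • f)⁻¹ ∈ S.Ov := wpi_smul_inv_mem hst hf'
  have htf0 : t • f ≠ 0 := wpi_smul_ne_zero t hf0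
  have hwn : w ^ n ∈ S.Ov := pow_mem hd1 n
  have hwn' : (w ^ n)⁻¹ ∈ S.Ov := by
    rw [← inv_pow]
    exact pow_mem hd2 n
  have hwn0 : w ^ n ≠ 0 := pow_ne_zero n hw0
  have heF : algebraMap K F e = (t • f) * (w ^ n)⁻¹ * f⁻¹ := by
    rw [htf]
    field_simp
  have heF0 : algebraMap K F e ≠ 0 := by
    rw [heF]
    exact mul_ne_zero (mul_ne_zero htf0 (inv_ne_zero hwn0)) (inv_ne_zero hf0)
  have heF' : (algebraMap K F e)⁻¹ = (t • f)⁻¹ * w ^ n * f := by
    rw [heF]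
    field_simp
  have he_mem : e ∈ S.A := by
    apply (S.mem_Ov_iff e).mp
    rw [heF]
    exact mul_mem (mul_mem htf_mem hwn') hf'
  have he_inv_mem : (algebraMap K F e)⁻¹ ∈ S.Ov := by
    rw [heF']
    exact mul_mem (mul_mem htf_inv hwn) hf
  refine ⟨S.res ⟨e, he_mem⟩, S.red w, ?_, ?_, ?_⟩
  · intro h0
    have h1 := S.red_ne_zero (S.algebraMap_mem he_mem) he_inv_mem heF0
    apply h1
    rw [S.red_algebraMap he_mem, h0, map_zero]
  · exact S.red_ne_zero hd1 hd2 hw0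
  · rw [wpiEquiv_red hst hin hf, htf,
      S.red_mul (mul_mem (S.algebraMap_mem he_mem) hwn) hf,
      S.red_mul (S.algebraMap_mem he_mem) hwn, S.red_algebraMap he_mem, S.red_pow hd1]

section HPInv

variable [IsAlgClosed k] {q : ℕ} (H : HPCurve k Fk q) (hq1 : ((q + 1 : ℕ) : k) ≠ 0)

include hq1 in
/-- **hypothesis `(inv)` of Step 2 on `H_P`**: a set `I` of stable inertial automorphisms which
realises every `η ∈ μ_{q+1}(k)` on `(W, Z)` and fixes the class of `g` gives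
`σ (red f) = c uⁿ red f` for every `σ ∈ Gal(k(H_P) / k(s))`. -/
theorem wpi_inv_galK (I : Set (SemilinearAut K F))
    (hst : ∀ t ∈ I, WpiStable S t) (hin : ∀ t ∈ I, WpiInertial S t)
    {W Z : F} (hW : W ∈ S.Ov) (hZ : Z ∈ S.Ov)
    (hX1 : S.red W = H.X1) (hX2 : S.red Z = H.X2)
    (honto : ∀ η : k, η ^ (q + 1) = 1 → ∃ t ∈ I, ∃ (z : K) (hz : z ∈ S.A),
      S.res ⟨z, hz⟩ = η ∧ t • W = z • W ∧ t • Z = z • Z)
    (n : ℕ) {g : F} (hg : g ≠ 0)
    (hinv : ∀ t ∈ I, ∃ (u : F) (a : K), t • g = algebraMap K F a * u ^ n * g)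
    {f : F} (hf : f ∈ S.Ov) (hf' : f⁻¹ ∈ S.Ov) {c : K} (hfg : g = algebraMap K F c * f) :
    ∀ σ ∈ H.galK, ∃ (b : k) (v : Fk), σ (S.red f) = algebraMap k Fk b * v ^ n * S.red f := by
  intro σ hσ
  obtain ⟨η, hη, rfl⟩ := (H.mem_galK_iff hq1 σ).mp hσ
  obtain ⟨t, htI, z, hz, hzη, htW, htZ⟩ := honto η hη
  have heq := wpiEquiv_eq_autEquiv H hq1 (hst t htI) (hin t htI) hW hZ hX1 hX2 hz htW htZ
  obtain ⟨u, a, htg⟩ := hinv t htI
  obtain ⟨b, v, -, -, hbv⟩ := wpi_inv (hst t htI) (hin t htI) n hg htg hf hf' hfg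
  refine ⟨b, v, ?_⟩
  have e : H.autEquiv hq1 η hη = wpiEquiv S t (hst t htI) (hin t htI) := by
    rw [heq]
    congr 1
    exact hzη.symm
  rw [e]
  exact hbv

include hq1 in
/-- the same with the non-vanishing of the constant and of the `n`-th root recorded. -/
theorem wpi_inv_galK' (I : Set (SemilinearAut K F))
    (hst : ∀ t ∈ I, WpiStable S t) (hin : ∀ t ∈ I, WpiInertial S t)
    {W Z : F} (hW : W ∈ S.Ov) (hZ : Z ∈ S.Ov)
    (hX1 : S.red W = H.X1) (hX2 : S.red Z = H.X2)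
    (honto : ∀ η : k, η ^ (q + 1) = 1 → ∃ t ∈ I, ∃ (z : K) (hz : z ∈ S.A),
      S.res ⟨z, hz⟩ = η ∧ t • W = z • W ∧ t • Z = z • Z)
    (n : ℕ) {g : F} (hg : g ≠ 0)
    (hinv : ∀ t ∈ I, ∃ (u : F) (a : K), t • g = algebraMap K F a * u ^ n * g)
    {f : F} (hf : f ∈ S.Ov) (hf' : f⁻¹ ∈ S.Ov) {c : K} (hfg : g = algebraMap K F c * f) :
    ∀ σ ∈ H.galK, ∃ (b : k) (v : Fk), b ≠ 0 ∧ v ≠ 0 ∧
      σ (S.red f) = algebraMap k Fk b * v ^ n * S.red f := by
  intro σ hσ
  obtain ⟨η, hη, rfl⟩ := (H.mem_galK_iff hq1 σ).mp hσ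
  obtain ⟨t, htI, z, hz, hzη, htW, htZ⟩ := honto η hη
  have heq := wpiEquiv_eq_autEquiv H hq1 (hst t htI) (hin t htI) hW hZ hX1 hX2 hz htW htZ
  obtain ⟨u, a, htg⟩ := hinv t htI
  obtain ⟨b, v, hb, hv, hbv⟩ := wpi_inv (hst t htI) (hin t htI) n hg htg hf hf' hfg
  refine ⟨b, v, hb, hv, ?_⟩
  have e : H.autEquiv hq1 η hη = wpiEquiv S t (hst t htI) (hin t htI) := by
    rw [heq]
    congr 1
    exact hzη.symm
  rw [e]
  exact hbv

end HPInv

end Fermat.Agent.S36G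
end
end MergeWrap_S36_HPVal_InertInv

section MergeWrap_S36_HPVal_InertOnto -- from S36/HPVal/InertOnto.lean

set_option autoImplicit false
set_option linter.unusedSectionVars false
set_option linter.unusedVariables false
set_option linter.style.haveILetI false

/-!
# S36 (cluster G), block W-P, seat WP-INERT: the tame character is onto  (helper65)

`S : ValSetup K F k Fk`, `K` algebraically closed.

* `wpi_root_mem` : a root of unity of `K` lies in `A`;
* `wpi_exists_root_lift` : **roots of unity lift**: for `η ∈ k`, `η ^ n = 1` (`n > 0`) there is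
  `ζ ∈ A` with `ζ ^ n = 1` and `res ζ = η`;
* `wpi_honto_of_tame` : the hypothesis `honto` of `wpi_inv_galK` for `W = x₀ / ϖ`, `Z = x₂ / ϖ`,
  from: `x₀, x₂` fixed by `I`, and the tame character `t ↦ t ϖ / ϖ` maps `I` ONTO `μ_m(K)`
  (`inert_exists_tame`, `S36/G/InertArith.lean`);
* `wpi_hinv_of_tame` : the hypothesis `hinv` of `HPCurve.pow_eq_of_inv` (Step 2) for `red f`.
-/

noncomputable section
attribute [local instance 10000] SubalgebraClass.toAlgebra HahnSeries.powerSeriesAlgebra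

namespace Fermat.Agent.S36G

open AlgebraicCurve Fermat.Agent.Deuring Fermat.Agent.HP Polynomial

variable {K F k Fk : Type*} [Field K] [Field F] [Algebra K F] [Field k]
  [Field Fk] [Algebra k Fk]

/-- a root of unity lies in every valuation subring. -/
theorem wpi_root_mem (A : ValuationSubring K) {n : ℕ} (hn : 0 < n) {ζ : K} (hζ : ζ ^ n = 1) :
    ζ ∈ A := by
  rcases A.mem_or_inv_mem ζ with h | h
  · exact h
  · have h1 : ζ = (ζ⁻¹) ^ (n - 1) := by
      have hζ0 : ζ ≠ 0 := by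
        rintro rfl
        rw [zero_pow hn.ne'] at hζ
        exact zero_ne_one hζ
      have h2 : ζ * ζ ^ (n - 1) = 1 := by
        rw [← pow_succ', Nat.sub_add_cancel hn, hζ]
      rw [inv_pow, eq_comm, inv_eq_iff_eq_inv]
      exact (eq_inv_of_mul_eq_one_right h2)
    rw [h1]
    exact pow_mem h _

variable (S : ValSetup K F k Fk)

/-- the residue of an element of `A` whose inverse is not in `A` vanishes. -/
theorem wpi_res_eq_zero_of_inv_not_mem {a : K} (ha : a ∈ S.A) (ha' : a⁻¹ ∉ S.A) :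
    S.res ⟨a, ha⟩ = 0 := by
  obtain ⟨h, h0⟩ := S.res_inv_eq_zero ha'
  have e : (⟨(a⁻¹)⁻¹, h⟩ : S.A) = ⟨a, ha⟩ := Subtype.ext (inv_inv a)
  rw [← e]
  exact h0

/-- the residue of a unit of `A` is not zero. -/
theorem wpi_res_ne_zero_of_inv_mem {a : K} (ha : a ∈ S.A) (ha' : a⁻¹ ∈ S.A) (ha0 : a ≠ 0) :
    S.res ⟨a, ha⟩ ≠ 0 := by
  intro h0
  have h1 : S.res ⟨a, ha⟩ * S.res ⟨a⁻¹, ha'⟩ = 1 := by
    rw [← map_mul]
    have e : (⟨a, ha⟩ : S.A) * ⟨a⁻¹, ha'⟩ = 1 := Subtype.ext (mul_inv_cancel₀ ha0)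
    rw [e, map_one]
  rw [h0, zero_mul] at h1
  exact zero_ne_one h1

/-- **roots of unity lift** to `A`. -/
theorem wpi_exists_root_lift [IsAlgClosed K] {n : ℕ} (hn : 0 < n) {η : k} (hη : η ^ n = 1) :
    ∃ (ζ : K) (hζ : ζ ∈ S.A), ζ ^ n = 1 ∧ S.res ⟨ζ, hζ⟩ = η := by
  classical
  obtain ⟨x, hx⟩ := S.res_surj η
  set p : K[X] := X ^ n - C 1 with hp
  have hpm : p.Monic := monic_X_pow_sub_C 1 hn.ne'
  have hps : p.Splits := IsAlgClosed.splits p
  have hev : p.eval (x : K) = (p.roots.map ((x : K) - ·)).prod :=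
    hps.eval_eq_prod_roots_of_monic hpm _
  have hev' : p.eval (x : K) = (x : K) ^ n - 1 := by
    rw [hp]
    simp
  have hroot : ∀ ζ ∈ p.roots, ζ ^ n = 1 := by
    intro ζ hζ
    have h1 := (mem_roots hpm.ne_zero).mp hζ
    rw [IsRoot.def, hp] at h1
    simp only [eval_sub, eval_pow, eval_X, eval_C] at h1
    exact sub_eq_zero.mp h1
  -- the residue of `x ^ n - 1` vanishes
  have hxn : (x : K) ^ n - 1 ∈ S.A := sub_mem (pow_mem x.2 n) S.A.one_mem
  have hres : S.res ⟨(x : K) ^ n - 1, hxn⟩ = 0 := by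
    have e : (⟨(x : K) ^ n - 1, hxn⟩ : S.A) = x ^ n - 1 := Subtype.ext (by simp)
    rw [e, map_sub, map_pow, map_one, hx, hη, sub_self]
  -- some factor is not a unit
  have key : ∃ ζ ∈ p.roots, (x : K) - ζ = 0 ∨ ((x : K) - ζ)⁻¹ ∉ S.A := by
    by_contra hcon
    push Not at hcon
    have h1 : ∀ y ∈ p.roots.map (fun ζ => ((x : K) - ζ)⁻¹), y ∈ S.A := by
      intro y hy
      obtain ⟨ζ, hζ, rfl⟩ := Multiset.mem_map.mp hy
      exact (hcon ζ hζ).2
    have h2 : (p.roots.map (fun ζ => ((x : K) - ζ)⁻¹)).prod ∈ S.A :=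
      Multiset.prod_induction (fun y => y ∈ S.A) _ (fun a b ha hb => mul_mem ha hb)
        S.A.one_mem h1
    have h3 : (p.roots.map (fun ζ => ((x : K) - ζ)⁻¹)).prod =
        ((p.roots.map ((x : K) - ·)).prod)⁻¹ := by
      rw [← Multiset.prod_map_inv]
    rw [h3, ← hev, hev'] at h2
    have h0 : (x : K) ^ n - 1 ≠ 0 := by
      rw [← hev', hev]
      apply Multiset.prod_ne_zero
      intro h00
      obtain ⟨ζ, hζ, hζ0⟩ := Multiset.mem_map.mp h00
      exact (hcon ζ hζ).1 hζ0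
    exact wpi_res_ne_zero_of_inv_mem S hxn h2 h0 hres
  obtain ⟨ζ, hζ, hcase⟩ := key
  have hζn := hroot ζ hζ
  have hζA : ζ ∈ S.A := wpi_root_mem S.A hn hζn
  refine ⟨ζ, hζA, hζn, ?_⟩
  have hsub : (x : K) - ζ ∈ S.A := sub_mem x.2 hζA
  have hz : S.res ⟨(x : K) - ζ, hsub⟩ = 0 := by
    rcases hcase with h0 | h0
    · have e : (⟨(x : K) - ζ, hsub⟩ : S.A) = 0 := Subtype.ext h0
      rw [e, map_zero]
    · exact wpi_res_eq_zero_of_inv_not_mem S hsub h0
  have e : (⟨(x : K) - ζ, hsub⟩ : S.A) = x - ⟨ζ, hζA⟩ := Subtype.ext (by simp)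
  rw [e, map_sub, hx, sub_eq_zero] at hz
  exact hz.symm

/-- **the tame character is onto on the residue field side**: the hypothesis `honto` of
`wpi_inv_galK` for `W = x₀ / ϖ`, `Z = x₂ / ϖ`. -/
theorem wpi_honto_of_tame [IsAlgClosed K] (I : Set (SemilinearAut K F)) {x0 x2 : F} {ϖ : K}
    (hx0 : ∀ t ∈ I, t • x0 = x0) (hx2 : ∀ t ∈ I, t • x2 = x2)
    {m : ℕ} (hm : 0 < m)
    (htame : ∀ ζ : K, ζ ^ m = 1 → ∃ t ∈ I, SemilinearAut.baseAut t ϖ = ζ * ϖ) :
    ∀ η : k, η ^ m = 1 → ∃ t ∈ I, ∃ (z : K) (hz : z ∈ S.A), S.res ⟨z, hz⟩ = η ∧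
      t • (x0 / algebraMap K F ϖ) = z • (x0 / algebraMap K F ϖ) ∧
      t • (x2 / algebraMap K F ϖ) = z • (x2 / algebraMap K F ϖ) := by
  intro η hη
  have hη0 : η ≠ 0 := by
    rintro rfl
    rw [zero_pow hm.ne'] at hη
    exact zero_ne_one hη
  have hηi : (η⁻¹) ^ m = 1 := by rw [inv_pow, hη, inv_one]
  obtain ⟨ζ, hζA, hζm, hζr⟩ := wpi_exists_root_lift S hm hηi
  obtain ⟨t, htI, htϖ⟩ := htame ζ hζm
  have hζ0 : ζ ≠ 0 := by
    rintro rfl
    rw [zero_pow hm.ne'] at hζm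
    exact zero_ne_one hζm
  have hzm : (ζ⁻¹) ^ m = 1 := by rw [inv_pow, hζm, inv_one]
  have hzA : ζ⁻¹ ∈ S.A := wpi_root_mem S.A hm hzm
  refine ⟨t, htI, ζ⁻¹, hzA, ?_, wpi_smul_div t (hx0 t htI) htϖ, wpi_smul_div t (hx2 t htI) htϖ⟩
  have h1 : S.res ⟨ζ⁻¹, hzA⟩ * S.res ⟨ζ, hζA⟩ = 1 := by
    rw [← map_mul]
    have e : (⟨ζ⁻¹, hzA⟩ : S.A) * ⟨ζ, hζA⟩ = 1 := Subtype.ext (inv_mul_cancel₀ hζ0)
    rw [e, map_one]
  rw [hζr] at h1
  exact (eq_inv_of_mul_eq_one_left h1).trans (inv_inv η)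

section HPInv

variable {S}
variable [IsAlgClosed k] {q : ℕ} (H : HPCurve k Fk q) (hq1 : ((q + 1 : ℕ) : k) ≠ 0)

include hq1 in
/-- **the hypothesis `hinv` of Step 2** (`HPCurve.pow_eq_of_inv`) for `red f`, from the tame
character: `I` a set of stable inertial automorphisms fixing `x₀, x₂` and the class of `g`, with
`t ↦ t ϖ / ϖ` onto `μ_{q+1}(K)`; `W = x₀ / ϖ`, `Z = x₂ / ϖ` reduce to the coordinates of `H_P`. -/
theorem wpi_hinv_of_tame [IsAlgClosed K] (I : Set (SemilinearAut K F))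
    (hst : ∀ t ∈ I, WpiStable S t) (hin : ∀ t ∈ I, WpiInertial S t)
    {x0 x2 : F} {ϖ : K}
    (hW : x0 / algebraMap K F ϖ ∈ S.Ov) (hZ : x2 / algebraMap K F ϖ ∈ S.Ov)
    (hX1 : S.red (x0 / algebraMap K F ϖ) = H.X1) (hX2 : S.red (x2 / algebraMap K F ϖ) = H.X2)
    (hx0 : ∀ t ∈ I, t • x0 = x0) (hx2 : ∀ t ∈ I, t • x2 = x2)
    (htame : ∀ ζ : K, ζ ^ (q + 1) = 1 → ∃ t ∈ I, SemilinearAut.baseAut t ϖ = ζ * ϖ)
    (n : ℕ) {g : F} (hg : g ≠ 0)
    (hinv : ∀ t ∈ I, ∃ (u : F) (a : K), t • g = algebraMap K F a * u ^ n * g)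
    {f : F} (hf : f ∈ S.Ov) (hf' : f⁻¹ ∈ S.Ov) {c : K} (hfg : g = algebraMap K F c * f) :
    ∀ σ ∈ H.galK, ∃ (b : k) (v : Fk), σ (S.red f) = algebraMap k Fk b * v ^ n * S.red f :=
  wpi_inv_galK H hq1 I hst hin hW hZ hX1 hX2
    (wpi_honto_of_tame S I hx0 hx2 (Nat.succ_pos q) htame) n hg hinv hf hf' hfg

end HPInv

end Fermat.Agent.S36G
end
end MergeWrap_S36_HPVal_InertOnto
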