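import Mathlib
import Fermat.Agent.MUL.S36.Seed.U2
import Fermat.Agent.MUL.S36.HPVal.Defs
import Fermat.Agent.MUL.S36.HPVal.DiscModG
import Fermat.Agent.MUL.S36.Seed.OldZero
import Fermat.Agent.MUL.S36.Seed.OldSep
import Fermat.Agent.MUL.S36.Val.Restr
import Fermat.Agent.MUL.S36.HPVal.InertOnto

section MergeWrap_S36_HPVal_Dist -- from S36/HPVal/Dist.lean

set_option autoImplicit false
set_option linter.style.haveILetI false
set_option linter.unusedSectionVars false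
set_option synthInstance.maxHeartbeats 400000

noncomputable section
attribute [local instance 10000] SubalgebraClass.toAlgebra HahnSeries.powerSeriesAlgebra

namespace Fermat.Agent.S36G

open ModularCurve AlgebraicCurve Fermat.Agent.GaussInt Fermat.Agent.AtkinLehner
  Fermat.Agent.Deuring Fermat.Agent.BadRed Fermat.Agent.F3 Fermat.Agent.F3G Fermat.Agent.S28

local notation "Qb" => AlgebraicClosure ℚ

/-! ### abstract incomparability -/

section Abstract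

variable {K F k Fk₁ Fk₂ : Type*} [Field K] [Field F] [Algebra K F]
  [Field k] [Field Fk₁] [Algebra k Fk₁] [Field Fk₂] [Algebra k Fk₂]

/-- if `u / a₁` is a unit of `O₁`, `u / a₂` a unit of `O₂` and `O₁ ≤ O₂`, then `a₂ / a₁` is a unit
of `A`. -/
theorem dist_unit_of_le (S₁ : ValSetup K F k Fk₁) (S₂ : ValSetup K F k Fk₂)
    (u : F) (a₁ a₂ : K)
    (h₁ : S₁.red (u / algebraMap K F a₁) ≠ 0) (h₂ : S₂.red (u / algebraMap K F a₂) ≠ 0)
    (hle : S₁.Ov ≤ S₂.Ov) : a₂ / a₁ ∈ S₂.A ∧ a₁ / a₂ ∈ S₂.A := by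
  have hx1 := S₁.mem_of_red_ne_zero h₁
  have hx1' := S₁.inv_mem_of_red_ne_zero h₁
  have hx2 := S₂.mem_of_red_ne_zero h₂
  have hx2' := S₂.inv_mem_of_red_ne_zero h₂
  have hu1 : u / algebraMap K F a₁ ≠ 0 := S₁.ne_zero_of_red_ne_zero h₁
  have hu2 : u / algebraMap K F a₂ ≠ 0 := S₂.ne_zero_of_red_ne_zero h₂
  have hu : u ≠ 0 := fun h => hu1 (by rw [h, zero_div])
  have ha1 : algebraMap K F a₁ ≠ 0 := fun h => hu1 (by rw [h, div_zero])
  have ha2 : algebraMap K F a₂ ≠ 0 := fun h => hu2 (by rw [h, div_zero])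
  constructor
  · rw [← S₂.mem_Ov_iff]
    have e : algebraMap K F (a₂ / a₁) =
        (u / algebraMap K F a₁) * (u / algebraMap K F a₂)⁻¹ := by
      rw [map_div₀]
      field_simp
    rw [e]
    exact S₂.Ov.mul_mem _ _ (hle hx1) hx2'
  · rw [← S₂.mem_Ov_iff]
    have e : algebraMap K F (a₁ / a₂) =
        (u / algebraMap K F a₁)⁻¹ * (u / algebraMap K F a₂) := by
      rw [map_div₀]
      field_simp
    rw [e]
    exact S₂.Ov.mul_mem _ _ (hle hx1') hx2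

/-- if `u / a₁` is a unit of `O₁`, `u / a₂` a unit of `O₂` and `O₁ ≤ O₂`, then
`v (a₁) = v (a₂)`. -/
theorem dist_val_eq_of_le (S₁ : ValSetup K F k Fk₁) (S₂ : ValSetup K F k Fk₂)
    (u : F) (a₁ a₂ : K)
    (h₁ : S₁.red (u / algebraMap K F a₁) ≠ 0) (h₂ : S₂.red (u / algebraMap K F a₂) ≠ 0)
    (hle : S₁.Ov ≤ S₂.Ov) : S₂.A.valuation a₁ = S₂.A.valuation a₂ := by
  obtain ⟨h21, h12⟩ := dist_unit_of_le S₁ S₂ u a₁ a₂ h₁ h₂ hle
  have hu1 : u / algebraMap K F a₁ ≠ 0 := S₁.ne_zero_of_red_ne_zero h₁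
  have hu2 : u / algebraMap K F a₂ ≠ 0 := S₂.ne_zero_of_red_ne_zero h₂
  have ha1 : a₁ ≠ 0 := fun h => hu1 (by rw [h, map_zero, div_zero])
  have ha2 : a₂ ≠ 0 := fun h => hu2 (by rw [h, map_zero, div_zero])
  have hv1 : S₂.A.valuation a₁ ≠ 0 := (Valuation.ne_zero_iff _).mpr ha1
  have hv2 : S₂.A.valuation a₂ ≠ 0 := (Valuation.ne_zero_iff _).mpr ha2
  rw [← ValuationSubring.valuation_le_one_iff, map_div₀] at h21 h12
  have e1 : S₂.A.valuation a₂ ≤ S₂.A.valuation a₁ :=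
    (div_le_one₀ (zero_lt_iff.mpr hv1)).mp h21
  have e2 : S₂.A.valuation a₁ ≤ S₂.A.valuation a₂ :=
    (div_le_one₀ (zero_lt_iff.mpr hv2)).mp h12
  exact le_antisymm e2 e1

/-- **incomparability from a function with two different valuations.** -/
theorem dist_of_scale (S₁ : ValSetup K F k Fk₁) (S₂ : ValSetup K F k Fk₂) (hA : S₁.A = S₂.A)
    (u : F) (a₁ a₂ : K)
    (h₁ : S₁.red (u / algebraMap K F a₁) ≠ 0) (h₂ : S₂.red (u / algebraMap K F a₂) ≠ 0)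
    (hne : S₁.A.valuation a₁ ≠ S₁.A.valuation a₂) :
    ¬ S₁.Ov ≤ S₂.Ov ∧ ¬ S₂.Ov ≤ S₁.Ov := by
  constructor
  · intro hle
    apply hne
    rw [hA]
    exact dist_val_eq_of_le S₁ S₂ u a₁ a₂ h₁ h₂ hle
  · intro hle
    apply hne
    exact (dist_val_eq_of_le S₂ S₁ u a₂ a₁ h₂ h₁ hle).symm

/-- one half of `dist_of_red_ne`. -/
theorem dist_not_le_of_red_ne (S₁ : ValSetup K F k Fk₁) (S₂ : ValSetup K F k Fk₂)
    (hA : S₁.A = S₂.A)
    (hres : ∀ (x : K) (h : x ∈ S₁.A) (h' : x ∈ S₂.A), S₁.res ⟨x, h⟩ = S₂.res ⟨x, h'⟩)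
    (g : F) (hg₁ : g ∈ S₁.Ov) (hg₂ : g ∈ S₂.Ov) (c₁ c₂ : k)
    (hc₁ : S₁.red g = algebraMap k Fk₁ c₁) (hc₂ : S₂.red g = algebraMap k Fk₂ c₂)
    (hne : c₁ ≠ c₂) : ¬ S₂.Ov ≤ S₁.Ov := by
  obtain ⟨a, ha⟩ := S₁.res_surj c₁
  have haA : (a : K) ∈ S₁.A := a.2
  have haA₂ : (a : K) ∈ S₂.A := hA ▸ haA
  have hm₁ : algebraMap K F (a : K) ∈ S₁.Ov := (S₁.mem_Ov_iff _).mpr haA
  have hm₂ : algebraMap K F (a : K) ∈ S₂.Ov := (S₂.mem_Ov_iff _).mpr haA₂
  have hr₁ : S₁.red (algebraMap K F (a : K)) = algebraMap k Fk₁ c₁ := by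
    rw [S₁.red_algebraMap haA]
    congr 1
  have hr₂ : S₂.red (algebraMap K F (a : K)) = algebraMap k Fk₂ c₁ := by
    rw [S₂.red_algebraMap haA₂, ← hres (a : K) haA haA₂]
    congr 2
  -- `E := g - a` reduces to `0` in `O₁` and to `c₂ - c₁ ≠ 0` in `O₂`
  have hE₁ : S₁.red (g - algebraMap K F (a : K)) = 0 := by
    rw [S₁.red_sub hg₁ hm₁, hc₁, hr₁, sub_self]
  have hE₂ : S₂.red (g - algebraMap K F (a : K)) ≠ 0 := by
    rw [S₂.red_sub hg₂ hm₂, hc₂, hr₂, ← map_sub]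
    exact (_root_.map_ne_zero _).mpr (sub_ne_zero.mpr (Ne.symm hne))
  have hmem₁ : g - algebraMap K F (a : K) ∈ S₁.Ov := S₁.Ov.sub_mem hg₁ hm₁
  have hE0 : g - algebraMap K F (a : K) ≠ 0 := S₂.ne_zero_of_red_ne_zero hE₂
  have hinv₁ : (g - algebraMap K F (a : K))⁻¹ ∉ S₁.Ov := (S₁.red_eq_zero_iff hmem₁ hE0).mp hE₁
  have hinv₂ : (g - algebraMap K F (a : K))⁻¹ ∈ S₂.Ov := S₂.inv_mem_of_red_ne_zero hE₂
  intro hle
  exact hinv₁ (hle hinv₂)

/-- **incomparability from a function with two different constant reductions** (old functions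
on `w_P`, `w_P'`). -/
theorem dist_of_red_ne (S₁ : ValSetup K F k Fk₁) (S₂ : ValSetup K F k Fk₂) (hA : S₁.A = S₂.A)
    (hres : ∀ (x : K) (h : x ∈ S₁.A) (h' : x ∈ S₂.A), S₁.res ⟨x, h⟩ = S₂.res ⟨x, h'⟩)
    (g : F) (hg₁ : g ∈ S₁.Ov) (hg₂ : g ∈ S₂.Ov) (c₁ c₂ : k)
    (hc₁ : S₁.red g = algebraMap k Fk₁ c₁) (hc₂ : S₂.red g = algebraMap k Fk₂ c₂)
    (hne : c₁ ≠ c₂) : ¬ S₁.Ov ≤ S₂.Ov ∧ ¬ S₂.Ov ≤ S₁.Ov :=
  ⟨dist_not_le_of_red_ne S₂ S₁ hA.symm (fun x h h' => (hres x h' h).symm) g hg₂ hg₁ c₂ c₁ hc₂ hc₁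
      (Ne.symm hne),
    dist_not_le_of_red_ne S₁ S₂ hA hres g hg₁ hg₂ c₁ c₂ hc₁ hc₂ hne⟩

end Abstract

/-! ### the values `1`, `v (ϖ)`, `v (q ^ 12)` -/

section Values

variable (B : ValuationSubring Qb) {q : ℕ}

theorem dist_val_q_lt_one (hB : (q : Qb) ∈ B.nonunits) : B.valuation (q : Qb) < 1 :=
  (ValuationSubring.mem_nonunits_iff (A := B)).mp hB

theorem dist_val_q_pos (hq0 : q ≠ 0) : 0 < B.valuation (q : Qb) :=
  zero_lt_iff.mpr ((Valuation.ne_zero_iff _).mpr (by exact_mod_cast hq0))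

/-- `v (q) ^ m < 1` for `m > 0`. -/
theorem dist_val_q_pow_lt_one (hB : (q : Qb) ∈ B.nonunits) {m : ℕ} (hm : 0 < m) :
    B.valuation (q : Qb) ^ m < 1 :=
  pow_lt_one₀ zero_le (dist_val_q_lt_one B hB) hm.ne'

/-- `v (q) ^ a < v (q) ^ b` for `b < a`. -/
theorem dist_val_q_pow_lt (hB : (q : Qb) ∈ B.nonunits) (hq0 : q ≠ 0) {a b : ℕ} (hab : b < a) :
    B.valuation (q : Qb) ^ a < B.valuation (q : Qb) ^ b := by
  obtain ⟨c, rfl⟩ := Nat.exists_eq_add_of_lt hab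
  have hc : 0 < c + 1 := Nat.succ_pos c
  have h1 := dist_val_q_pow_lt_one B hB hc
  have h2 : 0 < B.valuation (q : Qb) ^ b := pow_pos (dist_val_q_pos B hq0) b
  calc B.valuation (q : Qb) ^ (b + c + 1)
      = B.valuation (q : Qb) ^ b * B.valuation (q : Qb) ^ (c + 1) := by
        rw [← pow_add, add_assoc]
    _ < B.valuation (q : Qb) ^ b * 1 := by
        exact mul_lt_mul_of_pos_left h1 h2
    _ = B.valuation (q : Qb) ^ b := mul_one _

/-- `v (q ^ 12) ≠ 1`. -/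
theorem dist_val_q12_ne_one (hB : (q : Qb) ∈ B.nonunits) :
    B.valuation ((q : Qb) ^ 12) ≠ 1 := by
  rw [map_pow]
  exact (dist_val_q_pow_lt_one B hB (by norm_num)).ne

/-- `v (ϖ) ≠ 1` if `v (ϖ) ^ n = v (q) ^ m`, `m > 0`. -/
theorem dist_val_ne_one (hB : (q : Qb) ∈ B.nonunits) {ϖ : Qb} {n m : ℕ} (hm : 0 < m)
    (h : B.valuation ϖ ^ n = B.valuation (q : Qb) ^ m) : B.valuation ϖ ≠ 1 := by
  intro h1
  rw [h1, one_pow] at h
  exact (dist_val_q_pow_lt_one B hB hm).ne h.symm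

/-- `v (ϖ) ≠ v (q ^ 12)` if `v (ϖ) ^ n = v (q) ^ m`, `m < 12 n`. -/
theorem dist_val_ne_q12 (hB : (q : Qb) ∈ B.nonunits) (hq0 : q ≠ 0) {ϖ : Qb} {n m : ℕ}
    (hlt : m < 12 * n) (h : B.valuation ϖ ^ n = B.valuation (q : Qb) ^ m) :
    B.valuation ϖ ≠ B.valuation ((q : Qb) ^ 12) := by
  intro h1
  rw [h1, map_pow, ← pow_mul] at h
  exact (dist_val_q_pow_lt B hB hq0 hlt).ne h

end Values

/-! ### the modular pairs -/

section Modular

variable (D : ALData) [NeZero (D.Q * D.R)] [NeZero D.R] (q : ℕ) [NeZero q] (hQ : q * q = D.Q)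
  {A : ValuationSubring Qb}
  {S : ValSetup Qb (FBar (D.Q * D.R)) (IsLocalRing.ResidueField A)
    (modularFunctionFieldFullC (IsLocalRing.ResidueField A) D.R)}
  (hS : IsGaussSetup (D.Q * D.R) D.R A S)

include hS in
theorem dist_mem_nonunits (hA : A.LiesOverPrime q) : (q : Qb) ∈ S.A.nonunits := by
  rw [hS.A_eq]
  exact hA

include hS in
/-- `u₁` is a unit of `v_∞` (in the shape of `dist_of_scale`). -/
theorem dist_red_inf_u1 (hq : q.Prime) :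
    S.red (uF (D.Q * D.R) q (seedU_dvd (seedU_dvd_level D q hQ)) /
      algebraMap Qb (FBar (D.Q * D.R)) 1) ≠ 0 := by
  rw [map_one, div_one]
  exact red_uF_ne_zero hS q _ hq.two_le

include hS in
/-- `u₂` is a unit of `v_∞`. -/
theorem dist_red_inf_u2 (hq : q.Prime) (hA : A.LiesOverPrime q) :
    S.red (uF2 (D.Q * D.R) q (seedU_dvd_level D q hQ) /
      algebraMap Qb (FBar (D.Q * D.R)) 1) ≠ 0 := by
  rw [map_one, div_one]
  exact red_uF2_ne_zero hS q _ hq hA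

/-- the inverse of a unit is a unit. -/
theorem dist_red_inv_ne {K F k Fk : Type*} [Field K] [Field F] [Algebra K F] [Field k]
    [Field Fk] [Algebra k Fk] (T : ValSetup K F k Fk) {x : F} (h : T.red x ≠ 0) :
    T.red x⁻¹ ≠ 0 :=
  T.red_ne_zero (T.inv_mem_of_red_ne_zero h) (by rw [inv_inv]; exact T.mem_of_red_ne_zero h)
    (inv_ne_zero (T.ne_zero_of_red_ne_zero h))

include hS in
/-- `u₁ / q ^ 12` is a unit of `v_0`. -/
theorem dist_red_zero_u1 (hq : q.Prime) (hA : A.LiesOverPrime q) :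
    (valSetupZero D S).red (uF (D.Q * D.R) q (seedU_dvd (seedU_dvd_level D q hQ)) /
      algebraMap Qb (FBar (D.Q * D.R)) ((q : Qb) ^ 12)) ≠ 0 := by
  have h : (valSetupZero D S).red (algebraMap Qb (FBar (D.Q * D.R)) ((q : Qb) ^ 12) /
      uF (D.Q * D.R) q (seedU_dvd (seedU_dvd_level D q hQ))) ≠ 0 := by
    rw [red_const_div_uF_zero D q hQ]
    exact red_uF2_ne_zero hS q _ hq hA
  have h2 := dist_red_inv_ne _ h
  rwa [inv_div] at h2

include hS in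
/-- `u₂ / q ^ 12` is a unit of `v_0`. -/
theorem dist_red_zero_u2 (hq : q.Prime) :
    (valSetupZero D S).red (uF2 (D.Q * D.R) q (seedU_dvd_level D q hQ) /
      algebraMap Qb (FBar (D.Q * D.R)) ((q : Qb) ^ 12)) ≠ 0 := by
  have h : (valSetupZero D S).red (algebraMap Qb (FBar (D.Q * D.R)) ((q : Qb) ^ 12) /
      uF2 (D.Q * D.R) q (seedU_dvd_level D q hQ)) ≠ 0 := by
    rw [red_const_div_uF2_zero D q hQ]
    exact red_uF_ne_zero hS q _ hq.two_le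
  have h2 := dist_red_inv_ne _ h
  rwa [inv_div] at h2

include hS hQ in
/-- **`v_∞` and `v_0` are incomparable** (from `u₁`: values `1` and `v (q ^ 12)`). -/
theorem dist_inf_zero (hq : q.Prime) (hA : A.LiesOverPrime q) :
    ¬ S.Ov ≤ (valSetupZero D S).Ov ∧ ¬ (valSetupZero D S).Ov ≤ S.Ov := by
  refine dist_of_scale S (valSetupZero D S) rfl _ 1 ((q : Qb) ^ 12)
    (dist_red_inf_u1 D q hQ hS hq) (dist_red_zero_u1 D q hQ hS hq hA) ?_
  rw [map_one]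
  exact (dist_val_q12_ne_one S.A (dist_mem_nonunits D q hS hA)).symm

variable {FkT : Type*} [Field FkT] [Algebra (IsLocalRing.ResidueField A) FkT]
  (T : ValSetup Qb (FBar (D.Q * D.R)) (IsLocalRing.ResidueField A) FkT)

include hS in
/-- **`v_∞` versus `T`**, `u₁ / ϖ` a unit of `T`, `v (ϖ) ≠ 1`  (`T = w_P`). -/
theorem dist_inf_of_u1 (hq : q.Prime) (hTA : S.A = T.A) (ϖ : Qb)
    (hT : T.red (uF (D.Q * D.R) q (seedU_dvd (seedU_dvd_level D q hQ)) /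
      algebraMap Qb (FBar (D.Q * D.R)) ϖ) ≠ 0)
    (hϖ : S.A.valuation ϖ ≠ 1) : ¬ S.Ov ≤ T.Ov ∧ ¬ T.Ov ≤ S.Ov := by
  refine dist_of_scale S T hTA _ 1 ϖ (dist_red_inf_u1 D q hQ hS hq) hT ?_
  rw [map_one]
  exact hϖ.symm

include hS in
/-- **`v_0` versus `T`**, `u₁ / ϖ` a unit of `T`, `v (ϖ) ≠ v (q ^ 12)`  (`T = w_P`, `T = v_m`). -/
theorem dist_zero_of_u1 (hq : q.Prime) (hA : A.LiesOverPrime q) (hTA : S.A = T.A) (ϖ : Qb)
    (hT : T.red (uF (D.Q * D.R) q (seedU_dvd (seedU_dvd_level D q hQ)) /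
      algebraMap Qb (FBar (D.Q * D.R)) ϖ) ≠ 0)
    (hϖ : S.A.valuation ϖ ≠ S.A.valuation ((q : Qb) ^ 12)) :
    ¬ (valSetupZero D S).Ov ≤ T.Ov ∧ ¬ T.Ov ≤ (valSetupZero D S).Ov := by
  refine dist_of_scale (valSetupZero D S) T hTA _ ((q : Qb) ^ 12) ϖ
    (dist_red_zero_u1 D q hQ hS hq hA) hT ?_
  exact hϖ.symm

include hS in
/-- **`v_∞` versus `T`**, `u₂ / ϖ` a unit of `T`, `v (ϖ) ≠ 1`  (`T = v_m`, `T = w_P`). -/
theorem dist_inf_of_u2 (hq : q.Prime) (hA : A.LiesOverPrime q) (hTA : S.A = T.A) (ϖ : Qb)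
    (hT : T.red (uF2 (D.Q * D.R) q (seedU_dvd_level D q hQ) /
      algebraMap Qb (FBar (D.Q * D.R)) ϖ) ≠ 0)
    (hϖ : S.A.valuation ϖ ≠ 1) : ¬ S.Ov ≤ T.Ov ∧ ¬ T.Ov ≤ S.Ov := by
  refine dist_of_scale S T hTA _ 1 ϖ (dist_red_inf_u2 D q hQ hS hq hA) hT ?_
  rw [map_one]
  exact hϖ.symm

include hS in
/-- **`v_0` versus `T`**, `u₂ / ϖ` a unit of `T`, `v (ϖ) ≠ v (q ^ 12)`  (`T = w_P`). -/
theorem dist_zero_of_u2 (hq : q.Prime) (hTA : S.A = T.A) (ϖ : Qb)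
    (hT : T.red (uF2 (D.Q * D.R) q (seedU_dvd_level D q hQ) /
      algebraMap Qb (FBar (D.Q * D.R)) ϖ) ≠ 0)
    (hϖ : S.A.valuation ϖ ≠ S.A.valuation ((q : Qb) ^ 12)) :
    ¬ (valSetupZero D S).Ov ≤ T.Ov ∧ ¬ T.Ov ≤ (valSetupZero D S).Ov := by
  refine dist_of_scale (valSetupZero D S) T hTA _ ((q : Qb) ^ 12) ϖ
    (dist_red_zero_u2 D q hQ hS hq) hT ?_
  exact hϖ.symm

include hS in
/-- **`v_∞`, `v_0` versus `w_P`**: `T` a constant reduction over `A` for which `u₁ / ϖ` is a unit,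
`ϖ ^ n = q ^ m` up to a unit (`v (ϖ) ^ n = v (q) ^ m`), `0 < m < 12 n`   (`n = q + 1`, `m = 12`). -/
theorem dist_vert_hor (hq : q.Prime) (hA : A.LiesOverPrime q) (hTA : S.A = T.A) (ϖ : Qb)
    {n m : ℕ} (hm : 0 < m) (hlt : m < 12 * n)
    (hϖ : S.A.valuation ϖ ^ n = S.A.valuation (q : Qb) ^ m)
    (hT : T.red (uF (D.Q * D.R) q (seedU_dvd (seedU_dvd_level D q hQ)) /
      algebraMap Qb (FBar (D.Q * D.R)) ϖ) ≠ 0) :
    (¬ S.Ov ≤ T.Ov ∧ ¬ T.Ov ≤ S.Ov) ∧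
      (¬ (valSetupZero D S).Ov ≤ T.Ov ∧ ¬ T.Ov ≤ (valSetupZero D S).Ov) :=
  ⟨dist_inf_of_u1 D q hQ hS T hq hTA ϖ hT
      (dist_val_ne_one S.A (dist_mem_nonunits D q hS hA) hm hϖ),
    dist_zero_of_u1 D q hQ hS T hq hA hTA ϖ hT
      (dist_val_ne_q12 S.A (dist_mem_nonunits D q hS hA) hq.ne_zero hlt hϖ)⟩

include hS in
/-- **`v_∞`, `v_0` versus `v_m`**: `T` a constant reduction over `A` for which `u₁` and
`u₂ / q ^ 12` are units  (the Igusa valuations `v_m`, SEED-U-MID). -/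
theorem dist_vert_mid (hq : q.Prime) (hA : A.LiesOverPrime q) (hTA : S.A = T.A)
    (hT1 : T.red (uF (D.Q * D.R) q (seedU_dvd (seedU_dvd_level D q hQ)) /
      algebraMap Qb (FBar (D.Q * D.R)) 1) ≠ 0)
    (hT2 : T.red (uF2 (D.Q * D.R) q (seedU_dvd_level D q hQ) /
      algebraMap Qb (FBar (D.Q * D.R)) ((q : Qb) ^ 12)) ≠ 0) :
    (¬ S.Ov ≤ T.Ov ∧ ¬ T.Ov ≤ S.Ov) ∧
      (¬ (valSetupZero D S).Ov ≤ T.Ov ∧ ¬ T.Ov ≤ (valSetupZero D S).Ov) :=
  ⟨dist_inf_of_u2 D q hQ hS T hq hA hTA _ hT2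
      (dist_val_q12_ne_one S.A (dist_mem_nonunits D q hS hA)),
    dist_zero_of_u1 D q hQ hS T hq hA hTA 1 hT1
      (by rw [map_one]; exact (dist_val_q12_ne_one S.A (dist_mem_nonunits D q hS hA)).symm)⟩

end Modular

end Fermat.Agent.S36G
end
end MergeWrap_S36_HPVal_Dist

section MergeWrap_S36_HPVal_DistFinal -- from S36/HPVal/DistFinal.lean

set_option autoImplicit false
set_option linter.style.haveILetI false
set_option linter.unusedSectionVars false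
set_option synthInstance.maxHeartbeats 400000

noncomputable section
attribute [local instance 10000] SubalgebraClass.toAlgebra HahnSeries.powerSeriesAlgebra

namespace Fermat.Agent.S36G

open ModularCurve AlgebraicCurve IntermediateField Fermat.Agent.F3 Fermat.Agent.F3G
  Fermat.Agent.GaussInt Fermat.Agent.Deuring Fermat.Agent.BadRed Fermat.Agent.HPVal
  Fermat.Agent.HP Fermat.Agent.AtkinLehner

local notation "Qb" => AlgebraicClosure ℚ

/-! ### the unit `t - a` of the Gauss valuation of level `M₀` -/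

section Unit

variable {M₀ q : ℕ} [NeZero M₀] [NeZero q] {A : ValuationSubring Qb}
  {S0 : Fermat.Agent.S18Key.RedSetup Qb (FBar M₀) (IsLocalRing.ResidueField A)
    ↥(modularFunctionFieldFullC (IsLocalRing.ResidueField A) M₀)}
  {P : Place (IsLocalRing.ResidueField A)
    ↥(modularFunctionFieldFullC (IsLocalRing.ResidueField A) M₀)}
  {FkP : Type} [Field FkP] [Algebra (IsLocalRing.ResidueField A) FkP]
  (O : WPOut M₀ q A S0 P FkP)

/-- `t` is Gauss-integral. -/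
theorem distFinal_t_mem : O.t ∈ S0.Ov := (O.t_mem O.P' O.ss').1

/-- `a ∈ S0.A`. -/
theorem distFinal_a_mem (hS0 : IsGaussRed M₀ A S0) : O.a ∈ S0.A := by
  rw [hS0.A_eq]
  exact O.a_mem

/-- `t - a` is a unit of the Gauss valuation ring of level `M₀`. -/
theorem distFinal_isU (hS0 : IsGaussRed M₀ A S0) :
    S0.IsU (O.t - algebraMap Qb (FBar M₀) O.a) := by
  have hmem : O.t - algebraMap Qb (FBar M₀) O.a ∈ S0.Ov :=
    sub_mem (distFinal_t_mem O)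
      ((Fermat.Agent.S18Key.const_mem_iff _).mpr (distFinal_a_mem O hS0))
  refine Fermat.Agent.S18Key.isU_of_red_ne_zero hmem ?_
  rw [Fermat.Agent.S18Key.red_sub (distFinal_t_mem O)
      ((Fermat.Agent.S18Key.const_mem_iff _).mpr (distFinal_a_mem O hS0)),
    Fermat.Agent.S18Key.red_const (distFinal_a_mem O hS0),
    hS0.res_eq O.a (distFinal_a_mem O hS0) O.a_mem]
  intro h0
  have h1 := O.ord_t
  rw [h0, Place.ord_zero] at h1
  exact absurd h1 (by norm_num)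

/-- the expansion of `t - a` is Gauss-integral. -/
theorem distFinal_coe_mem (hS0 : IsGaussRed M₀ A S0) :
    ((O.t - algebraMap Qb (FBar M₀) O.a : FBar M₀) : LaurentSeries Qb) ∈
      gaussSub A (modularFunctionFieldBar M₀) :=
  (hS0.mem_iff _).mp (distFinal_isU O hS0).mem

/-- the expansion of `(t - a)⁻¹` is Gauss-integral. -/
theorem distFinal_coe_inv_mem (hS0 : IsGaussRed M₀ A S0) :
    (((O.t - algebraMap Qb (FBar M₀) O.a)⁻¹ : FBar M₀) : LaurentSeries Qb) ∈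
      gaussSub A (modularFunctionFieldBar M₀) :=
  (hS0.mem_iff _).mp (distFinal_isU O hS0).inv_mem

/-- `ι₀ (t - a) / ϖ = W`. -/
theorem distFinal_div_eq :
    wpIota0 M₀ q (O.t - algebraMap Qb (FBar M₀) O.a) /
        algebraMap Qb (FBar (M₀ * q * q)) O.ϖ = wpW M₀ q O.t O.a O.ϖ := by
  unfold wpW
  rw [map_sub, AlgHom.commutes]

/-- **ABSTRACT FORM**: a constant reduction `T` of `F_{M₀ q q}` over `A` whose valuation ring
contains the old functions `ι₀ g₀`, `g₀` Gauss-integral of level `M₀`, is incomparable with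
`w_P`. -/
theorem distFinal_of_old (hS0 : IsGaussRed M₀ A S0) (hA : A.LiesOverPrime q)
    {FkT : Type*} [Field FkT] [Algebra (IsLocalRing.ResidueField A) FkT]
    (T : ValSetup Qb (FBar (M₀ * q * q)) (IsLocalRing.ResidueField A) FkT) (hTA : T.A = A)
    (hold : ∀ g₀ : FBar M₀,
      (g₀ : LaurentSeries Qb) ∈ gaussSub A (modularFunctionFieldBar M₀) →
        wpIota0 M₀ q g₀ ∈ T.Ov) :
    ¬ T.Ov ≤ O.S.Ov ∧ ¬ O.S.Ov ≤ T.Ov := by
  have hU := distFinal_isU O hS0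
  have h1 : wpIota0 M₀ q (O.t - algebraMap Qb (FBar M₀) O.a) ∈ T.Ov :=
    hold _ (distFinal_coe_mem O hS0)
  have h2 : (wpIota0 M₀ q (O.t - algebraMap Qb (FBar M₀) O.a))⁻¹ ∈ T.Ov := by
    rw [← map_inv₀]
    exact hold _ (distFinal_coe_inv_mem O hS0)
  have h0 : wpIota0 M₀ q (O.t - algebraMap Qb (FBar M₀) O.a) ≠ 0 :=
    (map_ne_zero (wpIota0 M₀ q)).mpr hU.ne_zero
  have hT : T.red (wpIota0 M₀ q (O.t - algebraMap Qb (FBar M₀) O.a) /
      algebraMap Qb (FBar (M₀ * q * q)) 1) ≠ 0 := by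
    rw [map_one, div_one]
    exact T.red_ne_zero h1 h2 h0
  have hW : O.S.red (wpIota0 M₀ q (O.t - algebraMap Qb (FBar M₀) O.a) /
      algebraMap Qb (FBar (M₀ * q * q)) O.ϖ) ≠ 0 := by
    rw [distFinal_div_eq, O.red_W]
    exact O.H.X1_ne
  have hB : (q : Qb) ∈ T.A.nonunits := by
    rw [hTA]
    exact hA
  have hϖ : T.A.valuation O.ϖ ≠ 1 := by
    refine dist_val_ne_one T.A hB (n := q + 1) (m := 1) Nat.one_pos ?_
    rw [← map_pow, O.ϖ_pow, pow_one]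
  refine dist_of_scale T O.S (hTA.trans O.A_eq.symm) _ 1 O.ϖ hT hW ?_
  rw [map_one]
  exact hϖ.symm

end Unit

/-! ### the three vertical types -/

section Vert

variable {M₀ q : ℕ} [NeZero M₀] [NeZero q] {A : ValuationSubring Qb}
  {S0 : Fermat.Agent.S18Key.RedSetup Qb (FBar M₀) (IsLocalRing.ResidueField A)
    ↥(modularFunctionFieldFullC (IsLocalRing.ResidueField A) M₀)}
  {P : Place (IsLocalRing.ResidueField A)
    ↥(modularFunctionFieldFullC (IsLocalRing.ResidueField A) M₀)}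
  {FkP : Type} [Field FkP] [Algebra (IsLocalRing.ResidueField A) FkP]
  (O : WPOut M₀ q A S0 P FkP)

/-- `F_{M₀} ≤ F_{M₀ q q}`. -/
theorem distFinal_level_le (M₀ q : ℕ) [NeZero M₀] [NeZero q] :
    modularFunctionFieldBar M₀ ≤ modularFunctionFieldBar (M₀ * q * q) :=
  (le_level_mul_right M₀ q).trans (le_level_mul_right (M₀ * q) q)

/-- `ι₀ g₀` is the old function of `g₀`. -/
theorem distFinal_isOldOf (g₀ : FBar M₀) : IsOldOf (wpIota0 M₀ q g₀) g₀ :=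
  isOldOf_oldFun2 M₀ q g₀

/-- **the pair `(∞, P)`**: `v_∞` (ANY Gauss setup of level `M₀ q q`) and `w_P` are
incomparable. -/
theorem distFinal_inf_hor (hS0 : IsGaussRed M₀ A S0) (hA : A.LiesOverPrime q)
    {N₂ : ℕ} [NeZero N₂]
    {S₂ : ValSetup Qb (FBar (M₀ * q * q)) (IsLocalRing.ResidueField A)
      (modularFunctionFieldFullC (IsLocalRing.ResidueField A) N₂)}
    (hS₂ : IsGaussSetup (M₀ * q * q) N₂ A S₂) :
    ¬ S₂.Ov ≤ O.S.Ov ∧ ¬ O.S.Ov ≤ S₂.Ov :=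
  distFinal_of_old O hS0 hA S₂ hS₂.A_eq fun g₀ hg₀ =>
    isOldOf_mem_gauss hS₂ (distFinal_level_le M₀ q) (distFinal_isOldOf g₀) hg₀

/-- **the pair `(0, P)`**: `v_0 = v_∞ ∘ w_{q²}` and `w_P` are incomparable. -/
theorem distFinal_zero_hor (hS0 : IsGaussRed M₀ A S0) (hA : A.LiesOverPrime q)
    {N₂ : ℕ} [NeZero N₂]
    {S₂ : ValSetup Qb (FBar (M₀ * q * q)) (IsLocalRing.ResidueField A)
      (modularFunctionFieldFullC (IsLocalRing.ResidueField A) N₂)}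
    (hS₂ : IsGaussSetup (M₀ * q * q) N₂ A S₂)
    (D : ALData) [NeZero D.Q] [NeZero D.R] [NeZero (D.Q * D.R)]
    (hM : M₀ * q * q = D.Q * D.R) (hR : M₀ = D.R) :
    ¬ (valSetupZeroAt D hM S₂).Ov ≤ O.S.Ov ∧ ¬ O.S.Ov ≤ (valSetupZeroAt D hM S₂).Ov :=
  distFinal_of_old O hS0 hA (valSetupZeroAt D hM S₂)
    ((valSetupZeroAt_A D hM S₂).trans hS₂.A_eq) fun g₀ hg₀ =>
      isOldTwist_mem_zero hS₂ (wAt D hM) D.Q (qExpand_mem_of_level_eq D hM hR)
        (isOldTwist_wAt D hM hR (distFinal_isOldOf g₀)) hg₀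

/-- **the pair `(m, P)`**: a middle valuation `v_z` (valuation ring `expOv ε A`, `ε` a middle
expansion) and `w_P` are incomparable. -/
theorem distFinal_mid_hor (hS0 : IsGaussRed M₀ A S0) (hA : A.LiesOverPrime q)
    {Fkz : Type*} [Field Fkz] [Algebra (IsLocalRing.ResidueField A) Fkz]
    (Sz : ValSetup Qb (FBar (M₀ * q * q)) (IsLocalRing.ResidueField A) Fkz) (hAz : Sz.A = A)
    {z : Qbˣ} {ε : ↥(modularFunctionFieldBar (M₀ * q * q)) →ₐ[Qb] LaurentSeries Qb}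
    (hε : IsMidExp M₀ q z ε) (hSz : ∀ f : FBar (M₀ * q * q), f ∈ Sz.Ov ↔ f ∈ expOv ε A) :
    ¬ Sz.Ov ≤ O.S.Ov ∧ ¬ O.S.Ov ≤ Sz.Ov :=
  distFinal_of_old O hS0 hA Sz hAz fun g₀ hg₀ =>
    (hSz _).mpr (isOldOf_mem_expOv M₀ q hε (distFinal_isOldOf g₀) hg₀)

/-- the same for a middle setup in the sense of `IsMidSetup`. -/
theorem distFinal_midSetup_hor (hS0 : IsGaussRed M₀ A S0) (hA : A.LiesOverPrime q)
    {Sz : ValSetup Qb ↥(modularFunctionFieldBar (M₀ * q * q)) (IsLocalRing.ResidueField A)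
      ↥(igField (IsLocalRing.ResidueField A) M₀)}
    {z : Qbˣ} {ε : ↥(modularFunctionFieldBar (M₀ * q * q)) →ₐ[Qb] LaurentSeries Qb}
    (hε : IsMidExp M₀ q z ε) (hSz : IsMidSetup M₀ q A ε Sz) :
    ¬ Sz.Ov ≤ O.S.Ov ∧ ¬ O.S.Ov ≤ Sz.Ov :=
  distFinal_mid_hor O hS0 hA Sz hSz.A_eq hε hSz.mem_iff

end Vert

/-! ### the pair `(P, P')` -/

section HorHor

variable {M₀ q : ℕ} [NeZero M₀] [NeZero q] {A : ValuationSubring Qb}
  {S0 : Fermat.Agent.S18Key.RedSetup Qb (FBar M₀) (IsLocalRing.ResidueField A)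
    ↥(modularFunctionFieldFullC (IsLocalRing.ResidueField A) M₀)}
  {P P' : Place (IsLocalRing.ResidueField A)
    ↥(modularFunctionFieldFullC (IsLocalRing.ResidueField A) M₀)}
  {FkP : Type} [Field FkP] [Algebra (IsLocalRing.ResidueField A) FkP]
  {FkP' : Type} [Field FkP'] [Algebra (IsLocalRing.ResidueField A) FkP']

/-- **the pair `(P, P')`**, `P ≠ P'` supersingular: `w_P` and `w_P'` are incomparable. -/
theorem distFinal_hor_hor (hS0 : IsGaussRed M₀ A S0) (hq : q.Prime) (hqM : ¬ q ∣ M₀)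
    (haux : AuxLevelOK q M₀) (hA : A.LiesOverPrime q)
    (hP : IsSSPlace (IsLocalRing.ResidueField A) M₀ q P)
    (hP' : IsSSPlace (IsLocalRing.ResidueField A) M₀ q P') (hne : P ≠ P')
    (O : WPOut M₀ q A S0 P FkP) (O' : WPOut M₀ q A S0 P' FkP') :
    ¬ O.S.Ov ≤ O'.S.Ov ∧ ¬ O'.S.Ov ≤ O.S.Ov := by
  obtain ⟨g₀, h1, h2, -, h4, h5⟩ := seedOld_exists_sep M₀ hq hqM haux hA hP hP' hne
  rw [← hS0.red_eq hq hA hqM] at h4 h5
  obtain ⟨a1, a2⟩ := O.old0 g₀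
    (hS0.mem_discRing hq hA hqM h1 h2 (seedOld_ord_jC_nonneg M₀ hq hA hP)) 1 h4
  obtain ⟨b1, b2⟩ := O'.old0 g₀
    (hS0.mem_discRing hq hA hqM h1 h2 (seedOld_ord_jC_nonneg M₀ hq hA hP')) 0 h5
  refine dist_of_red_ne O.S O'.S (O.A_eq.trans O'.A_eq.symm) (fun x h h' => ?_) _ a1 b1 1 0
    a2 b2 one_ne_zero
  have hx : x ∈ A := O.A_eq ▸ h
  rw [O.res_eq x h hx, O'.res_eq x h' hx]

end HorHor

end Fermat.Agent.S36G
end
end MergeWrap_S36_HPVal_DistFinal
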