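import Mathlib
import Fermat.Agent.MUL.Lib.BadRed.HPVal.CoreNP
import Fermat.Agent.MUL.Lib.Deuring.Setup
import Fermat.Agent.MUL.R38.Ret.Junction
import Fermat.Agent.MUL.Orig.Lib.BadRed.FundIneq
import Fermat.Agent.MUL.Lib.Deuring.RedSpace
import Fermat.Agent.MUL.Lib.Deuring.Basic
import Fermat.Agent.MUL.Lib.HP.OfAdjoin
import Fermat.Agent.MUL.Lib.BadRed.HPVal.DiscRes
import Fermat.Agent.MUL.Lib.RR.OfSep
import Fermat.Agent.MUL.Lib.BadRed.HPVal.DiscNorm
import Fermat.Agent.MUL.S36.HPVal.DiscMod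
import Fermat.Agent.MUL.Lib.BadRed.HPVal.DiscLatAsm
import Fermat.Agent.MUL.Lib.BadRed.HPVal.DiscLatWrap
import Fermat.Agent.MUL.S36.HPVal.KCtRat
import Fermat.Agent.MUL.S36.HPVal.Deg
import Fermat.Agent.MUL.S36.HPVal.Defs
import Fermat.Agent.MUL.S36.HPVal.KCtPole
import Fermat.Agent.MUL.S36.HPVal.ValDatum
import Fermat.Agent.MUL.S36.HPVal.DiscModG
import Fermat.Agent.MUL.S36.Seed.OldMod

section MergeWrap_Lib_BadRed_HPVal_CoreScale -- from Lib/BadRed/HPVal/CoreScale.lean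

set_option autoImplicit false

noncomputable section

namespace Fermat.Agent.HPVal

open Polynomial

variable {E : Type*} [Field E] (O : ValuationSubring E)

/-- the data of the scaled Kronecker form. -/
structure CscData (q : ℕ) where
  /-- `ϖ`, with `ϖ ^ (q + 1) = q u` -/
  ϖ : O
  /-- the unit `u` -/
  u : O
  /-- the inverse of `u` -/
  uinv : O
  /-- `Y = x₁ / ϖ ^ q` -/
  Y : O
  /-- the polynomial `R` of the Kronecker congruence `Ψ = (X - x₁ ^ q) (X ^ q - x₁) + q R` -/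
  R : O[X]
  hq : 2 ≤ q
  hu : u * uinv = 1
  hϖ : ϖ ^ (q + 1) = (q : O) * u
  hϖ0 : ϖ ≠ 0
  hR : R.natDegree ≤ q

namespace CscData

variable {O} {q : ℕ} (D : CscData O q)

/-- `x₁ = ϖ ^ q Y`. -/
def x₁ : E := (D.ϖ : E) ^ q * (D.Y : E)

/-- the Kronecker form `Ψ = (X - x₁ ^ q) (X ^ q - x₁) + q R`. -/
def psi : E[X] :=
  (X - C (D.x₁ ^ q)) * (X ^ q - C D.x₁) + C (q : E) * D.R.map O.subtype

/-- the scaled Kronecker form `Ψ_s = (X - ϖ ^ (q² - 1) Y ^ q) (X ^ q - Y) + u⁻¹ R(ϖ X)`. -/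
def scaled : O[X] :=
  (X - C (D.ϖ ^ (q ^ 2 - 1) * D.Y ^ q)) * (X ^ q - C D.Y) + C D.uinv * D.R.comp (C D.ϖ * X)

theorem coe_ϖ_ne_zero : (D.ϖ : E) ≠ 0 := fun h => D.hϖ0 (Subtype.ext h)

theorem q_eq : (q : E) = (D.ϖ : E) ^ (q + 1) * (D.uinv : E) := by
  have h1 : ((D.ϖ ^ (q + 1) : O) : E) = (((q : O) * D.u : O) : E) := by rw [D.hϖ]
  have h2 : ((D.u * D.uinv : O) : E) = 1 := by rw [D.hu]; rfl
  push_cast at h1 h2
  rw [h1, mul_assoc, h2, mul_one]

end CscData

theorem csc_sq_sub_one {q : ℕ} (hq : 2 ≤ q) : q ^ 2 - 1 + 1 = q ^ 2 := by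
  have : 1 ≤ q ^ 2 := Nat.one_le_pow _ _ (by omega)
  omega

theorem csc_one_le_sq_sub_one {q : ℕ} (hq : 2 ≤ q) : 1 ≤ q ^ 2 - 1 := by
  have : 2 ^ 2 ≤ q ^ 2 := Nat.pow_le_pow_left hq 2
  omega

variable {O} {q : ℕ} (D : CscData O q)

/-- **`Ψ(ϖ X) = ϖ ^ (q + 1) Ψ_s(X)`**. -/
theorem csc_comp_eq :
    D.psi.comp (C (D.ϖ : E) * X) = C ((D.ϖ : E) ^ (q + 1)) * D.scaled.map O.subtype := by
  have hq2 : (D.ϖ : E) ^ (q ^ 2) = (D.ϖ : E) * (D.ϖ : E) ^ (q ^ 2 - 1) := by
    rw [← pow_succ', csc_sq_sub_one D.hq]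
  have hx : D.x₁ ^ q = (D.ϖ : E) * ((D.ϖ : E) ^ (q ^ 2 - 1) * (D.Y : E) ^ q) := by
    rw [CscData.x₁, mul_pow, ← pow_mul, ← sq, hq2, mul_assoc]
  have hmap : D.scaled.map O.subtype =
      (X - C ((D.ϖ : E) ^ (q ^ 2 - 1) * (D.Y : E) ^ q)) * (X ^ q - C (D.Y : E)) +
        C (D.uinv : E) * (D.R.map O.subtype).comp (C (D.ϖ : E) * X) := by
    simp only [CscData.scaled, Polynomial.map_add, Polynomial.map_mul, Polynomial.map_sub,
      Polynomial.map_X, Polynomial.map_C, Polynomial.map_pow, Polynomial.map_comp, map_mul,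
      map_pow, ValuationSubring.subtype_apply]
  rw [hmap, CscData.psi]
  simp only [add_comp, mul_comp, sub_comp, X_comp, C_comp, pow_comp]
  rw [hx]
  conv_lhs => rw [D.q_eq]
  rw [CscData.x₁]
  simp only [map_mul, map_pow, mul_pow]
  ring

/-- **`Ψ_s = Ψ(ϖ X) / ϖ ^ (q + 1)`**. -/
theorem csc_scaled_map :
    D.scaled.map O.subtype =
      C (((D.ϖ : E) ^ (q + 1))⁻¹) * D.psi.comp (C (D.ϖ : E) * X) := by
  have h0 : (D.ϖ : E) ^ (q + 1) ≠ 0 := pow_ne_zero _ D.coe_ϖ_ne_zero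
  rw [csc_comp_eq, ← mul_assoc, ← C_mul, inv_mul_cancel₀ h0, C_1, one_mul]

/-- the principal part `(X - a) (X ^ q - Y)` is monic of degree `q + 1`. -/
theorem csc_main_monic (a : O) :
    ((X - C a) * (X ^ q - C D.Y) : O[X]).Monic :=
  (monic_X_sub_C a).mul (monic_X_pow_sub_C D.Y (by have := D.hq; omega))

theorem csc_main_natDegree (a : O) :
    ((X - C a) * (X ^ q - C D.Y) : O[X]).natDegree = q + 1 := by
  rw [((monic_X_sub_C a).natDegree_mul (monic_X_pow_sub_C D.Y (by have := D.hq; omega))),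
    natDegree_X_sub_C, natDegree_X_pow_sub_C]
  ring

theorem csc_tail_natDegree_le : (C D.uinv * D.R.comp (C D.ϖ * X)).natDegree ≤ q := by
  refine (natDegree_C_mul_le _ _).trans ?_
  refine natDegree_comp_le.trans ?_
  have h1 : (C D.ϖ * X : O[X]).natDegree ≤ 1 :=
    (natDegree_C_mul_le _ _).trans (natDegree_X_le)
  calc D.R.natDegree * (C D.ϖ * X : O[X]).natDegree ≤ q * 1 := Nat.mul_le_mul D.hR h1
    _ = q := mul_one q

/-- **`Ψ_s` is monic.** -/
theorem csc_scaled_monic : D.scaled.Monic := by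
  rw [CscData.scaled]
  refine (csc_main_monic D _).add_of_left ?_
  rw [degree_eq_natDegree (csc_main_monic D _).ne_zero, csc_main_natDegree]
  refine lt_of_le_of_lt degree_le_natDegree ?_
  exact_mod_cast Nat.lt_succ_of_le (csc_tail_natDegree_le D)

/-- **`Ψ_s` has degree `q + 1`.** -/
theorem csc_scaled_natDegree : D.scaled.natDegree = q + 1 := by
  rw [CscData.scaled]
  rw [natDegree_add_eq_left_of_natDegree_lt, csc_main_natDegree]
  rw [csc_main_natDegree]
  exact Nat.lt_succ_of_le (csc_tail_natDegree_le D)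

/-- **the reduction of `Ψ_s`**: `X ^ (q + 1) - y X + c`, `y = ρ Y`, `c = ρ (u⁻¹) ρ (R(0))`. -/
theorem csc_scaled_map_res {κ : Type*} [CommRing κ] (ρ : O →+* κ) (hρ : ρ D.ϖ = 0) :
    D.scaled.map ρ =
      X ^ (q + 1) - C (ρ D.Y) * X + C (ρ D.uinv * ρ (D.R.coeff 0)) := by
  have h1 : ρ (D.ϖ ^ (q ^ 2 - 1) * D.Y ^ q) = 0 := by
    rw [map_mul, map_pow, hρ, zero_pow (by have := csc_one_le_sq_sub_one D.hq; omega), zero_mul]
  have h2 : (D.R.comp (C D.ϖ * X)).map ρ = C (ρ (D.R.coeff 0)) := by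
    rw [Polynomial.map_comp, Polynomial.map_mul, Polynomial.map_C, Polynomial.map_X, hρ, C_0,
      zero_mul, comp_zero, ← coeff_zero_eq_eval_zero, coeff_map]
  rw [CscData.scaled, Polynomial.map_add, Polynomial.map_mul, Polynomial.map_mul,
    Polynomial.map_sub, Polynomial.map_sub, Polynomial.map_X, Polynomial.map_C, Polynomial.map_C,
    Polynomial.map_C, Polynomial.map_pow, Polynomial.map_X, h1, h2, C_0, sub_zero, C_mul]
  ring

/-- the coefficients of the reduction of `Ψ_s`. -/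
theorem csc_scaled_map_res_coeff_zero {κ : Type*} [CommRing κ] (ρ : O →+* κ) (hρ : ρ D.ϖ = 0) :
    ρ (D.scaled.coeff 0) = ρ D.uinv * ρ (D.R.coeff 0) := by
  have h := congrArg (fun p : κ[X] => p.coeff 0) (csc_scaled_map_res D ρ hρ)
  simpa [coeff_map] using h

/-- **`Ψ_s (x / ϖ) = Ψ (x) / ϖ ^ (q + 1)`**. -/
theorem csc_aeval_scaled {F : Type*} [Field F] [Algebra E F] (x : F) :
    aeval (x / algebraMap E F (D.ϖ : E)) (D.scaled.map O.subtype) =
      (algebraMap E F (D.ϖ : E) ^ (q + 1))⁻¹ * aeval x D.psi := by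
  have h0 : algebraMap E F (D.ϖ : E) ≠ 0 := (_root_.map_ne_zero _).mpr D.coe_ϖ_ne_zero
  rw [csc_scaled_map, map_mul, aeval_C, aeval_comp, map_mul, aeval_C, aeval_X, map_inv₀, map_pow,
    mul_div_cancel₀ _ h0]

/-- **the roots of `Ψ_s` are the roots of `Ψ` divided by `ϖ`.** -/
theorem csc_root_iff {F : Type*} [Field F] [Algebra E F] (x : F) :
    aeval (x / algebraMap E F (D.ϖ : E)) (D.scaled.map O.subtype) = 0 ↔ aeval x D.psi = 0 := by
  have h0 : (algebraMap E F (D.ϖ : E) ^ (q + 1))⁻¹ ≠ 0 :=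
    inv_ne_zero (pow_ne_zero _ ((_root_.map_ne_zero _).mpr D.coe_ϖ_ne_zero))
  rw [csc_aeval_scaled, mul_eq_zero]
  exact ⟨fun h => h.resolve_left h0, fun h => Or.inr h⟩

/-- the same with the root of `Ψ_s` as the variable. -/
theorem csc_root_iff' {F : Type*} [Field F] [Algebra E F] (w : F) :
    aeval w (D.scaled.map O.subtype) = 0 ↔ aeval (algebraMap E F (D.ϖ : E) * w) D.psi = 0 := by
  have h0 : algebraMap E F (D.ϖ : E) ≠ 0 := (_root_.map_ne_zero _).mpr D.coe_ϖ_ne_zero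
  rw [← csc_root_iff, mul_div_cancel_left₀ _ h0]

/-- the constant `c` of the reduction is a constant of the residue field if `ρ (u⁻¹)` and
`ρ (R(0))` are. -/
theorem csc_const_mem_range {κ k : Type*} [CommRing κ] [CommRing k] [Algebra k κ] (ρ : O →+* κ)
    (hu : ρ D.uinv ∈ (algebraMap k κ).range) (hR : ρ (D.R.coeff 0) ∈ (algebraMap k κ).range) :
    ρ D.uinv * ρ (D.R.coeff 0) ∈ (algebraMap k κ).range :=
  mul_mem hu hR

end Fermat.Agent.HPVal
end
end MergeWrap_Lib_BadRed_HPVal_CoreScale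

section MergeWrap_Lib_BadRed_HPVal_CoreHyp -- from Lib/BadRed/HPVal/CoreHyp.lean

set_option autoImplicit false
set_option linter.unusedSectionVars false
set_option linter.unusedVariables false
set_option linter.style.haveILetI false

noncomputable section

namespace Fermat.Agent.HPVal

open Polynomial Fermat.Agent.BadRed Fermat.Agent.Deuring

variable {E F : Type*} [Field E] [Field F] [Algebra E F]
variable {κ1 Fk : Type*} [Field κ1] [Field Fk]

/-- `ρ1 ϖ = 0`: `ϖ ^ (q + 1) = q u` and `q = 0` in the residue field. -/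
theorem chyp_ρ_ϖ {O1 : ValuationSubring E} {q : ℕ} (D : CscData O1 q) (ρ1 : O1 →+* κ1)
    (hchar : (q : κ1) = 0) : ρ1 D.ϖ = 0 := by
  have h1 := congrArg ρ1 D.hϖ
  rw [map_pow, map_mul, map_natCast, hchar, zero_mul] at h1
  exact pow_eq_zero_iff (by omega) |>.mp h1

/-- **CORE-HYP, general form.** -/
theorem cnpHyp_of_csc {O1 : ValuationSubring E} {q : ℕ} (D : CscData O1 q) (ρ1 : O1 →+* κ1)
    (hρ1_surj : Function.Surjective ρ1) (hρ1 : ∀ a : O1, ρ1 a = 0 → ¬ IsUnit a)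
    (hq : q.Prime) (hchar : (q : κ1) = 0) {y c : κ1} (hY : ρ1 D.Y = y)
    (hc : ρ1 D.uinv * ρ1 (D.R.coeff 0) = c) (hc0 : c ≠ 0)
    {x z : F} (hx : aeval x D.psi = 0) (hz : aeval z D.psi = 0) (hxz : x ≠ z)
    (O : ValuationSubring F) (hO : LiesOverV O1 O) (ρ : O →+* Fk)
    (hρ : ∀ f : O, ¬ IsUnit f → ρ f = 0) :
    ∃ j : κ1 →+* Fk, CnpHyp O1 O ρ1 ρ j q D.scaled y c
      (x / algebraMap E F (D.ϖ : E)) (z / algebraMap E F (D.ϖ : E)) := by
  obtain ⟨j, hj⟩ := cnp_exists_resHom hO ρ1 ρ hρ1_surj hρ1 hρ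
  have h0 : algebraMap E F (D.ϖ : E) ≠ 0 := (_root_.map_ne_zero _).mpr D.coe_ϖ_ne_zero
  refine ⟨j, ?_⟩
  exact
    { liesOver := hO
      ρ1_ker := hρ1
      ρ_ker := hρ
      comp := hj
      prime := hq
      char := hchar
      monic := csc_scaled_monic D
      red := by rw [csc_scaled_map_res D ρ1 (chyp_ρ_ϖ D ρ1 hchar), hY, hc]
      c_ne := hc0
      ne := fun h => hxz (by
        have := congrArg (fun t => t * algebraMap E F (D.ϖ : E)) h
        simpa [div_mul_cancel₀ _ h0] using this)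
      rootW := by
        rw [← cnp_aeval_map_subtype]
        exact (csc_root_iff D x).mpr hx
      rootZ := by
        rw [← cnp_aeval_map_subtype]
        exact (csc_root_iff D z).mpr hz }

section Setup

variable {K k : Type*} [Field K] [Algebra K E] [Field k] [Algebra k κ1]

/-- the residue characteristic in `κ1`. -/
theorem chyp_char {q : ℕ} (hchar : (q : k) = 0) : (q : κ1) = 0 := by
  have := congrArg (algebraMap k κ1) hchar
  simpa using this

/-- **CORE-HYP** for `S1 : ValSetup K E k κ1` (the disc valuation), `c` a constant of `k`. -/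
theorem cnpHyp_of_csc_setup (S1 : ValSetup K E k κ1) {q : ℕ} (D : CscData S1.Ov q)
    (hq : q.Prime) (hchar : (q : k) = 0) {y : κ1} (hY : S1.ρ D.Y = y) {c : k}
    (hc : S1.ρ D.uinv * S1.ρ (D.R.coeff 0) = algebraMap k κ1 c) (hc0 : c ≠ 0)
    {x z : F} (hx : aeval x D.psi = 0) (hz : aeval z D.psi = 0) (hxz : x ≠ z)
    (O : ValuationSubring F) (hO : LiesOverV S1.Ov O) (ρ : O →+* Fk)
    (hρ : ∀ f : O, ¬ IsUnit f → ρ f = 0) :
    ∃ j : κ1 →+* Fk, CnpHyp S1.Ov O S1.ρ ρ j q D.scaled y (algebraMap k κ1 c)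
      (x / algebraMap E F (D.ϖ : E)) (z / algebraMap E F (D.ϖ : E)) :=
  cnpHyp_of_csc D S1.ρ S1.ρ_surj (fun a h => (S1.ρ_eq_zero_iff a).mp h) hq (chyp_char hchar) hY hc
    ((_root_.map_ne_zero _).mpr hc0) hx hz hxz O hO ρ hρ

end Setup

end Fermat.Agent.HPVal
end
end MergeWrap_Lib_BadRed_HPVal_CoreHyp

section MergeWrap_Lib_BadRed_HPVal_LatTower -- from Lib/BadRed/HPVal/LatTower.lean

set_option autoImplicit false
set_option linter.style.haveILetI false
set_option linter.unusedSectionVars false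
set_option linter.unusedVariables false

noncomputable section

namespace Fermat.Agent.HPVal

open Fermat.Agent.Deuring

variable {K F0 F k Fk0 Fk : Type*} [Field K] [Field F0] [Algebra K F0] [Field F] [Algebra K F]
  [Field k] [Field Fk0] [Algebra k Fk0] [Field Fk] [Algebra k Fk]

/-- the products `ι (e i) * m j` of an orthonormal family of `S0` with the generators are
orthonormal for `S`. -/
theorem latTower_linearIndependent (S0 : ValSetup K F0 k Fk0) (S : ValSetup K F k Fk)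
    (ι : F0 →+* F) (ιk : Fk0 →+* Fk)
    (hιk : ∀ c : k, ιk (algebraMap k Fk0 c) = algebraMap k Fk c)
    (hmem : ∀ f ∈ S0.Ov, ι f ∈ S.Ov) (hred : ∀ f ∈ S0.Ov, S.red (ι f) = ιk (S0.red f))
    {n : ℕ} (m : Fin n → F) (hm : ∀ j, m j ∈ S.Ov)
    (hli : ∀ c : Fin n → Fk0, ∑ j, ιk (c j) * S.red (m j) = 0 → ∀ j, c j = 0)
    {d : ℕ} (e : Fin d → F0) (he : ∀ i, e i ∈ S0.Ov)
    (heli : LinearIndependent k (fun i => S0.red (e i))) :
    LinearIndependent k (fun p : Fin d × Fin n => S.red (ι (e p.1) * m p.2)) := by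
  classical
  rw [Fintype.linearIndependent_iff]
  intro l hl p
  have hred' : ∀ p : Fin d × Fin n, S.red (ι (e p.1) * m p.2) =
      ιk (S0.red (e p.1)) * S.red (m p.2) := fun p => by
    rw [S.red_mul (hmem _ (he p.1)) (hm p.2), hred _ (he p.1)]
  have h1 : ∑ j, ιk (∑ i, l (i, j) • S0.red (e i)) * S.red (m j) = 0 := by
    rw [← hl, Fintype.sum_prod_type_right]
    refine Finset.sum_congr rfl fun j _ => ?_
    rw [map_sum, Finset.sum_mul]
    refine Finset.sum_congr rfl fun i _ => ?_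
    rw [hred' (i, j), Algebra.smul_def, Algebra.smul_def, map_mul, hιk, mul_assoc]
  have h2 := hli (fun j => ∑ i, l (i, j) • S0.red (e i)) h1 p.2
  exact (Fintype.linearIndependent_iff.mp heli) (fun i => l (i, p.2)) h2 p.1

/-- **the lattice property of a tower.** -/
theorem hasLattice_of_tower (S0 : ValSetup K F0 k Fk0) (S : ValSetup K F k Fk)
    (hL0 : HasLattice S0) (ι : F0 →+* F) (ιk : Fk0 →+* Fk)
    (hιK : ∀ c : K, ι (algebraMap K F0 c) = algebraMap K F c)
    (hιk : ∀ c : k, ιk (algebraMap k Fk0 c) = algebraMap k Fk c)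
    (hmem : ∀ f ∈ S0.Ov, ι f ∈ S.Ov) (hred : ∀ f ∈ S0.Ov, S.red (ι f) = ιk (S0.red f))
    {n : ℕ} (m : Fin n → F) (hm : ∀ j, m j ∈ S.Ov)
    (hgen : ∀ x : F, ∃ c : Fin n → F0, x = ∑ j, ι (c j) * m j)
    (hli : ∀ c : Fin n → Fk0, ∑ j, ιk (c j) * S.red (m j) = 0 → ∀ j, c j = 0) :
    HasLattice S := by
  classical
  apply Fermat.Agent.S27GR.hasLattice_of_cover
  intro t
  -- the coefficients of the elements of `t`
  have hc : ∀ x : F, ∃ c : Fin n → F0, x = ∑ j, ι (c j) * m j := hgen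
  choose c hcx using hc
  -- the span of all coefficients
  set W0 : Submodule K F0 :=
    Submodule.span K ((fun p : F × Fin n => c p.1 p.2) '' ((t : Set F) ×ˢ (Set.univ : Set (Fin n))))
    with hW0
  haveI : FiniteDimensional K W0 :=
    FiniteDimensional.span_of_finite K
      (Set.Finite.image _ (Set.Finite.prod t.finite_toSet Set.finite_univ))
  obtain ⟨d, e, heW, heO, hespan, heli⟩ := hL0 W0 inferInstance
  refine ⟨ULift (Fin d × Fin n), fun p => ι (e p.down.1) * m p.down.2, ?_, ?_, ?_⟩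
  · intro p
    exact mul_mem (hmem _ (heO p.down.1)) (hm p.down.2)
  · have h := latTower_linearIndependent S0 S ι ιk hιk hmem hred m hm hli e heO heli
    exact h.comp (fun p : ULift (Fin d × Fin n) => p.down) ULift.down_injective
  · intro f hf
    rw [hcx f]
    refine Submodule.sum_mem _ fun j _ => ?_
    -- `c f j ∈ W0 = span (e i)`
    have hcW : c f j ∈ W0 :=
      Submodule.subset_span ⟨(f, j), ⟨hf, Set.mem_univ j⟩, rfl⟩
    rw [← hespan] at hcW
    obtain ⟨μ, hμ⟩ := (Submodule.mem_span_range_iff_exists_fun K).mp hcW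
    rw [← hμ, map_sum, Finset.sum_mul]
    refine Submodule.sum_mem _ fun i _ => ?_
    have e1 : ι (μ i • e i) * m j = μ i • (ι (e i) * m j) := by
      rw [Algebra.smul_def, map_mul, hιK, Algebra.smul_def, mul_assoc]
    rw [e1]
    exact Submodule.smul_mem _ _ (Submodule.subset_span ⟨⟨(i, j)⟩, rfl⟩)

end Fermat.Agent.HPVal
end
end MergeWrap_Lib_BadRed_HPVal_LatTower

section MergeWrap_Lib_BadRed_HPVal_CoreCover -- from Lib/BadRed/HPVal/CoreCover.lean

set_option autoImplicit false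
set_option linter.style.haveILetI false
set_option linter.unusedSectionVars false
set_option linter.unusedVariables false

noncomputable section

namespace Fermat.Agent.HPVal

open Fermat.Agent.Deuring Fermat.Agent.BadRed

section Abstract

variable {E F : Type*} [Field E] [Field F] [Algebra E F]
  {Ov : ValuationSubring E} {O : ValuationSubring F} {κ : Type*} [Fintype κ] {x : κ → F}

theorem ccov_one_not_mem_nonunits (A : ValuationSubring E) : (1 : E) ∉ A.nonunits := by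
  rw [ValuationSubring.mem_nonunits_iff, map_one]
  exact lt_irrefl _

theorem ccov_nonunits_le (A : ValuationSubring E) {a : E} (h : a ∈ A.nonunits) : a ∈ A := by
  rw [ValuationSubring.mem_nonunits_iff] at h
  exact (A.valuation_le_one_iff a).mp h.le

theorem ccov_inv_mem_nonunits (A : ValuationSubring E) {a : E} (h : a ∉ A) :
    a⁻¹ ∈ A.nonunits := by
  rw [ValuationSubring.mem_nonunits_iff, map_inv₀]
  have h1 : 1 < A.valuation a := by
    rw [← not_le, A.valuation_le_one_iff]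
    exact h
  exact inv_lt_one_of_one_lt₀ h1

/-- a unit: in `A`, not in the maximal ideal, has its inverse in `A`. -/
theorem ccov_inv_mem (A : ValuationSubring E) {a : E} (h : a ∈ A) (hn : a ∉ A.nonunits) :
    a⁻¹ ∈ A := by
  rw [ValuationSubring.mem_nonunits_iff, not_lt] at hn
  have h1 : A.valuation a = 1 := le_antisymm ((A.valuation_le_one_iff a).mpr h) hn
  rw [← A.valuation_le_one_iff, map_inv₀, h1, inv_one]

/-- a combination with integral coefficients is integral. -/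
theorem ccov_sum_mem (hO : LiesOverV Ov O) (hx : ResIndep Ov O x) {a : κ → E}
    (ha : ∀ i, a i ∈ Ov) : ∑ i, algebraMap E F (a i) * x i ∈ O :=
  sum_mem fun i _ => mul_mem ((hO.mem_iff _).mpr (ha i)) (hx.1 i)

/-- the normalised combination. -/
theorem ccov_normalise (a : κ → E) (c : E) :
    ∑ i, algebraMap E F (a i * c) * x i = algebraMap E F c * ∑ i, algebraMap E F (a i) * x i := by
  rw [Finset.mul_sum]
  refine Finset.sum_congr rfl fun i _ => ?_
  rw [map_mul]
  ring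

/-- **(b)** a combination is integral iff its coefficients are. -/
theorem ccov_sum_mem_iff (hO : LiesOverV Ov O) (hx : ResIndep Ov O x) (a : κ → E) :
    ∑ i, algebraMap E F (a i) * x i ∈ O ↔ ∀ i, a i ∈ Ov := by
  classical
  refine ⟨fun hsum => ?_, fun ha => ccov_sum_mem hO hx ha⟩
  by_contra hcon
  push Not at hcon
  obtain ⟨j, hj⟩ := hcon
  have hj0 : a j ≠ 0 := by
    rintro h0
    exact hj (h0 ▸ zero_mem _)
  obtain ⟨i₀, hi₀, hall⟩ := exists_max_coeff Ov a ⟨j, hj0⟩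
  have hi₀A : a i₀ ∉ Ov := by
    intro h
    apply hj
    have := mul_mem (hall j) h
    rwa [inv_mul_cancel_right₀ hi₀] at this
  have hinv : algebraMap E F (a i₀)⁻¹ ∈ O.nonunits :=
    (hO.nonunits_iff _).mpr (ccov_inv_mem_nonunits Ov hi₀A)
  have hmem : ∑ i, algebraMap E F (a i * (a i₀)⁻¹) * x i ∈ O.nonunits := by
    rw [ccov_normalise]
    exact nonunits_mul_mem hinv hsum
  have := hx.2 (fun i => a i * (a i₀)⁻¹) hall hmem i₀
  rw [mul_inv_cancel₀ hi₀] at this
  exact ccov_one_not_mem_nonunits Ov this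

/-- **(b)** a combination lies in the maximal ideal iff its coefficients do. -/
theorem ccov_sum_mem_nonunits_iff (hO : LiesOverV Ov O) (hx : ResIndep Ov O x) (a : κ → E) :
    ∑ i, algebraMap E F (a i) * x i ∈ O.nonunits ↔ ∀ i, a i ∈ Ov.nonunits := by
  constructor
  · intro h
    have ha := (ccov_sum_mem_iff hO hx a).mp (ccov_nonunits_le O h)
    exact hx.2 a ha h
  · intro ha
    exact O.nonunits.sum_mem fun i _ =>
      nonunits_mul_mem ((hO.nonunits_iff _).mpr (ha i)) (hx.1 i)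

/-- **(a)** a residually independent family is linearly independent. -/
theorem ccov_linearIndependent (hO : LiesOverV Ov O) (hx : ResIndep Ov O x) :
    LinearIndependent E x := by
  classical
  rw [Fintype.linearIndependent_iff]
  intro a hsum
  by_contra hcon
  push Not at hcon
  obtain ⟨i₀, hi₀, hall⟩ := exists_max_coeff Ov a hcon
  have h0 : ∑ i, algebraMap E F (a i) * x i = 0 := by
    rw [← hsum]
    exact Finset.sum_congr rfl fun i _ => (Algebra.smul_def _ _).symm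
  have hmem : ∑ i, algebraMap E F (a i * (a i₀)⁻¹) * x i ∈ O.nonunits := by
    rw [ccov_normalise, h0, mul_zero]
    exact O.nonunits.zero_mem
  have := hx.2 (fun i => a i * (a i₀)⁻¹) hall hmem i₀
  rw [mul_inv_cancel₀ hi₀] at this
  exact ccov_one_not_mem_nonunits Ov this

/-- **(a)** a full residually independent family generates `F`. -/
theorem ccov_exists_repr [FiniteDimensional E F] (hO : LiesOverV Ov O) (hx : ResIndep Ov O x)
    (hcard : Fintype.card κ = Module.finrank E F) (f : F) :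
    ∃ a : κ → E, f = ∑ i, algebraMap E F (a i) * x i := by
  have hli := ccov_linearIndependent hO hx
  have hspan : Submodule.span E (Set.range x) = ⊤ :=
    hli.span_eq_top_of_card_eq_finrank' hcard
  have hf : f ∈ Submodule.span E (Set.range x) := by
    rw [hspan]
    exact Submodule.mem_top
  obtain ⟨a, ha⟩ := (Submodule.mem_span_range_iff_exists_fun E).mp hf
  refine ⟨a, ?_⟩
  rw [← ha]
  exact Finset.sum_congr rfl fun i _ => Algebra.smul_def _ _

/-- **(b)** `O = {Σ aᵢ xᵢ | aᵢ ∈ Ov}`. -/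
theorem ccov_mem_iff [FiniteDimensional E F] (hO : LiesOverV Ov O) (hx : ResIndep Ov O x)
    (hcard : Fintype.card κ = Module.finrank E F) (f : F) :
    f ∈ O ↔ ∃ a : κ → E, (∀ i, a i ∈ Ov) ∧ f = ∑ i, algebraMap E F (a i) * x i := by
  constructor
  · intro hf
    obtain ⟨a, ha⟩ := ccov_exists_repr hO hx hcard f
    refine ⟨a, ?_, ha⟩
    rw [ha] at hf
    exact (ccov_sum_mem_iff hO hx a).mp hf
  · rintro ⟨a, ha, rfl⟩
    exact ccov_sum_mem hO hx ha

/-- **(b)** the maximal ideal of `O`. -/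
theorem ccov_mem_nonunits_iff [FiniteDimensional E F] (hO : LiesOverV Ov O)
    (hx : ResIndep Ov O x) (hcard : Fintype.card κ = Module.finrank E F) (f : F) :
    f ∈ O.nonunits ↔
      ∃ a : κ → E, (∀ i, a i ∈ Ov.nonunits) ∧ f = ∑ i, algebraMap E F (a i) * x i := by
  constructor
  · intro hf
    obtain ⟨a, ha⟩ := ccov_exists_repr hO hx hcard f
    refine ⟨a, ?_, ha⟩
    rw [ha] at hf
    exact (ccov_sum_mem_nonunits_iff hO hx a).mp hf
  · rintro ⟨a, ha, rfl⟩
    exact (ccov_sum_mem_nonunits_iff hO hx a).mpr ha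

theorem ccov_not_mem_nonunits_of_inv_mem (A : ValuationSubring E) {a : E} (ha0 : a ≠ 0)
    (hinv : a⁻¹ ∈ A) : a ∉ A.nonunits := by
  intro h
  rw [ValuationSubring.mem_nonunits_iff] at h
  have h1 : A.valuation a⁻¹ ≤ 1 := (A.valuation_le_one_iff _).mpr hinv
  have h2 : A.valuation a * A.valuation a⁻¹ = 1 := by
    rw [← map_mul, mul_inv_cancel₀ ha0, map_one]
  have h3 : A.valuation a * A.valuation a⁻¹ < 1 := by
    calc A.valuation a * A.valuation a⁻¹ ≤ A.valuation a * 1 := mul_le_mul_right h1 _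
      _ = A.valuation a := mul_one _
      _ < 1 := h
  rw [h2] at h3
  exact lt_irrefl _ h3

/-! ### (c) uniqueness -/

/-- **(c)** `O` is the only valuation ring of `F` over `Ov` (fundamental inequality).  `c` is a
sequence of elements of `Ov` with pairwise distinct residues. -/
theorem ccov_unique [FiniteDimensional E F] (hO : LiesOverV Ov O) (hx : ResIndep Ov O x)
    (hcard : Fintype.card κ = Module.finrank E F)
    (c : ℕ → E) (hc : ∀ m, c m ∈ Ov) (hcu : ∀ m m', m ≠ m' → c m - c m' ∉ Ov.nonunits)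
    {O' : ValuationSubring F} (hO' : LiesOverV Ov O') : O' = O := by
  classical
  by_contra hne
  let Os : Bool → ValuationSubring F := fun b => cond b O O'
  have hover : ∀ b, LiesOverV Ov (Os b) := by
    intro b
    cases b
    · exact hO'
    · exact hO
  have hinj : Function.Injective Os := by
    intro b b' h
    cases b <;> cases b'
    · rfl
    · exact absurd h hne
    · exact absurd h.symm hne
    · rfl
  let κs : Bool → Type _ := fun b => cond b κ PUnit
  letI inst : ∀ b, Fintype (κs b) := by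
    intro b
    cases b
    · exact (inferInstance : Fintype PUnit)
    · exact (inferInstance : Fintype κ)
  let xs : (b : Bool) → κs b → F := fun b =>
    match b with
    | true => x
    | false => fun _ => 1
  have hxs : ∀ b, ResIndep Ov (Os b) (xs b) := by
    intro b
    cases b
    · refine ⟨fun _ => O'.one_mem, fun a ha hsum l => ?_⟩
      have e : ∑ l : PUnit, algebraMap E F (a l) * (1 : F) = algebraMap E F (a PUnit.unit) := by
        rw [Fintype.sum_unique, mul_one]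
      have hsum' : algebraMap E F (a PUnit.unit) ∈ O'.nonunits := by
        rw [← e]
        exact hsum
      exact (hO'.nonunits_iff _).mp hsum'
    · exact hx
  have h := sum_card_le_finrank Ov Os hover hinj c hc hcu κs xs hxs
  rw [Fintype.sum_bool] at h
  have h1 : @Fintype.card (κs true) (inst true) = Fintype.card κ :=
    Fintype.card_congr (Equiv.refl _)
  have h2 : @Fintype.card (κs false) (inst false) = 1 := by
    have : @Fintype.card (κs false) (inst false) = Fintype.card PUnit :=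
      Fintype.card_congr (Equiv.refl _)
    rw [this, Fintype.card_punit]
  rw [h1, h2, hcard] at h
  omega

end Abstract

/-! ### (d), (e), (f): constant reductions -/

section Setup

variable {K E F k κ1 Fk : Type*} [Field K] [Field E] [Field F] [Algebra K E] [Algebra K F]
  [Algebra E F] [IsScalarTower K E F] [Field k] [Field κ1] [Algebra k κ1] [Field Fk]
  [Algebra k Fk] {κ : Type*} [Fintype κ] {x : κ → F}

/-- **(d)** `scale` for `O` from `scale` for `S1`. -/
theorem ccov_scale [FiniteDimensional E F] (S1 : ValSetup K E k κ1) {O : ValuationSubring F}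
    (hO : LiesOverV S1.Ov O) (hx : ResIndep S1.Ov O x)
    (hcard : Fintype.card κ = Module.finrank E F) (f : F) (hf : f ≠ 0) :
    ∃ c : K, c ≠ 0 ∧ f * (algebraMap K F c)⁻¹ ∈ O ∧ (f * (algebraMap K F c)⁻¹)⁻¹ ∈ O := by
  classical
  obtain ⟨a, ha⟩ := ccov_exists_repr hO hx hcard f
  have hne : ∃ i, a i ≠ 0 := by
    by_contra hcon
    push Not at hcon
    apply hf
    rw [ha]
    exact Finset.sum_eq_zero fun i _ => by rw [hcon i, map_zero, zero_mul]
  obtain ⟨i₀, hi₀, hall⟩ := exists_max_coeff S1.Ov a hne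
  obtain ⟨c, hc, h1, h2⟩ := S1.scale (a i₀) hi₀
  have hcE : algebraMap K E c ≠ 0 := (_root_.map_ne_zero _).mpr hc
  have hcF : algebraMap K F c ≠ 0 := (_root_.map_ne_zero _).mpr hc
  have hb : ∀ i, a i * (algebraMap K E c)⁻¹ ∈ S1.Ov := by
    intro i
    have e : a i * (algebraMap K E c)⁻¹ = (a i * (a i₀)⁻¹) * (a i₀ * (algebraMap K E c)⁻¹) := by
      rw [mul_assoc, inv_mul_cancel_left₀ hi₀]
    rw [e]
    exact mul_mem (hall i) h1
  have e : f * (algebraMap K F c)⁻¹ =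
      ∑ i, algebraMap E F (a i * (algebraMap K E c)⁻¹) * x i := by
    rw [ccov_normalise, ← ha, map_inv₀, ← IsScalarTower.algebraMap_apply, mul_comm]
  have hmem : f * (algebraMap K F c)⁻¹ ∈ O := by
    rw [e]
    exact ccov_sum_mem hO hx hb
  refine ⟨c, hc, hmem, ccov_inv_mem O hmem ?_⟩
  rw [e]
  intro hnon
  have h3 := (ccov_sum_mem_nonunits_iff hO hx _).mp hnon i₀
  exact ccov_not_mem_nonunits_of_inv_mem S1.Ov (mul_ne_zero hi₀ (inv_ne_zero hcE)) h2 h3

/-- **(e)** the residues of the `xᵢ` are independent over the residue field of `Ov`. -/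
theorem ccov_res_indep {Ov : ValuationSubring E} {O : ValuationSubring F}
    (hO : LiesOverV Ov O) (hx : ResIndep Ov O x) (ρ : O →+* Fk)
    (hρ : ∀ f : O, ρ f = 0 ↔ (f : F) ∈ O.nonunits) (a : κ → E) (ha : ∀ i, a i ∈ Ov)
    (h : ρ ⟨∑ i, algebraMap E F (a i) * x i, ccov_sum_mem hO hx ha⟩ = 0) :
    ∀ i, a i ∈ Ov.nonunits :=
  hx.2 a ha ((hρ _).mp h)

/-- **(e)** the residues of the `xᵢ` generate the residue field of `O` over the one of `Ov`. -/
theorem ccov_res_span [FiniteDimensional E F] {Ov : ValuationSubring E}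
    {O : ValuationSubring F} (hO : LiesOverV Ov O) (hx : ResIndep Ov O x)
    (hcard : Fintype.card κ = Module.finrank E F) (ρ : O →+* Fk)
    (hsurj : Function.Surjective ρ) (y : Fk) :
    ∃ (a : κ → E) (ha : ∀ i, a i ∈ Ov),
      ρ ⟨∑ i, algebraMap E F (a i) * x i, ccov_sum_mem hO hx ha⟩ = y := by
  obtain ⟨⟨f, hf⟩, rfl⟩ := hsurj y
  obtain ⟨a, ha, hfa⟩ := (ccov_mem_iff hO hx hcard f).mp hf
  refine ⟨a, ha, ?_⟩
  congr 1
  exact Subtype.ext hfa.symm

/-- a sequence of constants with pairwise distinct residues. -/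
theorem ccov_exists_seq [Infinite k] (S1 : ValSetup K E k κ1) :
    ∃ c : ℕ → E, (∀ m, c m ∈ S1.Ov) ∧ ∀ m m', m ≠ m' → c m - c m' ∉ S1.Ov.nonunits := by
  have hs : ∀ m : ℕ, ∃ a : S1.A, S1.res a = Infinite.natEmbedding k m :=
    fun m => S1.res_surj _
  choose a ha using hs
  refine ⟨fun m => algebraMap K E (a m : K), fun m => S1.algebraMap_mem (a m).2, ?_⟩
  intro m m' hmm
  have hmem : ((a m : K) - (a m' : K)) ∈ S1.A := sub_mem (a m).2 (a m').2
  have e : algebraMap K E (a m : K) - algebraMap K E (a m' : K) =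
      algebraMap K E ((a m : K) - (a m' : K)) := (map_sub _ _ _).symm
  have hres : S1.res ⟨(a m : K) - (a m' : K), hmem⟩ ≠ 0 := by
    have e2 : (⟨(a m : K) - (a m' : K), hmem⟩ : S1.A) = a m - a m' := rfl
    rw [e2, map_sub, ha, ha, sub_ne_zero]
    exact fun h => hmm ((Infinite.natEmbedding k).injective h)
  have hred : S1.red (algebraMap K E ((a m : K) - (a m' : K))) ≠ 0 := by
    rw [S1.red_algebraMap hmem]
    exact (_root_.map_ne_zero _).mpr hres
  show algebraMap K E (a m : K) - algebraMap K E (a m' : K) ∉ S1.Ov.nonunits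
  rw [e]
  exact ccov_not_mem_nonunits_of_inv_mem S1.Ov (S1.ne_zero_of_red_ne_zero hred)
    (S1.inv_mem_of_red_ne_zero hred)

/-- **(c)** uniqueness, for a constant reduction with infinite residue field of constants. -/
theorem ccov_unique_setup [Infinite k] [FiniteDimensional E F] (S1 : ValSetup K E k κ1)
    {O : ValuationSubring F} (hO : LiesOverV S1.Ov O) (hx : ResIndep S1.Ov O x)
    (hcard : Fintype.card κ = Module.finrank E F) {O' : ValuationSubring F}
    (hO' : LiesOverV S1.Ov O') : O' = O := by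
  obtain ⟨c, hc, hcu⟩ := ccov_exists_seq S1
  exact ccov_unique hO hx hcard c hc hcu hO'

/-- the reduction of a finite sum of integral elements. -/
theorem ccov_red_sum (S : ValSetup K F k Fk) {ι : Type*} (s : Finset ι) (f : ι → F)
    (hf : ∀ i, f i ∈ S.Ov) : S.red (∑ i ∈ s, f i) = ∑ i ∈ s, S.red (f i) := by
  classical
  induction s using Finset.induction_on with
  | empty => simp [S.red_zero]
  | insert a s ha ih =>
    rw [Finset.sum_insert ha, Finset.sum_insert ha,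
      S.red_add (hf a) (sum_mem fun i _ => hf i), ih]

/-- an integral element with reduction `0` lies in the maximal ideal. -/
theorem ccov_mem_nonunits_of_red (S : ValSetup K F k Fk) {f : F} (hf : f ∈ S.Ov)
    (h : S.red f = 0) : f ∈ S.Ov.nonunits := by
  by_cases hf0 : f = 0
  · rw [hf0]
    exact S.Ov.nonunits.zero_mem
  have hinv : f⁻¹ ∉ S.Ov := (S.red_eq_zero_iff hf hf0).mp h
  have := ccov_inv_mem_nonunits S.Ov hinv
  rwa [inv_inv] at this

/-- an element of the maximal ideal has reduction `0`. -/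
theorem ccov_red_of_mem_nonunits (S : ValSetup K F k Fk) {f : F} (h : f ∈ S.Ov.nonunits) :
    S.red f = 0 := by
  by_cases hf0 : f = 0
  · rw [hf0, S.red_zero]
  have hf : f ∈ S.Ov := ccov_nonunits_le S.Ov h
  rw [S.red_eq_zero_iff hf hf0]
  exact fun hinv => ccov_not_mem_nonunits_of_inv_mem S.Ov hf0 hinv h

/-- the residue field embedding `κ1 → Fk` induced by `O₁ ⊂ O`. -/
theorem ccov_exists_resHom (S1 : ValSetup K E k κ1) (S : ValSetup K F k Fk)
    (hO : LiesOverV S1.Ov S.Ov)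
    (hres : ∀ (c : K) (h1 : c ∈ S1.A) (h : c ∈ S.A), S1.res ⟨c, h1⟩ = S.res ⟨c, h⟩) :
    ∃ ιk : κ1 →+* Fk, (∀ f ∈ S1.Ov, S.red (algebraMap E F f) = ιk (S1.red f)) ∧
      ∀ c : k, ιk (algebraMap k κ1 c) = algebraMap k Fk c := by
  classical
  let g : S1.Ov →+* Fk :=
    { toFun := fun a => S.red (algebraMap E F (a : E))
      map_one' := by
        show S.red (algebraMap E F (1 : E)) = 1
        rw [map_one, S.red_one]
      map_mul' := fun a b => by
        show S.red (algebraMap E F ((a : E) * (b : E))) = _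
        rw [map_mul, S.red_mul ((hO.mem_iff _).mpr a.2) ((hO.mem_iff _).mpr b.2)]
      map_zero' := by
        show S.red (algebraMap E F (0 : E)) = 0
        rw [map_zero, S.red_zero]
      map_add' := fun a b => by
        show S.red (algebraMap E F ((a : E) + (b : E))) = _
        rw [map_add, S.red_add ((hO.mem_iff _).mpr a.2) ((hO.mem_iff _).mpr b.2)] }
  have hker : RingHom.ker S1.ρ ≤ RingHom.ker g := by
    intro a ha
    rw [RingHom.mem_ker] at ha ⊢
    show S.red (algebraMap E F (a : E)) = 0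
    have h1 : S1.red (a : E) = 0 := by
      rw [S1.red_of_mem a.2]
      exact ha
    have h2 : (a : E) ∈ S1.Ov.nonunits := ccov_mem_nonunits_of_red S1 a.2 h1
    exact ccov_red_of_mem_nonunits S ((hO.nonunits_iff _).mpr h2)
  let ιk : κ1 →+* Fk := S1.ρ.liftOfSurjective S1.ρ_surj ⟨g, hker⟩
  have hιk_apply : ∀ a : S1.Ov, ιk (S1.ρ a) = g a := fun a =>
    RingHom.liftOfRightInverse_comp_apply _ _ _ _ a
  have hred : ∀ f ∈ S1.Ov, S.red (algebraMap E F f) = ιk (S1.red f) := by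
    intro f hf
    rw [S1.red_of_mem hf, hιk_apply]
    rfl
  refine ⟨ιk, hred, fun c => ?_⟩
  obtain ⟨⟨a, ha⟩, rfl⟩ := S1.res_surj c
  have haE : algebraMap K E a ∈ S1.Ov := S1.algebraMap_mem ha
  have haS : a ∈ S.A := by
    rw [← S.mem_Ov_iff, IsScalarTower.algebraMap_apply K E F, hO.mem_iff]
    exact haE
  rw [← S1.red_algebraMap ha, ← hred _ haE, ← IsScalarTower.algebraMap_apply,
    S.red_algebraMap haS, hres a ha haS]

/-- **(f)** the lattice property of `S` from the one of `S1`. -/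
theorem ccov_hasLattice [FiniteDimensional E F] (S1 : ValSetup K E k κ1) (hL1 : HasLattice S1)
    (S : ValSetup K F k Fk) (hO : LiesOverV S1.Ov S.Ov)
    (hres : ∀ (c : K) (h1 : c ∈ S1.A) (h : c ∈ S.A), S1.res ⟨c, h1⟩ = S.res ⟨c, h⟩)
    (hx : ResIndep S1.Ov S.Ov x) (hcard : Fintype.card κ = Module.finrank E F) :
    HasLattice S := by
  classical
  obtain ⟨ιk, hred, hιk⟩ := ccov_exists_resHom S1 S hO hres
  let e : Fin (Fintype.card κ) ≃ κ := (Fintype.equivFin κ).symm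
  refine hasLattice_of_tower S1 S hL1 (algebraMap E F) ιk
    (fun c => (IsScalarTower.algebraMap_apply K E F c).symm) hιk
    (fun f hf => (hO.mem_iff _).mpr hf) hred (fun j => x (e j)) (fun j => hx.1 _) ?_ ?_
  · intro f
    obtain ⟨a, ha⟩ := ccov_exists_repr hO hx hcard f
    refine ⟨fun j => a (e j), ?_⟩
    rw [ha]
    exact (Equiv.sum_comp e (fun i => algebraMap E F (a i) * x i)).symm
  · intro c hc j
    have hlift : ∀ j, ∃ a : S1.Ov, S1.ρ a = c j := fun j => S1.ρ_surj (c j)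
    choose a ha using hlift
    have ha' : ∀ i : κ, ((a (e.symm i) : S1.Ov) : E) ∈ S1.Ov := fun i => (a (e.symm i)).2
    have hterm : ∀ i : κ, algebraMap E F ((a (e.symm i) : S1.Ov) : E) * x i ∈ S.Ov :=
      fun i => mul_mem ((hO.mem_iff _).mpr (ha' i)) (hx.1 i)
    have hred0 : S.red (∑ i, algebraMap E F ((a (e.symm i) : S1.Ov) : E) * x i) = 0 := by
      rw [ccov_red_sum S _ _ hterm, ← hc, ← Equiv.sum_comp e]
      refine Finset.sum_congr rfl fun j _ => ?_
      rw [S.red_mul ((hO.mem_iff _).mpr (ha' _)) (hx.1 _), hred _ (ha' _), Equiv.symm_apply_apply,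
        S1.red_of_mem (a j).2, ha j]
    have hnon := ccov_mem_nonunits_of_red S (sum_mem fun i _ => hterm i) hred0
    have h1 := hx.2 (fun i => ((a (e.symm i) : S1.Ov) : E)) ha' hnon (e j)
    rw [Equiv.symm_apply_apply] at h1
    have h2 := ccov_red_of_mem_nonunits S1 h1
    rw [S1.red_of_mem (a j).2, ha j] at h2
    exact h2

end Setup

end Fermat.Agent.HPVal
end
end MergeWrap_Lib_BadRed_HPVal_CoreCover

section MergeWrap_Lib_BadRed_HPVal_CoreFk -- from Lib/BadRed/HPVal/CoreFk.lean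

set_option autoImplicit false
set_option linter.unusedSectionVars false
set_option linter.unusedVariables false
set_option linter.style.haveILetI false

noncomputable section

namespace Fermat.Agent.HPVal

open Polynomial IntermediateField Fermat.Agent.BadRed

variable {E F : Type*} [Field E] [Field F] [Algebra E F]
variable {k κ Fk : Type*} [Field k] [Field κ] [Algebra k κ] [Field Fk] [Algebra k Fk]

namespace CnpHyp

variable {O1 : ValuationSubring E} {O : ValuationSubring F} {ρ1 : O1 →+* κ}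
  {ρ : O →+* Fk} {j : κ →+* Fk} {q : ℕ} {Ps : Polynomial O1} {y c : κ} {W Z : F}

/-- the image of `κ = k(y)` in `Fk` lies in `k(j y)`. -/
theorem cfk_j_mem (hjk : ∀ a : k, j (algebraMap k κ a) = algebraMap k Fk a) (hgen : k⟮y⟯ = ⊤)
    (a : κ) : j a ∈ k⟮j y⟯ := by
  let φ : κ →ₐ[k] Fk := { j with commutes' := hjk }
  have h1 : a ∈ k⟮y⟯ := by rw [hgen]; exact IntermediateField.mem_top
  have h2 : φ a ∈ (k⟮y⟯).map φ := ⟨a, h1, rfl⟩
  rw [IntermediateField.adjoin_map, Set.image_singleton] at h2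
  exact h2

/-- `j c = c₀` in `Fk`. -/
theorem cfk_jc (hjk : ∀ a : k, j (algebraMap k κ a) = algebraMap k Fk a) (c₀ : k)
    (hc : algebraMap k κ c₀ = c) : j c = algebraMap k Fk c₀ := by
  rw [← hc, hjk]

theorem cfk_c₀_ne (h : CnpHyp O1 O ρ1 ρ j q Ps y c W Z) (c₀ : k)
    (hc : algebraMap k κ c₀ = c) : c₀ ≠ 0 := by
  rintro rfl
  exact h.c_ne (by rw [← hc, map_zero])

/-- the relation of `H_P` with the constant in `k`. -/
theorem cfk_rel (h : CnpHyp O1 O ρ1 ρ j q Ps y c W Z)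
    (hjk : ∀ a : k, j (algebraMap k κ a) = algebraMap k Fk a) (c₀ : k)
    (hc : algebraMap k κ c₀ = c) :
    h.Wb * h.Zb * (h.Wb - h.Zb) ^ (q - 1) = algebraMap k Fk c₀ := by
  rw [← cfk_jc hjk c₀ hc]
  exact h.res_rel

/-- `j y = Wb^q + c₀ / Wb`. -/
theorem cfk_res_y (h : CnpHyp O1 O ρ1 ρ j q Ps y c W Z)
    (hjk : ∀ a : k, j (algebraMap k κ a) = algebraMap k Fk a) (c₀ : k)
    (hc : algebraMap k κ c₀ = c) :
    j y = h.Wb ^ q + algebraMap k Fk c₀ / h.Wb := by
  rw [← cfk_jc hjk c₀ hc]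
  exact h.res_y

section Span

variable [IsAlgClosed k]

/-- **the residues of the monomials span `Fk` over `j (κ)`.** -/
theorem cfk_res_span (h : CnpHyp O1 O ρ1 ρ j q Ps y c W Z) (hgen : k⟮y⟯ = ⊤)
    (hy : Transcendental k y) (c₀ : k) (hc : algebraMap k κ c₀ = c)
    (hfin : Module.finrank E F = q * (q + 1)) (hρ : Function.Surjective ρ) (f : Fk) :
    ∃ g : Fin (q + 1) × Fin q → κ,
      f = ∑ p, j (g p) * (h.Wb ^ (p.1 : ℕ) * h.Zb ^ (p.2 : ℕ)) := by
  classical
  haveI : FiniteDimensional E F := Module.finite_of_finrank_pos (by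
    rw [hfin]
    exact Nat.mul_pos h.prime.pos (Nat.succ_pos q))
  have hR := h.resIndep hgen hy c₀ hc
  have hcard : Fintype.card (Fin (q + 1) × Fin q) = Module.finrank E F := by
    rw [hfin]
    simp [mul_comm]
  obtain ⟨a, ha, hfa⟩ := ccov_res_span h.liesOver hR hcard ρ hρ f
  refine ⟨fun p => ρ1 ⟨a p, ha p⟩, ?_⟩
  rw [← hfa]
  have hdecomp : (⟨∑ p, algebraMap E F (a p) * cnpMono W Z q p,
      ccov_sum_mem h.liesOver hR ha⟩ : O) =
      ∑ p, cnpIncl h.liesOver ⟨a p, ha p⟩ * ⟨cnpMono W Z q p, h.cnpMono_mem p⟩ := by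
    apply Subtype.ext
    rw [show ((∑ p, cnpIncl h.liesOver ⟨a p, ha p⟩ * ⟨cnpMono W Z q p, h.cnpMono_mem p⟩ : O) : F)
      = O.subtype (∑ p, cnpIncl h.liesOver ⟨a p, ha p⟩ * ⟨cnpMono W Z q p, h.cnpMono_mem p⟩)
      from rfl, map_sum]
    rfl
  rw [hdecomp, map_sum]
  refine Finset.sum_congr rfl fun p _ => ?_
  rw [map_mul, h.ρ_cnpMono]
  congr 1
  exact h.comp ⟨a p, ha p⟩ _

/-- **`Fk = k(Wb, Zb)`.** -/
theorem cfk_adjoin_eq_top (h : CnpHyp O1 O ρ1 ρ j q Ps y c W Z)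
    (hjk : ∀ a : k, j (algebraMap k κ a) = algebraMap k Fk a) (hgen : k⟮y⟯ = ⊤)
    (hy : Transcendental k y) (c₀ : k) (hc : algebraMap k κ c₀ = c)
    (hfin : Module.finrank E F = q * (q + 1)) (hρ : Function.Surjective ρ) :
    IntermediateField.adjoin k ({h.Wb, h.Zb} : Set Fk) = ⊤ := by
  rw [eq_top_iff]
  intro f _
  obtain ⟨g, rfl⟩ := h.cfk_res_span hgen hy c₀ hc hfin hρ f
  have hW : h.Wb ∈ IntermediateField.adjoin k ({h.Wb, h.Zb} : Set Fk) :=
    IntermediateField.subset_adjoin k _ (Set.mem_insert _ _)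
  have hZ : h.Zb ∈ IntermediateField.adjoin k ({h.Wb, h.Zb} : Set Fk) :=
    IntermediateField.subset_adjoin k _ (Set.mem_insert_of_mem _ rfl)
  have hyM : j y ∈ IntermediateField.adjoin k ({h.Wb, h.Zb} : Set Fk) := by
    rw [h.cfk_res_y hjk c₀ hc]
    exact add_mem (pow_mem hW q) (div_mem (IntermediateField.algebraMap_mem _ c₀) hW)
  have hle : k⟮j y⟯ ≤ IntermediateField.adjoin k ({h.Wb, h.Zb} : Set Fk) := by
    rw [IntermediateField.adjoin_simple_le_iff]
    exact hyM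
  refine sum_mem fun p _ => mul_mem (hle (cfk_j_mem hjk hgen (g p))) ?_
  exact mul_mem (pow_mem hW _) (pow_mem hZ _)

/-- `Wb` is transcendental over `k`. -/
theorem cfk_transcendental_Wb (h : CnpHyp O1 O ρ1 ρ j q Ps y c W Z)
    (hjk : ∀ a : k, j (algebraMap k κ a) = algebraMap k Fk a)
    (hy : Transcendental k y) (c₀ : k) (hc : algebraMap k κ c₀ = c) :
    Transcendental k h.Wb := by
  apply Fermat.Agent.HP.hp_transcendental_of_Y (q := q) c₀
  rw [← h.cfk_res_y hjk c₀ hc]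
  let φ : κ →ₐ[k] Fk := { j with commutes' := hjk }
  have : Transcendental k (φ y) := fun halg =>
    hy ((isAlgebraic_algHom_iff φ φ.injective).mp halg)
  exact this

/-- **the curve `H_P` on the residue field of `O`.** -/
def cfkCurve (h : CnpHyp O1 O ρ1 ρ j q Ps y c W Z)
    (hjk : ∀ a : k, j (algebraMap k κ a) = algebraMap k Fk a) (hgen : k⟮y⟯ = ⊤)
    (hy : Transcendental k y) (c₀ : k) (hc : algebraMap k κ c₀ = c)
    (hfin : Module.finrank E F = q * (q + 1)) (hρ : Function.Surjective ρ) :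
    Fermat.Agent.HP.HPCurve k Fk q where
  X1 := h.Wb
  X2 := h.Zb
  c := c₀
  c_ne := h.cfk_c₀_ne c₀ hc
  q_two := h.prime.two_le
  rel := h.cfk_rel hjk c₀ hc
  gen := h.cfk_adjoin_eq_top hjk hgen hy c₀ hc hfin hρ
  transc := h.cfk_transcendental_Wb hjk hy c₀ hc

section Curve

variable (h : CnpHyp O1 O ρ1 ρ j q Ps y c W Z)
  (hjk : ∀ a : k, j (algebraMap k κ a) = algebraMap k Fk a) (hgen : k⟮y⟯ = ⊤)
  (hy : Transcendental k y) (c₀ : k) (hc : algebraMap k κ c₀ = c)
  (hfin : Module.finrank E F = q * (q + 1)) (hρ : Function.Surjective ρ)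

@[simp] theorem cfkCurve_X1 : (h.cfkCurve hjk hgen hy c₀ hc hfin hρ).X1 = h.Wb := rfl

@[simp] theorem cfkCurve_X2 : (h.cfkCurve hjk hgen hy c₀ hc hfin hρ).X2 = h.Zb := rfl

@[simp] theorem cfkCurve_c : (h.cfkCurve hjk hgen hy c₀ hc hfin hρ).c = c₀ := rfl

/-- **`H.Yf = j y`.** -/
theorem cfkCurve_Yf : (h.cfkCurve hjk hgen hy c₀ hc hfin hρ).Yf = j y := by
  rw [h.cfk_res_y hjk c₀ hc]
  rfl

/-- **the residue field of the restriction of `O` to `E` is `k(Y)`**: the residues of the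
elements of `O1` lie in `k(H.Yf)`. -/
theorem cfk_old_mem (e : O1) (he : algebraMap E F (e : E) ∈ O) :
    ρ ⟨algebraMap E F (e : E), he⟩ ∈ k⟮(h.cfkCurve hjk hgen hy c₀ hc hfin hρ).Yf⟯ := by
  rw [h.cfkCurve_Yf hjk hgen hy c₀ hc hfin hρ, h.comp e he]
  exact cfk_j_mem hjk hgen _

/-- the same for an element of `E` which is integral for `O1`. -/
theorem cfk_old_mem' (e : E) (he1 : e ∈ O1) (he : algebraMap E F e ∈ O) :
    ρ ⟨algebraMap E F e, he⟩ ∈ k⟮(h.cfkCurve hjk hgen hy c₀ hc hfin hρ).Yf⟯ :=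
  h.cfk_old_mem hjk hgen hy c₀ hc hfin hρ ⟨e, he1⟩ he

/-- conversely `k(H.Yf)` is the image of `κ`: every element of `k(H.Yf)` is `j a`. -/
theorem cfk_mem_range_of_mem (f : Fk)
    (hf : f ∈ k⟮(h.cfkCurve hjk hgen hy c₀ hc hfin hρ).Yf⟯) : ∃ a : κ, j a = f := by
  rw [h.cfkCurve_Yf hjk hgen hy c₀ hc hfin hρ] at hf
  let φ : κ →ₐ[k] Fk := { j with commutes' := hjk }
  have h1 : (k⟮y⟯).map φ = k⟮j y⟯ := by
    rw [IntermediateField.adjoin_map, Set.image_singleton]
    rfl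
  rw [← h1] at hf
  obtain ⟨a, _, ha⟩ := hf
  exact ⟨a, ha⟩

/-- **`[Fk : k(H.Yf)] = q (q + 1)`.** -/
theorem cfk_finrank_res :
    Module.finrank k⟮(h.cfkCurve hjk hgen hy c₀ hc hfin hρ).Yf⟯ Fk = q * (q + 1) := by
  have hq0k : ((q : ℕ) : k) = 0 := by
    apply (algebraMap k κ).injective
    rw [map_natCast, map_zero]
    exact h.char
  exact (h.cfkCurve hjk hgen hy c₀ hc hfin hρ).finrank_Yf (Fermat.Agent.HP.hp_succ_ne_zero hq0k)

include hjk hgen hy hc hfin hρ in
/-- **CORE-FK, `∃`-form** (the shape of the spec). -/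
theorem cfk_exists_curve :
    ∃ H : Fermat.Agent.HP.HPCurve k Fk q, H.X1 = h.Wb ∧ H.X2 = h.Zb ∧ H.c = c₀ ∧
      H.Yf = j y ∧
      (∀ (e : O1) (he : algebraMap E F (e : E) ∈ O), ρ ⟨algebraMap E F (e : E), he⟩ ∈ k⟮H.Yf⟯) ∧
      Module.finrank k⟮H.Yf⟯ Fk = q * (q + 1) :=
  ⟨h.cfkCurve hjk hgen hy c₀ hc hfin hρ, rfl, rfl, rfl,
    h.cfkCurve_Yf hjk hgen hy c₀ hc hfin hρ,
    h.cfk_old_mem hjk hgen hy c₀ hc hfin hρ,
    h.cfk_finrank_res hjk hgen hy c₀ hc hfin hρ⟩

end Curve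

end Span

end CnpHyp

end Fermat.Agent.HPVal
end
end MergeWrap_Lib_BadRed_HPVal_CoreFk

section MergeWrap_Lib_BadRed_HPVal_CoreEx -- from Lib/BadRed/HPVal/CoreEx.lean

set_option autoImplicit false
set_option linter.style.haveILetI false
set_option linter.unusedSectionVars false

noncomputable section

namespace Fermat.Agent.HPVal

open Fermat.Agent.BadRed Fermat.Agent.Deuring

section Chevalley

variable {E F : Type*} [Field E] [Field F] [Algebra E F]

/-- **Chevalley's extension theorem**: every valuation ring of `E` is the trace of a valuation ring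
of `F`. -/
theorem cex_exists_liesOverV (O1 : ValuationSubring E) :
    ∃ O : ValuationSubring F, LiesOverV O1 O := by
  obtain ⟨O, hmem, hloc⟩ := IsLocalRing.exists_factor_valuationRing (K := F)
    ((algebraMap E F).comp O1.subtype)
  refine ⟨O, ?_⟩
  have hin : ∀ e : E, e ∈ O1 → algebraMap E F e ∈ O := fun e he => hmem ⟨e, he⟩
  unfold LiesOverV
  ext e
  rw [ValuationSubring.mem_comap]
  refine ⟨fun he => ?_, hin e⟩
  by_contra hne
  -- `e ∉ O1`: `e⁻¹` is a non-unit of `O1` whose image is a unit of `O`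
  have he0 : e ≠ 0 := fun h0 => hne (h0 ▸ zero_mem _)
  have hinv : e⁻¹ ∈ O1 := (O1.mem_or_inv_mem e).resolve_left hne
  have hunit : IsUnit ((((algebraMap E F).comp O1.subtype).codRestrict O.toSubring hmem)
      ⟨e⁻¹, hinv⟩) := by
    refine IsUnit.of_mul_eq_one (⟨algebraMap E F e, he⟩ : O.toSubring) ?_
    apply Subtype.ext
    show algebraMap E F e⁻¹ * algebraMap E F e = 1
    rw [← map_mul, inv_mul_cancel₀ he0, map_one]
  have h1 : IsUnit (⟨e⁻¹, hinv⟩ : O1) := hloc.map_nonunit _ hunit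
  obtain ⟨u, hu⟩ := h1
  have h2 : e⁻¹ * ((↑(u⁻¹ : (O1)ˣ) : O1) : E) = 1 := by
    have := congrArg Subtype.val u.mul_inv
    rw [hu] at this
    exact this
  have h3 : ((↑(u⁻¹ : (O1)ˣ) : O1) : E) = e := by
    have := congrArg (fun z => e * z) h2
    simpa [← mul_assoc, mul_inv_cancel₀ he0] using this
  exact hne (h3 ▸ (↑(u⁻¹ : (O1)ˣ) : O1).2)

end Chevalley

section Residue

variable {F : Type*} [Field F]

/-- the residue field of a valuation ring (a name for `IsLocalRing.ResidueField O`). -/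
abbrev cexFk (O : ValuationSubring F) : Type _ := IsLocalRing.ResidueField O

/-- the residue map of a valuation ring. -/
def cexRho (O : ValuationSubring F) : O →+* cexFk O := IsLocalRing.residue O

theorem cexRho_surjective (O : ValuationSubring F) : Function.Surjective (cexRho O) :=
  IsLocalRing.residue_surjective

/-- the kernel of the residue map is the set of non-units. -/
theorem cexRho_eq_zero_iff (O : ValuationSubring F) (f : O) : cexRho O f = 0 ↔ ¬ IsUnit f := by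
  unfold cexRho
  rw [IsLocalRing.residue_eq_zero_iff, IsLocalRing.mem_maximalIdeal, mem_nonunits_iff]

theorem cexRho_eq_zero_iff_nonunits (O : ValuationSubring F) (f : O) :
    cexRho O f = 0 ↔ (f : F) ∈ O.nonunits := by
  rw [cexRho_eq_zero_iff, ValuationSubring.mem_nonunits_iff_exists_mem_maximalIdeal]
  constructor
  · intro h
    exact ⟨f.2, (IsLocalRing.mem_maximalIdeal _).mpr h⟩
  · rintro ⟨hf, h⟩
    exact (IsLocalRing.mem_maximalIdeal _).mp h

end Residue

section IotaK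

variable {E F κ1 Fk : Type*} [Field E] [Field F] [Algebra E F] [Field κ1] [Field Fk]

/-- a non-unit of `O1` is a non-unit of `O`. -/
theorem cex_not_isUnit_map {O1 : ValuationSubring E} {O : ValuationSubring F}
    (hO : LiesOverV O1 O) (a : O1) (ha : ¬ IsUnit a) :
    ¬ IsUnit (⟨algebraMap E F (a : E), (hO.mem_iff _).mpr a.2⟩ : O) := by
  intro hu
  apply ha
  obtain ⟨u, hu⟩ := hu
  have h2 : algebraMap E F (a : E) * ((↑(u⁻¹ : (O)ˣ) : O) : F) = 1 := by
    have := congrArg Subtype.val u.mul_inv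
    rw [hu] at this
    exact this
  have ha0 : (a : E) ≠ 0 := by
    intro h0
    rw [h0, map_zero, zero_mul] at h2
    exact zero_ne_one h2
  have h3 : ((↑(u⁻¹ : (O)ˣ) : O) : F) = algebraMap E F ((a : E)⁻¹) := by
    rw [map_inv₀]
    exact eq_inv_of_mul_eq_one_right h2
  have h4 : (a : E)⁻¹ ∈ O1 := by
    rw [← hO.mem_iff, ← h3]
    exact (↑(u⁻¹ : (O)ˣ) : O).2
  refine IsUnit.of_mul_eq_one (⟨(a : E)⁻¹, h4⟩ : O1) ?_
  apply Subtype.ext
  show (a : E) * (a : E)⁻¹ = 1
  exact mul_inv_cancel₀ ha0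

/-- **the induced map of residue fields**: `ρ1 : O1 →+* κ1` onto with kernel the non-units,
`ρ : O →+* Fk` killing the non-units, `O` over `O1`. -/
theorem cex_exists_iotaK {O1 : ValuationSubring E} {O : ValuationSubring F}
    (hO : LiesOverV O1 O) (ρ1 : O1 →+* κ1) (hρ1 : Function.Surjective ρ1)
    (hker1 : ∀ a : O1, ρ1 a = 0 ↔ ¬ IsUnit a)
    (ρ : O →+* Fk) (hker : ∀ f : O, ¬ IsUnit f → ρ f = 0) :
    ∃ ιk : κ1 →+* Fk, ∀ (e : E) (he : e ∈ O1) (he' : algebraMap E F e ∈ O),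
      ρ ⟨algebraMap E F e, he'⟩ = ιk (ρ1 ⟨e, he⟩) := by
  classical
  let incl : O1 →+* O :=
    { toFun := fun a => ⟨algebraMap E F (a : E), (hO.mem_iff _).mpr a.2⟩
      map_one' := Subtype.ext (by simp)
      map_mul' := fun a b => Subtype.ext (by simp)
      map_zero' := Subtype.ext (by simp)
      map_add' := fun a b => Subtype.ext (by simp) }
  let g : O1 →+* Fk := ρ.comp incl
  have hk : RingHom.ker ρ1 ≤ RingHom.ker g := by
    intro a ha
    rw [RingHom.mem_ker] at ha ⊢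
    exact hker _ (cex_not_isUnit_map hO a ((hker1 a).mp ha))
  refine ⟨RingHom.liftOfSurjective ρ1 hρ1 ⟨g, hk⟩, fun e he he' => ?_⟩
  have := RingHom.liftOfRightInverse_comp_apply ρ1 (Function.surjInv hρ1)
    (Function.rightInverse_surjInv hρ1) ⟨g, hk⟩ ⟨e, he⟩
  exact this.symm

end IotaK

section Setup

universe uF

variable {K E k κ1 : Type*} {F : Type uF} [Field K] [Field E] [Field F] [Algebra K E]
  [Algebra E F] [Field k] [Field κ1] [Algebra k κ1]

/-- the map of residue fields `κ1 → cexFk O` induced by `O1 = S1.Ov ⊆ O`. -/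
def cexIotaK (S1 : ValSetup K E k κ1) {O : ValuationSubring F} (hO : LiesOverV S1.Ov O) :
    κ1 →+* cexFk O :=
  (cex_exists_iotaK hO S1.ρ S1.ρ_surj S1.ρ_eq_zero_iff (cexRho O)
    (fun f hf => (cexRho_eq_zero_iff O f).mpr hf)).choose

/-- `ρ_ι`: the residue map of `O` extends the residue map of `S1` along `cexIotaK`. -/
theorem cexIotaK_rho (S1 : ValSetup K E k κ1) {O : ValuationSubring F}
    (hO : LiesOverV S1.Ov O) (e : E) (he : e ∈ S1.Ov) (he' : algebraMap E F e ∈ O) :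
    cexRho O ⟨algebraMap E F e, he'⟩ = cexIotaK S1 hO (S1.ρ ⟨e, he⟩) :=
  (cex_exists_iotaK hO S1.ρ S1.ρ_surj S1.ρ_eq_zero_iff (cexRho O)
    (fun f hf => (cexRho_eq_zero_iff O f).mpr hf)).choose_spec e he he'

/-- the `k`-algebra structure of the residue field of `O` (through `κ1`).  Not an instance. -/
@[reducible] def cexAlgebra (S1 : ValSetup K E k κ1) {O : ValuationSubring F} (hO : LiesOverV S1.Ov O) :
    Algebra k (cexFk O) :=
  ((cexIotaK S1 hO).comp (algebraMap k κ1)).toAlgebra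

/-- `ιk_alg`: `cexIotaK` is a `k`-algebra map for `cexAlgebra`. -/
theorem cexIotaK_algebraMap (S1 : ValSetup K E k κ1) {O : ValuationSubring F}
    (hO : LiesOverV S1.Ov O) (c : k) :
    cexIotaK S1 hO (algebraMap k κ1 c) =
      letI := cexAlgebra S1 hO
      algebraMap k (cexFk O) c := rfl

/-- `cexIotaK` is injective (a map of fields). -/
theorem cexIotaK_injective (S1 : ValSetup K E k κ1) {O : ValuationSubring F}
    (hO : LiesOverV S1.Ov O) : Function.Injective (cexIotaK S1 hO) :=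
  (cexIotaK S1 hO).injective

/-- **CORE-EX, packaged**: over any constant reduction `S1` of `E` there is a valuation ring `O`
of `F`, a field `Fk` with a `k`-algebra structure, a residue map `ρ : O →+* Fk` (onto, kernel =
non-units) and `ιk : κ1 →+* Fk` with `ιk_alg`, `lies`, `ρ_ι` (the fields of `ValIn` other than
`scale`). -/
theorem cex_exists (S1 : ValSetup K E k κ1) :
    ∃ (O : ValuationSubring F) (Fk : Type uF) (_ : Field Fk) (_ : Algebra k Fk)
      (ιk : κ1 →+* Fk) (ρ : O →+* Fk),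
      LiesOverV S1.Ov O ∧ (∀ c : k, ιk (algebraMap k κ1 c) = algebraMap k Fk c) ∧
      (∀ (e : E) (he : e ∈ S1.Ov) (he' : algebraMap E F e ∈ O),
        ρ ⟨algebraMap E F e, he'⟩ = ιk (S1.ρ ⟨e, he⟩)) ∧
      Function.Surjective ρ ∧ ∀ f : O, ρ f = 0 ↔ ¬ IsUnit f := by
  obtain ⟨O, hO⟩ := cex_exists_liesOverV (F := F) S1.Ov
  exact ⟨O, cexFk O, inferInstance, cexAlgebra S1 hO, cexIotaK S1 hO, cexRho O, hO,
    cexIotaK_algebraMap S1 hO, cexIotaK_rho S1 hO, cexRho_surjective O, cexRho_eq_zero_iff O⟩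

end Setup

end Fermat.Agent.HPVal
end
end MergeWrap_Lib_BadRed_HPVal_CoreEx

section MergeWrap_S36_HPVal_ValIn -- from S36/HPVal/ValIn.lean

set_option autoImplicit false
set_option linter.style.haveILetI false
set_option linter.unusedSectionVars false
set_option linter.unusedVariables false

noncomputable section
attribute [local instance 10000] SubalgebraClass.toAlgebra HahnSeries.powerSeriesAlgebra

namespace Fermat.Agent.S36G

open AlgebraicCurve Fermat.Agent.RR Fermat.Agent.Deuring Fermat.Agent.BadRed Fermat.Agent.HPVal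

variable {K E F k κ1 Fk : Type*} [Field K] [Field E] [Algebra K E] [Field F] [Algebra K F]
  [Algebra E F] [IsScalarTower K E F]
  [Field k] [Field κ1] [Algebra k κ1] [Field Fk] [Algebra k Fk]

/-- **the input of VAL-IN** (= the outputs of CORE-COVER for `O = O_w`). -/
structure ValIn (S1 : ValSetup K E k κ1) (ιk : κ1 →+* Fk) (O : ValuationSubring F)
    (ρ : O →+* Fk) : Prop where
  /-- `ιk` is a `k`-algebra map -/
  ιk_alg : ∀ c : k, ιk (algebraMap k κ1 c) = algebraMap k Fk c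
  /-- `O ∩ E = S1.Ov` -/
  lies : LiesOverV S1.Ov O
  /-- `ρ` extends the residue map of `S1` -/
  ρ_ι : ∀ (e : E) (he : e ∈ S1.Ov) (he' : algebraMap E F e ∈ O),
    ρ ⟨algebraMap E F e, he'⟩ = ιk (S1.ρ ⟨e, he⟩)
  ρ_surj : Function.Surjective ρ
  /-- the kernel of `ρ` is the maximal ideal of `O` -/
  ρ_ker : ∀ f : O, ρ f = 0 ↔ ¬ IsUnit f
  /-- every `f ≠ 0` is a constant times a unit of `O` (CORE-COVER (d)) -/
  scale : ∀ f : F, f ≠ 0 → ∃ c : K, c ≠ 0 ∧
    f * (algebraMap K F c)⁻¹ ∈ O ∧ (f * (algebraMap K F c)⁻¹)⁻¹ ∈ O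

namespace ValIn

variable {S1 : ValSetup K E k κ1} {ιk : κ1 →+* Fk} {O : ValuationSubring F} {ρ : O →+* Fk}

/-- `O ∩ K = A`. -/
theorem mem_iff (h : ValIn S1 ιk O ρ) (c : K) : algebraMap K F c ∈ O ↔ c ∈ S1.A := by
  rw [IsScalarTower.algebraMap_apply K E F, h.lies.mem_iff, S1.mem_Ov_iff]

/-- `ρ` on the constants is `res`. -/
theorem ρ_const (h : ValIn S1 ιk O ρ) (c : K) (hc : c ∈ S1.A) (hc' : algebraMap K F c ∈ O) :
    ρ ⟨algebraMap K F c, hc'⟩ = algebraMap k Fk (S1.res ⟨c, hc⟩) := by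
  have hcE : algebraMap K E c ∈ S1.Ov := (S1.mem_Ov_iff c).2 hc
  have hcF : algebraMap E F (algebraMap K E c) ∈ O := (h.lies.mem_iff _).2 hcE
  have e1 : (⟨algebraMap K F c, hc'⟩ : O) = ⟨algebraMap E F (algebraMap K E c), hcF⟩ :=
    Subtype.ext (IsScalarTower.algebraMap_apply K E F c)
  rw [e1, h.ρ_ι _ hcE hcF, S1.ρ_algebraMap c hc hcE, h.ιk_alg]

/-- **VAL-IN**: the constant reduction `(O_w, ρ)` of `F / K`. -/
def toValSetup (h : ValIn S1 ιk O ρ) (hF : IsRRField K F) (hFk : IsRRField k Fk) :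
    ValSetup K F k Fk where
  A := S1.A
  Ov := O
  res := S1.res
  ρ := ρ
  hF := hF
  hFk := hFk
  res_surj := S1.res_surj
  ρ_surj := h.ρ_surj
  mem_Ov_iff := h.mem_iff
  ρ_algebraMap := h.ρ_const
  ρ_eq_zero_iff := h.ρ_ker
  scale := h.scale

@[simp] theorem toValSetup_A (h : ValIn S1 ιk O ρ) (hF : IsRRField K F) (hFk : IsRRField k Fk) :
    (h.toValSetup hF hFk).A = S1.A := rfl

@[simp] theorem toValSetup_Ov (h : ValIn S1 ιk O ρ) (hF : IsRRField K F)
    (hFk : IsRRField k Fk) : (h.toValSetup hF hFk).Ov = O := rfl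

@[simp] theorem toValSetup_res (h : ValIn S1 ιk O ρ) (hF : IsRRField K F)
    (hFk : IsRRField k Fk) : (h.toValSetup hF hFk).res = S1.res := rfl

@[simp] theorem toValSetup_ρ (h : ValIn S1 ιk O ρ) (hF : IsRRField K F)
    (hFk : IsRRField k Fk) : (h.toValSetup hF hFk).ρ = ρ := rfl

theorem red_of_mem (h : ValIn S1 ιk O ρ) (hF : IsRRField K F) (hFk : IsRRField k Fk) {f : F}
    (hf : f ∈ O) : (h.toValSetup hF hFk).red f = ρ ⟨f, hf⟩ :=
  ValSetup.red_of_mem (h.toValSetup hF hFk) hf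

/-- the reduction of `O_w` extends the reduction of the disc valuation. -/
theorem red_algebraMap (h : ValIn S1 ιk O ρ) (hF : IsRRField K F) (hFk : IsRRField k Fk)
    {e : E} (he : e ∈ S1.Ov) :
    (h.toValSetup hF hFk).red (algebraMap E F e) = ιk (S1.red e) := by
  have he' : algebraMap E F e ∈ O := (h.lies.mem_iff e).2 he
  rw [h.red_of_mem hF hFk he', h.ρ_ι e he he', ValSetup.red_of_mem S1 he]

/-- **the lattice property of `O_w`**, from a generating family with independent reductions. -/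
theorem hasLattice (h : ValIn S1 ιk O ρ) (hF : IsRRField K F) (hFk : IsRRField k Fk)
    (hL1 : HasLattice S1) {n : ℕ} (m : Fin n → F) (hm : ∀ j, m j ∈ O)
    (hgen : ∀ x : F, ∃ c : Fin n → E, x = ∑ j, algebraMap E F (c j) * m j)
    (hli : ∀ c : Fin n → κ1, ∑ j, ιk (c j) * (h.toValSetup hF hFk).red (m j) = 0 →
      ∀ j, c j = 0) :
    HasLattice (h.toValSetup hF hFk) :=
  hasLattice_of_tower S1 (h.toValSetup hF hFk) hL1 (algebraMap E F) ιk
    (fun c => (IsScalarTower.algebraMap_apply K E F c).symm) h.ιk_alg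
    (fun f hf => (h.lies.mem_iff f).2 hf) (fun f hf => h.red_algebraMap hF hFk hf) m hm hgen hli

/-- residual independence over `S1.Ov` gives the independence of the reductions over `ιk κ1`. -/
theorem hli_of_resIndep (h : ValIn S1 ιk O ρ) (hF : IsRRField K F) (hFk : IsRRField k Fk)
    {n : ℕ} (m : Fin n → F) (hm : ResIndep S1.Ov O m) :
    ∀ c : Fin n → κ1, ∑ j, ιk (c j) * (h.toValSetup hF hFk).red (m j) = 0 → ∀ j, c j = 0 := by
  intro c hc
  -- lift the coefficients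
  have hlift : ∀ j, ∃ a : S1.Ov, S1.ρ a = c j := fun j => S1.ρ_surj (c j)
  choose a ha using hlift
  have hmem : ∀ j, algebraMap E F (a j : E) ∈ O := fun j => (h.lies.mem_iff _).2 (a j).2
  have hsum_mem : (∑ j, algebraMap E F (a j : E) * m j) ∈ O :=
    sum_mem fun j _ => mul_mem (hmem j) (hm.1 j)
  -- the combination reduces to `0`
  have hρ : ρ ⟨∑ j, algebraMap E F (a j : E) * m j, hsum_mem⟩ = 0 := by
    have e1 : (⟨∑ j, algebraMap E F (a j : E) * m j, hsum_mem⟩ : O) =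
        ∑ j, (⟨algebraMap E F (a j : E), hmem j⟩ : O) * ⟨m j, hm.1 j⟩ := by
      apply Subtype.ext
      simp
    rw [e1, map_sum, ← hc]
    refine Finset.sum_congr rfl fun j _ => ?_
    rw [map_mul, h.ρ_ι _ (a j).2 (hmem j), h.red_of_mem hF hFk (hm.1 j)]
    congr 2
    exact ha j
  have hnon : (∑ j, algebraMap E F (a j : E) * m j) ∈ O.nonunits := by
    have h1 := (h.ρ_ker ⟨_, hsum_mem⟩).1 hρ
    rw [ValuationSubring.mem_nonunits_iff_exists_mem_maximalIdeal]
    exact ⟨hsum_mem, (IsLocalRing.mem_maximalIdeal _).2 h1⟩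
  intro j
  have h2 := hm.2 (fun l => (a l : E)) (fun l => (a l).2) hnon j
  have h3 : ¬ IsUnit (a j) := by
    intro hu
    have h4 : ((a j : E)) ∈ S1.Ov.nonunits := h2
    rw [ValuationSubring.mem_nonunits_iff_exists_mem_maximalIdeal] at h4
    obtain ⟨hmemj, hmax⟩ := h4
    exact (IsLocalRing.mem_maximalIdeal _).1 hmax hu
  rw [← ha j]
  exact (S1.ρ_eq_zero_iff (a j)).2 h3

/-- **the lattice property of `O_w`** from a residually independent generating family
(the outputs (a) of CORE-COVER and of CORE-NP). -/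
theorem hasLattice_of_resIndep (h : ValIn S1 ιk O ρ) (hF : IsRRField K F)
    (hFk : IsRRField k Fk) (hL1 : HasLattice S1) {n : ℕ} (m : Fin n → F)
    (hm : ResIndep S1.Ov O m)
    (hgen : ∀ x : F, ∃ c : Fin n → E, x = ∑ j, algebraMap E F (c j) * m j) :
    HasLattice (h.toValSetup hF hFk) :=
  h.hasLattice hF hFk hL1 m hm.1 hgen (h.hli_of_resIndep hF hFk m hm)

end ValIn

end Fermat.Agent.S36G
end
end MergeWrap_S36_HPVal_ValIn

section MergeWrap_S36_HPVal_ValInHP -- from S36/HPVal/ValInHP.lean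

set_option autoImplicit false
set_option linter.style.haveILetI false
set_option linter.unusedSectionVars false
set_option linter.unusedVariables false

noncomputable section
attribute [local instance 10000] SubalgebraClass.toAlgebra HahnSeries.powerSeriesAlgebra

namespace Fermat.Agent.S36G

open AlgebraicCurve Fermat.Agent.RR Fermat.Agent.Deuring Fermat.Agent.BadRed Fermat.Agent.HPVal
  Fermat.Agent.HP IntermediateField

variable {K E F k κ1 Fk : Type*} [Field K] [Field E] [Algebra K E] [Field F] [Algebra K F]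
  [Algebra E F] [IsScalarTower K E F]
  [Field k] [Field κ1] [Algebra k κ1] [Field Fk] [Algebra k Fk]

/-- `ιk` as a `k`-algebra map. -/
def valInAlgHom (ιk : κ1 →+* Fk) (hιk : ∀ c : k, ιk (algebraMap k κ1 c) = algebraMap k Fk c) :
    κ1 →ₐ[k] Fk :=
  { ιk with commutes' := hιk }

@[simp] theorem valInAlgHom_apply (ιk : κ1 →+* Fk)
    (hιk : ∀ c : k, ιk (algebraMap k κ1 c) = algebraMap k Fk c) (x : κ1) :
    valInAlgHom ιk hιk x = ιk x := rfl

/-- if `κ1 = k(y)` then `ιk κ1` lies in every intermediate field containing `ιk y`. -/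
theorem valIn_ιk_mem (ιk : κ1 →+* Fk)
    (hιk : ∀ c : k, ιk (algebraMap k κ1 c) = algebraMap k Fk c) {y : κ1} (hgen : k⟮y⟯ = ⊤)
    (L : IntermediateField k Fk) (hy : ιk y ∈ L) (x : κ1) : ιk x ∈ L := by
  have h1 : x ∈ k⟮y⟯ := by rw [hgen]; exact IntermediateField.mem_top
  have h2 : valInAlgHom ιk hιk x ∈ (k⟮y⟯).map (valInAlgHom ιk hιk) := ⟨x, h1, rfl⟩
  rw [IntermediateField.adjoin_map, Set.image_singleton] at h2
  have h3 : k⟮valInAlgHom ιk hιk y⟯ ≤ L := by
    rw [IntermediateField.adjoin_simple_le_iff]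
    exact hy
  exact h3 h2

namespace ValIn

variable {S1 : ValSetup K E k κ1} {ιk : κ1 →+* Fk} {O : ValuationSubring F} {ρ : O →+* Fk}

/-- **the curve `H_P`** on the residue field of `O_w`. -/
def hpCurve (h : ValIn S1 ιk O ρ) {q : ℕ} {y : κ1} (hgen : k⟮y⟯ = ⊤) (hy : Transcendental k y)
    {W Z : F} (hW : W ∈ O) (hZ : Z ∈ O) (c : k) (hc : c ≠ 0) (hq : 2 ≤ q)
    (rel : ρ ⟨W, hW⟩ * ρ ⟨Z, hZ⟩ * (ρ ⟨W, hW⟩ - ρ ⟨Z, hZ⟩) ^ (q - 1) = algebraMap k Fk c)
    (hyW : ιk y = ρ ⟨W, hW⟩ ^ q + algebraMap k Fk c / ρ ⟨W, hW⟩)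
    {n : ℕ} (m : Fin n → Fk)
    (hm : ∀ j, m j ∈ IntermediateField.adjoin k {ρ ⟨W, hW⟩, ρ ⟨Z, hZ⟩})
    (hspan : ∀ x : Fk, ∃ a : Fin n → κ1, x = ∑ j, ιk (a j) * m j) : HPCurve k Fk q where
  X1 := ρ ⟨W, hW⟩
  X2 := ρ ⟨Z, hZ⟩
  c := c
  c_ne := hc
  q_two := hq
  rel := rel
  gen := by
    have hW' : ρ ⟨W, hW⟩ ∈ IntermediateField.adjoin k {ρ ⟨W, hW⟩, ρ ⟨Z, hZ⟩} :=
      IntermediateField.subset_adjoin k _ (Set.mem_insert _ _)
    have hy' : ιk y ∈ IntermediateField.adjoin k {ρ ⟨W, hW⟩, ρ ⟨Z, hZ⟩} := by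
      rw [hyW]
      exact add_mem (pow_mem hW' q) (div_mem (IntermediateField.algebraMap_mem _ c) hW')
    rw [eq_top_iff]
    intro x _
    obtain ⟨a, rfl⟩ := hspan x
    exact sum_mem fun j _ => mul_mem (valIn_ιk_mem ιk h.ιk_alg hgen _ hy' (a j)) (hm j)
  transc := by
    apply hp_transcendental_of_Y (q := q) c
    rw [← hyW]
    intro halg
    apply hy
    have h1 : IsAlgebraic k (valInAlgHom ιk h.ιk_alg y) := halg
    exact (isAlgebraic_algHom_iff (valInAlgHom ιk h.ιk_alg) ιk.injective).1 h1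

section HP

variable (h : ValIn S1 ιk O ρ) {q : ℕ} (H : HPCurve k Fk q) [IsAlgClosed k]
  (hq1 : ((q + 1 : ℕ) : k) ≠ 0) (hF : IsRRField K F)

/-- **VAL-IN**, with `hFk` from the curve `H_P`. -/
def toValSetupHP : ValSetup K F k Fk := h.toValSetup hF (H.isRRField hq1)

@[simp] theorem toValSetupHP_A : (h.toValSetupHP H hq1 hF).A = S1.A := rfl

@[simp] theorem toValSetupHP_Ov : (h.toValSetupHP H hq1 hF).Ov = O := rfl

@[simp] theorem toValSetupHP_res : (h.toValSetupHP H hq1 hF).res = S1.res := rfl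

@[simp] theorem toValSetupHP_ρ : (h.toValSetupHP H hq1 hF).ρ = ρ := rfl

theorem redHP_of_mem {f : F} (hf : f ∈ O) : (h.toValSetupHP H hq1 hF).red f = ρ ⟨f, hf⟩ :=
  h.red_of_mem hF (H.isRRField hq1) hf

theorem redHP_algebraMap {e : E} (he : e ∈ S1.Ov) :
    (h.toValSetupHP H hq1 hF).red (algebraMap E F e) = ιk (S1.red e) :=
  h.red_algebraMap hF (H.isRRField hq1) he

/-- the lattice property of `toValSetupHP`. -/
theorem hasLatticeHP (hL1 : HasLattice S1) {n : ℕ} (m : Fin n → F) (hm : ResIndep S1.Ov O m)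
    (hgen : ∀ x : F, ∃ c : Fin n → E, x = ∑ j, algebraMap E F (c j) * m j) :
    HasLattice (h.toValSetupHP H hq1 hF) :=
  h.hasLattice_of_resIndep hF (H.isRRField hq1) hL1 m hm hgen

end HP

section Red

variable (h : ValIn S1 ιk O ρ) {q : ℕ} [IsAlgClosed k] (hq1 : ((q + 1 : ℕ) : k) ≠ 0)
  (hF : IsRRField K F) {y : κ1} (hgen : k⟮y⟯ = ⊤) (hy : Transcendental k y)
  {W Z : F} (hW : W ∈ O) (hZ : Z ∈ O) (c : k) (hc : c ≠ 0) (hq : 2 ≤ q)
  (rel : ρ ⟨W, hW⟩ * ρ ⟨Z, hZ⟩ * (ρ ⟨W, hW⟩ - ρ ⟨Z, hZ⟩) ^ (q - 1) = algebraMap k Fk c)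
  (hyW : ιk y = ρ ⟨W, hW⟩ ^ q + algebraMap k Fk c / ρ ⟨W, hW⟩)
  {n : ℕ} (m : Fin n → Fk)
  (hm : ∀ j, m j ∈ IntermediateField.adjoin k {ρ ⟨W, hW⟩, ρ ⟨Z, hZ⟩})
  (hspan : ∀ x : Fk, ∃ a : Fin n → κ1, x = ∑ j, ιk (a j) * m j)

/-- `S.red W = H.X1`. -/
theorem red_W :
    (h.toValSetupHP (h.hpCurve hgen hy hW hZ c hc hq rel hyW m hm hspan) hq1 hF).red W =
      (h.hpCurve hgen hy hW hZ c hc hq rel hyW m hm hspan).X1 :=
  h.redHP_of_mem _ hq1 hF hW

/-- `S.red Z = H.X2`. -/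
theorem red_Z :
    (h.toValSetupHP (h.hpCurve hgen hy hW hZ c hc hq rel hyW m hm hspan) hq1 hF).red Z =
      (h.hpCurve hgen hy hW hZ c hc hq rel hyW m hm hspan).X2 :=
  h.redHP_of_mem _ hq1 hF hZ

/-- `S.red (ι Y) = H.Yf` for `Y ∈ S1.Ov` with `S1.red Y = y`. -/
theorem red_Y {Y : E} (hY : Y ∈ S1.Ov) (hYy : S1.red Y = y) :
    (h.toValSetupHP (h.hpCurve hgen hy hW hZ c hc hq rel hyW m hm hspan) hq1 hF).red
        (algebraMap E F Y) =
      (h.hpCurve hgen hy hW hZ c hc hq rel hyW m hm hspan).Yf := by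
  rw [h.redHP_algebraMap _ hq1 hF hY, hYy, hyW]
  rfl

end Red

end ValIn

end Fermat.Agent.S36G
end
end MergeWrap_S36_HPVal_ValInHP

section MergeWrap_Lib_BadRed_HPVal_Core -- from Lib/BadRed/HPVal/Core.lean

set_option autoImplicit false
set_option linter.unusedSectionVars false
set_option linter.unusedVariables false
set_option linter.style.haveILetI false

noncomputable section

namespace Fermat.Agent.HPVal

open Polynomial IntermediateField Fermat.Agent.BadRed Fermat.Agent.Deuring Fermat.Agent.RR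
  Fermat.Agent.HP Fermat.Agent.S36G

universe uK uE uF uk uκ

variable {K : Type uK} {E : Type uE} {F : Type uF} {k : Type uk} {κ1 : Type uκ}
  [Field K] [Field E] [Algebra K E] [Field F] [Algebra K F] [Algebra E F] [IsScalarTower K E F]
  [Field k] [Field κ1] [Algebra k κ1]

/-- the induced map of residue fields is unique. -/
theorem core_j_eq {Fk : Type*} [Field Fk] (S1 : ValSetup K E k κ1) {O : ValuationSubring F}
    (hO : LiesOverV S1.Ov O) {ρ : O →+* Fk} {j ιk : κ1 →+* Fk}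
    (hj : ∀ (a : S1.Ov) (h : algebraMap E F (a : E) ∈ O), ρ ⟨algebraMap E F (a : E), h⟩ = j (S1.ρ a))
    (hι : ∀ (e : E) (he : e ∈ S1.Ov) (he' : algebraMap E F e ∈ O),
      ρ ⟨algebraMap E F e, he'⟩ = ιk (S1.ρ ⟨e, he⟩)) : j = ιk := by
  ext a
  obtain ⟨b, rfl⟩ := S1.ρ_surj a
  have hb : algebraMap E F (b : E) ∈ O := (hO.mem_iff _).mpr b.2
  rw [← hj b hb, hι (b : E) b.2 hb]

/-- **CORE**: the valuation `w_P`, general form. -/
theorem core_main [IsAlgClosed k] (S1 : ValSetup K E k κ1) (hL1 : HasLattice S1)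
    (hF : IsRRField K F) {q : ℕ} (hq : q.Prime) (hchar : ((q : ℕ) : k) = 0)
    (hfin : Module.finrank E F = q * (q + 1))
    (D : CscData S1.Ov q) {y : κ1} (hgen : k⟮y⟯ = ⊤) (hy : Transcendental k y)
    (hY : S1.ρ D.Y = y) {c : k}
    (hc : S1.ρ D.uinv * S1.ρ (D.R.coeff 0) = algebraMap k κ1 c) (hc0 : c ≠ 0)
    {x z : F} (hx : aeval x D.psi = 0) (hz : aeval z D.psi = 0) (hxz : x ≠ z) :
    ∃ (Fk : Type uF) (_ : Field Fk) (_ : Algebra k Fk) (S : ValSetup K F k Fk)
      (H : HPCurve k Fk q) (ιk : κ1 →+* Fk),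
      S.A = S1.A ∧
      (∀ (c : K) (h : c ∈ S.A) (h' : c ∈ S1.A), S.res ⟨c, h⟩ = S1.res ⟨c, h'⟩) ∧
      HasLattice S ∧
      LiesOverV S1.Ov S.Ov ∧
      (∀ c : k, ιk (algebraMap k κ1 c) = algebraMap k Fk c) ∧
      (∀ e ∈ S1.Ov, S.red (algebraMap E F e) = ιk (S1.red e)) ∧
      x / algebraMap E F (D.ϖ : E) ∈ S.Ov ∧ z / algebraMap E F (D.ϖ : E) ∈ S.Ov ∧
      S.red (x / algebraMap E F (D.ϖ : E)) = H.X1 ∧
      S.red (z / algebraMap E F (D.ϖ : E)) = H.X2 ∧
      ιk y = H.Yf ∧ H.c = c ∧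
      (∀ e ∈ S1.Ov, S.red (algebraMap E F e) ∈ k⟮H.Yf⟯) ∧
      Module.finrank k⟮H.Yf⟯ Fk = q * (q + 1) ∧
      (∀ O' : ValuationSubring F, LiesOverV S1.Ov O' → O' = S.Ov) := by
  classical
  haveI : FiniteDimensional E F := Module.finite_of_finrank_pos (by
    rw [hfin]
    exact Nat.mul_pos hq.pos (Nat.succ_pos q))
  haveI : Infinite k := IsAlgClosed.instInfinite
  obtain ⟨O, Fk, iF, iA, ιk, ρ, hO, hιk, hρι, hρsurj, hρker⟩ := cex_exists (F := F) S1
  letI := iF
  letI := iA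
  obtain ⟨j, hj⟩ := cnpHyp_of_csc_setup S1 D hq hchar hY hc hc0 hx hz hxz O hO ρ
    (fun f hf => (hρker f).mpr hf)
  have hjι : j = ιk := core_j_eq S1 hO hj.comp hρι
  subst hjι
  have hR := hj.resIndep hgen hy c rfl
  have hcard : Fintype.card (Fin (q + 1) × Fin q) = Module.finrank E F := by
    rw [hfin]
    simp [mul_comm]
  have hVI : ValIn S1 j O ρ :=
    ⟨hιk, hO, hρι, hρsurj, hρker, fun f hf => ccov_scale S1 hO hR hcard f hf⟩
  let H : HPCurve k Fk q := hj.cfkCurve hιk hgen hy c rfl hfin hρsurj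
  have hq1 : ((q + 1 : ℕ) : k) ≠ 0 := hp_succ_ne_zero hchar
  let S : ValSetup K F k Fk := hVI.toValSetupHP H hq1 hF
  have hW : x / algebraMap E F (D.ϖ : E) ∈ O := hj.W_mem
  have hZ : z / algebraMap E F (D.ϖ : E) ∈ O := hj.Z_mem
  refine ⟨Fk, iF, iA, S, H, j, rfl, fun c h h' => rfl, ?_, hO, hιk, ?_, hW, hZ, ?_, ?_, ?_, rfl,
    ?_, ?_, ?_⟩
  · exact ccov_hasLattice S1 hL1 S hO (fun c h1 h => rfl) hR hcard
  · intro e he
    exact hVI.redHP_algebraMap H hq1 hF he
  · exact hVI.redHP_of_mem H hq1 hF hW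
  · exact hVI.redHP_of_mem H hq1 hF hZ
  · exact (hj.cfkCurve_Yf hιk hgen hy c rfl hfin hρsurj).symm
  · intro e he
    have he' : algebraMap E F e ∈ O := (hO.mem_iff e).mpr he
    rw [hVI.redHP_of_mem H hq1 hF he']
    exact hj.cfk_old_mem' hιk hgen hy c rfl hfin hρsurj e he he'
  · exact hj.cfk_finrank_res hιk hgen hy c rfl hfin hρsurj
  · intro O' hO'
    exact ccov_unique_setup S1 hO hR hcard hO'

end Fermat.Agent.HPVal
end
end MergeWrap_Lib_BadRed_HPVal_Core

section MergeWrap_Lib_BadRed_HPVal_CoreK -- from Lib/BadRed/HPVal/CoreK.lean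

set_option autoImplicit false
set_option linter.unusedSectionVars false
set_option linter.unusedVariables false
set_option linter.style.haveILetI false

noncomputable section

namespace Fermat.Agent.HPVal

open Polynomial IntermediateField Fermat.Agent.BadRed Fermat.Agent.Deuring Fermat.Agent.RR
  Fermat.Agent.HP Fermat.Agent.S36G

universe uK uE uF uk uκ

variable {K : Type uK} {E : Type uE} {F : Type uF} {k : Type uk} {κ1 : Type uκ}
  [Field K] [Field E] [Algebra K E] [Field F] [Algebra K F] [Algebra E F] [IsScalarTower K E F]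
  [Field k] [Field κ1] [Algebra k κ1]

/-- `x / ϖ` for `ϖ ∈ K`. -/
theorem coreK_div_eq {O1 : ValuationSubring E} {q : ℕ} (D : CscData O1 q) {ϖ : K}
    (hϖ : (D.ϖ : E) = algebraMap K E ϖ) (x : F) :
    x / algebraMap E F (D.ϖ : E) = x * (algebraMap K F ϖ)⁻¹ := by
  rw [hϖ, ← IsScalarTower.algebraMap_apply K E F, div_eq_mul_inv]

/-- **CORE**, with the uniformiser in `K`. -/
theorem core_main_K [IsAlgClosed k] (S1 : ValSetup K E k κ1) (hL1 : HasLattice S1)
    (hF : IsRRField K F) {q : ℕ} (hq : q.Prime) (hchar : ((q : ℕ) : k) = 0)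
    (hfin : Module.finrank E F = q * (q + 1))
    (D : CscData S1.Ov q) {ϖ : K} (hϖ : (D.ϖ : E) = algebraMap K E ϖ) (huinv : D.uinv = 1)
    {y : κ1} (hgen : k⟮y⟯ = ⊤) (hy : Transcendental k y) (hY : S1.ρ D.Y = y) {c : k}
    (hc : S1.ρ (D.R.coeff 0) = algebraMap k κ1 c) (hc0 : c ≠ 0)
    {x z : F} (hx : D.psi.eval₂ (algebraMap E F) x = 0)
    (hz : D.psi.eval₂ (algebraMap E F) z = 0) (hxz : x ≠ z) :
    ∃ (Fk : Type uF) (_ : Field Fk) (_ : Algebra k Fk) (S : ValSetup K F k Fk)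
      (H : HPCurve k Fk q) (ιk : κ1 →+* Fk),
      S.A = S1.A ∧
      (∀ (c : K) (h : c ∈ S.A) (h' : c ∈ S1.A), S.res ⟨c, h⟩ = S1.res ⟨c, h'⟩) ∧
      HasLattice S ∧
      LiesOverV S1.Ov S.Ov ∧
      (∀ c : k, ιk (algebraMap k κ1 c) = algebraMap k Fk c) ∧
      (∀ e ∈ S1.Ov, S.red (algebraMap E F e) = ιk (S1.red e)) ∧
      x * (algebraMap K F ϖ)⁻¹ ∈ S.Ov ∧ z * (algebraMap K F ϖ)⁻¹ ∈ S.Ov ∧
      S.red (x * (algebraMap K F ϖ)⁻¹) = H.X1 ∧
      S.red (z * (algebraMap K F ϖ)⁻¹) = H.X2 ∧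
      ιk y = H.Yf ∧ H.c = c ∧
      (∀ e ∈ S1.Ov, S.red (algebraMap E F e) ∈ k⟮H.Yf⟯) ∧
      Module.finrank k⟮H.Yf⟯ Fk = q * (q + 1) ∧
      (∀ O' : ValuationSubring F, LiesOverV S1.Ov O' → O' = S.Ov) := by
  have hc' : S1.ρ D.uinv * S1.ρ (D.R.coeff 0) = algebraMap k κ1 c := by
    rw [huinv, map_one, one_mul, hc]
  have hx' : aeval x D.psi = 0 := by rw [aeval_def]; exact hx
  have hz' : aeval z D.psi = 0 := by rw [aeval_def]; exact hz
  have h := core_main S1 hL1 hF hq hchar hfin D hgen hy hY hc' hc0 hx' hz' hxz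
  rw [coreK_div_eq D hϖ x, coreK_div_eq D hϖ z] at h
  exact h

/-- **CORE**, for the disc valuation with residue field `k(X)`. -/
theorem core_main_ratFunc [IsAlgClosed k] (S1 : ValSetup K E k (RatFunc k)) (hL1 : HasLattice S1)
    (hF : IsRRField K F) {q : ℕ} (hq : q.Prime) (hchar : ((q : ℕ) : RatFunc k) = 0)
    (hfin : Module.finrank E F = q * (q + 1))
    (D : CscData S1.Ov q) {ϖ : K} (hϖ : (D.ϖ : E) = algebraMap K E ϖ) (huinv : D.uinv = 1)
    (hY : S1.ρ D.Y = RatFunc.X) {c : k}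
    (hc : S1.ρ (D.R.coeff 0) = algebraMap k (RatFunc k) c) (hc0 : c ≠ 0)
    {x z : F} (hx : D.psi.eval₂ (algebraMap E F) x = 0)
    (hz : D.psi.eval₂ (algebraMap E F) z = 0) (hxz : x ≠ z) :
    ∃ (Fk : Type uF) (_ : Field Fk) (_ : Algebra k Fk) (S : ValSetup K F k Fk)
      (H : HPCurve k Fk q) (ιk : RatFunc k →+* Fk),
      S.A = S1.A ∧
      (∀ (c : K) (h : c ∈ S.A) (h' : c ∈ S1.A), S.res ⟨c, h⟩ = S1.res ⟨c, h'⟩) ∧
      HasLattice S ∧
      LiesOverV S1.Ov S.Ov ∧
      (∀ c : k, ιk (algebraMap k (RatFunc k) c) = algebraMap k Fk c) ∧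
      (∀ e ∈ S1.Ov, S.red (algebraMap E F e) = ιk (S1.red e)) ∧
      x * (algebraMap K F ϖ)⁻¹ ∈ S.Ov ∧ z * (algebraMap K F ϖ)⁻¹ ∈ S.Ov ∧
      S.red (x * (algebraMap K F ϖ)⁻¹) = H.X1 ∧
      S.red (z * (algebraMap K F ϖ)⁻¹) = H.X2 ∧
      ιk RatFunc.X = H.Yf ∧ H.c = c ∧
      (∀ e ∈ S1.Ov, S.red (algebraMap E F e) ∈ k⟮H.Yf⟯) ∧
      Module.finrank k⟮H.Yf⟯ Fk = q * (q + 1) ∧
      (∀ O' : ValuationSubring F, LiesOverV S1.Ov O' → O' = S.Ov) := by
  have hchar' : ((q : ℕ) : k) = 0 := by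
    apply (algebraMap k (RatFunc k)).injective
    rw [map_natCast, map_zero]
    exact hchar
  exact core_main_K S1 hL1 hF hq hchar' hfin D hϖ huinv RatFunc.adjoin_X
    RatFunc.transcendental_X hY hc hc0 hx hz hxz

end Fermat.Agent.HPVal
end
end MergeWrap_Lib_BadRed_HPVal_CoreK

section MergeWrap_Lib_BadRed_HPVal_DiscSetup -- from Lib/BadRed/HPVal/DiscSetup.lean

set_option autoImplicit false
set_option linter.style.haveILetI false
set_option linter.unusedSectionVars false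
set_option linter.unusedVariables false

noncomputable section

open Polynomial IntermediateField

namespace Fermat.Agent.HPVal

open Fermat.Agent.BadRed Fermat.Agent.Deuring Fermat.Agent.RR

/-- the rational function field over an algebraically closed field satisfies the standing
hypotheses of the Riemann-Roch library. -/
theorem isRRField_ratFunc (k : Type*) [Field k] [IsAlgClosed k] : IsRRField k (RatFunc k) := by
  have hx : Transcendental k (RatFunc.X : RatFunc k) := RatFunc.transcendental_X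
  have htop : k⟮(RatFunc.X : RatFunc k)⟯ = ⊤ := RatFunc.adjoin_X
  haveI : FiniteDimensional k⟮(RatFunc.X : RatFunc k)⟯ (RatFunc k) := by
    apply Module.finite_of_finrank_pos
    rw [htop, IntermediateField.finrank_top]
    exact Nat.one_pos
  haveI : Algebra.IsSeparable k⟮(RatFunc.X : RatFunc k)⟯ (RatFunc k) := by
    refine ⟨fun y => ?_⟩
    have hy : y ∈ k⟮(RatFunc.X : RatFunc k)⟯ := by
      rw [htop]
      exact IntermediateField.mem_top
    have e : y = algebraMap k⟮(RatFunc.X : RatFunc k)⟯ (RatFunc k) ⟨y, hy⟩ := rfl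
    rw [e]
    exact isSeparable_algebraMap _
  exact isRRField_of_separable hx

variable {K F k : Type*} [Field K] [Field F] [Algebra K F] [Field k]

namespace DiscData

variable {A : ValuationSubring K} {res : A →+* k} {O B : Subring F} {π : K} {t : F}
  {ev : B →+* k}

/-- the disc valuation ring. -/
def discRingV (D : DiscData A res O B π t ev) (hres : Function.Surjective res) :
    ValuationSubring F :=
  (D.exists_disc_residueMap hres).choose

/-- the residue map of the disc valuation, with values in `k(X)`. -/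
def discRho (D : DiscData A res O B π t ev) (hres : Function.Surjective res) :
    D.discRingV hres →+* RatFunc k :=
  (D.exists_disc_residueMap hres).choose_spec.choose

theorem discRho_spec (D : DiscData A res O B π t ev) (hres : Function.Surjective res) :
    IsDiscVal A B π t ev (D.discRingV hres) ∧
      Function.Surjective (D.discRho hres) ∧
      (∀ f : D.discRingV hres, D.discRho hres f = 0 ↔ ¬ IsUnit f) ∧
      (∀ (c : K) (hc : c ∈ A) (hc' : algebraMap K F c ∈ D.discRingV hres),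
        D.discRho hres ⟨algebraMap K F c, hc'⟩ = algebraMap k (RatFunc k) (res ⟨c, hc⟩)) ∧
      (∀ (b : B) (hb : (b : F) ∈ D.discRingV hres),
        D.discRho hres ⟨(b : F), hb⟩ = algebraMap k (RatFunc k) (ev b)) ∧
      (∀ h : t * (algebraMap K F π)⁻¹ ∈ D.discRingV hres,
        D.discRho hres ⟨t * (algebraMap K F π)⁻¹, h⟩ = RatFunc.X) ∧
      ∀ (G : (↥B)[X]) (h : CircleData.evalHom B (algebraMap K F π) t G ∈ D.discRingV hres),
        D.discRho hres ⟨CircleData.evalHom B (algebraMap K F π) t G, h⟩ =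
          algebraMap k[X] (RatFunc k) (G.map ev) :=
  (D.exists_disc_residueMap hres).choose_spec.choose_spec

/-- **the constant reduction of the disc valuation.** -/
def setup (D : DiscData A res O B π t ev) (hres : Function.Surjective res)
    (hF : IsRRField K F) (hFk : IsRRField k (RatFunc k)) : ValSetup K F k (RatFunc k) where
  A := A
  Ov := D.discRingV hres
  res := res
  ρ := D.discRho hres
  hF := hF
  hFk := hFk
  res_surj := hres
  ρ_surj := (D.discRho_spec hres).2.1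
  mem_Ov_iff := (D.discRho_spec hres).1.mem_iff
  ρ_algebraMap := fun c hc hc' => (D.discRho_spec hres).2.2.2.1 c hc hc'
  ρ_eq_zero_iff := (D.discRho_spec hres).2.2.1
  scale := fun f hf => D.isDiscVal_scale (D.discRho_spec hres).1 hf

variable (D : DiscData A res O B π t ev) (hres : Function.Surjective res)
  (hF : IsRRField K F) (hFk : IsRRField k (RatFunc k))

@[simp] theorem setup_A : (D.setup hres hF hFk).A = A := rfl

@[simp] theorem setup_res : (D.setup hres hF hFk).res = res := rfl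

theorem setup_Ov : (D.setup hres hF hFk).Ov = D.discRingV hres := rfl

/-- the valuation ring of the setup is THE disc valuation. -/
theorem setup_isDiscVal : IsDiscVal A B π t ev (D.setup hres hF hFk).Ov :=
  (D.discRho_spec hres).1

/-- `B` is contained in the valuation ring. -/
theorem setup_mem_of_mem_B {b : F} (hb : b ∈ B) : b ∈ (D.setup hres hF hFk).Ov :=
  D.isDiscVal_le (D.setup_isDiscVal hres hF hFk) b hb

/-- `G(t/ϖ)` is in the valuation ring. -/
theorem setup_evalHom_mem (G : (↥B)[X]) :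
    CircleData.evalHom B (algebraMap K F π) t G ∈ (D.setup hres hF hFk).Ov :=
  D.isDiscVal_evalHom_mem (D.setup_isDiscVal hres hF hFk) G

/-- `t / ϖ` is in the valuation ring. -/
theorem setup_W_mem : t * (algebraMap K F π)⁻¹ ∈ (D.setup hres hF hFk).Ov := by
  have h := D.setup_evalHom_mem hres hF hFk (X : (↥B)[X])
  rwa [CircleData.evalHom_X] at h

/-- the reduction on `B` is the evaluation `ev`. -/
theorem setup_red_B (b : B) :
    (D.setup hres hF hFk).red (b : F) = algebraMap k (RatFunc k) (ev b) := by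
  have hb : (b : F) ∈ (D.setup hres hF hFk).Ov := D.setup_mem_of_mem_B hres hF hFk b.2
  rw [(D.setup hres hF hFk).red_of_mem hb]
  exact (D.discRho_spec hres).2.2.2.2.1 b hb

/-- the reduction of `t / ϖ` is the variable `X`. -/
theorem setup_red_W :
    (D.setup hres hF hFk).red (t * (algebraMap K F π)⁻¹) = RatFunc.X := by
  have h := D.setup_W_mem hres hF hFk
  rw [(D.setup hres hF hFk).red_of_mem h]
  exact (D.discRho_spec hres).2.2.2.2.2.1 h

/-- the reduction of `G(t/ϖ)` is the reduced polynomial. -/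
theorem setup_red_evalHom (G : (↥B)[X]) :
    (D.setup hres hF hFk).red (CircleData.evalHom B (algebraMap K F π) t G) =
      algebraMap k[X] (RatFunc k) (G.map ev) := by
  have h := D.setup_evalHom_mem hres hF hFk G
  rw [(D.setup hres hF hFk).red_of_mem h]
  exact (D.discRho_spec hres).2.2.2.2.2.2 G h

/-- the reduction of a constant. -/
theorem setup_red_const {c : K} (hc : c ∈ A) :
    (D.setup hres hF hFk).red (algebraMap K F c) = algebraMap k (RatFunc k) (res ⟨c, hc⟩) :=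
  (D.setup hres hF hFk).red_algebraMap hc

/-- an element of `B` is in the maximal ideal iff its evaluation vanishes. -/
theorem setup_red_B_eq_zero_iff (b : B) :
    (D.setup hres hF hFk).red (b : F) = 0 ↔ ev b = 0 := by
  rw [D.setup_red_B hres hF hFk b]
  exact map_eq_zero_iff _ (algebraMap k (RatFunc k)).injective

/-- uniqueness: every disc valuation is the valuation ring of the setup. -/
theorem setup_Ov_unique {V : ValuationSubring F} (hV : IsDiscVal A B π t ev V) :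
    V = (D.setup hres hF hFk).Ov :=
  D.isDiscVal_unique hV (D.setup_isDiscVal hres hF hFk)

include D hres hF hFk in
/-- **DISC-SETUP**, existence form. -/
theorem exists_setup :
    ∃ S₁ : ValSetup K F k (RatFunc k), S₁.A = A ∧ IsDiscVal A B π t ev S₁.Ov ∧
      (∀ b : B, S₁.red (b : F) = algebraMap k (RatFunc k) (ev b)) ∧
      S₁.red (t * (algebraMap K F π)⁻¹) = RatFunc.X ∧
      (∀ G : (↥B)[X], S₁.red (CircleData.evalHom B (algebraMap K F π) t G) =
        algebraMap k[X] (RatFunc k) (G.map ev)) ∧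
      ∀ (c : K) (hc : c ∈ A), S₁.red (algebraMap K F c) = algebraMap k (RatFunc k) (res ⟨c, hc⟩) :=
  ⟨D.setup hres hF hFk, rfl, D.setup_isDiscVal hres hF hFk, D.setup_red_B hres hF hFk,
    D.setup_red_W hres hF hFk, D.setup_red_evalHom hres hF hFk,
    fun c hc => D.setup_red_const hres hF hFk hc⟩

end DiscData

end Fermat.Agent.HPVal
end
end MergeWrap_Lib_BadRed_HPVal_DiscSetup

section MergeWrap_Lib_BadRed_HPVal_Uniq -- from Lib/BadRed/HPVal/Uniq.lean

set_option autoImplicit false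
set_option linter.unusedSectionVars false
set_option linter.style.haveILetI false

noncomputable section

open Polynomial

namespace Fermat.Agent.HPVal

variable {K E F k : Type*} [Field K] [Field E] [Algebra K E] [Field F] [Field k]

/-- the hypotheses of the uniqueness export on a valuation ring `O'` of `F ⊇ ι E`. -/
structure UniqData (A : ValuationSubring K) (res : A →+* k) (B : Subring E) (π : K) (t : E)
    (ι : E →+* F) (O' : ValuationSubring F) : Prop where
  mem_iff : ∀ c : K, ι (algebraMap K E c) ∈ O' ↔ c ∈ A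
  B_mem : ∀ b ∈ B, ι b ∈ O'
  Y_mem : ι (t * (algebraMap K E π)⁻¹) ∈ O'
  tr : ∀ G : A[X], G.map res ≠ 0 →
    (ι (eval₂ ((algebraMap K E).comp A.subtype) (t * (algebraMap K E π)⁻¹) G))⁻¹ ∈ O'

/-- in a valuation ring, unit + non-unit is a unit. -/
theorem unq_inv_add_mem {O' : ValuationSubring F} {x y : F} (hx0 : x ≠ 0) (hx : x ∈ O')
    (hx' : x⁻¹ ∈ O') (hy : y ∈ O'.nonunits) : x + y ∈ O' ∧ (x + y)⁻¹ ∈ O' := by
  have h1 : O'.valuation x ≤ 1 := (O'.valuation_le_one_iff x).mpr hx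
  have h2 : O'.valuation x⁻¹ ≤ 1 := (O'.valuation_le_one_iff _).mpr hx'
  have hv0 : O'.valuation x ≠ 0 := (Valuation.ne_zero_iff _).mpr hx0
  have hvx : O'.valuation x = 1 := by
    refine le_antisymm h1 ?_
    rw [map_inv₀] at h2
    exact (inv_le_one₀ (zero_lt_iff.mpr hv0)).mp h2
  have hvy : O'.valuation y < 1 := (O'.mem_nonunits_iff).mp hy
  have hsum : O'.valuation (x + y) = 1 := by
    rw [← hvx]
    apply Valuation.map_add_eq_of_lt_left
    rw [hvx]
    exact hvy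
  refine ⟨(O'.valuation_le_one_iff _).mp hsum.le, (O'.valuation_le_one_iff _).mp ?_⟩
  rw [map_inv₀, hsum, inv_one]

/-- in a valuation ring, non-unit times element is a non-unit. -/
theorem unq_mul_mem_nonunits {O' : ValuationSubring F} {x y : F} (hx : x ∈ O'.nonunits)
    (hy : y ∈ O') : x * y ∈ O'.nonunits := by
  rw [O'.mem_nonunits_iff] at hx ⊢
  have h1 : O'.valuation y ≤ 1 := (O'.valuation_le_one_iff y).mpr hy
  rw [map_mul]
  calc O'.valuation x * O'.valuation y ≤ O'.valuation x * 1 := mul_le_mul_right h1 _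
    _ = O'.valuation x := mul_one _
    _ < 1 := hx

namespace UniqData

variable {A : ValuationSubring K} {res : A →+* k} {B : Subring E} {π : K} {t : E}
  {ι : E →+* F} {O' : ValuationSubring F}

/-- `G (ι W) ∈ O'` for `G ∈ B[X]`. -/
theorem evalHom_mem (h : UniqData A res B π t ι O') (G : (↥B)[X]) :
    ι (CircleData.evalHom B (algebraMap K E π) t G) ∈ O' := by
  show ι (Polynomial.eval₂ B.subtype (t * (algebraMap K E π)⁻¹) G) ∈ O'
  rw [Polynomial.eval₂_eq_sum, Polynomial.sum, map_sum]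
  refine Subring.sum_mem O'.toSubring fun i _ => ?_
  rw [map_mul, map_pow]
  exact mul_mem (h.B_mem _ (G.coeff i).2) (pow_mem h.Y_mem _)

/-- a non-unit constant is a non-unit of `O'`. -/
theorem const_mem_nonunits (h : UniqData A res B π t ι O') {c : K} (hc : c ∈ A)
    (hc' : ¬ IsUnit (⟨c, hc⟩ : A)) : ι (algebraMap K E c) ∈ O'.nonunits := by
  rw [ValuationSubring.mem_nonunits_iff_or]
  rcases eq_or_ne c 0 with rfl | hc0
  · left
    rw [map_zero, map_zero]
  · right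
    rw [← map_inv₀, ← map_inv₀, h.mem_iff]
    intro hinv
    apply hc'
    refine ⟨⟨⟨c, hc⟩, ⟨c⁻¹, hinv⟩, ?_, ?_⟩, rfl⟩
    · exact Subtype.ext (mul_inv_cancel₀ hc0)
    · exact Subtype.ext (inv_mul_cancel₀ hc0)

end UniqData

namespace DiscData

variable {A : ValuationSubring K} {res : A →+* k} {O B : Subring E} {π : K} {t : E}
  {ev : B →+* k} {ι : E →+* F} {O' : ValuationSubring F}

/-- `π` is a non-unit of `A`. -/
theorem unq_π_not_isUnit (D : DiscData A res O B π t ev) :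
    ¬ IsUnit (⟨π, D.π_mem⟩ : A) := by
  rw [← D.res_eq_zero_iff, ← D.ev_const π D.π_mem D.circle.ϖ_mem]
  exact D.circle.ev_ϖ _

/-- `ι t` is a non-unit of `O'`. -/
theorem unq_t_mem_nonunits (D : DiscData A res O B π t ev) (h : UniqData A res B π t ι O') :
    ι t ∈ O'.nonunits := by
  have h1 : ι t = ι (algebraMap K E π) * ι (t * (algebraMap K E π)⁻¹) := by
    rw [← map_mul, D.t_eq]
  rw [h1]
  exact unq_mul_mem_nonunits (h.const_mem_nonunits D.π_mem D.unq_π_not_isUnit) h.Y_mem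

/-- **splitting** of a polynomial over `B` into its constant part over `A` and a multiple of
`t`: `G (W) = G_A (W) + t G' (W)`, with `G_A` of the same reduction. -/
theorem unq_split (D : DiscData A res O B π t ev) (G : (↥B)[X]) :
    ∃ (GA : A[X]) (G' : (↥B)[X]), GA.map res = G.map ev ∧
      CircleData.evalHom B (algebraMap K E π) t G =
        eval₂ ((algebraMap K E).comp A.subtype) (t * (algebraMap K E π)⁻¹) GA +
          t * CircleData.evalHom B (algebraMap K E π) t G' := by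
  induction G using Polynomial.induction_on' with
  | add G₁ G₂ h₁ h₂ =>
    obtain ⟨GA₁, G₁', e₁, f₁⟩ := h₁
    obtain ⟨GA₂, G₂', e₂, f₂⟩ := h₂
    refine ⟨GA₁ + GA₂, G₁' + G₂', ?_, ?_⟩
    · rw [Polynomial.map_add, Polynomial.map_add, e₁, e₂]
    · rw [map_add, map_add, eval₂_add, f₁, f₂]
      ring
  | monomial n b =>
    obtain ⟨a, ha, h1⟩ := D.taylor b b.2
    have ht := D.circle.t_ne
    have hb : b = D.incl ⟨a, ha⟩ + ⟨t, D.circle.t_mem⟩ * ⟨((b : E) - algebraMap K E a) * t⁻¹, h1⟩ := by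
      apply Subtype.ext
      show (b : E) = algebraMap K E a + t * (((b : E) - algebraMap K E a) * t⁻¹)
      field_simp
      ring
    have hev : ev b = res ⟨a, ha⟩ := by
      conv_lhs => rw [hb]
      rw [map_add, map_mul, D.circle.ev_t, zero_mul, add_zero, D.ev_incl]
    refine ⟨monomial n ⟨a, ha⟩, monomial n ⟨((b : E) - algebraMap K E a) * t⁻¹, h1⟩, ?_, ?_⟩
    · rw [Polynomial.map_monomial, Polynomial.map_monomial, hev]
    · show eval₂ B.subtype (t * (algebraMap K E π)⁻¹) (monomial n b) = _ +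
        t * eval₂ B.subtype (t * (algebraMap K E π)⁻¹) (monomial n _)
      rw [eval₂_monomial, eval₂_monomial, eval₂_monomial]
      show (b : E) * _ = algebraMap K E a * _ + t * ((((b : E) - algebraMap K E a) * t⁻¹) * _)
      field_simp
      ring

/-- `G_A (W) ≠ 0` for `G_A ∈ A[X]` of non-zero reduction. -/
theorem unq_eval_ne_zero (D : DiscData A res O B π t ev) {GA : A[X]} (hG : GA.map res ≠ 0) :
    eval₂ ((algebraMap K E).comp A.subtype) (t * (algebraMap K E π)⁻¹) GA ≠ 0 := by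
  rw [← D.evalHom_map_incl]
  apply D.evalHom_ne_zero
  rw [Polynomial.map_map]
  have : ev.comp D.incl = res := RingHom.ext fun a => D.ev_incl a
  rw [this]
  exact hG

/-- **`G (ι W)` is a unit of `O'`** for every `G ∈ B[X]` of non-zero reduction. -/
theorem unq_unit (D : DiscData A res O B π t ev) (h : UniqData A res B π t ι O')
    (G : (↥B)[X]) (hG : G.map ev ≠ 0) :
    ι (CircleData.evalHom B (algebraMap K E π) t G) ∈ O' ∧
      (ι (CircleData.evalHom B (algebraMap K E π) t G))⁻¹ ∈ O' := by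
  obtain ⟨GA, G', e, f⟩ := D.unq_split G
  have hGA : GA.map res ≠ 0 := by rw [e]; exact hG
  have hx0 : ι (eval₂ ((algebraMap K E).comp A.subtype) (t * (algebraMap K E π)⁻¹) GA) ≠ 0 :=
    (map_ne_zero_iff ι ι.injective).mpr (D.unq_eval_ne_zero hGA)
  have hx : ι (eval₂ ((algebraMap K E).comp A.subtype) (t * (algebraMap K E π)⁻¹) GA) ∈ O' := by
    rw [← D.evalHom_map_incl]
    exact h.evalHom_mem _
  have hy : ι (t * CircleData.evalHom B (algebraMap K E π) t G') ∈ O'.nonunits := by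
    rw [map_mul]
    exact unq_mul_mem_nonunits (D.unq_t_mem_nonunits h) (h.evalHom_mem G')
  have := unq_inv_add_mem hx0 hx (h.tr GA hGA) hy
  rw [f, map_add]
  exact this

/-- **the restriction of `O'` to `E` is a disc valuation ring.** -/
theorem unq_isDiscVal (D : DiscData A res O B π t ev) (h : UniqData A res B π t ι O') :
    IsDiscVal A B π t ev (O'.comap ι) where
  mem_iff := fun c => by
    rw [ValuationSubring.mem_comap]
    exact h.mem_iff c
  unit := fun G hG => by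
    obtain ⟨h1, h2⟩ := D.unq_unit h G hG
    refine ⟨h1, ?_⟩
    show ι (CircleData.evalHom B (algebraMap K E π) t G)⁻¹ ∈ O'
    rw [map_inv₀]
    exact h2

/-- **UNIQ, first half**: the restriction of `O'` to `E` IS the disc valuation ring `V`. -/
theorem unq_comap_eq (D : DiscData A res O B π t ev) {V : ValuationSubring E}
    (hV : IsDiscVal A B π t ev V) (h : UniqData A res B π t ι O') : O'.comap ι = V :=
  D.isDiscVal_unique (D.unq_isDiscVal h) hV

/-- **UNIQ (uniqueness export)**: if `Ow` is the unique valuation ring of `F` over the disc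
valuation ring `V` (CORE-COVER), then every `O'` with `UniqData` is `Ow`. -/
theorem unq_eq_of_unique (D : DiscData A res O B π t ev) {V : ValuationSubring E}
    (hV : IsDiscVal A B π t ev V) {Ow : ValuationSubring F}
    (huniq : ∀ O'' : ValuationSubring F, O''.comap ι = V → O'' = Ow)
    (h : UniqData A res B π t ι O') : O' = Ow :=
  huniq O' (D.unq_comap_eq hV h)

/-- `ι b`, `b ∈ B`, is a non-unit of `O'` iff `b` vanishes at the centre: the residue of `ι b` is
the constant `ev b`. -/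
theorem unq_nonunits_iff (D : DiscData A res O B π t ev) (h : UniqData A res B π t ι O')
    (b : B) : ι (b : E) ∈ O'.nonunits ↔ ev b = 0 := by
  have h1 := D.isDiscVal_nonunits_iff (D.unq_isDiscVal h) (C b)
  rw [CircleData.evalHom_C, Polynomial.map_C, Polynomial.C_eq_zero] at h1
  rw [← h1, ValuationSubring.mem_nonunits_iff_or, ValuationSubring.mem_nonunits_iff_or,
    ValuationSubring.mem_comap, map_inv₀, map_eq_zero]

end DiscData

/-! ### the form with `Algebra E F` and `LiesOverV` -/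

section Alg

open Fermat.Agent.BadRed

variable [Algebra E F]
variable {A : ValuationSubring K} {res : A →+* k} {O B : Subring E} {π : K} {t : E}
  {ev : B →+* k} {O' : ValuationSubring F}

/-- `O'` lies over the disc valuation ring. -/
theorem DiscData.unq_liesOverV (D : DiscData A res O B π t ev) {V : ValuationSubring E}
    (hV : IsDiscVal A B π t ev V) (h : UniqData A res B π t (algebraMap E F) O') :
    LiesOverV V O' :=
  D.unq_comap_eq hV h

/-- **UNIQ (uniqueness export), `LiesOverV` form.** -/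
theorem DiscData.unq_eq_of_liesOverV (D : DiscData A res O B π t ev) {V : ValuationSubring E}
    (hV : IsDiscVal A B π t ev V) {Ow : ValuationSubring F}
    (huniq : ∀ O'' : ValuationSubring F, LiesOverV V O'' → O'' = Ow)
    (h : UniqData A res B π t (algebraMap E F) O') : O' = Ow :=
  huniq O' (D.unq_liesOverV hV h)

end Alg

/-! ### how to check the transcendence hypothesis -/

section Check

variable {A : ValuationSubring K} {res : A →+* k} {O B : Subring E} {π : K} {t : E}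
  {ev : B →+* k} {ι : E →+* F} {O' : ValuationSubring F}

/-- `G (ι W) ∈ O'` for `G ∈ A[X]`. -/
theorem unq_evalA_mem (hA : ∀ c : K, c ∈ A → ι (algebraMap K E c) ∈ O')
    (hY : ι (t * (algebraMap K E π)⁻¹) ∈ O') (G : A[X]) :
    ι (eval₂ ((algebraMap K E).comp A.subtype) (t * (algebraMap K E π)⁻¹) G) ∈ O' := by
  rw [Polynomial.eval₂_eq_sum, Polynomial.sum, map_sum]
  refine Subring.sum_mem O'.toSubring fun i _ => ?_
  rw [map_mul, map_pow]
  exact mul_mem (hA _ (G.coeff i).2) (pow_mem hY _)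

/-- the ring homomorphism `A[X] → O'`, `G ↦ G (ι W)`. -/
def unqEvalA (hA : ∀ c : K, c ∈ A → ι (algebraMap K E c) ∈ O')
    (hY : ι (t * (algebraMap K E π)⁻¹) ∈ O') : A[X] →+* O' :=
  ((ι.comp (Polynomial.eval₂RingHom ((algebraMap K E).comp A.subtype)
    (t * (algebraMap K E π)⁻¹)))).codRestrict O' (fun G => unq_evalA_mem hA hY G)

theorem coe_unqEvalA (hA : ∀ c : K, c ∈ A → ι (algebraMap K E c) ∈ O')
    (hY : ι (t * (algebraMap K E π)⁻¹) ∈ O') (G : A[X]) :
    ((unqEvalA hA hY G : O') : F) =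
      ι (eval₂ ((algebraMap K E).comp A.subtype) (t * (algebraMap K E π)⁻¹) G) := rfl

/-- **the transcendence hypothesis from a residue map**: `ρ : O' → Fk` with kernel the non-units,
`φ : k → Fk` compatible with `res`, and `ρ (ι W)` transcendental over `k` (no non-zero
polynomial over `k` vanishes at it). -/
theorem UniqData.of_residue {Fk : Type*} [Field Fk] (ρ : O' →+* Fk)
    (hρ : ∀ x : O', ρ x = 0 ↔ ¬ IsUnit x) (φ : k →+* Fk)
    (hA : ∀ c : K, ι (algebraMap K E c) ∈ O' ↔ c ∈ A)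
    (hB : ∀ b ∈ B, ι b ∈ O')
    (hY : ι (t * (algebraMap K E π)⁻¹) ∈ O')
    (hφ : ∀ a : A, ρ ⟨ι (algebraMap K E a), (hA a).mpr a.2⟩ = φ (res a))
    (htr : ∀ p : k[X], p ≠ 0 → eval₂ φ (ρ ⟨ι (t * (algebraMap K E π)⁻¹), hY⟩) p ≠ 0) :
    UniqData A res B π t ι O' where
  mem_iff := hA
  B_mem := hB
  Y_mem := hY
  tr := fun G hG => by
    have hA' : ∀ c : K, c ∈ A → ι (algebraMap K E c) ∈ O' := fun c hc => (hA c).mpr hc
    have key : ρ.comp (unqEvalA (π := π) (t := t) hA' hY) =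
        (Polynomial.eval₂RingHom φ (ρ ⟨ι (t * (algebraMap K E π)⁻¹), hY⟩)).comp
          (Polynomial.mapRingHom res) := by
      apply Polynomial.ringHom_ext
      · intro a
        have e1 : unqEvalA (π := π) (t := t) hA' hY (C a) =
            ⟨ι (algebraMap K E a), hA' a a.2⟩ := by
          apply Subtype.ext
          rw [coe_unqEvalA, eval₂_C]
          rfl
        simp only [RingHom.comp_apply, e1, hφ, Polynomial.coe_mapRingHom, Polynomial.map_C,
          Polynomial.coe_eval₂RingHom, eval₂_C]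
      · have e1 : unqEvalA (π := π) (t := t) hA' hY X =
            ⟨ι (t * (algebraMap K E π)⁻¹), hY⟩ := by
          apply Subtype.ext
          rw [coe_unqEvalA, eval₂_X]
        simp only [RingHom.comp_apply, e1, Polynomial.coe_mapRingHom, Polynomial.map_X,
          Polynomial.coe_eval₂RingHom, eval₂_X]
    have h1 : ρ (unqEvalA (π := π) (t := t) hA' hY G) ≠ 0 := by
      have := congrArg (fun f => f G) key
      simp only [RingHom.comp_apply, Polynomial.coe_mapRingHom,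
        Polynomial.coe_eval₂RingHom] at this
      rw [this]
      exact htr _ hG
    have hunit : IsUnit (unqEvalA (π := π) (t := t) hA' hY G) := by
      by_contra hnu
      exact h1 ((hρ _).mpr hnu)
    obtain ⟨u, hu⟩ := hunit
    have h2 : (((u⁻¹ : O'ˣ) : O') : F) * ((unqEvalA (π := π) (t := t) hA' hY G : O') : F) = 1 := by
      have h0 : ((u⁻¹ : O'ˣ) : O') * unqEvalA (π := π) (t := t) hA' hY G = 1 := by
        rw [← hu]
        exact u.inv_mul
      exact congrArg Subtype.val h0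
    rw [coe_unqEvalA] at h2
    rw [← eq_inv_of_mul_eq_one_left h2]
    exact (u⁻¹ : O'ˣ).1.2

end Check

end Fermat.Agent.HPVal
end
end MergeWrap_Lib_BadRed_HPVal_Uniq

section MergeWrap_Lib_BadRed_HPVal_UniqCover -- from Lib/BadRed/HPVal/UniqCover.lean

set_option autoImplicit false
set_option linter.unusedSectionVars false
set_option linter.style.haveILetI false

noncomputable section

open Polynomial

namespace Fermat.Agent.HPVal

open Fermat.Agent.BadRed

variable {K E F k : Type*} [Field K] [Field E] [Algebra K E] [Field F] [Algebra E F] [Field k]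
  {A : ValuationSubring K} {res : A →+* k} {O B : Subring E} {π : K} {t : E} {ev : B →+* k}

/-- **UNIQ + CORE-COVER**: `O' = Ow`. -/
theorem DiscData.unq_eq_of_cover [FiniteDimensional E F] (D : DiscData A res O B π t ev)
    {V : ValuationSubring E} (hV : IsDiscVal A B π t ev V) {Ow : ValuationSubring F}
    (hO : LiesOverV V Ow) {κ : Type*} [Fintype κ] {x : κ → F} (hx : ResIndep V Ow x)
    (hcard : Fintype.card κ = Module.finrank E F)
    (c : ℕ → E) (hc : ∀ m, c m ∈ V) (hcu : ∀ m m', m ≠ m' → c m - c m' ∉ V.nonunits)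
    {O' : ValuationSubring F} (h : UniqData A res B π t (algebraMap E F) O') : O' = Ow :=
  ccov_unique hO hx hcard c hc hcu (D.unq_liesOverV hV h)

/-- constants with pairwise distinct residues. -/
theorem DiscData.unq_exists_seq [Infinite k] (D : DiscData A res O B π t ev)
    (hres : Function.Surjective res) {V : ValuationSubring E} (hV : IsDiscVal A B π t ev V) :
    ∃ c : ℕ → E, (∀ m, c m ∈ V) ∧ ∀ m m', m ≠ m' → c m - c m' ∉ V.nonunits := by
  classical
  choose lift hlift using hres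
  let e : ℕ ↪ k := Infinite.natEmbedding k
  refine ⟨fun m => algebraMap K E (lift (e m) : K), fun m => (hV.mem_iff _).mpr (lift (e m)).2, ?_⟩
  intro m m' hmm'
  have hne : res (lift (e m) - lift (e m')) ≠ 0 := by
    rw [map_sub, hlift, hlift, sub_ne_zero]
    exact fun h => hmm' (e.injective h)
  have hunit : IsUnit (lift (e m) - lift (e m')) := by
    by_contra hnu
    exact hne ((D.res_eq_zero_iff _).mpr hnu)
  obtain ⟨u, hu⟩ := hunit
  have h0 : ((lift (e m) - lift (e m') : A) : K) ≠ 0 := by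
    intro h0
    apply hne
    have : lift (e m) - lift (e m') = 0 := Subtype.ext h0
    rw [this, map_zero]
  have hinv : ((lift (e m) - lift (e m') : A) : K)⁻¹ ∈ A := by
    have h1 : (((u⁻¹ : Aˣ) : A) : K) * ((lift (e m) - lift (e m') : A) : K) = 1 := by
      have h2 : ((u⁻¹ : Aˣ) : A) * (lift (e m) - lift (e m')) = 1 := by
        rw [← hu]
        exact u.inv_mul
      exact congrArg Subtype.val h2
    rw [← eq_inv_of_mul_eq_one_left h1]
    exact (u⁻¹ : Aˣ).1.2
  rw [ValuationSubring.mem_nonunits_iff_or, not_or, not_not]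
  have e1 : algebraMap K E (lift (e m) : K) - algebraMap K E (lift (e m') : K) =
      algebraMap K E ((lift (e m) - lift (e m') : A) : K) := by
    rw [← map_sub]
    rfl
  rw [e1]
  refine ⟨?_, ?_⟩
  · exact (map_ne_zero_iff _ (algebraMap K E).injective).mpr h0
  · rw [← map_inv₀, hV.mem_iff]
    exact hinv

/-- **UNIQ + CORE-COVER**, for an infinite residue field of constants. -/
theorem DiscData.unq_eq_of_cover' [Infinite k] [FiniteDimensional E F]
    (D : DiscData A res O B π t ev) (hres : Function.Surjective res)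
    {V : ValuationSubring E} (hV : IsDiscVal A B π t ev V) {Ow : ValuationSubring F}
    (hO : LiesOverV V Ow) {κ : Type*} [Fintype κ] {x : κ → F} (hx : ResIndep V Ow x)
    (hcard : Fintype.card κ = Module.finrank E F)
    {O' : ValuationSubring F} (h : UniqData A res B π t (algebraMap E F) O') : O' = Ow := by
  obtain ⟨c, hc, hcu⟩ := D.unq_exists_seq hres hV
  exact D.unq_eq_of_cover hV hO hx hcard c hc hcu h

end Fermat.Agent.HPVal
end
end MergeWrap_Lib_BadRed_HPVal_UniqCover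

section MergeWrap_S36_HPVal_Disc1Mod -- from S36/HPVal/Disc1Mod.lean

set_option autoImplicit false
set_option linter.style.haveILetI false
set_option linter.unusedSectionVars false
set_option linter.unusedVariables false
set_option synthInstance.maxHeartbeats 400000

noncomputable section

namespace Fermat.Agent.S36G

open ModularCurve AlgebraicCurve Fermat.Agent.Deuring Fermat.Agent.GaussInt Fermat.Agent.FF
  Fermat.Agent.HPVal Fermat.Agent.S18Key Fermat.Agent.RR Fermat.Agent.BadRed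

local notation "Qb" => AlgebraicClosure ℚ

attribute [local instance 10000] SubalgebraClass.toAlgebra HahnSeries.powerSeriesAlgebra

/-! ### the abstract part -/

section Abs

variable {K F k Fk : Type*} [Field K] [Field F] [Algebra K F] [Field k] [Field Fk] [Algebra k Fk]
  {S : RedSetup K F k Fk} {P : Place k Fk} {Pt : Place K F} {t : F}

/-- **the constant reduction of the disc `|t| ≤ |π|` around `Pt`.** -/
def d1mAbs (D : DiscPoint S P Pt t) (hFk : IsRRField k Fk) {π : K} (hπ0 : π ≠ 0)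
    (hπA : π ∈ S.A) (hπ : S.res ⟨π, hπA⟩ = 0)
    (harch : ∀ c : K, c ≠ 0 → ∃ N : ℕ, S.A.valuation (π ^ N) < S.A.valuation c)
    (hres : Function.Surjective S.res) (hFk1 : IsRRField k (RatFunc k)) :
    ValSetup K F k (RatFunc k) :=
  (D.discData' hFk hπ0 hπA hπ harch).setup hres S.hF hFk1

variable (D : DiscPoint S P Pt t) (hFk : IsRRField k Fk) {π : K} (hπ0 : π ≠ 0)
  (hπA : π ∈ S.A) (hπ : S.res ⟨π, hπA⟩ = 0)
  (harch : ∀ c : K, c ≠ 0 → ∃ N : ℕ, S.A.valuation (π ^ N) < S.A.valuation c)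
  (hres : Function.Surjective S.res) (hFk1 : IsRRField k (RatFunc k))

theorem d1mAbs_A : (d1mAbs D hFk hπ0 hπA hπ harch hres hFk1).A = S.A := rfl

theorem d1mAbs_res : (d1mAbs D hFk hπ0 hπA hπ harch hres hFk1).res = S.res := rfl

/-- the valuation ring of `S₁` is THE disc valuation ring. -/
theorem d1mAbs_isDiscVal :
    IsDiscVal S.A (discRing S P) π t (discEv S P hFk)
      (d1mAbs D hFk hπ0 hπA hπ harch hres hFk1).Ov :=
  (D.discData' hFk hπ0 hπA hπ harch).setup_isDiscVal hres S.hF hFk1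

/-- uniqueness: every disc valuation ring is the valuation ring of `S₁`. -/
theorem d1mAbs_unique {V : ValuationSubring F}
    (hV : IsDiscVal S.A (discRing S P) π t (discEv S P hFk) V) :
    V = (d1mAbs D hFk hπ0 hπA hπ harch hres hFk1).Ov :=
  (D.discData' hFk hπ0 hπA hπ harch).setup_Ov_unique hres S.hF hFk1 hV

/-- `R_P ⊆ S₁.Ov`. -/
theorem d1mAbs_mem {b : F} (hb : b ∈ discRing S P) :
    b ∈ (d1mAbs D hFk hπ0 hπA hπ harch hres hFk1).Ov :=
  (D.discData' hFk hπ0 hπA hπ harch).setup_mem_of_mem_B hres S.hF hFk1 hb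

/-- the reduction of `b ∈ R_P` is the constant `ev b`. -/
theorem d1mAbs_red_mem {b : F} (hb : b ∈ discRing S P) :
    (d1mAbs D hFk hπ0 hπA hπ harch hres hFk1).red b =
      algebraMap k (RatFunc k) (discEv S P hFk ⟨b, hb⟩) :=
  (D.discData' hFk hπ0 hπA hπ harch).setup_red_B hres S.hF hFk1 ⟨b, hb⟩

/-- the reduction of `b ∈ R_P` is the constant `(red b)(P)`, in the `ValAt` form. -/
theorem d1mAbs_red_valAt {b : F} (hb : b ∈ discRing S P) {c : k}
    (hc : ValAt P (S.red b) c) :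
    (d1mAbs D hFk hπ0 hπA hπ harch hres hFk1).red b = algebraMap k (RatFunc k) c := by
  rw [d1mAbs_red_mem D hFk hπ0 hπA hπ harch hres hFk1 hb, discEv_apply]
  congr 1
  have hmem : S.red b ∈ P.toValuationSubring :=
    Fermat.Agent.S24Res.mem_of_ord_nonneg P (ord_red_nonneg_of_mem hb)
  exact (Fermat.Agent.FF.valueAt_eq_iff hFk P hmem c).mpr hc

/-- `t / π ∈ S₁.Ov`. -/
theorem d1mAbs_W_mem :
    t * (algebraMap K F π)⁻¹ ∈ (d1mAbs D hFk hπ0 hπA hπ harch hres hFk1).Ov :=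
  (D.discData' hFk hπ0 hπA hπ harch).setup_W_mem hres S.hF hFk1

/-- `red (t / π) = X`. -/
theorem d1mAbs_red_W :
    (d1mAbs D hFk hπ0 hπA hπ harch hres hFk1).red (t * (algebraMap K F π)⁻¹) = RatFunc.X :=
  (D.discData' hFk hπ0 hπA hπ harch).setup_red_W hres S.hF hFk1

/-- `red (t / π) = X`, division form. -/
theorem d1mAbs_red_W' :
    (d1mAbs D hFk hπ0 hπA hπ harch hres hFk1).red (t / algebraMap K F π) = RatFunc.X := by
  rw [div_eq_mul_inv]
  exact d1mAbs_red_W D hFk hπ0 hπA hπ harch hres hFk1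

/-- the inverse of `t / π` is in `S₁.Ov`: `t / π` is a unit. -/
theorem d1mAbs_W_inv_mem :
    (t * (algebraMap K F π)⁻¹)⁻¹ ∈ (d1mAbs D hFk hπ0 hπA hπ harch hres hFk1).Ov := by
  apply (d1mAbs D hFk hπ0 hπA hπ harch hres hFk1).inv_mem_of_red_ne_zero
  rw [d1mAbs_red_W D hFk hπ0 hπA hπ harch hres hFk1]
  exact RatFunc.X_ne_zero

/-- **the lattice property of `S₁`.** -/
theorem d1mAbs_hasLattice : HasLattice (d1mAbs D hFk hπ0 hπA hπ harch hres hFk1) := by
  have hV := d1mAbs_isDiscVal D hFk hπ0 hπA hπ harch hres hFk1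
  have hspec := (D.discData' hFk hπ0 hπA hπ harch).discRho_spec hres
  have hL : DiscLatData S.A ((D.discData' hFk hπ0 hπA hπ harch).discRingV hres) S.res
      ((D.discData' hFk hπ0 hπA hπ harch).discRho hres) (discRing S P) t π
      (Fermat.Agent.FF.valueAt S.hF Pt) :=
    D.discLatData_of hFk hπ0 hπA hπ harch hspec.1 hspec.2.2.1 hspec.2.2.2.1 hspec.2.2.2.2.2.1
  exact hasLattice_of_discLat (d1mAbs D hFk hπ0 hπA hπ harch hres hFk1) hL

end Abs

/-! ### the constants -/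

section Const

variable {A : ValuationSubring Qb}

/-- powers of a non-zero element of `m_A` are non-zero elements of `m_A`. -/
theorem d1m_pow_props {ϖ : Qb} (hϖ0 : ϖ ≠ 0) (hϖA : ϖ ∈ A) (hϖ : ϖ⁻¹ ∉ A) {n : ℕ}
    (hn : n ≠ 0) : ϖ ^ n ≠ 0 ∧ ϖ ^ n ∈ A ∧ (ϖ ^ n)⁻¹ ∉ A := by
  refine ⟨pow_ne_zero n hϖ0, pow_mem hϖA n, fun h => hϖ ?_⟩
  rw [← inv_pow] at h
  exact wpd_mem_of_pow_mem hn h

end Const

/-! ### the modular part -/

section Mod

variable (A : ValuationSubring Qb) (q M : ℕ) [NeZero M]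
  (hq : q.Prime) (hA : A.LiesOverPrime q) (hqM : ¬ q ∣ M)
  (hg : genusFF Qb (modularFunctionFieldBar M) =
    genusFF (IsLocalRing.ResidueField A)
      (modularFunctionFieldFullC (IsLocalRing.ResidueField A) M))
  {P : Place (IsLocalRing.ResidueField A)
    (modularFunctionFieldFullC (IsLocalRing.ResidueField A) M)}
  {Pt : Place Qb (modularFunctionFieldBar M)} {t : modularFunctionFieldBar M}

/-- the residue map of the modular reduction package is onto. -/
theorem d1m_res_surjective : Function.Surjective (wpdSetup A q M hq hA hqM hg).res :=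
  IsLocalRing.residue_surjective

/-- **S1-MOD**: the constant reduction of the disc `|t| ≤ |π|` around `Pt` (the centre over
`P`), `π ∈ m_A`, `π ≠ 0`.  For W-P: `π = ϖ ^ q`. -/
def d1mSetup (D : DiscPoint (wpdSetup A q M hq hA hqM hg) P Pt t) {π : Qb}
    (hπ0 : π ≠ 0) (hπA : π ∈ A) (hπ : π⁻¹ ∉ A) :
    ValSetup Qb (modularFunctionFieldBar M) (IsLocalRing.ResidueField A)
      (RatFunc (IsLocalRing.ResidueField A)) :=
  d1mAbs D (wpd_hFk A M) hπ0 hπA (wpd_res_eq_zero A q M hq hA hqM hg hπA hπ)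
    (wpd_arch hq hA hπ0 hπ) (d1m_res_surjective A q M hq hA hqM hg)
    (@isRRField_ratFunc (IsLocalRing.ResidueField A) _ (isAlgClosed_residue A))

variable (D : DiscPoint (wpdSetup A q M hq hA hqM hg) P Pt t) {π : Qb}
  (hπ0 : π ≠ 0) (hπA : π ∈ A) (hπ : π⁻¹ ∉ A)

theorem d1m_A : (d1mSetup A q M hq hA hqM hg D hπ0 hπA hπ).A = A := rfl

theorem d1m_res_eq (c : Qb) (h : c ∈ (d1mSetup A q M hq hA hqM hg D hπ0 hπA hπ).A)
    (h' : c ∈ A) :
    (d1mSetup A q M hq hA hqM hg D hπ0 hπA hπ).res ⟨c, h⟩ = IsLocalRing.residue A ⟨c, h'⟩ :=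
  rfl

/-- **(L)** the lattice property. -/
theorem d1m_hasLattice : HasLattice (d1mSetup A q M hq hA hqM hg D hπ0 hπA hπ) :=
  d1mAbs_hasLattice D _ hπ0 hπA _ _ _ _

include D hπ0 hπA hπ in
/-- the `DiscData` of the disc (what the uniqueness export `DiscData.unq_*` consumes). -/
theorem d1m_discData :
    DiscData (wpdSetup A q M hq hA hqM hg).A (wpdSetup A q M hq hA hqM hg).res
      (wpdSetup A q M hq hA hqM hg).Ov.toSubring (discRing (wpdSetup A q M hq hA hqM hg) P) π t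
      (discEv (wpdSetup A q M hq hA hqM hg) P (wpd_hFk A M)) :=
  D.discData' (wpd_hFk A M) hπ0 hπA (wpd_res_eq_zero A q M hq hA hqM hg hπA hπ)
    (wpd_arch hq hA hπ0 hπ)

/-- the valuation ring of `S₁` is THE disc valuation ring. -/
theorem d1m_isDiscVal :
    IsDiscVal (wpdSetup A q M hq hA hqM hg).A (discRing (wpdSetup A q M hq hA hqM hg) P) π t
      (discEv (wpdSetup A q M hq hA hqM hg) P (wpd_hFk A M))
      (d1mSetup A q M hq hA hqM hg D hπ0 hπA hπ).Ov :=
  d1mAbs_isDiscVal D _ hπ0 hπA _ _ _ _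

/-- **uniqueness**: every disc valuation ring is `S₁.Ov`. -/
theorem d1m_unique {V : ValuationSubring (modularFunctionFieldBar M)}
    (hV : IsDiscVal (wpdSetup A q M hq hA hqM hg).A
      (discRing (wpdSetup A q M hq hA hqM hg) P) π t
      (discEv (wpdSetup A q M hq hA hqM hg) P (wpd_hFk A M)) V) :
    V = (d1mSetup A q M hq hA hqM hg D hπ0 hπA hπ).Ov :=
  d1mAbs_unique D _ hπ0 hπA _ _ _ _ hV

/-- `R_P ⊆ S₁.Ov`. -/
theorem d1m_mem {b : modularFunctionFieldBar M}
    (hb : b ∈ discRing (wpdSetup A q M hq hA hqM hg) P) :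
    b ∈ (d1mSetup A q M hq hA hqM hg D hπ0 hπA hπ).Ov :=
  d1mAbs_mem D _ hπ0 hπA _ _ _ _ hb

/-- **(OLD) for `S₁`**: the reduction of `b ∈ R_P` is the constant `(red b)(P)`. -/
theorem d1m_red_valAt {b : modularFunctionFieldBar M}
    (hb : b ∈ discRing (wpdSetup A q M hq hA hqM hg) P) {c : IsLocalRing.ResidueField A}
    (hc : ValAt P ((wpdSetup A q M hq hA hqM hg).red b) c) :
    (d1mSetup A q M hq hA hqM hg D hπ0 hπA hπ).red b =
      algebraMap (IsLocalRing.ResidueField A) (RatFunc (IsLocalRing.ResidueField A)) c :=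
  d1mAbs_red_valAt D _ hπ0 hπA _ _ _ _ hb hc

/-- `t / π ∈ S₁.Ov`. -/
theorem d1m_W_mem :
    t * (algebraMap Qb (modularFunctionFieldBar M) π)⁻¹ ∈
      (d1mSetup A q M hq hA hqM hg D hπ0 hπA hπ).Ov :=
  d1mAbs_W_mem D _ hπ0 hπA _ _ _ _

/-- `red (t / π) = X`. -/
theorem d1m_red_W :
    (d1mSetup A q M hq hA hqM hg D hπ0 hπA hπ).red
      (t * (algebraMap Qb (modularFunctionFieldBar M) π)⁻¹) = RatFunc.X :=
  d1mAbs_red_W D _ hπ0 hπA _ _ _ _

/-- `red (t / π) = X`, division form. -/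
theorem d1m_red_W' :
    (d1mSetup A q M hq hA hqM hg D hπ0 hπA hπ).red
      (t / algebraMap Qb (modularFunctionFieldBar M) π) = RatFunc.X :=
  d1mAbs_red_W' D _ hπ0 hπA _ _ _ _

/-- `t / π` is a unit of `S₁.Ov`. -/
theorem d1m_W_inv_mem :
    (t * (algebraMap Qb (modularFunctionFieldBar M) π)⁻¹)⁻¹ ∈
      (d1mSetup A q M hq hA hqM hg D hπ0 hπA hπ).Ov :=
  d1mAbs_W_inv_mem D _ hπ0 hπA _ _ _ _

end Mod

/-! ### the existence statements -/

section Exists

variable (A : ValuationSubring Qb) (q M : ℕ) [NeZero M]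
  (hq : q.Prime) (hA : A.LiesOverPrime q) (hqM : ¬ q ∣ M)
  (hg : genusFF Qb (modularFunctionFieldBar M) =
    genusFF (IsLocalRing.ResidueField A)
      (modularFunctionFieldFullC (IsLocalRing.ResidueField A) M))
  {P : Place (IsLocalRing.ResidueField A)
    (modularFunctionFieldFullC (IsLocalRing.ResidueField A) M)}

/-- **S1-MOD, existence form**: for `t ∈ R_P` whose reduction is a uniformiser at `P` and every
radius `π ∈ m_A`, `π ≠ 0`, there is a constant reduction `S₁` of `F₀` over `A`, with residue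
field `k(X)` and the lattice property, whose valuation ring is THE disc valuation ring of
`|t| ≤ |π|`: `red (t / π) = X`, the functions of `R_P` reduce to the constants `(red b)(P)`. -/
theorem d1m_exists {t : modularFunctionFieldBar M}
    (ht : t ∈ discRing (wpdSetup A q M hq hA hqM hg) P)
    (hord : P.ord ((wpdSetup A q M hq hA hqM hg).red t) = 1) {π : Qb}
    (hπ0 : π ≠ 0) (hπA : π ∈ A) (hπ : π⁻¹ ∉ A) :
    ∃ S₁ : ValSetup Qb (modularFunctionFieldBar M) (IsLocalRing.ResidueField A)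
        (RatFunc (IsLocalRing.ResidueField A)),
      HasLattice S₁ ∧ S₁.A = A ∧
      (∀ (c : Qb) (h : c ∈ S₁.A) (h' : c ∈ A),
        S₁.res ⟨c, h⟩ = IsLocalRing.residue A ⟨c, h'⟩) ∧
      DiscData (wpdSetup A q M hq hA hqM hg).A (wpdSetup A q M hq hA hqM hg).res
        (wpdSetup A q M hq hA hqM hg).Ov.toSubring
        (discRing (wpdSetup A q M hq hA hqM hg) P) π t
        (discEv (wpdSetup A q M hq hA hqM hg) P (wpd_hFk A M)) ∧
      IsDiscVal (wpdSetup A q M hq hA hqM hg).A (discRing (wpdSetup A q M hq hA hqM hg) P) π t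
        (discEv (wpdSetup A q M hq hA hqM hg) P (wpd_hFk A M)) S₁.Ov ∧
      t / algebraMap Qb (modularFunctionFieldBar M) π ∈ S₁.Ov ∧
      S₁.red (t / algebraMap Qb (modularFunctionFieldBar M) π) = RatFunc.X ∧
      (∀ b ∈ discRing (wpdSetup A q M hq hA hqM hg) P, b ∈ S₁.Ov ∧
        ∀ c : IsLocalRing.ResidueField A, ValAt P ((wpdSetup A q M hq hA hqM hg).red b) c →
          S₁.red b =
            algebraMap (IsLocalRing.ResidueField A) (RatFunc (IsLocalRing.ResidueField A)) c) ∧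
      ∀ V : ValuationSubring (modularFunctionFieldBar M),
        IsDiscVal (wpdSetup A q M hq hA hqM hg).A
          (discRing (wpdSetup A q M hq hA hqM hg) P) π t
          (discEv (wpdSetup A q M hq hA hqM hg) P (wpd_hFk A M)) V → V = S₁.Ov := by
  obtain ⟨Pt, D⟩ := exists_discPoint ht hord
  refine ⟨d1mSetup A q M hq hA hqM hg D hπ0 hπA hπ, d1m_hasLattice A q M hq hA hqM hg D hπ0 hπA hπ,
    rfl, fun _ _ _ => rfl, d1m_discData A q M hq hA hqM hg D hπ0 hπA hπ,
    d1m_isDiscVal A q M hq hA hqM hg D hπ0 hπA hπ, ?_,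
    d1m_red_W' A q M hq hA hqM hg D hπ0 hπA hπ,
    fun b hb => ⟨d1m_mem A q M hq hA hqM hg D hπ0 hπA hπ hb,
      fun c hc => d1m_red_valAt A q M hq hA hqM hg D hπ0 hπA hπ hb hc⟩,
    fun V hV => d1m_unique A q M hq hA hqM hg D hπ0 hπA hπ hV⟩
  rw [div_eq_mul_inv]
  exact d1m_W_mem A q M hq hA hqM hg D hπ0 hπA hπ

/-- **S1-MOD from EX_t**, at the radius `ϖ ^ q`, `ϖ ^ (q + 1) = q`. -/
theorem d1m_exists_of_exT {t0 : LaurentSeries ℚ}
    (hP : 0 ≤ P.ord (Fermat.Agent.RRMod.jC (IsLocalRing.ResidueField A) M))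
    (E : ExTDatum A q M hq hA hqM P t0) {ϖ : Qb} (hϖ : ϖ ^ (q + 1) = (q : Qb)) :
    ∃ S₁ : ValSetup Qb (modularFunctionFieldBar M) (IsLocalRing.ResidueField A)
        (RatFunc (IsLocalRing.ResidueField A)),
      HasLattice S₁ ∧ S₁.A = A ∧
      (∀ (c : Qb) (h : c ∈ S₁.A) (h' : c ∈ A),
        S₁.res ⟨c, h⟩ = IsLocalRing.residue A ⟨c, h'⟩) ∧
      DiscData (wpdSetup A q M hq hA hqM hg).A (wpdSetup A q M hq hA hqM hg).res
        (wpdSetup A q M hq hA hqM hg).Ov.toSubring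
        (discRing (wpdSetup A q M hq hA hqM hg) P) (ϖ ^ q) (wpdT M t0 E.mem)
        (discEv (wpdSetup A q M hq hA hqM hg) P (wpd_hFk A M)) ∧
      IsDiscVal (wpdSetup A q M hq hA hqM hg).A (discRing (wpdSetup A q M hq hA hqM hg) P)
        (ϖ ^ q) (wpdT M t0 E.mem)
        (discEv (wpdSetup A q M hq hA hqM hg) P (wpd_hFk A M)) S₁.Ov ∧
      wpdT M t0 E.mem / algebraMap Qb (modularFunctionFieldBar M) (ϖ ^ q) ∈ S₁.Ov ∧
      S₁.red (wpdT M t0 E.mem / algebraMap Qb (modularFunctionFieldBar M) (ϖ ^ q)) =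
        RatFunc.X ∧
      (∀ b ∈ discRing (wpdSetup A q M hq hA hqM hg) P, b ∈ S₁.Ov ∧
        ∀ c : IsLocalRing.ResidueField A, ValAt P ((wpdSetup A q M hq hA hqM hg).red b) c →
          S₁.red b =
            algebraMap (IsLocalRing.ResidueField A) (RatFunc (IsLocalRing.ResidueField A)) c) ∧
      ∀ V : ValuationSubring (modularFunctionFieldBar M),
        IsDiscVal (wpdSetup A q M hq hA hqM hg).A
          (discRing (wpdSetup A q M hq hA hqM hg) P) (ϖ ^ q) (wpdT M t0 E.mem)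
          (discEv (wpdSetup A q M hq hA hqM hg) P (wpd_hFk A M)) V → V = S₁.Ov := by
  have hq0 : (q : Qb) ≠ 0 := Nat.cast_ne_zero.mpr hq.ne_zero
  have hϖ0 : ϖ ≠ 0 := by
    rintro rfl
    rw [zero_pow (Nat.succ_ne_zero q)] at hϖ
    exact hq0 hϖ.symm
  have hqA : (q : Qb) ∈ A := natCast_mem A q
  have hqinv : (q : Qb)⁻¹ ∉ A := by
    have h2 : (q : Qb) ∈ A.nonunits := hA
    rw [ValuationSubring.mem_nonunits_iff_or] at h2
    exact h2.resolve_left hq0
  have hϖA : ϖ ∈ A := wpd_mem_of_pow_mem (Nat.succ_ne_zero q) (hϖ ▸ hqA)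
  have hϖinv : ϖ⁻¹ ∉ A := fun hinv => hqinv (by
    rw [← hϖ, ← inv_pow]
    exact pow_mem hinv _)
  obtain ⟨h0, hA', hinv'⟩ := d1m_pow_props hϖ0 hϖA hϖinv hq.ne_zero
  exact d1m_exists A q M hq hA hqM hg (wpd_exT_mem_discRing A q M hq hA hqM hg hP E)
    (E.unif _) h0 hA' hinv'

end Exists

end Fermat.Agent.S36G
end
end MergeWrap_S36_HPVal_Disc1Mod

section MergeWrap_S36_HPVal_CoreMod -- from S36/HPVal/CoreMod.lean

set_option autoImplicit false
set_option linter.style.haveILetI false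
set_option linter.unusedSectionVars false
set_option linter.unusedVariables false
set_option synthInstance.maxHeartbeats 400000

noncomputable section

namespace Fermat.Agent.S36G

open ModularCurve AlgebraicCurve Fermat.Agent.F3 Fermat.Agent.F3G Fermat.Agent.GaussInt
  Fermat.Agent.Deuring Fermat.Agent.BadRed Fermat.Agent.HPVal Fermat.Agent.S18Key
  Fermat.Agent.RR Fermat.Agent.S36

local notation "Qb" => AlgebraicClosure ℚ

attribute [local instance 10000] SubalgebraClass.toAlgebra HahnSeries.powerSeriesAlgebra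

/-! ### abstract part: the `CscData` of `(ϖ, Y, R)` -/

section Abs

variable {E : Type*} [Field E] (V : ValuationSubring E)

/-- a polynomial over `E` with coefficients in `V`, as a polynomial over `V`. -/
def cmodLift (R : Polynomial E) (hR : ∀ i, R.coeff i ∈ V) : Polynomial V :=
  ∑ i ∈ Finset.range (R.natDegree + 1), Polynomial.monomial i (⟨R.coeff i, hR i⟩ : V)

theorem cmodLift_coeff (R : Polynomial E) (hR : ∀ i, R.coeff i ∈ V) (n : ℕ) :
    (cmodLift V R hR).coeff n = ⟨R.coeff n, hR n⟩ := by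
  classical
  rw [cmodLift, Polynomial.finsetSum_coeff]
  simp only [Polynomial.coeff_monomial]
  rw [Finset.sum_ite_eq']
  split_ifs with h
  · rfl
  · apply Subtype.ext
    rw [Finset.mem_range, not_lt] at h
    exact (Polynomial.coeff_eq_zero_of_natDegree_lt (Nat.lt_of_succ_le h)).symm

theorem cmodLift_map (R : Polynomial E) (hR : ∀ i, R.coeff i ∈ V) :
    (cmodLift V R hR).map V.subtype = R := by
  ext n
  rw [Polynomial.coeff_map, cmodLift_coeff]
  rfl

theorem cmodLift_natDegree_le (R : Polynomial E) (hR : ∀ i, R.coeff i ∈ V) :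
    (cmodLift V R hR).natDegree ≤ R.natDegree := by
  rw [Polynomial.natDegree_le_iff_coeff_eq_zero]
  intro n hn
  rw [cmodLift_coeff]
  apply Subtype.ext
  exact Polynomial.coeff_eq_zero_of_natDegree_lt hn

/-- **the `CscData` of `(ϖ, Y, R)`** with `u = 1`: `ϖ ^ (q + 1) = q`, `Y, ϖ ∈ V`, `R ∈ V[X]` of
degree `≤ q`. -/
def cmodCsc (q : ℕ) (hq : 2 ≤ q) (ϖ Y : E) (R : Polynomial E) (hϖV : ϖ ∈ V) (hϖ0 : ϖ ≠ 0)
    (hϖq : ϖ ^ (q + 1) = (q : E)) (hY : Y ∈ V) (hRV : ∀ i, R.coeff i ∈ V)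
    (hRdeg : R.natDegree ≤ q) : CscData V q where
  ϖ := ⟨ϖ, hϖV⟩
  u := 1
  uinv := 1
  Y := ⟨Y, hY⟩
  R := cmodLift V R hRV
  hq := hq
  hu := mul_one 1
  hϖ := by
    apply Subtype.ext
    rw [mul_one]
    push_cast
    exact hϖq
  hϖ0 := fun h => hϖ0 (congrArg Subtype.val h)
  hR := (cmodLift_natDegree_le V R hRV).trans hRdeg

variable {V} {q : ℕ} {hq : 2 ≤ q} {ϖ Y : E} {R : Polynomial E} {hϖV : ϖ ∈ V} {hϖ0 : ϖ ≠ 0}
  {hϖq : ϖ ^ (q + 1) = (q : E)} {hY : Y ∈ V} {hRV : ∀ i, R.coeff i ∈ V} {hRdeg : R.natDegree ≤ q}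

theorem cmodCsc_x₁ : (cmodCsc V q hq ϖ Y R hϖV hϖ0 hϖq hY hRV hRdeg).x₁ = ϖ ^ q * Y := rfl

theorem cmodCsc_map_R :
    (cmodCsc V q hq ϖ Y R hϖV hϖ0 hϖq hY hRV hRdeg).R.map V.subtype = R :=
  cmodLift_map V R hRV

/-- the Kronecker form of `cmodCsc`. -/
theorem cmodCsc_psi :
    (cmodCsc V q hq ϖ Y R hϖV hϖ0 hϖq hY hRV hRdeg).psi =
      (Polynomial.X - Polynomial.C ((ϖ ^ q * Y) ^ q)) *
          (Polynomial.X ^ q - Polynomial.C (ϖ ^ q * Y)) + Polynomial.C (q : E) * R := by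
  rw [CscData.psi, cmodCsc_x₁, cmodCsc_map_R]

/-- the reduction of the scaled Kronecker form of `cmodCsc`. -/
theorem cmodCsc_scaled_map {κ : Type*} [CommRing κ] (ρ : V →+* κ) (hρ : ρ ⟨ϖ, hϖV⟩ = 0) :
    (cmodCsc V q hq ϖ Y R hϖV hϖ0 hϖq hY hRV hRdeg).scaled.map ρ =
      Polynomial.X ^ (q + 1) - Polynomial.C (ρ ⟨Y, hY⟩) * Polynomial.X +
        Polynomial.C (ρ ⟨R.coeff 0, hRV 0⟩) := by
  rw [csc_scaled_map_res _ ρ hρ]
  have h1 : (cmodCsc V q hq ϖ Y R hϖV hϖ0 hϖq hY hRV hRdeg).uinv = 1 := rfl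
  have h2 : (cmodCsc V q hq ϖ Y R hϖV hϖ0 hϖq hY hRV hRdeg).R.coeff 0 = ⟨R.coeff 0, hRV 0⟩ :=
    cmodLift_coeff V R hRV 0
  have h3 : (cmodCsc V q hq ϖ Y R hϖV hϖ0 hϖq hY hRV hRdeg).Y = ⟨Y, hY⟩ := rfl
  rw [h1, h2, h3, map_one, one_mul]

end Abs

/-! ### the bundle -/

section Bundle

variable {M₀ q : ℕ} [NeZero M₀] [NeZero q] {k Fk0 : Type*} [Field k] [Field Fk0] [Algebra k Fk0]

/-- **THE HYPOTHESIS BUNDLE OF CORE, modular instance** (`E = F_{M₀}` along `ι₁`, `O₁ = V` the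
disc valuation `|t| ≤ |ϖ ^ q|` at `P'` with residue map `ρ : V → k(X)`, `D : CscData V q` the
Kronecker datum of `Ψ_t`, `c₀ ≠ 0` the constant of `H_P`). -/
structure CoreModIn (S0 : RedSetup Qb (FBar M₀) k Fk0) (P' : Place k Fk0)
    (hFk : IsRRField k Fk0) (hq : q.Prime) (hqM : ¬ q ∣ M₀) (t : FBar M₀) (ϖ : Qb) (c₀ : k)
    (V : ValuationSubring (FBar M₀)) (ρ : V →+* RatFunc k) (D : CscData V q) : Prop where
  /-- `V` is THE disc valuation `|t| ≤ |ϖ ^ q|` at `P'` -/
  isDiscVal : IsDiscVal S0.A (discRing S0 P') (ϖ ^ q) t (discEv S0 P' hFk) V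
  /-- the lattice data of `V` (input of DISC-LAT) -/
  lat : ∃ Pt : Place Qb (FBar M₀), DiscPoint S0 P' Pt t ∧
    DiscLatData S0.A V S0.res ρ (discRing S0 P') t (ϖ ^ q) (Fermat.Agent.FF.valueAt S0.hF Pt)
  ρ_surj : Function.Surjective ρ
  ρ_ker : ∀ f : V, ρ f = 0 ↔ ¬ IsUnit f
  ρ_const : ∀ (c : Qb) (hc : c ∈ S0.A) (hc' : algebraMap Qb (FBar M₀) c ∈ V),
    ρ ⟨algebraMap Qb (FBar M₀) c, hc'⟩ = algebraMap k (RatFunc k) (S0.res ⟨c, hc⟩)
  disc_le : ∀ b ∈ discRing S0 P', b ∈ V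
  ρ_disc : ∀ (b : discRing S0 P') (hb : (b : FBar M₀) ∈ V),
    ρ ⟨(b : FBar M₀), hb⟩ = algebraMap k (RatFunc k) (discEv S0 P' hFk b)
  scale : ∀ f : FBar M₀, f ≠ 0 → ∃ c : Qb, c ≠ 0 ∧
    f * (algebraMap Qb (FBar M₀) c)⁻¹ ∈ V ∧ (f * (algebraMap Qb (FBar M₀) c)⁻¹)⁻¹ ∈ V
  /-- the Kronecker datum: `ϖ`, `u = 1`, `Y = t / ϖ ^ q`, `R = R_t` -/
  coe_ϖ : (D.ϖ : FBar M₀) = algebraMap Qb (FBar M₀) ϖ
  u_eq : D.u = 1
  uinv_eq : D.uinv = 1
  coe_Y : (D.Y : FBar M₀) = t * (algebraMap Qb (FBar M₀) (ϖ ^ q))⁻¹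
  map_R : D.R.map V.subtype = kctR M₀ hq hqM t
  /-- `Ψ = charpolyAlong α (β t)` -/
  psi_eq : D.psi = kctPsi M₀ hq hqM t
  ρ_ϖ : ρ D.ϖ = 0
  ρ_Y : ρ D.Y = RatFunc.X
  ρ_R0 : ρ (D.R.coeff 0) = algebraMap k (RatFunc k) c₀
  /-- (REG) -/
  c_ne : c₀ ≠ 0
  char : (q : RatFunc k) = 0
  chark : (q : k) = 0
  /-- the reduction of the scaled Kronecker form: `T ^ (q + 1) - X T + c₀` -/
  red : D.scaled.map ρ = Polynomial.X ^ (q + 1) - Polynomial.C RatFunc.X * Polynomial.X +
    Polynomial.C (algebraMap k (RatFunc k) c₀)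
  /-- (DEG) the two roots `ι₀ t ≠ ι₂ t` of `Ψ ^ ι₁` -/
  root0 : (kctPsi M₀ hq hqM t).eval₂ (wpdIota1 M₀ q).toRingHom (wpIota0 M₀ q t) = 0
  root2 : (kctPsi M₀ hq hqM t).eval₂ (wpdIota1 M₀ q).toRingHom (wpIota2 M₀ q t) = 0
  ne : wpIota0 M₀ q t ≠ wpIota2 M₀ q t
  /-- the two roots `W = ι₀ t / ϖ ≠ Z = ι₂ t / ϖ` of the scaled form -/
  rootW : D.scaled.eval₂ ((wpdIota1 M₀ q).toRingHom.comp V.subtype) (wpW M₀ q t 0 ϖ) = 0
  rootZ : D.scaled.eval₂ ((wpdIota1 M₀ q).toRingHom.comp V.subtype) (wpZ M₀ q t 0 ϖ) = 0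
  neWZ : wpW M₀ q t 0 ϖ ≠ wpZ M₀ q t 0 ϖ
  /-- (DEG) `[F : ι₁ F₀] = q (q + 1)` -/
  finrank : letI := algebraAlong (wpdIota1 M₀ q)
    FiniteDimensional (FBar M₀) (FBar (M₀ * q * q)) ∧
      Module.finrank (FBar M₀) (FBar (M₀ * q * q)) = q * (q + 1)

/-- the powers of `ϖ ^ n` are cofinal if the powers of `ϖ` are. -/
theorem cmod_arch_pow {K : Type*} [Field K] (A : ValuationSubring K) {ϖ : K} (hϖA : ϖ ∈ A)
    (n : ℕ) (hn : 1 ≤ n)
    (harch : ∀ c : K, c ≠ 0 → ∃ N : ℕ, A.valuation (ϖ ^ N) < A.valuation c) (c : K)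
    (hc : c ≠ 0) : ∃ N : ℕ, A.valuation ((ϖ ^ n) ^ N) < A.valuation c := by
  obtain ⟨N, hN⟩ := harch c hc
  refine ⟨N, lt_of_le_of_lt ?_ hN⟩
  have h1 : (ϖ ^ n) ^ N = ϖ ^ N * ϖ ^ ((n - 1) * N) := by
    rw [← pow_mul, ← pow_add]
    congr 1
    obtain ⟨m, rfl⟩ : ∃ m, n = m + 1 := ⟨n - 1, by omega⟩
    rw [Nat.add_sub_cancel]
    ring
  have h2 : A.valuation (ϖ ^ ((n - 1) * N)) ≤ 1 :=
    (A.valuation_le_one_iff _).mpr (pow_mem hϖA _)
  rw [h1, map_mul]
  exact mul_le_of_le_one_right' h2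

/-- the parameter of a `DiscPoint` is not a constant. -/
theorem cmod_t_ne_const {S0 : RedSetup Qb (FBar M₀) k Fk0} {P' : Place k Fk0}
    {Pt : Place Qb (FBar M₀)} {t : FBar M₀} (Dp : DiscPoint S0 P' Pt t) (c : Qb) :
    t ≠ algebraMap Qb (FBar M₀) c := by
  intro h
  have h1 := Dp.ord_t_eq_one
  rw [h, Fermat.Agent.S24Res.ord_algebraMap] at h1
  exact zero_ne_one h1

/-- **CORE-MOD for a given disc valuation** `(V, ρ)` (e.g. `V = S₁.Ov`, `ρ = S₁.ρ` of
DISC-SETUP): the Kronecker datum `D : CscData V q` with the whole bundle; inputs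
(KC_t + KCtPole) `hR` and (REG) `hreg`. -/
theorem coreMod_of_discVal (S0 : RedSetup Qb (FBar M₀) k Fk0) (P' : Place k Fk0)
    (hFk : IsRRField k Fk0) (hq : q.Prime) (hqM : ¬ q ∣ M₀) {t : FBar M₀} {ϖ : Qb}
    {Pt : Place Qb (FBar M₀)} (Dp : DiscPoint S0 P' Pt t)
    (hϖq : ϖ ^ (q + 1) = (q : Qb)) (hϖA : ϖ ∈ S0.A) (hϖres : S0.res ⟨ϖ, hϖA⟩ = 0)
    (harch : ∀ c : Qb, c ≠ 0 → ∃ N : ℕ, S0.A.valuation (ϖ ^ N) < S0.A.valuation c)
    (hR : ∀ i, (kctR M₀ hq hqM t).coeff i ∈ discRing S0 P')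
    (hreg : discEv S0 P' hFk ⟨(kctR M₀ hq hqM t).coeff 0, hR 0⟩ ≠ 0)
    {V : ValuationSubring (FBar M₀)} {ρ : V →+* RatFunc k}
    (hV : IsDiscVal S0.A (discRing S0 P') (ϖ ^ q) t (discEv S0 P' hFk) V)
    (hsurj : Function.Surjective ρ) (hker : ∀ f : V, ρ f = 0 ↔ ¬ IsUnit f)
    (hconst : ∀ (c : Qb) (hc : c ∈ S0.A) (hc' : algebraMap Qb (FBar M₀) c ∈ V),
      ρ ⟨algebraMap Qb (FBar M₀) c, hc'⟩ = algebraMap k (RatFunc k) (S0.res ⟨c, hc⟩))
    (hb : ∀ (b : discRing S0 P') (hb : (b : FBar M₀) ∈ V),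
      ρ ⟨(b : FBar M₀), hb⟩ = algebraMap k (RatFunc k) (discEv S0 P' hFk b))
    (hY : ∀ h : t * (algebraMap Qb (FBar M₀) (ϖ ^ q))⁻¹ ∈ V,
      ρ ⟨t * (algebraMap Qb (FBar M₀) (ϖ ^ q))⁻¹, h⟩ = RatFunc.X) :
    ∃ D : CscData V q,
      CoreModIn S0 P' hFk hq hqM t ϖ (discEv S0 P' hFk ⟨(kctR M₀ hq hqM t).coeff 0, hR 0⟩)
        V ρ D := by
  have hq0 : (q : Qb) ≠ 0 := Nat.cast_ne_zero.mpr hq.ne_zero
  have hϖ0 : ϖ ≠ 0 := by
    rintro rfl
    rw [zero_pow (Nat.succ_ne_zero q)] at hϖq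
    exact hq0 hϖq.symm
  have hϖd0 : ϖ ^ q ≠ 0 := pow_ne_zero _ hϖ0
  have hϖdA : ϖ ^ q ∈ S0.A := pow_mem hϖA q
  have hϖdres : S0.res ⟨ϖ ^ q, hϖdA⟩ = 0 := by
    have h1 : (⟨ϖ ^ q, hϖdA⟩ : S0.A) = ⟨ϖ, hϖA⟩ ^ q := rfl
    rw [h1, map_pow, hϖres, zero_pow hq.ne_zero]
  have hchark : (q : k) = 0 := by
    have h1 : ((q : ℕ) : S0.A) = ⟨ϖ, hϖA⟩ ^ (q + 1) := by
      apply Subtype.ext
      push_cast
      exact hϖq.symm
    rw [← map_natCast S0.res, h1, map_pow, hϖres, zero_pow (Nat.succ_ne_zero q)]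
  have harchd := cmod_arch_pow S0.A hϖA q hq.one_le harch
  have DD := Dp.discData' hFk hϖd0 hϖdA hϖdres harchd
  have hlat := Dp.discLatData_of hFk hϖd0 hϖdA hϖdres harchd hV hker hconst hY
  -- the Kronecker datum
  have hϖV : algebraMap Qb (FBar M₀) ϖ ∈ V := (hV.mem_iff ϖ).mpr hϖA
  have hϖF0 : algebraMap Qb (FBar M₀) ϖ ≠ 0 := by simpa using hϖ0
  have hϖFq : algebraMap Qb (FBar M₀) ϖ ^ (q + 1) = ((q : ℕ) : FBar M₀) := by
    rw [← map_pow, hϖq, map_natCast]
  have hYV : t * (algebraMap Qb (FBar M₀) (ϖ ^ q))⁻¹ ∈ V := hlat.Y_mem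
  have hRV : ∀ i, (kctR M₀ hq hqM t).coeff i ∈ V := fun i => hlat.R_le _ (hR i)
  have hRdeg : (kctR M₀ hq hqM t).natDegree ≤ q := kctR_natDegree_le M₀ hq hqM t
  set D : CscData V q := cmodCsc V q hq.two_le (algebraMap Qb (FBar M₀) ϖ)
    (t * (algebraMap Qb (FBar M₀) (ϖ ^ q))⁻¹) (kctR M₀ hq hqM t) hϖV hϖF0 hϖFq hYV hRV hRdeg
    with hD
  have hx₁ : algebraMap Qb (FBar M₀) ϖ ^ q * (t * (algebraMap Qb (FBar M₀) (ϖ ^ q))⁻¹) = t := by
    have h0 : algebraMap Qb (FBar M₀) (ϖ ^ q) ≠ 0 := by simpa using hϖd0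
    rw [← map_pow, mul_comm t, ← mul_assoc, mul_inv_cancel₀ h0, one_mul]
  have hpsi : D.psi = kctPsi M₀ hq hqM t := by
    rw [hD, cmodCsc_psi, hx₁, kctPsi_eq]
    rfl
  have hρϖ : ρ ⟨algebraMap Qb (FBar M₀) ϖ, hϖV⟩ = 0 := by
    rw [hlat.ρ_algebraMap ϖ hϖA hϖV, hϖres, map_zero]
  have hρR0 : ρ ⟨(kctR M₀ hq hqM t).coeff 0, hRV 0⟩ =
      algebraMap k (RatFunc k) (discEv S0 P' hFk ⟨(kctR M₀ hq hqM t).coeff 0, hR 0⟩) :=
    hb ⟨(kctR M₀ hq hqM t).coeff 0, hR 0⟩ (hRV 0)
  have hcop : Nat.Coprime q M₀ := (Nat.Prime.coprime_iff_not_dvd hq).mpr hqM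
  have hroot := kctPsi_root M₀ hq hqM t
  have hroot0 : (kctPsi M₀ hq hqM t).eval₂ (wpdIota1 M₀ q).toRingHom (wpIota0 M₀ q t) = 0 :=
    wpd_root_iota0 M₀ q hcop _ t hroot
  have hroot2 : (kctPsi M₀ hq hqM t).eval₂ (wpdIota1 M₀ q).toRingHom (wpIota2 M₀ q t) = 0 :=
    wpd_root_iota2 M₀ q _ t hroot
  have hne : wpIota0 M₀ q t ≠ wpIota2 M₀ q t :=
    wpd_iota0_ne_iota2 M₀ q hq.two_le t (cmod_t_ne_const Dp)
  have hϖF : algebraMap Qb (FBar (M₀ * q * q)) ϖ ≠ 0 := by simpa using hϖ0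
  -- the roots of the scaled form
  have hscaledroot : ∀ x : FBar (M₀ * q * q),
      (kctPsi M₀ hq hqM t).eval₂ (wpdIota1 M₀ q).toRingHom x = 0 →
      D.scaled.eval₂ ((wpdIota1 M₀ q).toRingHom.comp V.subtype)
        ((x - algebraMap Qb (FBar (M₀ * q * q)) 0) / algebraMap Qb (FBar (M₀ * q * q)) ϖ) = 0 := by
    intro x hx
    letI := algebraAlong (wpdIota1 M₀ q)
    have h1 : Polynomial.aeval x D.psi = 0 := by
      rw [hpsi, Polynomial.aeval_def]
      exact hx
    have h2 := (csc_root_iff D x).mpr h1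
    rw [Polynomial.aeval_def, Polynomial.eval₂_map] at h2
    have h3 : algebraMap (FBar M₀) (FBar (M₀ * q * q)) ((D.ϖ : V) : FBar M₀) =
        algebraMap Qb (FBar (M₀ * q * q)) ϖ := (wpdIota1 M₀ q).commutes ϖ
    rw [h3] at h2
    rw [map_zero, sub_zero]
    exact h2
  refine ⟨D, ?_⟩
  exact
    { isDiscVal := hV
      lat := ⟨Pt, Dp, hlat⟩
      ρ_surj := hsurj
      ρ_ker := hker
      ρ_const := hconst
      disc_le := hlat.R_le
      ρ_disc := hb
      scale := fun f hf => DD.isDiscVal_scale hV hf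
      coe_ϖ := rfl
      u_eq := rfl
      uinv_eq := rfl
      coe_Y := rfl
      map_R := cmodCsc_map_R
      psi_eq := hpsi
      ρ_ϖ := hρϖ
      ρ_Y := hY hYV
      ρ_R0 := by
        rw [hD]
        have h2 : (cmodCsc V q hq.two_le (algebraMap Qb (FBar M₀) ϖ)
            (t * (algebraMap Qb (FBar M₀) (ϖ ^ q))⁻¹) (kctR M₀ hq hqM t) hϖV hϖF0 hϖFq hYV hRV
            hRdeg).R.coeff 0 = ⟨(kctR M₀ hq hqM t).coeff 0, hRV 0⟩ :=
          cmodLift_coeff V _ hRV 0
        rw [h2]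
        exact hρR0
      c_ne := hreg
      char := by
        rw [← map_natCast (algebraMap k (RatFunc k)), hchark, map_zero]
      chark := hchark
      red := by
        rw [hD, cmodCsc_scaled_map ρ hρϖ, hY hYV, hρR0]
      root0 := hroot0
      root2 := hroot2
      ne := hne
      rootW := hscaledroot _ hroot0
      rootZ := hscaledroot _ hroot2
      neWZ := by
        intro h
        apply hne
        have h1 := congrArg (fun y => y * algebraMap Qb (FBar (M₀ * q * q)) ϖ) h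
        simp only [wpW, wpZ, div_mul_cancel₀ _ hϖF, map_zero, sub_zero] at h1
        exact h1
      finrank := wpd_finrank_iota1 M₀ q hq hqM }

/-- the constants `ϖ ^ q`: the hypotheses of the disc of radius `ϖ ^ q`. -/
theorem cmod_pow_hyps (S0 : RedSetup Qb (FBar M₀) k Fk0) (hq : q.Prime) {ϖ : Qb}
    (hϖq : ϖ ^ (q + 1) = (q : Qb)) (hϖA : ϖ ∈ S0.A) (hϖres : S0.res ⟨ϖ, hϖA⟩ = 0)
    (harch : ∀ c : Qb, c ≠ 0 → ∃ N : ℕ, S0.A.valuation (ϖ ^ N) < S0.A.valuation c) :
    ϖ ^ q ≠ 0 ∧ ∃ h : ϖ ^ q ∈ S0.A, S0.res ⟨ϖ ^ q, h⟩ = 0 ∧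
      ∀ c : Qb, c ≠ 0 → ∃ N : ℕ, S0.A.valuation ((ϖ ^ q) ^ N) < S0.A.valuation c := by
  have hq0 : (q : Qb) ≠ 0 := Nat.cast_ne_zero.mpr hq.ne_zero
  have hϖ0 : ϖ ≠ 0 := by
    rintro rfl
    rw [zero_pow (Nat.succ_ne_zero q)] at hϖq
    exact hq0 hϖq.symm
  refine ⟨pow_ne_zero _ hϖ0, pow_mem hϖA q, ?_, cmod_arch_pow S0.A hϖA q hq.one_le harch⟩
  have h1 : (⟨ϖ ^ q, pow_mem hϖA q⟩ : S0.A) = ⟨ϖ, hϖA⟩ ^ q := rfl
  rw [h1, map_pow, hϖres, zero_pow hq.ne_zero]

/-- **CORE-MOD, existence form**: the disc valuation `V` of radius `ϖ ^ q` at `P'`, its residue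
map `ρ` and the Kronecker datum `D` exist, with the whole bundle. -/
theorem coreMod_exists (S0 : RedSetup Qb (FBar M₀) k Fk0) (P' : Place k Fk0)
    (hFk : IsRRField k Fk0) (hq : q.Prime) (hqM : ¬ q ∣ M₀) {t : FBar M₀} {ϖ : Qb}
    {Pt : Place Qb (FBar M₀)} (Dp : DiscPoint S0 P' Pt t)
    (hϖq : ϖ ^ (q + 1) = (q : Qb)) (hϖA : ϖ ∈ S0.A) (hϖres : S0.res ⟨ϖ, hϖA⟩ = 0)
    (harch : ∀ c : Qb, c ≠ 0 → ∃ N : ℕ, S0.A.valuation (ϖ ^ N) < S0.A.valuation c)
    (hres : Function.Surjective S0.res)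
    (hR : ∀ i, (kctR M₀ hq hqM t).coeff i ∈ discRing S0 P')
    (hreg : discEv S0 P' hFk ⟨(kctR M₀ hq hqM t).coeff 0, hR 0⟩ ≠ 0) :
    ∃ (V : ValuationSubring (FBar M₀)) (ρ : V →+* RatFunc k) (D : CscData V q),
      CoreModIn S0 P' hFk hq hqM t ϖ (discEv S0 P' hFk ⟨(kctR M₀ hq hqM t).coeff 0, hR 0⟩)
        V ρ D := by
  obtain ⟨hϖd0, hϖdA, hϖdres, harchd⟩ := cmod_pow_hyps S0 hq hϖq hϖA hϖres harch
  obtain ⟨V, ρ, hV, hlat, hsurj, hb, hY, hG, hscale⟩ :=
    Dp.exists_discLatData hFk hϖd0 hϖdA hϖdres harchd hres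
  obtain ⟨D, hD⟩ := coreMod_of_discVal S0 P' hFk hq hqM Dp hϖq hϖA hϖres harch hR hreg hV hsurj
    hlat.ρ_eq_zero_iff hlat.ρ_algebraMap hb hY
  exact ⟨V, ρ, D, hD⟩

/-! ### the inputs of `core_main` (helper42) read off the bundle -/

namespace CoreModIn

variable {S0 : RedSetup Qb (FBar M₀) k Fk0} {P' : Place k Fk0} {hFk : IsRRField k Fk0}
  {hq : q.Prime} {hqM : ¬ q ∣ M₀} {t : FBar M₀} {ϖ : Qb} {c₀ : k}
  {V : ValuationSubring (FBar M₀)} {ρ : V →+* RatFunc k} {D : CscData V q}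

/-- `hc` of `core_main` / `cnpHyp_of_csc_setup`. -/
theorem ρ_uinv_mul (h : CoreModIn S0 P' hFk hq hqM t ϖ c₀ V ρ D) :
    ρ D.uinv * ρ (D.R.coeff 0) = algebraMap k (RatFunc k) c₀ := by
  rw [h.uinv_eq, map_one, one_mul, h.ρ_R0]

/-- `hx` of `core_main`: `ι₀ t` is a root of `D.psi` (algebra along `ι₁`). -/
theorem aeval_iota0 (h : CoreModIn S0 P' hFk hq hqM t ϖ c₀ V ρ D) :
    letI := algebraAlong (wpdIota1 M₀ q)
    Polynomial.aeval (wpIota0 M₀ q t) D.psi = 0 := by
  letI := algebraAlong (wpdIota1 M₀ q)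
  rw [h.psi_eq, Polynomial.aeval_def]
  exact h.root0

/-- `hz` of `core_main`: `ι₂ t` is a root of `D.psi` (algebra along `ι₁`). -/
theorem aeval_iota2 (h : CoreModIn S0 P' hFk hq hqM t ϖ c₀ V ρ D) :
    letI := algebraAlong (wpdIota1 M₀ q)
    Polynomial.aeval (wpIota2 M₀ q t) D.psi = 0 := by
  letI := algebraAlong (wpdIota1 M₀ q)
  rw [h.psi_eq, Polynomial.aeval_def]
  exact h.root2

/-- `ι₁ ϖ = ϖ`. -/
theorem algebraMap_ϖ (h : CoreModIn S0 P' hFk hq hqM t ϖ c₀ V ρ D) :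
    letI := algebraAlong (wpdIota1 M₀ q)
    algebraMap (FBar M₀) (FBar (M₀ * q * q)) (D.ϖ : FBar M₀) =
      algebraMap Qb (FBar (M₀ * q * q)) ϖ := by
  letI := algebraAlong (wpdIota1 M₀ q)
  rw [h.coe_ϖ]
  exact (wpdIota1 M₀ q).commutes ϖ

/-- the root `x / ϖ` of `core_main` is `W = wpW M₀ q t 0 ϖ`. -/
theorem div_eq_wpW (h : CoreModIn S0 P' hFk hq hqM t ϖ c₀ V ρ D) :
    letI := algebraAlong (wpdIota1 M₀ q)
    wpIota0 M₀ q t / algebraMap (FBar M₀) (FBar (M₀ * q * q)) (D.ϖ : FBar M₀) =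
      wpW M₀ q t 0 ϖ := by
  letI := algebraAlong (wpdIota1 M₀ q)
  rw [h.algebraMap_ϖ, wpW, map_zero, sub_zero]

/-- the root `z / ϖ` of `core_main` is `Zc = wpZ M₀ q t 0 ϖ`. -/
theorem div_eq_wpZ (h : CoreModIn S0 P' hFk hq hqM t ϖ c₀ V ρ D) :
    letI := algebraAlong (wpdIota1 M₀ q)
    wpIota2 M₀ q t / algebraMap (FBar M₀) (FBar (M₀ * q * q)) (D.ϖ : FBar M₀) =
      wpZ M₀ q t 0 ϖ := by
  letI := algebraAlong (wpdIota1 M₀ q)
  rw [h.algebraMap_ϖ, wpZ, map_zero, sub_zero]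

/-- `ι₁ Y = wpY M₀ q t 0 ϖ`. -/
theorem algebraMap_Y (h : CoreModIn S0 P' hFk hq hqM t ϖ c₀ V ρ D) :
    letI := algebraAlong (wpdIota1 M₀ q)
    algebraMap (FBar M₀) (FBar (M₀ * q * q)) (D.Y : FBar M₀) = wpY M₀ q t 0 ϖ := by
  letI := algebraAlong (wpdIota1 M₀ q)
  rw [h.coe_Y, wpY, zero_pow (NeZero.ne q), map_zero, sub_zero, div_eq_mul_inv]
  show (wpdIota1 M₀ q) (t * (algebraMap Qb (FBar M₀) (ϖ ^ q))⁻¹) = _
  rw [map_mul, map_inv₀, (wpdIota1 M₀ q).commutes]

end CoreModIn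

/-- the tower `ℚ̄ ⊂ F₀ ⊂ F` along `ι₁`. -/
theorem cmod_isScalarTower (M₀ q : ℕ) [NeZero M₀] [NeZero q] :
    letI := algebraAlong (wpdIota1 M₀ q)
    IsScalarTower Qb (FBar M₀) (FBar (M₀ * q * q)) := by
  letI := algebraAlong (wpdIota1 M₀ q)
  exact IsScalarTower.of_algebraMap_eq (fun c => ((wpdIota1 M₀ q).commutes c).symm)

/-- **CORE-MOD at the constant reduction `S₁ = d1mAbs`** of the disc of radius `ϖ ^ q`
(helper6's S1-MOD, helper75's DISC-SETUP): the Kronecker datum `D : CscData S₁.Ov q` with the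
whole bundle for `(S₁.Ov, S₁.ρ)`. -/
theorem coreMod_d1mAbs (S0 : RedSetup Qb (FBar M₀) k Fk0) (P' : Place k Fk0)
    (hFk : IsRRField k Fk0) (hq : q.Prime) (hqM : ¬ q ∣ M₀) {t : FBar M₀} {ϖ : Qb}
    {Pt : Place Qb (FBar M₀)} (Dp : DiscPoint S0 P' Pt t)
    (hϖq : ϖ ^ (q + 1) = (q : Qb)) (hϖA : ϖ ∈ S0.A) (hϖres : S0.res ⟨ϖ, hϖA⟩ = 0)
    (harch : ∀ c : Qb, c ≠ 0 → ∃ N : ℕ, S0.A.valuation (ϖ ^ N) < S0.A.valuation c)
    (hres : Function.Surjective S0.res) (hFk1 : IsRRField k (RatFunc k))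
    (hR : ∀ i, (kctR M₀ hq hqM t).coeff i ∈ discRing S0 P')
    (hreg : discEv S0 P' hFk ⟨(kctR M₀ hq hqM t).coeff 0, hR 0⟩ ≠ 0)
    (hπ0 : ϖ ^ q ≠ 0) (hπA : ϖ ^ q ∈ S0.A) (hπ : S0.res ⟨ϖ ^ q, hπA⟩ = 0)
    (harchd : ∀ c : Qb, c ≠ 0 → ∃ N : ℕ, S0.A.valuation ((ϖ ^ q) ^ N) < S0.A.valuation c) :
    ∃ D : CscData (d1mAbs Dp hFk hπ0 hπA hπ harchd hres hFk1).Ov q,
      CoreModIn S0 P' hFk hq hqM t ϖ (discEv S0 P' hFk ⟨(kctR M₀ hq hqM t).coeff 0, hR 0⟩)
        (d1mAbs Dp hFk hπ0 hπA hπ harchd hres hFk1).Ov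
        (d1mAbs Dp hFk hπ0 hπA hπ harchd hres hFk1).ρ D := by
  have hspec := (Dp.discData' hFk hπ0 hπA hπ harchd).discRho_spec hres
  exact coreMod_of_discVal S0 P' hFk hq hqM Dp hϖq hϖA hϖres harch hR hreg hspec.1 hspec.2.1
    hspec.2.2.1 hspec.2.2.2.1 hspec.2.2.2.2.1 hspec.2.2.2.2.2.1

end Bundle

/-! ### the modular datum: `S0 = wpdSetup`, `t` from EX_t -/

section Datum

variable (A : ValuationSubring Qb) (q M₀ : ℕ) [NeZero M₀] [NeZero q]
  (hq : q.Prime) (hA : A.LiesOverPrime q) (hqM : ¬ q ∣ M₀)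
  (hg : genusFF Qb (modularFunctionFieldBar M₀) =
    genusFF (IsLocalRing.ResidueField A)
      (modularFunctionFieldFullC (IsLocalRing.ResidueField A) M₀))
  {P' : Place (IsLocalRing.ResidueField A)
    (modularFunctionFieldFullC (IsLocalRing.ResidueField A) M₀)}

include hq hA in
/-- a root `ϖ` of `X ^ (q + 1) = q` is a non-zero element of `m_A`. -/
theorem cmod_pi_props {ϖ : Qb} (hϖq : ϖ ^ (q + 1) = (q : Qb)) :
    ϖ ≠ 0 ∧ ϖ ∈ A ∧ ϖ⁻¹ ∉ A := by
  have hq0 : (q : Qb) ≠ 0 := Nat.cast_ne_zero.mpr hq.ne_zero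
  have hϖ0 : ϖ ≠ 0 := by
    rintro rfl
    rw [zero_pow (Nat.succ_ne_zero q)] at hϖq
    exact hq0 hϖq.symm
  have hqA : (q : Qb) ∈ A := natCast_mem A q
  have hqinv : (q : Qb)⁻¹ ∉ A := by
    have h2 : (q : Qb) ∈ A.nonunits := hA
    rw [ValuationSubring.mem_nonunits_iff_or] at h2
    exact h2.resolve_left hq0
  refine ⟨hϖ0, wpd_mem_of_pow_mem (Nat.succ_ne_zero q) (hϖq ▸ hqA), fun hinv => ?_⟩
  apply hqinv
  rw [← hϖq, ← inv_pow]
  exact pow_mem hinv _

/-- **(KC_t) + (KCtPole)**: the coefficients of `R_t`, `t` the datum of EX_t, lie in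
`R_{P'} = discRing S0 P'` for every non-cuspidal place `P'`. -/
theorem cmod_kctR_mem_discRing {t0 : LaurentSeries ℚ}
    (hP' : 0 ≤ P'.ord (Fermat.Agent.RRMod.jC (IsLocalRing.ResidueField A) M₀))
    (E : ExTDatum A q M₀ hq hA hqM P' t0) (i : ℕ) :
    (kctR M₀ hq hqM (wpdT M₀ t0 E.mem)).coeff i ∈ discRing (wpdSetup A q M₀ hq hA hqM hg) P' := by
  refine wpd_mem_discRing A q M₀ hq hA hqM hg ?_ (fun v hv => ?_) hP'
  · exact kctR_coeff_mem_rat M₀ hq A hA hqM t0 E.int _ i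
  · exact kcp_kctR_coeff M₀ hq hqM (wpdT M₀ t0 E.mem) (E.poles _) v hv i

/-- **CORE-MOD AT THE DATUM** (`S0 = wpdSetup`, `t = wpdT M₀ t0 E.mem` from EX_t at the centre
`P'`, `a = 0`, `ϖ ^ (q + 1) = q`, `S₁ = d1mSetup` of radius `ϖ ^ q`): the Kronecker datum
`D : CscData S₁.Ov q` with the whole bundle.  The only open input is (REG) `hreg`. -/
theorem coreMod_d1mSetup {t0 : LaurentSeries ℚ}
    (hP' : 0 ≤ P'.ord (Fermat.Agent.RRMod.jC (IsLocalRing.ResidueField A) M₀))
    (E : ExTDatum A q M₀ hq hA hqM P' t0) {ϖ : Qb} (hϖq : ϖ ^ (q + 1) = (q : Qb))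
    {Pt : Place Qb (modularFunctionFieldBar M₀)}
    (Dp : DiscPoint (wpdSetup A q M₀ hq hA hqM hg) P' Pt (wpdT M₀ t0 E.mem))
    (hπ0 : ϖ ^ q ≠ 0) (hπA : ϖ ^ q ∈ A) (hπ : (ϖ ^ q)⁻¹ ∉ A)
    (hreg : discEv (wpdSetup A q M₀ hq hA hqM hg) P' (wpd_hFk A M₀)
      ⟨(kctR M₀ hq hqM (wpdT M₀ t0 E.mem)).coeff 0,
        cmod_kctR_mem_discRing A q M₀ hq hA hqM hg hP' E 0⟩ ≠ 0) :
    ∃ D : CscData (d1mSetup A q M₀ hq hA hqM hg Dp hπ0 hπA hπ).Ov q,
      CoreModIn (wpdSetup A q M₀ hq hA hqM hg) P' (wpd_hFk A M₀) hq hqM (wpdT M₀ t0 E.mem) ϖ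
        (discEv (wpdSetup A q M₀ hq hA hqM hg) P' (wpd_hFk A M₀)
          ⟨(kctR M₀ hq hqM (wpdT M₀ t0 E.mem)).coeff 0,
            cmod_kctR_mem_discRing A q M₀ hq hA hqM hg hP' E 0⟩)
        (d1mSetup A q M₀ hq hA hqM hg Dp hπ0 hπA hπ).Ov
        (d1mSetup A q M₀ hq hA hqM hg Dp hπ0 hπA hπ).ρ D := by
  obtain ⟨hϖ0, hϖA, hϖinv⟩ := cmod_pi_props A q hq hA hϖq
  exact coreMod_d1mAbs (wpdSetup A q M₀ hq hA hqM hg) P' (wpd_hFk A M₀) hq hqM Dp hϖq hϖA
    (wpd_res_eq_zero A q M₀ hq hA hqM hg hϖA hϖinv) (wpd_arch hq hA hϖ0 hϖinv)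
    (d1m_res_surjective A q M₀ hq hA hqM hg)
    (@isRRField_ratFunc (IsLocalRing.ResidueField A) _ (isAlgClosed_residue A))
    (cmod_kctR_mem_discRing A q M₀ hq hA hqM hg hP' E) hreg hπ0 hπA
    (wpd_res_eq_zero A q M₀ hq hA hqM hg hπA hπ) (wpd_arch hq hA hπ0 hπ)

end Datum


end Fermat.Agent.S36G
end
end MergeWrap_S36_HPVal_CoreMod

section MergeWrap_S36_HPVal_UniqMod -- from S36/HPVal/UniqMod.lean

set_option autoImplicit false
set_option linter.style.haveILetI false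
set_option linter.unusedSectionVars false
set_option synthInstance.maxHeartbeats 400000

noncomputable section
attribute [local instance 10000] SubalgebraClass.toAlgebra HahnSeries.powerSeriesAlgebra

namespace Fermat.Agent.S36G

open ModularCurve AlgebraicCurve IntermediateField Fermat.Agent.F3 Fermat.Agent.F3G
  Fermat.Agent.GaussInt Fermat.Agent.Deuring Fermat.Agent.BadRed Fermat.Agent.HPVal
  Fermat.Agent.HP Polynomial

local notation "Qb" => AlgebraicClosure ℚ

/-! ### abstract part -/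

section Abs

variable {K F₀ F k Fk0 : Type*} [Field K] [Field F₀] [Algebra K F₀] [Field F] [Algebra K F]
  [Field k] [Field Fk0] [Algebra k Fk0]
  {S0 : Fermat.Agent.S18Key.RedSetup K F₀ k Fk0} {P' : Place k Fk0} {ι : F₀ →ₐ[K] F}
  {O : Subring F₀} {π : K} {t' : F₀} {ev : discRing S0 P' →+* k}
  {O' : ValuationSubring F}

/-- the hypotheses of `WPOut.uniq` give the `UniqData` of the abstract uniqueness export. -/
theorem wpum_uniqData (D : DiscData S0.A S0.res O (discRing S0 P') π t' ev)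
    (hA : ∀ c : K, algebraMap K F c ∈ O' ↔ c ∈ S0.A)
    (hcen : WPCentred S0 P' ι O')
    (hgen : WPGeneric S0.A O' (ι (t' * (algebraMap K F₀ π)⁻¹))) :
    UniqData S0.A S0.res (discRing S0 P') π t' ι.toRingHom O' where
  mem_iff := fun c => by
    show ι (algebraMap K F₀ c) ∈ O' ↔ c ∈ S0.A
    rw [AlgHom.commutes]
    exact hA c
  B_mem := fun b hb => (hcen b hb).1
  Y_mem := by
    have h := (hgen X (fun i => by
      rw [Polynomial.coeff_X]
      split_ifs
      · exact one_mem _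
      · exact zero_mem _) ⟨1, by
        rw [Polynomial.coeff_X_one]
        exact ⟨one_ne_zero, by rw [inv_one]; exact one_mem _⟩⟩).1
    rw [Polynomial.aeval_X] at h
    exact h
  tr := fun G hG => by
    -- a coefficient which is a unit
    have hex : ∃ i, S0.res (G.coeff i) ≠ 0 := by
      by_contra hcon
      apply hG
      ext i
      rw [Polynomial.coeff_map, Polynomial.coeff_zero]
      by_contra hi
      exact hcon ⟨i, hi⟩
    obtain ⟨i, hi⟩ := hex
    have hunit : IsUnit (G.coeff i) := by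
      by_contra hnu
      exact hi ((D.res_eq_zero_iff _).mpr hnu)
    obtain ⟨u, hu⟩ := hunit
    have hcoe0 : ((G.coeff i : S0.A) : K) ≠ 0 := by
      intro h0
      apply hi
      have : G.coeff i = 0 := Subtype.ext h0
      rw [this, map_zero]
    have hinv : ((G.coeff i : S0.A) : K)⁻¹ ∈ S0.A := by
      have h1 : (((u⁻¹ : (↥S0.A)ˣ) : S0.A) : K) * ((G.coeff i : S0.A) : K) = 1 := by
        have h2 : ((u⁻¹ : (↥S0.A)ˣ) : S0.A) * G.coeff i = 1 := by
          rw [← hu]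
          exact u.inv_mul
        exact congrArg Subtype.val h2
      rw [← eq_inv_of_mul_eq_one_left h1]
      exact (u⁻¹ : (↥S0.A)ˣ).1.2
    have h := (hgen (G.map S0.A.subtype) (fun j => by
      rw [Polynomial.coeff_map]
      exact (G.coeff j).2) ⟨i, by
        rw [Polynomial.coeff_map]
        exact ⟨hcoe0, hinv⟩⟩).2
    have e : Polynomial.aeval (ι (t' * (algebraMap K F₀ π)⁻¹)) (G.map S0.A.subtype) =
        ι.toRingHom (eval₂ ((algebraMap K F₀).comp S0.A.subtype)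
          (t' * (algebraMap K F₀ π)⁻¹) G) := by
      rw [Polynomial.aeval_def, Polynomial.eval₂_map, Polynomial.hom_eval₂]
      congr 1
      ext c
      show algebraMap K F (c : K) = ι (algebraMap K F₀ (c : K))
      rw [AlgHom.commutes]
    rw [← e]
    exact h

/-- **the restriction of `O'` to `ι F₀` is the disc valuation ring.** -/
theorem wpum_comap_eq (D : DiscData S0.A S0.res O (discRing S0 P') π t' ev)
    {V : ValuationSubring F₀} (hV : IsDiscVal S0.A (discRing S0 P') π t' ev V)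
    (hA : ∀ c : K, algebraMap K F c ∈ O' ↔ c ∈ S0.A)
    (hcen : WPCentred S0 P' ι O')
    (hgen : WPGeneric S0.A O' (ι (t' * (algebraMap K F₀ π)⁻¹))) :
    O'.comap ι.toRingHom = V :=
  D.unq_comap_eq hV (wpum_uniqData D hA hcen hgen)

/-- `O'` lies over the disc valuation ring, for the algebra structure along `ι`. -/
theorem wpum_liesOverV (D : DiscData S0.A S0.res O (discRing S0 P') π t' ev)
    {V : ValuationSubring F₀} (hV : IsDiscVal S0.A (discRing S0 P') π t' ev V)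
    (hA : ∀ c : K, algebraMap K F c ∈ O' ↔ c ∈ S0.A)
    (hcen : WPCentred S0 P' ι O')
    (hgen : WPGeneric S0.A O' (ι (t' * (algebraMap K F₀ π)⁻¹))) :
    letI := algebraAlong ι
    LiesOverV V O' :=
  wpum_comap_eq D hV hA hcen hgen

/-- **uniqueness**: `O' = Ow` if `Ow` is the unique valuation ring of `F` over the disc valuation
ring along `ι` (the last clause of `core_main`). -/
theorem wpum_eq_of_unique (D : DiscData S0.A S0.res O (discRing S0 P') π t' ev)
    {V : ValuationSubring F₀} (hV : IsDiscVal S0.A (discRing S0 P') π t' ev V)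
    {Ow : ValuationSubring F}
    (huniq : letI := algebraAlong ι; ∀ O'' : ValuationSubring F, LiesOverV V O'' → O'' = Ow)
    (hA : ∀ c : K, algebraMap K F c ∈ O' ↔ c ∈ S0.A)
    (hcen : WPCentred S0 P' ι O')
    (hgen : WPGeneric S0.A O' (ι (t' * (algebraMap K F₀ π)⁻¹))) :
    O' = Ow :=
  huniq O' (wpum_liesOverV D hV hA hcen hgen)

/-- **uniqueness**: `O' = Ow` for every valuation ring `Ow` of `F` over the disc valuation ring
(along `ι`) with a residually independent family of `[F : ι F₀]` elements. -/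
theorem wpum_eq_of_cover [Infinite k] (D : DiscData S0.A S0.res O (discRing S0 P') π t' ev)
    (hres : Function.Surjective S0.res)
    {V : ValuationSubring F₀} (hV : IsDiscVal S0.A (discRing S0 P') π t' ev V)
    {Ow : ValuationSubring F}
    (hfd : letI := algebraAlong ι; FiniteDimensional F₀ F)
    (hO : letI := algebraAlong ι; LiesOverV V Ow)
    {κ : Type*} [Fintype κ] {x : κ → F}
    (hx : letI := algebraAlong ι; ResIndep V Ow x)
    (hcard : letI := algebraAlong ι; Fintype.card κ = Module.finrank F₀ F)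
    (hA : ∀ c : K, algebraMap K F c ∈ O' ↔ c ∈ S0.A)
    (hcen : WPCentred S0 P' ι O')
    (hgen : WPGeneric S0.A O' (ι (t' * (algebraMap K F₀ π)⁻¹))) :
    O' = Ow := by
  letI := algebraAlong ι
  haveI := hfd
  exact D.unq_eq_of_cover' hres hV hO hx hcard (wpum_uniqData D hA hcen hgen)

end Abs

/-! ### modular part -/

section Mod

variable (M₀ q : ℕ) [NeZero M₀] [NeZero q]

/-- `ι₁ ((t - a^q) / ϖ^q) = Y`. -/
theorem wpum_iota1_Y (t : FBar M₀) (a ϖ : Qb) :
    wpdIota1 M₀ q ((t - algebraMap Qb (FBar M₀) (a ^ q)) *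
      (algebraMap Qb (FBar M₀) (ϖ ^ q))⁻¹) = wpY M₀ q t a ϖ := by
  rw [wpY, map_mul, map_sub, map_inv₀, AlgHom.commutes, AlgHom.commutes, div_eq_mul_inv]

/-- `ι₁ (t / ϖ^q) = Y` for `a = 0`. -/
theorem wpum_iota1_Y0 (t : FBar M₀) (ϖ : Qb) :
    wpdIota1 M₀ q (t * (algebraMap Qb (FBar M₀) (ϖ ^ q))⁻¹) = wpY M₀ q t 0 ϖ := by
  rw [wpY, map_mul, map_inv₀, AlgHom.commutes, div_eq_mul_inv, zero_pow (NeZero.ne q), map_zero,
    sub_zero]

variable {M₀ q}
variable {A : ValuationSubring Qb}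
  {S0 : Fermat.Agent.S18Key.RedSetup Qb (FBar M₀) (IsLocalRing.ResidueField A)
    ↥(modularFunctionFieldFullC (IsLocalRing.ResidueField A) M₀)}
  {P' : Place (IsLocalRing.ResidueField A)
    ↥(modularFunctionFieldFullC (IsLocalRing.ResidueField A) M₀)}
  {t : FBar M₀} {a ϖ : Qb} {O : Subring (FBar M₀)}
  {ev : discRing S0 P' →+* IsLocalRing.ResidueField A}
  {V : ValuationSubring (FBar M₀)} {Ow : ValuationSubring (FBar (M₀ * q * q))}

/-- **the field `uniq` of `WPOut`** (exact shape), from the disc data at `P'` for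
`(t - a^q, ϖ^q)` and the uniqueness of `Ow` over the disc valuation ring along `ι₁`. -/
theorem wpum_uniq_of_unique (hS0A : S0.A = A)
    (D : DiscData S0.A S0.res O (discRing S0 P') (ϖ ^ q)
      (t - algebraMap Qb (FBar M₀) (a ^ q)) ev)
    (hV : IsDiscVal S0.A (discRing S0 P') (ϖ ^ q) (t - algebraMap Qb (FBar M₀) (a ^ q)) ev V)
    (huniq : letI := algebraAlong (wpdIota1 M₀ q);
      ∀ O'' : ValuationSubring (FBar (M₀ * q * q)), LiesOverV V O'' → O'' = Ow) :
    ∀ O' : ValuationSubring (FBar (M₀ * q * q)),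
      (∀ c : Qb, algebraMap Qb (FBar (M₀ * q * q)) c ∈ O' ↔ c ∈ A) →
      WPCentred S0 P' (wpdIota1 M₀ q) O' → WPGeneric A O' (wpY M₀ q t a ϖ) → O' = Ow := by
  intro O' hA hcen hgen
  refine wpum_eq_of_unique (ι := wpdIota1 M₀ q) D hV huniq ?_ hcen ?_
  · intro c
    rw [hS0A]
    exact hA c
  · rw [wpum_iota1_Y, hS0A]
    exact hgen

/-- **the field `uniq` of `WPOut` / `WPVal` for `a = 0`** (exact shape), from the disc data at
`P'` for `(t, ϖ^q)` and the uniqueness of `Ow` over the disc valuation ring along `ι₁`. -/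
theorem wpum_uniq0_of_unique (hS0A : S0.A = A)
    (D : DiscData S0.A S0.res O (discRing S0 P') (ϖ ^ q) t ev)
    (hV : IsDiscVal S0.A (discRing S0 P') (ϖ ^ q) t ev V)
    (huniq : letI := algebraAlong (wpdIota1 M₀ q);
      ∀ O'' : ValuationSubring (FBar (M₀ * q * q)), LiesOverV V O'' → O'' = Ow) :
    ∀ O' : ValuationSubring (FBar (M₀ * q * q)),
      (∀ c : Qb, algebraMap Qb (FBar (M₀ * q * q)) c ∈ O' ↔ c ∈ A) →
      WPCentred S0 P' (wpdIota1 M₀ q) O' → WPGeneric A O' (wpY M₀ q t 0 ϖ) → O' = Ow := by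
  intro O' hA hcen hgen
  refine wpum_eq_of_unique (ι := wpdIota1 M₀ q) D hV huniq ?_ hcen ?_
  · intro c
    rw [hS0A]
    exact hA c
  · rw [wpum_iota1_Y0, hS0A]
    exact hgen

end Mod

end Fermat.Agent.S36G
end
end MergeWrap_S36_HPVal_UniqMod

section MergeWrap_S36_HPVal_Val -- from S36/HPVal/Val.lean

set_option autoImplicit false
set_option linter.style.haveILetI false
set_option linter.unusedSectionVars false
set_option linter.unusedVariables false
set_option synthInstance.maxHeartbeats 400000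

noncomputable section
attribute [local instance 10000] SubalgebraClass.toAlgebra HahnSeries.powerSeriesAlgebra

namespace Fermat.Agent.S36G

open ModularCurve AlgebraicCurve IntermediateField Fermat.Agent.F3 Fermat.Agent.F3G
  Fermat.Agent.GaussInt Fermat.Agent.Deuring Fermat.Agent.BadRed Fermat.Agent.HPVal
  Fermat.Agent.HP Fermat.Agent.S18Key Fermat.Agent.RR Fermat.Agent.S36

local notation "Qb" => AlgebraicClosure ℚ

/-! ### the disc valuation of the bundle as a constant reduction -/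

section Setup1

variable {M₀ q : ℕ} [NeZero M₀] [NeZero q] {k Fk0 : Type*} [Field k] [Field Fk0] [Algebra k Fk0]
  {S0 : RedSetup Qb (FBar M₀) k Fk0} {P' : Place k Fk0} {hFk : IsRRField k Fk0}
  {hq : q.Prime} {hqM : ¬ q ∣ M₀} {t : FBar M₀} {ϖ : Qb} {c₀ : k}
  {V : ValuationSubring (FBar M₀)} {ρ : V →+* RatFunc k} {D : CscData V q}

/-- **the disc valuation `(V, ρ)` of the bundle as a constant reduction** of `F₀ = F_{M₀}`. -/
def wpvSetup1 [IsAlgClosed k] (hCM : CoreModIn S0 P' hFk hq hqM t ϖ c₀ V ρ D)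
    (hres : Function.Surjective S0.res) : ValSetup Qb (FBar M₀) k (RatFunc k) where
  A := S0.A
  Ov := V
  res := S0.res
  ρ := ρ
  hF := S0.hF
  hFk := isRRField_ratFunc k
  res_surj := hres
  ρ_surj := hCM.ρ_surj
  mem_Ov_iff := hCM.isDiscVal.mem_iff
  ρ_algebraMap := hCM.ρ_const
  ρ_eq_zero_iff := hCM.ρ_ker
  scale := hCM.scale

/-- the lattice property of the disc valuation of the bundle. -/
theorem wpvSetup1_hasLattice [IsAlgClosed k] (hCM : CoreModIn S0 P' hFk hq hqM t ϖ c₀ V ρ D)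
    (hres : Function.Surjective S0.res) : HasLattice (wpvSetup1 hCM hres) := by
  obtain ⟨Pt, -, hL⟩ := hCM.lat
  exact hasLattice_of_discLat (wpvSetup1 hCM hres) hL

end Setup1

/-! ### the shape of OLD -/

section Old

variable {M₀ q : ℕ} [NeZero M₀] [NeZero q] {A : ValuationSubring Qb}

/-- **the shape of OLD-MOD** (`oldMod_old02_iff_ready`): for EVERY constant reduction `S` of
`F = F_{M₀ q q}`, `old1` at `P'` gives `old0` and `old2` at `P`. -/
def WPOldStep (S0 : RedSetup Qb (FBar M₀) (IsLocalRing.ResidueField A)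
      ↥(modularFunctionFieldFullC (IsLocalRing.ResidueField A) M₀))
    (P P' : Place (IsLocalRing.ResidueField A)
      ↥(modularFunctionFieldFullC (IsLocalRing.ResidueField A) M₀)) : Prop :=
  ∀ (FkP : Type) [Field FkP] [Algebra (IsLocalRing.ResidueField A) FkP]
    (S : ValSetup Qb (FBar (M₀ * q * q)) (IsLocalRing.ResidueField A) FkP),
    WPOld S0 P' (wpdIota1 M₀ q) S →
      WPOld S0 P (wpIota0 M₀ q) S ∧ WPOld S0 P (wpIota2 M₀ q) S

end Old

/-! ### the constants -/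

section Const

variable {A : ValuationSubring Qb} {q : ℕ}

/-- the radius `ϖ ^ q`, `ϖ ^ (q + 1) = q`: a non-zero element of `m_A`. -/
theorem wpv_radius (hq : q.Prime) (hA : A.LiesOverPrime q) {ϖ : Qb}
    (hϖ : ϖ ^ (q + 1) = (q : Qb)) :
    ϖ ^ q ≠ 0 ∧ ϖ ^ q ∈ A ∧ (ϖ ^ q)⁻¹ ∉ A := by
  have hq0 : (q : Qb) ≠ 0 := Nat.cast_ne_zero.mpr hq.ne_zero
  have hϖ0 : ϖ ≠ 0 := by
    rintro rfl
    rw [zero_pow (Nat.succ_ne_zero q)] at hϖ
    exact hq0 hϖ.symm
  have hqA : (q : Qb) ∈ A := natCast_mem A q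
  have hqinv : (q : Qb)⁻¹ ∉ A := by
    have h2 : (q : Qb) ∈ A.nonunits := hA
    rw [ValuationSubring.mem_nonunits_iff_or] at h2
    exact h2.resolve_left hq0
  have hϖA : ϖ ∈ A := wpd_mem_of_pow_mem (Nat.succ_ne_zero q) (hϖ ▸ hqA)
  have hϖinv : ϖ⁻¹ ∉ A := fun hinv => hqinv (by
    rw [← hϖ, ← inv_pow]
    exact pow_mem hinv _)
  exact d1m_pow_props hϖ0 hϖA hϖinv hq.ne_zero

end Const

/-! ### bundle + OLD ⟹ the value part -/

section Main

variable {M₀ q : ℕ} [NeZero M₀] [NeZero q] {A : ValuationSubring Qb}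
  {S0 : RedSetup Qb (FBar M₀) (IsLocalRing.ResidueField A)
    ↥(modularFunctionFieldFullC (IsLocalRing.ResidueField A) M₀)}
  {P P' : Place (IsLocalRing.ResidueField A)
    ↥(modularFunctionFieldFullC (IsLocalRing.ResidueField A) M₀)}
  {hq : q.Prime} {hqM : ¬ q ∣ M₀} {t : FBar M₀} {ϖ : Qb} {c₀ : IsLocalRing.ResidueField A}
  {V : ValuationSubring (FBar M₀)} {ρ : V →+* RatFunc (IsLocalRing.ResidueField A)}
  {D : CscData V q}

/-- **VAL, part 2: the bundle of CORE-MOD and OLD give the value part of `WPOut`**, for any Gauss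
reduction package `S0` of `F_{M₀}` at `A ∣ q`. -/
theorem wpv_of_coreModIn (hS : IsGaussRed M₀ A S0) (hA : A.LiesOverPrime q)
    (hϖ : ϖ ^ (q + 1) = (q : Qb))
    (hCM : CoreModIn S0 P' (wpd_hFk A M₀) hq hqM t ϖ c₀ V ρ D)
    (hOld : WPOldStep (q := q) S0 P P') :
    ∃ (FkP : Type) (_ : Field FkP) (_ : Algebra (IsLocalRing.ResidueField A) FkP),
      Nonempty (WPVal M₀ q A S0 P P' t 0 ϖ FkP) := by
  haveI : IsAlgClosed (IsLocalRing.ResidueField A) := isAlgClosed_residue A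
  letI : Algebra (FBar M₀) (FBar (M₀ * q * q)) := algebraAlong (wpdIota1 M₀ q)
  haveI : IsScalarTower Qb (FBar M₀) (FBar (M₀ * q * q)) := isScalarTower_along (wpdIota1 M₀ q)
  have hF : IsRRField Qb (FBar (M₀ * q * q)) := Fermat.Agent.RRMod.isRRField_bar (M₀ * q * q)
  have hL1 := wpvSetup1_hasLattice hCM hS.res_surjective
  have hx : D.psi.eval₂ (algebraMap (FBar M₀) (FBar (M₀ * q * q))) (wpIota0 M₀ q t) = 0 := by
    rw [hCM.psi_eq]
    exact hCM.root0
  have hz : D.psi.eval₂ (algebraMap (FBar M₀) (FBar (M₀ * q * q))) (wpIota2 M₀ q t) = 0 := by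
    rw [hCM.psi_eq]
    exact hCM.root2
  obtain ⟨FkP, i₁, i₂, S, H, ιk, hAeq, hres, hlat, hlies, hιk, hred, hW, hZ, hrW, hrZ, hYf, -,
      hresY, -, huniq⟩ :=
    core_main_ratFunc (wpvSetup1 hCM hS.res_surjective) hL1 hF hq hCM.char hCM.finrank.2 D
      hCM.coe_ϖ hCM.uinv_eq hCM.ρ_Y hCM.ρ_R0 hCM.c_ne hx hz hCM.ne
  -- the coordinates
  have eW : wpW M₀ q t 0 ϖ =
      wpIota0 M₀ q t * (algebraMap Qb (FBar (M₀ * q * q)) ϖ)⁻¹ := by
    rw [wpW, map_zero, sub_zero, div_eq_mul_inv]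
  have eZ : wpZ M₀ q t 0 ϖ =
      wpIota2 M₀ q t * (algebraMap Qb (FBar (M₀ * q * q)) ϖ)⁻¹ := by
    rw [wpZ, map_zero, sub_zero, div_eq_mul_inv]
  have eY : wpY M₀ q t 0 ϖ = algebraMap (FBar M₀) (FBar (M₀ * q * q)) (D.Y : FBar M₀) := by
    rw [hCM.coe_Y]
    exact (wpum_iota1_Y0 M₀ q t ϖ).symm
  have hY1 : (wpvSetup1 hCM hS.res_surjective).red (D.Y : FBar M₀) = RatFunc.X := by
    rw [ValSetup.red_of_mem (wpvSetup1 hCM hS.res_surjective) D.Y.2]
    exact hCM.ρ_Y
  -- (OLD) at the centre of `ι₁`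
  have hold1 : WPOld S0 P' (wpdIota1 M₀ q) S := by
    intro g hg c hc
    have hgV : g ∈ V := hCM.disc_le g hg
    refine ⟨(hlies.mem_iff g).2 hgV, ?_⟩
    have h1 := hred g hgV
    rw [ValSetup.red_of_mem (wpvSetup1 hCM hS.res_surjective) hgV] at h1
    have h2 : (wpvSetup1 hCM hS.res_surjective).ρ ⟨g, hgV⟩ =
        algebraMap (IsLocalRing.ResidueField A) (RatFunc (IsLocalRing.ResidueField A))
          (discEv S0 P' (wpd_hFk A M₀) ⟨g, hg⟩) := hCM.ρ_disc ⟨g, hg⟩ hgV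
    rw [h2, hιk, oldMod_discEv_eq_of_valAt S0 P' (wpd_hFk A M₀) ⟨g, hg⟩ hc] at h1
    exact h1
  obtain ⟨hold0, hold2⟩ := hOld FkP S hold1
  -- the disc data at `P'`
  obtain ⟨Pt, hPt, -⟩ := hCM.lat
  obtain ⟨hπ0, hπA, hπinv⟩ := wpv_radius hq hA hϖ
  have hDD := hS.discData hq hA hPt hπ0 hπA hπinv
  refine ⟨FkP, i₁, i₂, ⟨?_⟩⟩
  exact
    { S := S
      A_eq := hAeq.trans hS.A_eq
      res_eq := fun c h h' =>
        (hres c h ((hS.mem_A_iff c).mpr h')).trans (hS.res_eq c ((hS.mem_A_iff c).mpr h') h')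
      lat := hlat
      H := H
      W_mem := by rw [eW]; exact hW
      Z_mem := by rw [eZ]; exact hZ
      Y_mem := by rw [eY]; exact (hlies.mem_iff _).2 D.Y.2
      red_W := by rw [eW]; exact hrW
      red_Z := by rw [eZ]; exact hrZ
      red_Y := by rw [eY, hred _ D.Y.2, hY1]; exact hYf
      old0 := hold0
      old1 := hold1
      old2 := hold2
      res_Y := fun g hg => hresY g ((hlies.mem_iff g).1 hg)
      uniq := wpum_uniq0_of_unique hS.A_eq hDD hCM.isDiscVal huniq }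

end Main

/-! ### the statement at `wpdSetup` -/

section Final

variable (M₀ q : ℕ) [NeZero M₀] [NeZero q]

/-- **the modular input of CORE-MOD** at `wpdSetup`: for the datum `t` of EX_t at a supersingular
`P`, the twist `P' = Φ P` and `ϖ ^ (q + 1) = q`, the bundle `CoreModIn` exists. -/
def WPCoreModExists : Prop :=
  ∀ (hq : q.Prime) (hqM : ¬ q ∣ M₀) (A : ValuationSubring Qb) (hA : A.LiesOverPrime q)
    (hg : genusFF Qb (modularFunctionFieldBar M₀) =
      genusFF (IsLocalRing.ResidueField A)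
        (modularFunctionFieldFullC (IsLocalRing.ResidueField A) M₀))
    [Fact q.Prime] [CharP (IsLocalRing.ResidueField A) q]
    [PerfectRing (IsLocalRing.ResidueField A) q]
    (P : Place (IsLocalRing.ResidueField A)
      ↥(modularFunctionFieldFullC (IsLocalRing.ResidueField A) M₀)),
    IsSSPlace (IsLocalRing.ResidueField A) M₀ q P →
    ∀ (t0 : LaurentSeries ℚ) (D : ExTDatum A q M₀ hq hA hqM P t0) (ϖ : Qb),
      ϖ ^ (q + 1) = (q : Qb) →
      ∃ (c₀ : IsLocalRing.ResidueField A) (V : ValuationSubring (FBar M₀))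
        (ρ : V →+* RatFunc (IsLocalRing.ResidueField A)) (Dc : CscData V q),
        CoreModIn (wpdSetup A q M₀ hq hA hqM hg)
          (frobAut (IsLocalRing.ResidueField A) M₀ q • P) (wpd_hFk A M₀) hq hqM
          (wpdT M₀ t0 D.mem) ϖ c₀ V ρ Dc

/-- **the modular input of OLD** at `wpdSetup`: `old1` at `P' = Φ P` gives `old0`, `old2` at
the supersingular place `P`. -/
def WPOldExists : Prop :=
  ∀ (hq : q.Prime) (hqM : ¬ q ∣ M₀) (A : ValuationSubring Qb) (hA : A.LiesOverPrime q)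
    (hg : genusFF Qb (modularFunctionFieldBar M₀) =
      genusFF (IsLocalRing.ResidueField A)
        (modularFunctionFieldFullC (IsLocalRing.ResidueField A) M₀))
    [Fact q.Prime] [CharP (IsLocalRing.ResidueField A) q]
    [PerfectRing (IsLocalRing.ResidueField A) q]
    (P : Place (IsLocalRing.ResidueField A)
      ↥(modularFunctionFieldFullC (IsLocalRing.ResidueField A) M₀)),
    IsSSPlace (IsLocalRing.ResidueField A) M₀ q P →
    WPOldStep (q := q) (wpdSetup A q M₀ hq hA hqM hg) P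
      (frobAut (IsLocalRing.ResidueField A) M₀ q • P)

/-- **VAL, part 2**: CORE-MOD + OLD ⟹ the value part at every supersingular place. -/
theorem wpValStatement_of (hC : WPCoreModExists M₀ q) (hO : WPOldExists M₀ q) :
    WPValStatement M₀ q := by
  intro hq hqM A hA hg _ _ _ P hP t0 D ϖ hϖ
  obtain ⟨c₀, V, ρ, Dc, hCM⟩ := hC hq hqM A hA hg P hP t0 D ϖ hϖ
  exact wpv_of_coreModIn (isGaussRed_wpdSetup A q M₀ hq hA hqM hg) hA hϖ hCM
    (hO hq hqM A hA hg P hP)

/-- **W-P, the assembly**: EX_t + CORE-MOD + OLD ⟹ a `WPOut` at every supersingular place. -/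
theorem wpExists_of (hT : ExTStatement q M₀) (hC : WPCoreModExists M₀ q)
    (hO : WPOldExists M₀ q) : WPExists M₀ q :=
  wpExists_of_val M₀ q hT (wpValStatement_of M₀ q hC hO)

end Final

end Fermat.Agent.S36G
end
end MergeWrap_S36_HPVal_Val
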