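import Mathlib
import Fermat.Prelude.Def_AlgebraicCurve_BaseChangeGalois
import Fermat.Agent.MUL.Orig.S18.KeyBasic
import Fermat.Agent.MUL.Lib.RR.RRI
import Fermat.Agent.MUL.Orig.Lib.BadRed.HPVal.DiscTaylor
import Fermat.Agent.MUL.Lib.FFL.FB.FieldTeich
import Fermat.Agent.MUL.Lib.Deuring.Basic
import Fermat.Agent.MUL.S36.HPVal.InertOnto
import Fermat.Agent.MUL.S36.G.InertArith
import Fermat.Agent.MUL.S36.G.Defs
import Fermat.Agent.MUL.S36.HPVal.Defs
import Fermat.Agent.MUL.Lib.GaussInt.ModularInst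
import Fermat.Agent.MUL.Orig.Lib.GaussInt.Galois
import Fermat.Agent.MUL.Orig.F3.Galois.HeckeComm
import Fermat.Agent.MUL.Lib.BadRed.Nodal.Gluing.Data
import Fermat.Agent.MUL.Lib.BadRed.PeuD.BrkTame
import Fermat.Agent.MUL.Orig.Lib.FrobTrace.Residue
import Fermat.Agent.MUL.S36.Seed.MNAt

section MergeWrap_S36_HPVal_InertR -- from S36/HPVal/InertR.lean

set_option autoImplicit false
set_option linter.style.haveILetI false
set_option linter.unusedSectionVars false
set_option linter.unusedVariables false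

/-!
# S36 (cluster G), W-P seat INERT-MOD, abstract part: the reduction map of places is CANONICAL
(helper71)

`S : S18Key.RedSetup K F k Fk` a reduction package (valuation ring `Ov`, residue map `red`,
reduction map of places `r` with `push`), `t` a semilinear automorphism of `F / K` which
preserves `Ov` and acts TRIVIALLY on the residues (`red (t f) = red f`: the inertia group).

* `WpmTriv S t`      : `t` preserves `Ov` and acts trivially on the residues;
* `WpmLattice S`     : the lattice property of `(Ov, red)` (= `Deuring.HasLattice`);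
* `wpm_exists_nonconst` : for every place `x` a function of `Ov` with poles only at `x` and
  NON-CONSTANT reduction (Riemann's inequality + lattice);
* `wpm_r_smul`       : **`r (t • x) = r x`** (from `push` only: no genus equality, no (GR));
* `wpm_smul_mem_discRing` : `t` preserves `R_P = discRing S P`;
* `wpm_valAt_smul`   : `t` preserves the values at `P` of the reductions.
-/

noncomputable section
attribute [local instance 10000] SubalgebraClass.toAlgebra HahnSeries.powerSeriesAlgebra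

namespace Fermat.Agent.S36G

open AlgebraicCurve Fermat.Agent.RR Fermat.Agent.S18Key Fermat.Agent.HPVal

variable {K F k Fk : Type*} [Field K] [Field F] [Algebra K F] [Field k] [Field Fk]
  [Algebra k Fk]

/-- `t` preserves the valuation ring of `S` and acts trivially on the residues. -/
structure WpmTriv (S : RedSetup K F k Fk) (t : SemilinearAut K F) : Prop where
  mem : ∀ f ∈ S.Ov, t • f ∈ S.Ov
  mem_inv : ∀ f ∈ S.Ov, t⁻¹ • f ∈ S.Ov
  red : ∀ f ∈ S.Ov, S.red (t • f) = S.red f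

/-- the lattice property of the valuation ring of a reduction package. -/
def WpmLattice (S : RedSetup K F k Fk) : Prop :=
  ∀ W : Submodule K F, FiniteDimensional K W →
    ∃ (n : ℕ) (w : Fin n → F), (∀ i, w i ∈ W) ∧ (∀ i, w i ∈ S.Ov) ∧
      Submodule.span K (Set.range w) = W ∧ LinearIndependent k (fun i => S.red (w i))

variable {S : RedSetup K F k Fk} {t : SemilinearAut K F}

theorem WpmTriv.inv (h : WpmTriv S t) : WpmTriv S t⁻¹ where
  mem := h.mem_inv
  mem_inv := fun f hf => by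
    rw [inv_inv]
    exact h.mem f hf
  red := fun f hf => by
    have h1 := h.red (t⁻¹ • f) (h.mem_inv f hf)
    rw [smul_inv_smul] at h1
    exact h1.symm

theorem WpmTriv.isU (h : WpmTriv S t) {f : F} (hf : S.IsU f) : S.IsU (t • f) :=
  isU_of_red_ne_zero (h.mem f hf.mem) (by
    rw [h.red f hf.mem]
    exact hf.red_ne_zero)

/-- two linearly independent vectors are not both multiples of a third one. -/
theorem wpm_not_both_const {V : Type*} [AddCommGroup V] [Module k V] {a b e : V}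
    (hab : LinearIndependent k ![a, b]) (ha : ∃ c : k, a = c • e) (hb : ∃ c : k, b = c • e) :
    False := by
  obtain ⟨c, rfl⟩ := ha
  obtain ⟨d, rfl⟩ := hb
  rw [LinearIndependent.pair_iff] at hab
  have h := hab d (-c) (by
    rw [smul_smul, smul_smul, neg_mul, neg_smul, mul_comm d c]
    exact add_neg_cancel _)
  have hd : d = 0 := h.1
  have hc : c = 0 := neg_eq_zero.mp h.2
  have h0 := hab 1 0 (by rw [hc, zero_smul, smul_zero, zero_smul, add_zero])
  exact one_ne_zero h0.1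

/-- for every place `x` there is an integral function with poles only at `x` whose reduction
is not a constant. -/
theorem wpm_exists_nonconst (hlat : WpmLattice S) (x : Place K F) :
    ∃ f : F, f ∈ S.Ov ∧ (∀ y : Place K F, y ≠ x → 0 ≤ y.ord f) ∧
      ∀ c : k, S.red f ≠ algebraMap k Fk c := by
  classical
  set n : ℤ := (genusFF K F : ℤ) + 1 with hn
  set D : Divisor K F := Finsupp.single x n with hD
  haveI hfin : Module.Finite K (riemannRochSpace D) := finite_riemannRochSpace S.hF D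
  have hell : (2 : ℤ) ≤ (ell D : ℤ) := by
    have h1 := riemann_inequality S.hF D
    rw [hD, degree_single_one S.hF x n] at h1
    rw [hD]
    omega
  obtain ⟨m, w, hwW, hwO, hspan, hli⟩ := hlat (riemannRochSpace D) hfin
  have hm : 2 ≤ m := by
    have h1 : Module.finrank K (riemannRochSpace D) ≤ m := by
      have h2 : Module.finrank K (Submodule.span K (Set.range w)) ≤ (Finset.univ : Finset (Fin m)).card := by
        have := finrank_span_le_card (R := K) (Set.range w)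
        calc Module.finrank K (Submodule.span K (Set.range w))
            ≤ (Set.range w).toFinset.card := this
          _ ≤ (Finset.univ : Finset (Fin m)).card := by
              rw [Set.toFinset_range]
              exact Finset.card_image_le
      rw [hspan] at h2
      simpa using h2
    have h3 : (2 : ℤ) ≤ (m : ℤ) := by
      have : ((ell D : ℕ) : ℤ) ≤ (m : ℤ) := by exact_mod_cast h1
      omega
    exact_mod_cast h3
  have hpoles : ∀ i, ∀ y : Place K F, y ≠ x → 0 ≤ y.ord (w i) := by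
    intro i y hy
    rcases (mem_riemannRochSpace_iff.mp (hwW i)) y with h0 | h0
    · rw [h0, Place.ord_zero]
    · rw [hD, Finsupp.single_eq_of_ne hy, neg_zero] at h0
      exact h0
  set i0 : Fin m := ⟨0, by omega⟩ with hi0
  set i1 : Fin m := ⟨1, by omega⟩ with hi1
  have hne : i0 ≠ i1 := by
    intro h
    have := congrArg Fin.val h
    simp [hi0, hi1] at this
  have hpair : LinearIndependent k ![S.red (w i0), S.red (w i1)] := by
    have hinj : Function.Injective ![i0, i1] := by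
      intro a b hab
      fin_cases a <;> fin_cases b <;> simp_all
    have := hli.comp ![i0, i1] hinj
    convert this using 1
    ext j
    fin_cases j <;> rfl
  by_cases h0 : ∃ c : k, S.red (w i0) = algebraMap k Fk c
  swap
  · exact ⟨w i0, hwO i0, hpoles i0, fun c hc => h0 ⟨c, hc⟩⟩
  by_cases h1 : ∃ c : k, S.red (w i1) = algebraMap k Fk c
  swap
  · exact ⟨w i1, hwO i1, hpoles i1, fun c hc => h1 ⟨c, hc⟩⟩
  exfalso
  obtain ⟨c0, hc0⟩ := h0
  obtain ⟨c1, hc1⟩ := h1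
  exact wpm_not_both_const (e := (1 : Fk)) hpair
    ⟨c0, by rw [hc0, Algebra.algebraMap_eq_smul_one]⟩
    ⟨c1, by rw [hc1, Algebra.algebraMap_eq_smul_one]⟩

/-- **the reduction map of places is canonical**: an automorphism which preserves the valuation
ring and acts trivially on the residues commutes with the reduction of places. -/
theorem wpm_r_smul (hFk : IsRRField k Fk) (hlat : WpmLattice S) (ht : WpmTriv S t)
    (x : Place K F) : S.r (t • x) = S.r x := by
  by_contra hne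
  obtain ⟨f, hfO, hpoles, hnc⟩ := wpm_exists_nonconst hlat x
  have hred0 : S.red f ≠ 0 := by
    intro h
    exact hnc 0 (by rw [h, map_zero])
  have hU : S.IsU f := isU_of_red_ne_zero hfO hred0
  have hU' : S.IsU (t • f) := ht.isU hU
  have hall : ∀ Q : Place k Fk, 0 ≤ Q.ord (S.red f) := by
    intro Q
    by_cases hQ : Q = S.r x
    · -- use `t • f`
      rw [← ht.red f hfO]
      refine push_nonneg hU' Q (fun y hy => ?_)
      have hy' : t⁻¹ • y ≠ x := by
        intro h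
        apply hne
        rw [← h, smul_inv_smul, hy, hQ, ← h]
      have h1 := SemilinearAut.ord_smul t (t⁻¹ • y) f
      rw [smul_inv_smul] at h1
      rw [h1]
      exact hpoles _ hy'
    · refine push_nonneg hU Q (fun y hy => hpoles y ?_)
      rintro rfl
      exact hQ hy.symm
  have hmem : S.red f ∈ riemannRochSpace (0 : Divisor k Fk) := by
    rw [mem_riemannRochSpace_iff]
    intro Q
    right
    simpa using hall Q
  obtain ⟨c, hc⟩ := (mem_riemannRochSpace_zero_iff hFk (S.red f)).mp hmem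
  exact hnc c hc.symm

/-- the inertia group preserves the residue discs. -/
theorem wpm_r_inv_smul (hFk : IsRRField k Fk) (hlat : WpmLattice S) (ht : WpmTriv S t)
    (x : Place K F) : S.r (t⁻¹ • x) = S.r x :=
  wpm_r_smul hFk hlat ht.inv x

/-- **the ring `R_P` is stable**. -/
theorem wpm_smul_mem_discRing (hFk : IsRRField k Fk) (hlat : WpmLattice S) (ht : WpmTriv S t)
    {P : Place k Fk} {g : F} (hg : g ∈ discRing S P) : t • g ∈ discRing S P := by
  refine ⟨ht.mem g hg.1, fun y hy => ?_⟩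
  have h1 := SemilinearAut.ord_smul t (t⁻¹ • y) g
  rw [smul_inv_smul] at h1
  rw [h1]
  exact hg.2 _ ((wpm_r_inv_smul hFk hlat ht y).trans hy)

theorem wpm_smul_mem_discRing_iff (hFk : IsRRField k Fk) (hlat : WpmLattice S)
    (ht : WpmTriv S t) {P : Place k Fk} {g : F} : t • g ∈ discRing S P ↔ g ∈ discRing S P := by
  constructor
  · intro h
    have := wpm_smul_mem_discRing hFk hlat ht.inv h
    rwa [inv_smul_smul] at this
  · exact wpm_smul_mem_discRing hFk hlat ht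

end Fermat.Agent.S36G
end
end MergeWrap_S36_HPVal_InertR

section MergeWrap_S36_HPVal_Teich -- from S36/HPVal/Teich.lean

set_option autoImplicit false
set_option linter.unusedSectionVars false
set_option linter.unusedVariables false
set_option linter.style.haveILetI false

/-!
# S36 (cluster G), block W-P, seat TEICH+SHIFT, part (T1): Teichmüller lifts  (helper65)

`A` a valuation subring of `ℚ̄` over the prime `q`, `I` its inertia group.

* `wps_teich` : **Teichmüller lift with prescribed period**: if `x ∈ A` and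
  `x ^ (q ^ f) ≡ x` modulo the maximal ideal (`f > 0`), then there is `a ∈ A` with `a ≡ x`,
  `a ^ (q ^ f) = a` and `σ a = a` for all `σ ∈ I` (`a` is `0` or a root of unity of order
  `q ^ f - 1`);
* `wps_teich_pow` : then `a ^ q` is a Teichmüller lift of `x ^ q` (same period, inertia-fixed);
* `wps_teich_res` : the same for a constant reduction `S : ValSetup ℚ̄ F k Fk` with `S.A` over
  `q`: every `c ∈ k` with `c ^ (q ^ f) = c` has a lift `a ∈ S.A`, `res a = c`,
  `a ^ (q ^ f) = a`, fixed by the inertia group;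
* `wps_teich_exists` : every `c ∈ k` has such a lift for SOME `f > 0`.
-/

noncomputable section
attribute [local instance 10000] SubalgebraClass.toAlgebra HahnSeries.powerSeriesAlgebra

namespace Fermat.Agent.S36G

open Fermat.Agent.FFL Fermat.Agent.FFL.FB Fermat.Agent.Cyclo Polynomial Fermat.Agent.Deuring

local notation "Qb" => AlgebraicClosure ℚ

variable {q : ℕ} {A : ValuationSubring Qb}

/-- **Teichmüller lift with prescribed period.** -/
theorem wps_teich (hq : q.Prime) (hA : A.LiesOverPrime q) {x : Qb} (hx : x ∈ A) {f : ℕ}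
    (hf : 0 < f) (hxf : x ^ (q ^ f) - x ∈ A.nonunits) :
    ∃ a : Qb, a ∈ A ∧ (∀ σ ∈ A.inertiaSubgroupIn ℚ, σ a = a) ∧ x - a ∈ A.nonunits ∧
      a ^ (q ^ f) = a := by
  classical
  have hqf0 : q ^ f ≠ 0 := pow_ne_zero f hq.ne_zero
  by_cases hxm : x ∈ A.nonunits
  · exact ⟨0, A.zero_mem, fun σ _ => map_zero σ, by rwa [sub_zero], zero_pow hqf0⟩
  have hxv : A.valuation x = 1 := by
    rw [ValuationSubring.mem_nonunits_iff, not_lt] at hxm
    exact le_antisymm ((A.valuation_le_one_iff x).2 hx) hxm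
  set n := q ^ f - 1 with hn
  have hq1 : 1 < q ^ f := Nat.one_lt_pow (Nat.pos_iff_ne_zero.1 hf) hq.one_lt
  have hnpos : 0 < n := by omega
  have hnp : ¬ q ∣ n := by
    intro h
    have h1 : q ∣ q ^ f := dvd_pow_self q (Nat.pos_iff_ne_zero.1 hf)
    have h2 : q ∣ q ^ f - n := Nat.dvd_sub h1 h
    have h3 : q ^ f - n = 1 := by omega
    rw [h3] at h2
    exact hq.one_lt.ne' (Nat.dvd_one.1 h2)
  have hqfn : q ^ f = n + 1 := by omega
  -- `x ^ n - 1` is a nonunit
  have hxn : x ^ n - 1 ∈ A.nonunits := by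
    have h1 : x ^ (q ^ f) - x = x * (x ^ n - 1) := by
      rw [hqfn, pow_succ]
      ring
    rw [h1, ValuationSubring.mem_nonunits_iff, map_mul, hxv, one_mul] at hxf
    exact (ValuationSubring.mem_nonunits_iff A).2 hxf
  -- factor `x ^ n - 1`
  have hn0 : ((n : ℕ) : Qb) ≠ 0 := Nat.cast_ne_zero.2 hnpos.ne'
  have hNZ : NeZero ((n : ℕ) : Qb) := ⟨hn0⟩
  obtain ⟨ζ, hζ⟩ := HasEnoughRootsOfUnity.exists_primitiveRoot Qb n
  have hprod : x ^ n - 1 = ∏ μ ∈ nthRootsFinset n (1 : Qb), (x - μ) := by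
    have h1 := hζ.pow_sub_pow_eq_prod_sub_mul x 1 hnpos
    simpa using h1
  have hex : ∃ μ ∈ nthRootsFinset n (1 : Qb), x - μ ∈ A.nonunits := by
    by_contra hcon
    push Not at hcon
    have hall : ∀ μ ∈ nthRootsFinset n (1 : Qb), A.valuation (x - μ) = 1 := by
      intro μ hμ
      have hμn : μ ^ n = 1 := (mem_nthRootsFinset hnpos 1).1 hμ
      have hμP : μ ∈ A := pow_eq_one_mem A hnpos.ne' hμn
      have h1 := hcon μ hμ
      rw [ValuationSubring.mem_nonunits_iff, not_lt] at h1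
      exact le_antisymm ((A.valuation_le_one_iff _).2 (sub_mem hx hμP)) h1
    have h2 : A.valuation (x ^ n - 1) = 1 := by
      rw [hprod, map_prod]
      exact Finset.prod_eq_one hall
    rw [ValuationSubring.mem_nonunits_iff, h2] at hxn
    exact lt_irrefl _ hxn
  obtain ⟨μ, hμ, hxμ⟩ := hex
  have hμn : μ ^ n = 1 := (mem_nthRootsFinset hnpos 1).1 hμ
  refine ⟨μ, pow_eq_one_mem A hnpos.ne' hμn,
    fun σ hσ => root_fixed_of_inertia hq hA hnp hμn hσ, hxμ, ?_⟩
  rw [hqfn, pow_succ, hμn, one_mul]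

/-- the `q`-th power of a Teichmüller lift is a Teichmüller lift of the `q`-th power. -/
theorem wps_teich_pow {x a : Qb} (hx : x ∈ A) (ha : a ∈ A)
    (hfix : ∀ σ ∈ A.inertiaSubgroupIn ℚ, σ a = a) (hxa : x - a ∈ A.nonunits) {f : ℕ}
    (haf : a ^ (q ^ f) = a) (m : ℕ) :
    a ^ m ∈ A ∧ (∀ σ ∈ A.inertiaSubgroupIn ℚ, σ (a ^ m) = a ^ m) ∧
      x ^ m - a ^ m ∈ A.nonunits ∧ (a ^ m) ^ (q ^ f) = a ^ m := by
  refine ⟨pow_mem ha m, fun σ hσ => by rw [map_pow, hfix σ hσ],
    pow_sub_pow_mem_nonunits hx ha hxa m, ?_⟩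
  rw [← pow_mul, mul_comm, pow_mul, haf]

section ValSetup

variable {F k Fk : Type*} [Field F] [Algebra Qb F] [Field k] [Field Fk] [Algebra k Fk]

/-- an element of `S.A` with residue `0` is a non-unit. -/
theorem wps_mem_nonunits_of_res (S : ValSetup Qb F k Fk) {a : Qb} (ha : a ∈ S.A)
    (h : S.res ⟨a, ha⟩ = 0) : a ∈ S.A.nonunits := by
  rw [ValuationSubring.mem_nonunits_iff_or]
  by_cases ha0 : a = 0
  · exact Or.inl ha0
  · right
    intro hinv
    have h1 : S.res ⟨a, ha⟩ * S.res ⟨a⁻¹, hinv⟩ = 1 := by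
      rw [← map_mul]
      have e : (⟨a, ha⟩ : S.A) * ⟨a⁻¹, hinv⟩ = 1 := Subtype.ext (mul_inv_cancel₀ ha0)
      rw [e, map_one]
    rw [h, zero_mul] at h1
    exact zero_ne_one h1

/-- the residue of a non-unit vanishes. -/
theorem wps_res_of_mem_nonunits (S : ValSetup Qb F k Fk) {a : Qb} (ha : a ∈ S.A)
    (h : a ∈ S.A.nonunits) : S.res ⟨a, ha⟩ = 0 := by
  rw [ValuationSubring.mem_nonunits_iff_or] at h
  rcases h with h0 | h0
  · have e : (⟨a, ha⟩ : S.A) = 0 := Subtype.ext h0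
    rw [e, map_zero]
  · obtain ⟨h', h1⟩ := S.res_inv_eq_zero h0
    have e : (⟨(a⁻¹)⁻¹, h'⟩ : S.A) = ⟨a, ha⟩ := Subtype.ext (inv_inv a)
    rw [← e]
    exact h1

/-- **Teichmüller lifts for a constant reduction**: `c ∈ k` with `c ^ (q ^ f) = c` has a lift
`a ∈ S.A` with `a ^ (q ^ f) = a`, fixed by the inertia group. -/
theorem wps_teich_res (S : ValSetup Qb F k Fk) (hq : q.Prime) (hA : S.A.LiesOverPrime q)
    {c : k} {f : ℕ} (hf : 0 < f) (hc : c ^ (q ^ f) = c) :
    ∃ (a : Qb) (ha : a ∈ S.A), S.res ⟨a, ha⟩ = c ∧ a ^ (q ^ f) = a ∧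
      ∀ σ ∈ S.A.inertiaSubgroupIn ℚ, σ a = a := by
  obtain ⟨x, hx⟩ := S.res_surj c
  have hxf : (x : Qb) ^ (q ^ f) - x ∈ S.A.nonunits := by
    have hmem : (x : Qb) ^ (q ^ f) - x ∈ S.A := sub_mem (pow_mem x.2 _) x.2
    apply wps_mem_nonunits_of_res S hmem
    have e : (⟨(x : Qb) ^ (q ^ f) - x, hmem⟩ : S.A) = x ^ (q ^ f) - x := Subtype.ext (by simp)
    rw [e, map_sub, map_pow, hx, hc, sub_self]
  obtain ⟨a, ha, hfix, hxa, haf⟩ := wps_teich hq hA x.2 hf hxf
  refine ⟨a, ha, ?_, haf, hfix⟩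
  have hsub : (x : Qb) - a ∈ S.A := sub_mem x.2 ha
  have h0 := wps_res_of_mem_nonunits S hsub hxa
  have e : (⟨(x : Qb) - a, hsub⟩ : S.A) = x - ⟨a, ha⟩ := Subtype.ext (by simp)
  rw [e, map_sub, hx, sub_eq_zero] at h0
  exact h0.symm

/-- every `c ∈ k` has a Teichmüller lift (for some period `f > 0`). -/
theorem wps_teich_exists (S : ValSetup Qb F k Fk) (hq : q.Prime) (hA : S.A.LiesOverPrime q)
    (c : k) :
    ∃ (f : ℕ) (a : Qb) (ha : a ∈ S.A), 0 < f ∧ S.res ⟨a, ha⟩ = c ∧ a ^ (q ^ f) = a ∧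
      ∀ σ ∈ S.A.inertiaSubgroupIn ℚ, σ a = a := by
  obtain ⟨x, hx⟩ := S.res_surj c
  obtain ⟨f, hf, hxf⟩ := exists_pow_sub_mem hq hA x.2
  obtain ⟨a, ha, hfix, hxa, haf⟩ := wps_teich hq hA x.2 hf hxf
  refine ⟨f, a, ha, hf, ?_, haf, hfix⟩
  have hsub : (x : Qb) - a ∈ S.A := sub_mem x.2 ha
  have h0 := wps_res_of_mem_nonunits S hsub hxa
  have e : (⟨(x : Qb) - a, hsub⟩ : S.A) = x - ⟨a, ha⟩ := Subtype.ext (by simp)
  rw [e, map_sub, hx, sub_eq_zero] at h0
  exact h0.symm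

end ValSetup

end Fermat.Agent.S36G
end
end MergeWrap_S36_HPVal_Teich

section MergeWrap_S36_HPVal_InertMod -- from S36/HPVal/InertMod.lean

set_option autoImplicit false
set_option linter.style.haveILetI false
set_option linter.unusedSectionVars false
set_option linter.unusedVariables false

/-!
# S36 (cluster G), W-P seat INERT-MOD: the inertia group at a supersingular vertex  (helper71)

`M` a level, `S : ValSetup ℚ̄ (FBar M) k Fk` a constant reduction of `X₀(M)` over the place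
`A = S.A` of `ℚ̄` over `q`, `H : HPCurve k Fk q` the curve `H_P` on the residue field.  The inertia
group `I_A = A.inertiaSubgroupIn ℚ` acts on `FBar M` coefficientwise (`galFun M τ`).

* `wpmInertia M A` : the image of `I_A` in `SemilinearAut ℚ̄ (FBar M)`.
* `wpm_inertial` : every `t ∈ wpmInertia M S.A` is inertial for `S` (`WpiInertial`): GENERIC.
* `wpm_tame` : the tame character `t ↦ t ϖ / ϖ` (`ϖ ^ (q + 1) = q`) maps `wpmInertia M A` ONTO
  `μ_{q+1}`: GENERIC (from `inert_exists_tame`).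
* `wpm_stable_of_le`, `wpm_stable_of_unique` : stability (`WpiStable`) from `τ Ov ⊆ Ov` for all
  `τ ∈ I_A`, resp. from a UNIQUENESS statement for the valuation ring `S.Ov`.
* `wpm_hinv` : **the hypothesis `hinv` of Step 2** at the vertex `w_P` for a Kummer generator `g`
  whose class is fixed by inertia (`InertiaFixedFun`).
-/

noncomputable section
attribute [local instance 10000] SubalgebraClass.toAlgebra HahnSeries.powerSeriesAlgebra

namespace Fermat.Agent.S36G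

open ModularCurve AlgebraicCurve Fermat.Agent.F3 Fermat.Agent.F3G Fermat.Agent.Deuring
  Fermat.Agent.HP

local notation "Qb" => AlgebraicClosure ℚ

variable {M : ℕ} {k Fk : Type*} [Field k] [Field Fk] [Algebra k Fk]

/-- the image of the inertia group of `A` in the semilinear automorphisms of `FBar M`. -/
def wpmInertia (M : ℕ) (A : ValuationSubring Qb) : Set (SemilinearAut Qb (FBar M)) :=
  {t | ∃ τ ∈ A.inertiaSubgroupIn ℚ, t = arithmeticGalois (modularFunctionFieldFull M) τ}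

theorem wpm_mem_inertia {A : ValuationSubring Qb} {τ : Qb ≃ₐ[ℚ] Qb}
    (hτ : τ ∈ A.inertiaSubgroupIn ℚ) :
    arithmeticGalois (modularFunctionFieldFull M) τ ∈ wpmInertia M A :=
  ⟨τ, hτ, rfl⟩

theorem wpm_smul_eq_galFun (τ : Qb ≃ₐ[ℚ] Qb) (f : FBar M) :
    arithmeticGalois (modularFunctionFieldFull M) τ • f = galFun M τ f :=
  rfl

theorem wpm_baseAut (τ : Qb ≃ₐ[ℚ] Qb) (a : Qb) :
    SemilinearAut.baseAut (arithmeticGalois (modularFunctionFieldFull M) τ) a = τ a := by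
  rw [baseAut_arithmeticGalois]
  rfl

/-- **inertial**: the inertia group preserves `A` and acts trivially on the residue field. -/
theorem wpm_inertial (S : ValSetup Qb (FBar M) k Fk) {τ : Qb ≃ₐ[ℚ] Qb}
    (hτ : τ ∈ S.A.inertiaSubgroupIn ℚ) :
    WpiInertial S (arithmeticGalois (modularFunctionFieldFull M) τ) := by
  intro a ha
  have h1 : τ a - a ∈ S.A.nonunits := Fermat.Agent.Cyclo.inertia_sub_mem_nonunits S.A hτ ha
  have h2 : τ a - a ∈ S.A := S.A.nonunits_le h1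
  have h3 : τ a ∈ S.A := by
    have e : τ a = (τ a - a) + a := by ring
    rw [e]
    exact S.A.add_mem _ _ h2 ha
  have hb : SemilinearAut.baseAut (arithmeticGalois (modularFunctionFieldFull M) τ) a = τ a :=
    wpm_baseAut τ a
  have h3' : SemilinearAut.baseAut (arithmeticGalois (modularFunctionFieldFull M) τ) a ∈ S.A := by
    rw [hb]
    exact h3
  refine ⟨h3', ?_⟩
  have h4 : S.res ⟨τ a - a, h2⟩ = 0 := wps_res_of_mem_nonunits S h2 h1
  have e : (⟨τ a - a, h2⟩ : S.A) = ⟨τ a, h3⟩ - ⟨a, ha⟩ := Subtype.ext rfl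
  rw [e, map_sub, sub_eq_zero] at h4
  have e' : (⟨SemilinearAut.baseAut (arithmeticGalois (modularFunctionFieldFull M) τ) a, h3'⟩ :
      S.A) = ⟨τ a, h3⟩ := Subtype.ext hb
  rw [e', h4]

theorem wpm_inertial_of_mem (S : ValSetup Qb (FBar M) k Fk) :
    ∀ t ∈ wpmInertia M S.A, WpiInertial S t := by
  rintro t ⟨τ, hτ, rfl⟩
  exact wpm_inertial S hτ

/-- **the tame character is onto** `μ_n` (`ϖ ^ n = q`, `q ∤ n`). -/
theorem wpm_tame {q : ℕ} (hq : q.Prime) (A : ValuationSubring Qb) (hA : A.LiesOverPrime q)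
    {n : ℕ} (hn : ¬ q ∣ n) {ϖ : Qb} (hϖ : ϖ ^ n = (q : Qb)) :
    ∀ ζ : Qb, ζ ^ n = 1 → ∃ t ∈ wpmInertia M A, SemilinearAut.baseAut t ϖ = ζ * ϖ := by
  intro ζ hζ
  haveI : Fact q.Prime := ⟨hq⟩
  obtain ⟨σ, hσ, hσϖ⟩ := inert_exists_tame q A hA hn hϖ hζ
  exact ⟨_, wpm_mem_inertia hσ, (wpm_baseAut σ ϖ).trans hσϖ⟩

/-- `q ∤ q + 1`. -/
theorem wpm_not_dvd_succ {q : ℕ} (hq : q.Prime) : ¬ q ∣ q + 1 := by
  intro h
  have h1 : q ∣ 1 := (Nat.dvd_add_right (dvd_refl q)).mp h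
  exact hq.one_lt.ne' (Nat.dvd_one.mp h1)

/-- **stability** from `τ Ov ⊆ Ov` for all `τ` in the inertia group. -/
theorem wpm_stable_of_le (S : ValSetup Qb (FBar M) k Fk)
    (hle : ∀ τ ∈ S.A.inertiaSubgroupIn ℚ, ∀ f ∈ S.Ov, galFun M τ f ∈ S.Ov) :
    ∀ t ∈ wpmInertia M S.A, WpiStable S t := by
  rintro t ⟨τ, hτ, rfl⟩
  refine WpiStable.of_le (fun f hf => hle τ hτ f hf) (fun f hf => ?_)
  have h := hle τ⁻¹ ((S.A.inertiaSubgroupIn ℚ).inv_mem hτ) f hf
  have e : (arithmeticGalois (modularFunctionFieldFull M) τ)⁻¹ • f = galFun M τ⁻¹ f := by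
    rw [← map_inv]
  rw [e]
  exact h

/-- **stability** from a UNIQUENESS statement: if `S.Ov` is the only valuation ring of `FBar M`
with the property `C`, and the transforms of `S.Ov` under the inertia group have the property
`C`, then the inertia group preserves `S.Ov`. -/
theorem wpm_stable_of_unique (S : ValSetup Qb (FBar M) k Fk)
    (C : ValuationSubring (FBar M) → Prop)
    (huniq : ∀ O' : ValuationSubring (FBar M), C O' → O' = S.Ov)
    (hC : ∀ τ ∈ S.A.inertiaSubgroupIn ℚ, ∀ O' : ValuationSubring (FBar M),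
      (∀ f : FBar M, f ∈ O' ↔ galFun M τ f ∈ S.Ov) → C O') :
    ∀ t ∈ wpmInertia M S.A, WpiStable S t := by
  rintro t ⟨τ, hτ, rfl⟩
  intro f
  let φ : FBar M →+* FBar M :=
    (SemilinearAut.toRingAut (arithmeticGalois (modularFunctionFieldFull M) τ) :
      FBar M ≃+* FBar M).toRingHom
  have hφ : ∀ f : FBar M, φ f = galFun M τ f := fun f => rfl
  have h1 : ∀ f : FBar M, f ∈ S.Ov.comap φ ↔ galFun M τ f ∈ S.Ov := fun f => by
    rw [ValuationSubring.mem_comap, hφ]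
  have h2 : S.Ov.comap φ = S.Ov := huniq _ (hC τ hτ _ h1)
  rw [wpm_smul_eq_galFun, ← h1 f, h2]

section Hinv

variable [IsAlgClosed k] {q : ℕ} {S : ValSetup Qb (FBar M) k Fk} (H : HPCurve k Fk q)
  (hq1 : ((q + 1 : ℕ) : k) ≠ 0)

include hq1 in
/-- **the hypothesis `hinv` of Step 2 at the vertex `w_P`** (`HPCurve.pow_eq_of_inv`,
`HPCurve.pow_eq_of_norms`), for a function `g = c f` (`f` a unit of `w_P`) whose class modulo
constants and `n`-th powers is fixed by the inertia group of `A = S.A`.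

Inputs from W-P (`VAL`): `ϖ ^ (q + 1) = q`; `x₀, x₂` fixed by inertia with `W = x₀ / ϖ`,
`Z = x₂ / ϖ` integral and reducing to the coordinates `X₁, X₂` of `H_P`; stability `hst`. -/
theorem wpm_hinv (hq : q.Prime) (hA : S.A.LiesOverPrime q)
    (hst : ∀ t ∈ wpmInertia M S.A, WpiStable S t)
    {x0 x2 : FBar M} {ϖ : Qb} (hϖ : ϖ ^ (q + 1) = (q : Qb))
    (hW : x0 / algebraMap Qb (FBar M) ϖ ∈ S.Ov) (hZ : x2 / algebraMap Qb (FBar M) ϖ ∈ S.Ov)
    (hX1 : S.red (x0 / algebraMap Qb (FBar M) ϖ) = H.X1)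
    (hX2 : S.red (x2 / algebraMap Qb (FBar M) ϖ) = H.X2)
    (hx0 : ∀ τ ∈ S.A.inertiaSubgroupIn ℚ, galFun M τ x0 = x0)
    (hx2 : ∀ τ ∈ S.A.inertiaSubgroupIn ℚ, galFun M τ x2 = x2)
    (n : ℕ) {g : FBar M} (hg : g ≠ 0)
    (hfix : ∀ τ ∈ S.A.inertiaSubgroupIn ℚ, ∃ (u : FBar M) (a : Qb),
      galFun M τ g = algebraMap Qb (FBar M) a * u ^ n * g)
    {f : FBar M} (hf : f ∈ S.Ov) (hf' : f⁻¹ ∈ S.Ov) {c : Qb}
    (hfg : g = algebraMap Qb (FBar M) c * f) :
    ∀ σ ∈ H.galK, ∃ (b : k) (v : Fk), σ (S.red f) = algebraMap k Fk b * v ^ n * S.red f := by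
  refine wpi_hinv_of_tame H hq1 (wpmInertia M S.A) hst (wpm_inertial_of_mem S) hW hZ hX1 hX2
    ?_ ?_ (wpm_tame hq S.A hA (wpm_not_dvd_succ hq) hϖ) n hg ?_ hf hf' hfg
  · rintro t ⟨τ, hτ, rfl⟩
    exact hx0 τ hτ
  · rintro t ⟨τ, hτ, rfl⟩
    exact hx2 τ hτ
  · rintro t ⟨τ, hτ, rfl⟩
    exact hfix τ hτ

include hq1 in
/-- `wpm_hinv` with the hypothesis in the form `InertiaFixedFun` of `S36/G/Defs.lean`. -/
theorem wpm_hinv_of_fixedFun [NeZero M] (hq : q.Prime) (hA : S.A.LiesOverPrime q)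
    (hst : ∀ t ∈ wpmInertia M S.A, WpiStable S t)
    {x0 x2 : FBar M} {ϖ : Qb} (hϖ : ϖ ^ (q + 1) = (q : Qb))
    (hW : x0 / algebraMap Qb (FBar M) ϖ ∈ S.Ov) (hZ : x2 / algebraMap Qb (FBar M) ϖ ∈ S.Ov)
    (hX1 : S.red (x0 / algebraMap Qb (FBar M) ϖ) = H.X1)
    (hX2 : S.red (x2 / algebraMap Qb (FBar M) ϖ) = H.X2)
    (hx0 : ∀ τ ∈ S.A.inertiaSubgroupIn ℚ, galFun M τ x0 = x0)
    (hx2 : ∀ τ ∈ S.A.inertiaSubgroupIn ℚ, galFun M τ x2 = x2)
    (n : ℕ) {g : FBar M} (hg : g ≠ 0) (hfix : InertiaFixedFun M S.A n g)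
    {f : FBar M} (hf : f ∈ S.Ov) (hf' : f⁻¹ ∈ S.Ov) {c : Qb}
    (hfg : g = algebraMap Qb (FBar M) c * f) :
    ∀ σ ∈ H.galK, ∃ (b : k) (v : Fk), σ (S.red f) = algebraMap k Fk b * v ^ n * S.red f :=
  wpm_hinv H hq1 hq hA hst hϖ hW hZ hX1 hX2 hx0 hx2 n hg
    (fun τ hτ => by
      obtain ⟨u, a, -, h⟩ := hfix τ hτ
      exact ⟨u, a, h⟩) hf hf' hfg

end Hinv

end Fermat.Agent.S36G
end
end MergeWrap_S36_HPVal_InertMod

section MergeWrap_S36_HPVal_InertGauss -- from S36/HPVal/InertGauss.lean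

set_option autoImplicit false
set_option linter.style.haveILetI false
set_option linter.unusedSectionVars false
set_option linter.unusedVariables false
set_option synthInstance.maxHeartbeats 400000

/-!
# S36 (cluster G), W-P seat INERT-MOD, part 2: the inertia group and the Gauss reduction of
`F_{M₀}`; STABILITY of `w_P`  (helper71)

`S0` the Gauss reduction package of `F_{M₀}` at `A ∣ q` (`IsGaussRed M₀ A S0`), `τ ∈ I_A`.

* `wpm_galFun_mem_Ov`, `wpm_red_galFun`, `wpm_triv_of_gaussRed` : `τ` preserves the Gauss ring and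
  acts trivially on the reductions;
* `wpm_lattice_of_gaussRed` : the lattice property of `S0` (`q ∤ M₀`);
* `wpm_r_galPlace` : **`r (τ x) = r x`**; `wpm_galFun_mem_discRing` : `τ (R_P) ⊆ R_P`;
* `wpm_galFun_iota0/1/2` : `τ` commutes with the three old copies of `F_{M₀}` in `F_{M₀ q²}`;
* `wpm_mem_iff_comap`, `wpm_centred_comap` : the transform `τ⁻¹ (O_w)` lies over `A` and is centred
  at `P'` along `ι₁`;
* `wpm_stable_of_generic` : **stability of `w_P`** (`WpiStable`) from `WPOut.uniq`, given that `Y` is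
  generic for the transforms (seat `InertGen.lean`, helper50).
-/

noncomputable section
attribute [local instance 10000] SubalgebraClass.toAlgebra HahnSeries.powerSeriesAlgebra

namespace Fermat.Agent.S36G

open ModularCurve AlgebraicCurve Fermat.Agent.F3 Fermat.Agent.F3G Fermat.Agent.GaussInt
  Fermat.Agent.Deuring Fermat.Agent.BadRed Fermat.Agent.HPVal Fermat.Agent.HP Fermat.Agent.RR

local notation "Qb" => AlgebraicClosure ℚ

section GaussRed

variable {M₀ : ℕ} [NeZero M₀] {A : ValuationSubring Qb}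
  {S0 : Fermat.Agent.S18Key.RedSetup Qb (FBar M₀) (IsLocalRing.ResidueField A)
    ↥(modularFunctionFieldFullC (IsLocalRing.ResidueField A) M₀)}

theorem wpm_coeffMap_stab (τ : Qb ≃ₐ[ℚ] Qb) :
    ∀ y ∈ modularFunctionFieldBar M₀,
      coeffMap ((τ : Qb ≃ₐ[ℚ] Qb) : Qb →+* Qb) y ∈ modularFunctionFieldBar M₀ :=
  fun y hy => coeffMap_mem_laurentBaseChange τ hy

/-- the inertia group preserves the Gauss ring. -/
theorem wpm_galFun_mem_Ov (hS0 : IsGaussRed M₀ A S0) {τ : Qb ≃ₐ[ℚ] Qb}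
    (hτ : τ ∈ A.inertiaSubgroupIn ℚ) {f : FBar M₀} (hf : f ∈ S0.Ov) :
    galFun M₀ τ f ∈ S0.Ov := by
  rw [hS0.mem_iff] at hf ⊢
  have e : ((galFun M₀ τ f : FBar M₀) : LaurentSeries Qb) =
      coeffMap ((τ : Qb ≃ₐ[ℚ] Qb) : Qb →+* Qb) (f : LaurentSeries Qb) :=
    coe_arithmeticGalois_smul _ τ f
  rw [e]
  exact coeffMap_mem_gaussSub_of_inertia τ hτ (wpm_coeffMap_stab τ) hf

/-- the inertia group acts trivially on the Gauss reductions. -/
theorem wpm_red_galFun (hS0 : IsGaussRed M₀ A S0) {τ : Qb ≃ₐ[ℚ] Qb}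
    (hτ : τ ∈ A.inertiaSubgroupIn ℚ) {f : FBar M₀} (hf : f ∈ S0.Ov) :
    S0.red (galFun M₀ τ f) = S0.red f := by
  apply Subtype.ext
  have e : ((galFun M₀ τ f : FBar M₀) : LaurentSeries Qb) =
      coeffMap ((τ : Qb ≃ₐ[ℚ] Qb) : Qb →+* Qb) (f : LaurentSeries Qb) :=
    coe_arithmeticGalois_smul _ τ f
  rw [hS0.coe_red _ (wpm_galFun_mem_Ov hS0 hτ hf), hS0.coe_red _ hf, e]
  exact gaussResFun_inertia τ hτ (wpm_coeffMap_stab τ) ((hS0.mem_iff f).mp hf)

/-- the inertia group is trivial on the Gauss reduction package. -/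
theorem wpm_triv_of_gaussRed (hS0 : IsGaussRed M₀ A S0) {τ : Qb ≃ₐ[ℚ] Qb}
    (hτ : τ ∈ A.inertiaSubgroupIn ℚ) :
    WpmTriv S0 (arithmeticGalois (modularFunctionFieldFull M₀) τ) where
  mem := fun f hf => wpm_galFun_mem_Ov hS0 hτ hf
  mem_inv := fun f hf => by
    rw [← map_inv]
    exact wpm_galFun_mem_Ov hS0 ((A.inertiaSubgroupIn ℚ).inv_mem hτ) hf
  red := fun f hf => wpm_red_galFun hS0 hτ hf

/-- the lattice property of the Gauss reduction package (`q ∤ M₀`). -/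
theorem wpm_lattice_of_gaussRed {q : ℕ} (hq : q.Prime) (hA : A.LiesOverPrime q)
    (hqM : ¬ q ∣ M₀) (hS0 : IsGaussRed M₀ A S0) : WpmLattice S0 := by
  intro W hW
  obtain ⟨n, w, hwW, hwO, hspan, hli⟩ := hasLattice_modularValSetup A q M₀ hq hA hqM W hW
  have hmem : ∀ i, w i ∈ S0.Ov := fun i =>
    (hS0.mem_iff _).mpr ((mem_modularValSetup_Ov_iff A q M₀ hq hA hqM (w i)).mp (hwO i))
  refine ⟨n, w, hwW, hmem, hspan, ?_⟩
  have e : (fun i => S0.red (w i)) =
      fun i => (modularValSetup A q M₀ hq hA hqM).red (w i) := by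
    funext i
    apply Subtype.ext
    rw [hS0.coe_red _ (hmem i), coe_modularValSetup_red A q M₀ hq hA hqM
      ((mem_modularValSetup_Ov_iff A q M₀ hq hA hqM (w i)).mp (hwO i))]
  rw [e]
  exact hli

/-- the Riemann–Roch package of the special fibre. -/
theorem wpm_hFk (A : ValuationSubring Qb) (M₀ : ℕ) [NeZero M₀] :
    IsRRField (IsLocalRing.ResidueField A)
      ↥(modularFunctionFieldFullC (IsLocalRing.ResidueField A) M₀) :=
  haveI := isAlgClosed_residue A
  Fermat.Agent.RRMod.isRRField_fullC' (IsLocalRing.ResidueField A) M₀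

/-- **the inertia group preserves the residue discs**: `r (τ x) = r x`. -/
theorem wpm_r_galPlace {q : ℕ} (hq : q.Prime) (hA : A.LiesOverPrime q) (hqM : ¬ q ∣ M₀)
    (hS0 : IsGaussRed M₀ A S0) {τ : Qb ≃ₐ[ℚ] Qb} (hτ : τ ∈ A.inertiaSubgroupIn ℚ)
    (x : Place Qb (FBar M₀)) :
    S0.r (arithmeticGalois (modularFunctionFieldFull M₀) τ • x) = S0.r x :=
  wpm_r_smul (wpm_hFk A M₀) (wpm_lattice_of_gaussRed hq hA hqM hS0)
    (wpm_triv_of_gaussRed hS0 hτ) x

/-- **the inertia group preserves `R_P`**. -/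
theorem wpm_galFun_mem_discRing {q : ℕ} (hq : q.Prime) (hA : A.LiesOverPrime q)
    (hqM : ¬ q ∣ M₀) (hS0 : IsGaussRed M₀ A S0) {τ : Qb ≃ₐ[ℚ] Qb}
    (hτ : τ ∈ A.inertiaSubgroupIn ℚ)
    {P : Place (IsLocalRing.ResidueField A)
      ↥(modularFunctionFieldFullC (IsLocalRing.ResidueField A) M₀)}
    {g : FBar M₀} (hg : g ∈ discRing S0 P) : galFun M₀ τ g ∈ discRing S0 P :=
  wpm_smul_mem_discRing (wpm_hFk A M₀) (wpm_lattice_of_gaussRed hq hA hqM hS0)
    (wpm_triv_of_gaussRed hS0 hτ) hg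

end GaussRed

section Iota

variable (M₀ q : ℕ) [NeZero M₀] [NeZero q]

theorem wpm_galFun_alpha (N ℓ : ℕ) [NeZero N] [NeZero ℓ] (τ : Qb ≃ₐ[ℚ] Qb) (g : FBar N) :
    galFun (N * ℓ) τ (heckeAlphaBar Qb N ℓ g) = heckeAlphaBar Qb N ℓ (galFun N τ g) :=
  intertwines_heckeAlphaBar (L := Qb) (N := N) (ℓ := ℓ) τ g

theorem wpm_galFun_beta (N ℓ : ℕ) [NeZero N] [NeZero ℓ] (τ : Qb ≃ₐ[ℚ] Qb) (g : FBar N) :
    galFun (N * ℓ) τ (heckeBetaBar Qb N ℓ g) = heckeBetaBar Qb N ℓ (galFun N τ g) :=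
  intertwines_heckeBetaBar (L := Qb) (N := N) (ℓ := ℓ) τ g

theorem wpm_galFun_iota0 (τ : Qb ≃ₐ[ℚ] Qb) (g : FBar M₀) :
    galFun (M₀ * q * q) τ (wpIota0 M₀ q g) = wpIota0 M₀ q (galFun M₀ τ g) := by
  rw [wpIota0, AlgHom.comp_apply, AlgHom.comp_apply, wpm_galFun_alpha, wpm_galFun_alpha]

theorem wpm_galFun_iota1 (τ : Qb ≃ₐ[ℚ] Qb) (g : FBar M₀) :
    galFun (M₀ * q * q) τ (wpdIota1 M₀ q g) = wpdIota1 M₀ q (galFun M₀ τ g) := by
  rw [wpdIota1, AlgHom.comp_apply, AlgHom.comp_apply, wpm_galFun_alpha, wpm_galFun_beta]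

theorem wpm_galFun_iota2 (τ : Qb ≃ₐ[ℚ] Qb) (g : FBar M₀) :
    galFun (M₀ * q * q) τ (wpIota2 M₀ q g) = wpIota2 M₀ q (galFun M₀ τ g) := by
  rw [wpIota2, AlgHom.comp_apply, AlgHom.comp_apply, wpm_galFun_beta, wpm_galFun_beta]

end Iota

section Out

variable {M₀ q : ℕ} [NeZero M₀] [NeZero q] {A : ValuationSubring Qb}
  {S0 : Fermat.Agent.S18Key.RedSetup Qb (FBar M₀) (IsLocalRing.ResidueField A)
    ↥(modularFunctionFieldFullC (IsLocalRing.ResidueField A) M₀)}
  {P : Place (IsLocalRing.ResidueField A)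
    ↥(modularFunctionFieldFullC (IsLocalRing.ResidueField A) M₀)}
  {FkP : Type} [Field FkP] [Algebra (IsLocalRing.ResidueField A) FkP]
  (O : WPOut M₀ q A S0 P FkP)

/-- the transform of `O_w` under the inertia group lies over `A`. -/
theorem wpm_mem_iff_comap {τ : Qb ≃ₐ[ℚ] Qb} (hτ : τ ∈ A.inertiaSubgroupIn ℚ)
    {O' : ValuationSubring (FBar (M₀ * q * q))}
    (hO' : ∀ f, f ∈ O' ↔ galFun (M₀ * q * q) τ f ∈ O.S.Ov) (c : Qb) :
    algebraMap Qb (FBar (M₀ * q * q)) c ∈ O' ↔ c ∈ A := by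
  have e : galFun (M₀ * q * q) τ (algebraMap Qb (FBar (M₀ * q * q)) c) =
      algebraMap Qb (FBar (M₀ * q * q)) (τ c) :=
    (SemilinearAut.smul_algebraMap _ c).trans (by rw [wpm_baseAut])
  rw [hO', e, O.S.mem_Ov_iff, O.A_eq]
  exact S05H5.inertiaIn_apply_mem_iff A τ hτ

/-- a function of `O_w` with reduction `0` is a non-unit. -/
theorem wpm_mem_nonunits_of_red {K F k Fk : Type*} [Field K] [Field F] [Algebra K F] [Field k]
    [Field Fk] [Algebra k Fk] (S : ValSetup K F k Fk) {f : F} (hf : f ∈ S.Ov)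
    (h : S.red f = 0) : f ∈ S.Ov.nonunits := by
  rw [ValuationSubring.mem_nonunits_iff_or]
  by_cases hf0 : f = 0
  · exact Or.inl hf0
  · exact Or.inr ((S.red_eq_zero_iff hf hf0).mp h)

/-- the transform of `O_w` under the inertia group is centred at `P'` along `ι₁`. -/
theorem wpm_centred_comap (hq : q.Prime) (hA : A.LiesOverPrime q) (hqM : ¬ q ∣ M₀)
    (hS0 : IsGaussRed M₀ A S0) {τ : Qb ≃ₐ[ℚ] Qb} (hτ : τ ∈ A.inertiaSubgroupIn ℚ)
    {O' : ValuationSubring (FBar (M₀ * q * q))}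
    (hO' : ∀ f, f ∈ O' ↔ galFun (M₀ * q * q) τ f ∈ O.S.Ov) :
    WPCentred S0 O.P' (wpdIota1 M₀ q) O' := by
  intro g hg
  have hτg : galFun M₀ τ g ∈ discRing S0 O.P' := wpm_galFun_mem_discRing hq hA hqM hS0 hτ hg
  have hred : S0.red (galFun M₀ τ g) = S0.red g := wpm_red_galFun hS0 hτ hg.1
  obtain ⟨c, hc⟩ := Fermat.Agent.BadRed.Gluing.exists_valAt (wpm_hFk A M₀) O.P'
    (ord_red_nonneg_of_mem hg)
  have hc' : ValAt O.P' (S0.red (galFun M₀ τ g)) c := by rw [hred]; exact hc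
  obtain ⟨h1, h2⟩ := O.old1 _ hτg c hc'
  have hmem : wpdIota1 M₀ q g ∈ O' := by
    rw [hO', wpm_galFun_iota1]
    exact h1
  refine ⟨hmem, fun h0 => ?_⟩
  have h0' : ValAt O.P' (S0.red (galFun M₀ τ g)) 0 := by rw [hred]; exact h0
  obtain ⟨h3, h4⟩ := O.old1 _ hτg 0 h0'
  rw [map_zero] at h4
  have h5 : wpdIota1 M₀ q (galFun M₀ τ g) ∈ O.S.Ov.nonunits := wpm_mem_nonunits_of_red O.S h3 h4
  rw [ValuationSubring.mem_nonunits_iff_or] at h5 ⊢
  rcases h5 with h5 | h5
  · left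
    rw [← wpm_galFun_iota1] at h5
    by_contra hne
    exact galFun_ne_zero τ hne h5
  · right
    intro hinv
    apply h5
    rw [hO', galFun_eq_ringAut, map_inv₀, ← galFun_eq_ringAut, wpm_galFun_iota1] at hinv
    exact hinv

/-- **STABILITY of `w_P` under the inertia group**, from the uniqueness export `WPOut.uniq`,
given that `Y` is generic for the transforms of `O_w`. -/
theorem wpm_stable_of_generic (hq : q.Prime) (hA : A.LiesOverPrime q) (hqM : ¬ q ∣ M₀)
    (hS0 : IsGaussRed M₀ A S0)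
    (hgen : ∀ τ ∈ A.inertiaSubgroupIn ℚ, ∀ O' : ValuationSubring (FBar (M₀ * q * q)),
      (∀ f, f ∈ O' ↔ galFun (M₀ * q * q) τ f ∈ O.S.Ov) →
      WPGeneric A O' (wpY M₀ q O.t O.a O.ϖ)) :
    ∀ t ∈ wpmInertia (M₀ * q * q) O.S.A, WpiStable O.S t := by
  refine wpm_stable_of_unique O.S
    (fun O' => (∀ c : Qb, algebraMap Qb (FBar (M₀ * q * q)) c ∈ O' ↔ c ∈ A) ∧
      WPCentred S0 O.P' (wpdIota1 M₀ q) O' ∧ WPGeneric A O' (wpY M₀ q O.t O.a O.ϖ))
    (fun O' h => O.uniq O' h.1 h.2.1 h.2.2) ?_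
  intro τ hτ O' hO'
  have hτ' : τ ∈ A.inertiaSubgroupIn ℚ := by rw [← O.A_eq]; exact hτ
  exact ⟨wpm_mem_iff_comap O hτ' hO', wpm_centred_comap O hq hA hqM hS0 hτ' hO',
    hgen τ hτ' O' hO'⟩

end Out

end Fermat.Agent.S36G
end
end MergeWrap_S36_HPVal_InertGauss

section MergeWrap_S36_HPVal_InertGen -- from S36/HPVal/InertGen.lean

set_option autoImplicit false
set_option linter.style.haveILetI false
set_option linter.unusedSectionVars false
set_option synthInstance.maxHeartbeats 400000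

noncomputable section

namespace Fermat.Agent.S36G

open ModularCurve AlgebraicCurve IntermediateField Polynomial Fermat.Agent.F3 Fermat.Agent.F3G
  Fermat.Agent.GaussInt Fermat.Agent.Deuring Fermat.Agent.BadRed Fermat.Agent.HPVal Fermat.Agent.HP

local notation "Qb" => AlgebraicClosure ℚ

attribute [local instance 10000] SubalgebraClass.toAlgebra HahnSeries.powerSeriesAlgebra

/-! ### (G1) the Galois action commutes with the old copies -/

section G1

variable (M₀ q : ℕ) [NeZero M₀] [NeZero q]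

/-- the Galois action commutes with `ι₀`. -/
theorem wpg_galFun_iota0 (τ : Qb ≃ₐ[ℚ] Qb) (g : FBar M₀) :
    galFun (M₀ * q * q) τ (wpIota0 M₀ q g) = wpIota0 M₀ q (galFun M₀ τ g) := by
  apply Subtype.ext
  rw [coe_arithmeticGalois_smul, coe_wpIota0, coe_wpIota0, coe_arithmeticGalois_smul]

/-- the Galois action commutes with `ι₁`. -/
theorem wpg_galFun_iota1 (τ : Qb ≃ₐ[ℚ] Qb) (g : FBar M₀) :
    galFun (M₀ * q * q) τ (wpdIota1 M₀ q g) = wpdIota1 M₀ q (galFun M₀ τ g) := by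
  apply Subtype.ext
  rw [coe_arithmeticGalois_smul, coe_wpdIota1, coe_wpdIota1, coe_arithmeticGalois_smul]
  exact coeffMap_qExpand _ q _

/-- the Galois action commutes with `ι₂`. -/
theorem wpg_galFun_iota2 (τ : Qb ≃ₐ[ℚ] Qb) (g : FBar M₀) :
    galFun (M₀ * q * q) τ (wpIota2 M₀ q g) = wpIota2 M₀ q (galFun M₀ τ g) := by
  apply Subtype.ext
  rw [coe_arithmeticGalois_smul, coe_wpIota2, coe_wpIota2, coe_arithmeticGalois_smul,
    coeffMap_qExpand, coeffMap_qExpand]

end G1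

/-! ### (G2) Teichmüller elements are inertia-fixed -/

/-- a Teichmüller element is fixed by the inertia group. -/
theorem wpg_a_fixed {q : ℕ} (hq : q.Prime) {A : ValuationSubring Qb} (hA : A.LiesOverPrime q)
    {a : Qb} (ha : a ^ (q ^ 2) = a) {τ : Qb ≃ₐ[ℚ] Qb} (hτ : τ ∈ A.inertiaSubgroupIn ℚ) :
    τ a = a := by
  by_cases h0 : a = 0
  · rw [h0, map_zero]
  · have hq2 : 1 ≤ q ^ 2 := Nat.one_le_pow _ _ hq.pos
    have h1 : a ^ (q ^ 2 - 1) = 1 := by
      have h2 : a ^ (q ^ 2 - 1) * a = 1 * a := by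
        rw [← pow_succ, Nat.sub_add_cancel hq2, one_mul]
        exact ha
      exact mul_right_cancel₀ h0 h2
    have hn : ¬ q ∣ q ^ 2 - 1 := by
      intro hd
      have h3 : q ∣ q ^ 2 := dvd_pow_self q (by norm_num)
      have h4 : q ∣ q ^ 2 - (q ^ 2 - 1) := Nat.dvd_sub h3 hd
      rw [Nat.sub_sub_self hq2] at h4
      exact hq.one_lt.ne' (Nat.dvd_one.mp h4)
    exact Fermat.Agent.FFL.FB.root_fixed_of_inertia hq hA hn h1 hτ

/-! ### abstract: evaluation of integral polynomials at an integral element -/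

section Abs

variable {K F k Fk : Type*} [Field K] [Field F] [Algebra K F] [Field k] [Field Fk] [Algebra k Fk]
  (S : ValSetup K F k Fk)

/-- evaluation of an `A`-integral polynomial at an integral element is integral, and its residue
is the evaluation of the reduced polynomial at the residue. -/
theorem wpg_eval_red {y : F} (hy : y ∈ S.Ov) (G : (↥S.A)[X]) :
    eval₂ ((algebraMap K F).comp S.A.subtype) y G ∈ S.Ov ∧
      S.red (eval₂ ((algebraMap K F).comp S.A.subtype) y G) =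
        eval₂ ((algebraMap k Fk).comp S.res) (S.red y) G := by
  induction G using Polynomial.induction_on' with
  | add p r hp hr =>
    rw [eval₂_add, eval₂_add]
    exact ⟨add_mem hp.1 hr.1, by rw [S.red_add hp.1 hr.1, hp.2, hr.2]⟩
  | monomial n a =>
    rw [eval₂_monomial, eval₂_monomial]
    have h1 : (algebraMap K F).comp S.A.subtype a ∈ S.Ov := S.algebraMap_mem a.2
    have h2 : y ^ n ∈ S.Ov := pow_mem hy n
    refine ⟨mul_mem h1 h2, ?_⟩
    rw [S.red_mul h1 h2, S.red_pow hy]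
    congr 1
    exact S.red_algebraMap a.2

/-- the residue of a unit of `A` is not zero. -/
theorem wpg_res_ne_zero {c : K} (hc : c ∈ S.A) (hc0 : c ≠ 0) (hinv : c⁻¹ ∈ S.A) :
    S.res ⟨c, hc⟩ ≠ 0 := by
  intro h0
  have h1 : S.red (algebraMap K F c) ≠ 0 := by
    refine S.red_ne_zero (S.algebraMap_mem hc) ?_ ?_
    · rw [← map_inv₀]
      exact S.algebraMap_mem hinv
    · exact (map_ne_zero_iff _ (algebraMap K F).injective).mpr hc0
  rw [S.red_algebraMap hc, h0, map_zero] at h1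
  exact h1 rfl

/-- **genericity from transcendence of the residue**: if `y` is integral with residue
transcendental over `k`, every `A`-integral polynomial with a unit coefficient takes a unit value
at `y`. -/
theorem wpg_generic_abs {y : F} (hy : y ∈ S.Ov) (htr : Transcendental k (S.red y)) :
    WPGeneric S.A S.Ov y := by
  intro G hG hu
  obtain ⟨i₀, hne, hinv⟩ := hu
  have hlift : G ∈ Polynomial.lifts S.A.subtype := by
    rw [Polynomial.lifts_iff_coeff_lifts]
    intro n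
    exact ⟨⟨G.coeff n, hG n⟩, rfl⟩
  obtain ⟨GA, hGA⟩ := (Polynomial.mem_lifts G).mp hlift
  have haev : Polynomial.aeval y G = eval₂ ((algebraMap K F).comp S.A.subtype) y GA := by
    rw [Polynomial.aeval_def, ← hGA, Polynomial.eval₂_map]
  obtain ⟨hmem, hred⟩ := wpg_eval_red S hy GA
  have hcoeff : (GA.coeff i₀ : K) = G.coeff i₀ := by
    rw [← hGA, Polynomial.coeff_map]
    rfl
  have hmap0 : GA.map S.res ≠ 0 := by
    intro h0
    have h1 : (GA.map S.res).coeff i₀ = 0 := by rw [h0, Polynomial.coeff_zero]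
    rw [Polynomial.coeff_map] at h1
    have h2 : S.res ⟨G.coeff i₀, hG i₀⟩ ≠ 0 := wpg_res_ne_zero S (hG i₀) hne hinv
    apply h2
    have h3 : GA.coeff i₀ = ⟨G.coeff i₀, hG i₀⟩ := Subtype.ext hcoeff
    rw [← h3]
    exact h1
  have hne0 : S.red (Polynomial.aeval y G) ≠ 0 := by
    rw [haev, hred, ← Polynomial.eval₂_map, ← Polynomial.aeval_def]
    exact fun h => hmap0 ((transcendental_iff.mp htr) _ h)
  exact ⟨haev ▸ hmem, S.inv_mem_of_red_ne_zero hne0⟩

end Abs

/-! ### (G3), (G4), (G5): the datum of a `WPOut` -/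

section Datum

variable {M₀ q : ℕ} [NeZero M₀] [NeZero q] {A : ValuationSubring Qb}
  {S0 : Fermat.Agent.S18Key.RedSetup Qb (FBar M₀) (IsLocalRing.ResidueField A)
    ↥(modularFunctionFieldFullC (IsLocalRing.ResidueField A) M₀)}
  {P : Place (IsLocalRing.ResidueField A)
    ↥(modularFunctionFieldFullC (IsLocalRing.ResidueField A) M₀)}
  {FkP : Type} [Field FkP] [Algebra (IsLocalRing.ResidueField A) FkP]
  (O : WPOut M₀ q A S0 P FkP)

/-- **(G3)** `x₀ = ι₀ t - a` is fixed by the inertia group. -/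
theorem wpg_x0_fixed (hq : q.Prime) (hA : A.LiesOverPrime q) {τ : Qb ≃ₐ[ℚ] Qb}
    (hτ : τ ∈ A.inertiaSubgroupIn ℚ) :
    galFun (M₀ * q * q) τ (wpIota0 M₀ q O.t - algebraMap Qb (FBar (M₀ * q * q)) O.a) =
      wpIota0 M₀ q O.t - algebraMap Qb (FBar (M₀ * q * q)) O.a := by
  rw [galFun_eq_ringAut, map_sub, ← galFun_eq_ringAut, wpg_galFun_iota0, O.t_rat,
    arithmeticRingAut_algebraMap, wpg_a_fixed hq hA O.a_pow hτ]

/-- **(G3)** `x₂ = ι₂ t - a` is fixed by the inertia group. -/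
theorem wpg_x2_fixed (hq : q.Prime) (hA : A.LiesOverPrime q) {τ : Qb ≃ₐ[ℚ] Qb}
    (hτ : τ ∈ A.inertiaSubgroupIn ℚ) :
    galFun (M₀ * q * q) τ (wpIota2 M₀ q O.t - algebraMap Qb (FBar (M₀ * q * q)) O.a) =
      wpIota2 M₀ q O.t - algebraMap Qb (FBar (M₀ * q * q)) O.a := by
  rw [galFun_eq_ringAut, map_sub, ← galFun_eq_ringAut, wpg_galFun_iota2, O.t_rat,
    arithmeticRingAut_algebraMap, wpg_a_fixed hq hA O.a_pow hτ]

/-- **(G3)** `x₁ = ι₁ t - a ^ q` is fixed by the inertia group. -/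
theorem wpg_x1_fixed (hq : q.Prime) (hA : A.LiesOverPrime q) {τ : Qb ≃ₐ[ℚ] Qb}
    (hτ : τ ∈ A.inertiaSubgroupIn ℚ) :
    galFun (M₀ * q * q) τ (wpdIota1 M₀ q O.t - algebraMap Qb (FBar (M₀ * q * q)) (O.a ^ q)) =
      wpdIota1 M₀ q O.t - algebraMap Qb (FBar (M₀ * q * q)) (O.a ^ q) := by
  rw [galFun_eq_ringAut, map_sub, ← galFun_eq_ringAut, wpg_galFun_iota1, O.t_rat,
    arithmeticRingAut_algebraMap, map_pow, wpg_a_fixed hq hA O.a_pow hτ]

/-- the residue field has characteristic `q`, so `q + 1 ≠ 0` in it. -/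
theorem wpg_hq1 (hq : q.Prime) (hA : A.LiesOverPrime q) :
    ((q + 1 : ℕ) : IsLocalRing.ResidueField A) ≠ 0 := by
  haveI : Fact q.Prime := ⟨hq⟩
  haveI : CharP (IsLocalRing.ResidueField A) q := Fermat.Agent.FrobTrace.charP_residueField A hA
  rw [Nat.cast_add, CharP.cast_eq_zero, zero_add, Nat.cast_one]
  exact one_ne_zero

/-- the residue of `Y` is transcendental over the residue field. -/
theorem wpg_red_Y_transcendental (hq : q.Prime) (hA : A.LiesOverPrime q) :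
    Transcendental (IsLocalRing.ResidueField A) (O.S.red (wpY M₀ q O.t O.a O.ϖ)) := by
  haveI : IsAlgClosed (IsLocalRing.ResidueField A) := Fermat.Agent.GaussInt.isAlgClosed_residue A
  rw [O.red_Y]
  exact O.H.Yf_transcendental (wpg_hq1 hq hA)

/-- **(G4)** `Y` is generic for `O_{w_P}`. -/
theorem wpg_generic (hq : q.Prime) (hA : A.LiesOverPrime q) :
    WPGeneric A O.S.Ov (wpY M₀ q O.t O.a O.ϖ) := by
  have h := wpg_generic_abs O.S O.Y_mem (wpg_red_Y_transcendental O hq hA)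
  intro G hG hu
  exact h G (fun i => by rw [O.A_eq]; exact hG i)
    (by
      obtain ⟨i, h1, h2⟩ := hu
      exact ⟨i, h1, by rw [O.A_eq]; exact h2⟩)

/-- the tame multiplier `u = ϖ ^ q / τ (ϖ ^ q)` of `Y` is a `(q + 1)`-st root of unity. -/
theorem wpg_tame_pow (hq : q.Prime) (τ : Qb ≃ₐ[ℚ] Qb) :
    (O.ϖ ^ q / τ (O.ϖ ^ q)) ^ (q + 1) = 1 := by
  have hq0 : ((q : Qb)) ≠ 0 := Nat.cast_ne_zero.mpr hq.ne_zero
  have h1 : (O.ϖ ^ q) ^ (q + 1) = (q : Qb) ^ q := by
    rw [← pow_mul, mul_comm, pow_mul, O.ϖ_pow]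
  have h2 : (τ (O.ϖ ^ q)) ^ (q + 1) = (q : Qb) ^ q := by
    rw [← map_pow, h1, map_pow, map_natCast]
  rw [div_pow, h1, h2]
  exact div_self (pow_ne_zero q hq0)

/-- the tame multiplier lies in `A`. -/
theorem wpg_tame_mem (hq : q.Prime) (τ : Qb ≃ₐ[ℚ] Qb) : O.ϖ ^ q / τ (O.ϖ ^ q) ∈ A :=
  Fermat.Agent.Cyclo.pow_eq_one_mem A (Nat.succ_ne_zero q) (wpg_tame_pow O hq τ)

/-- the inverse of the tame multiplier lies in `A`. -/
theorem wpg_tame_inv_mem (hq : q.Prime) (τ : Qb ≃ₐ[ℚ] Qb) : (O.ϖ ^ q / τ (O.ϖ ^ q))⁻¹ ∈ A :=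
  Fermat.Agent.Cyclo.pow_eq_one_mem A (Nat.succ_ne_zero q)
    (by rw [inv_pow, wpg_tame_pow O hq τ, inv_one])

/-- `τ Y = u • Y` for an inertia element `τ`, `u` the tame multiplier. -/
theorem wpg_galFun_Y (hq : q.Prime) (hA : A.LiesOverPrime q) {τ : Qb ≃ₐ[ℚ] Qb}
    (hτ : τ ∈ A.inertiaSubgroupIn ℚ) :
    galFun (M₀ * q * q) τ (wpY M₀ q O.t O.a O.ϖ) =
      algebraMap Qb (FBar (M₀ * q * q)) (O.ϖ ^ q / τ (O.ϖ ^ q)) * wpY M₀ q O.t O.a O.ϖ := by
  have hϖ : O.ϖ ^ q ≠ 0 := pow_ne_zero q (O.ϖ_ne hq)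
  have hτϖ : τ (O.ϖ ^ q) ≠ 0 := (map_ne_zero_iff _ τ.injective).mpr hϖ
  have h1 : algebraMap Qb (FBar (M₀ * q * q)) (O.ϖ ^ q) ≠ 0 :=
    (map_ne_zero_iff _ (algebraMap Qb (FBar (M₀ * q * q))).injective).mpr hϖ
  have h2 : algebraMap Qb (FBar (M₀ * q * q)) (τ (O.ϖ ^ q)) ≠ 0 :=
    (map_ne_zero_iff _ (algebraMap Qb (FBar (M₀ * q * q))).injective).mpr hτϖ
  unfold wpY
  rw [galFun_div, wpg_x1_fixed O hq hA hτ, galFun_eq_ringAut, arithmeticRingAut_algebraMap,
    map_div₀]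
  field_simp

/-- the Galois action on a polynomial value: `τ (G (y)) = (τ G) (τ y)`. -/
theorem wpg_galFun_aeval (N : ℕ) (τ : Qb ≃ₐ[ℚ] Qb) (y : FBar N) (G : Polynomial Qb) :
    galFun N τ (Polynomial.aeval y G) =
      Polynomial.aeval (galFun N τ y) (G.map (τ : Qb →+* Qb)) := by
  rw [galFun_eq_ringAut, galFun_eq_ringAut, Polynomial.aeval_def, Polynomial.aeval_def,
    Polynomial.eval₂_map]
  have h := Polynomial.hom_eval₂ G (algebraMap Qb (FBar N))
    ((arithmeticRingAut (modularFunctionFieldFull N) τ : FBar N ≃+* FBar N) : FBar N →+* FBar N) y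
  have hcomp : ((arithmeticRingAut (modularFunctionFieldFull N) τ : FBar N ≃+* FBar N) :
      FBar N →+* FBar N).comp (algebraMap Qb (FBar N)) =
      (algebraMap Qb (FBar N)).comp (τ : Qb →+* Qb) := by
    exact RingHom.ext fun c => arithmeticRingAut_algebraMap (modularFunctionFieldFull N) τ c
  rw [hcomp] at h
  exact h

/-- **(G5)** `Y` is generic for the transform of `O_{w_P}` under an inertia element. -/
theorem wpg_generic_comap (hq : q.Prime) (hA : A.LiesOverPrime q) {τ : Qb ≃ₐ[ℚ] Qb}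
    (hτ : τ ∈ A.inertiaSubgroupIn ℚ) (O' : ValuationSubring (FBar (M₀ * q * q)))
    (hO' : ∀ f, f ∈ O' ↔ galFun (M₀ * q * q) τ f ∈ O.S.Ov) :
    WPGeneric A O' (wpY M₀ q O.t O.a O.ϖ) := by
  intro G hG hu
  obtain ⟨i₀, hne, hinv⟩ := hu
  have hdec : τ ∈ A.decompositionSubgroup ℚ := by
    obtain ⟨τ', _, rfl⟩ := hτ
    exact τ'.2
  set u : Qb := O.ϖ ^ q / τ (O.ϖ ^ q) with hu_def
  have huA : u ∈ A := wpg_tame_mem O hq τ
  have huA' : u⁻¹ ∈ A := wpg_tame_inv_mem O hq τ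
  have hu0 : u ≠ 0 := by
    intro h0
    have h1 := wpg_tame_pow O hq τ
    rw [← hu_def, h0, zero_pow (Nat.succ_ne_zero q)] at h1
    exact zero_ne_one h1
  -- the transformed polynomial
  set G' : Polynomial Qb := (G.map (τ : Qb →+* Qb)).comp (Polynomial.C u * Polynomial.X)
    with hG'
  have hcoeff : ∀ i, G'.coeff i = τ (G.coeff i) * u ^ i := by
    intro i
    rw [hG', Polynomial.comp_C_mul_X_coeff, Polynomial.coeff_map]
    rfl
  have hG'A : ∀ i, G'.coeff i ∈ A := by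
    intro i
    rw [hcoeff]
    exact mul_mem (Fermat.Agent.FFL.FB.mem_of_decomp hdec (hG i)) (pow_mem huA i)
  have hG'u : ∃ i, G'.coeff i ≠ 0 ∧ (G'.coeff i)⁻¹ ∈ A := by
    refine ⟨i₀, ?_, ?_⟩
    · rw [hcoeff]
      exact mul_ne_zero ((map_ne_zero_iff _ τ.injective).mpr hne) (pow_ne_zero _ hu0)
    · rw [hcoeff, mul_inv, ← map_inv₀, ← inv_pow]
      exact mul_mem (Fermat.Agent.FFL.FB.mem_of_decomp hdec hinv) (pow_mem huA' i₀)
  have key : galFun (M₀ * q * q) τ (Polynomial.aeval (wpY M₀ q O.t O.a O.ϖ) G) =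
      Polynomial.aeval (wpY M₀ q O.t O.a O.ϖ) G' := by
    rw [wpg_galFun_aeval, wpg_galFun_Y O hq hA hτ, hG', Polynomial.aeval_comp, map_mul,
      Polynomial.aeval_C, Polynomial.aeval_X]
  obtain ⟨h1, h2⟩ := wpg_generic O hq hA G' hG'A hG'u
  refine ⟨(hO' _).mpr (key ▸ h1), (hO' _).mpr ?_⟩
  rw [galFun_eq_ringAut, map_inv₀, ← galFun_eq_ringAut, key]
  exact h2

end Datum

end Fermat.Agent.S36G
end
end MergeWrap_S36_HPVal_InertGen

section MergeWrap_S36_HPVal_InertFinal -- from S36/HPVal/InertFinal.lean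

set_option autoImplicit false
set_option linter.style.haveILetI false
set_option linter.unusedSectionVars false
set_option linter.unusedVariables false
set_option synthInstance.maxHeartbeats 400000

/-!
# S36 (cluster G), W-P seat INERT-MOD, FINAL: the inertia group at the vertex `w_P`  (helper71)

`O : WPOut M₀ q A S0 P FkP` the output of block W-P at the supersingular place `P`
(`S0` the Gauss reduction package of `F_{M₀}` at `A ∣ q`, `q ∤ M₀`), `τ ∈ I_A`.  UNCONDITIONAL: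

* `wpm_stable_out`  : `galFun τ` preserves the valuation ring of `w_P` (`WpiStable`);
* `wpm_mem_out`, `wpm_mem_out_iff` : the same in terms of `galFun`;
* `wpmEquiv O .. τ hτ : FkP ≃ₐ[k] FkP` : the induced automorphism of the residue field `k(H_P)`,
  `wpm_red_out : red (galFun τ f) = wpmEquiv τ (red f)` (= the fields `mem`, `red` of
  `GraphSetup.Act` / `GraphSeed.IsPermAutW` at the vertex `hor P`);
* `wpmEquiv_X1`, `wpmEquiv_X2` : `wpmEquiv τ` multiplies `X₁`, `X₂` by the residue of `ϖ / τ ϖ`;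
* `wpm_hinv_out`    : **the hypothesis `hinv` of `step2_final`** at the vertex `hor P`.
-/

noncomputable section
attribute [local instance 10000] SubalgebraClass.toAlgebra HahnSeries.powerSeriesAlgebra

namespace Fermat.Agent.S36G

open ModularCurve AlgebraicCurve Fermat.Agent.F3 Fermat.Agent.F3G Fermat.Agent.GaussInt
  Fermat.Agent.Deuring Fermat.Agent.BadRed Fermat.Agent.HPVal Fermat.Agent.HP Fermat.Agent.RR

local notation "Qb" => AlgebraicClosure ℚ

variable {M₀ q : ℕ} [NeZero M₀] [NeZero q] {A : ValuationSubring Qb}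
  {S0 : Fermat.Agent.S18Key.RedSetup Qb (FBar M₀) (IsLocalRing.ResidueField A)
    ↥(modularFunctionFieldFullC (IsLocalRing.ResidueField A) M₀)}
  {P : Place (IsLocalRing.ResidueField A)
    ↥(modularFunctionFieldFullC (IsLocalRing.ResidueField A) M₀)}
  {FkP : Type} [Field FkP] [Algebra (IsLocalRing.ResidueField A) FkP]
  (O : WPOut M₀ q A S0 P FkP)

/-- **STABILITY of `w_P` under the inertia group.** -/
theorem wpm_stable_out (hq : q.Prime) (hA : A.LiesOverPrime q) (hqM : ¬ q ∣ M₀)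
    (hS0 : IsGaussRed M₀ A S0) :
    ∀ t ∈ wpmInertia (M₀ * q * q) O.S.A, WpiStable O.S t :=
  wpm_stable_of_generic O hq hA hqM hS0
    (fun τ hτ O' hO' => wpg_generic_comap O hq hA hτ O' hO')

theorem wpm_mem_inertia_out {τ : Qb ≃ₐ[ℚ] Qb} (hτ : τ ∈ A.inertiaSubgroupIn ℚ) :
    arithmeticGalois (modularFunctionFieldFull (M₀ * q * q)) τ ∈
      wpmInertia (M₀ * q * q) O.S.A :=
  wpm_mem_inertia (by rw [O.A_eq]; exact hτ)

theorem wpm_stable_at (hq : q.Prime) (hA : A.LiesOverPrime q) (hqM : ¬ q ∣ M₀)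
    (hS0 : IsGaussRed M₀ A S0) {τ : Qb ≃ₐ[ℚ] Qb} (hτ : τ ∈ A.inertiaSubgroupIn ℚ) :
    WpiStable O.S (arithmeticGalois (modularFunctionFieldFull (M₀ * q * q)) τ) :=
  wpm_stable_out O hq hA hqM hS0 _ (wpm_mem_inertia_out O hτ)

theorem wpm_inertial_at {τ : Qb ≃ₐ[ℚ] Qb} (hτ : τ ∈ A.inertiaSubgroupIn ℚ) :
    WpiInertial O.S (arithmeticGalois (modularFunctionFieldFull (M₀ * q * q)) τ) :=
  wpm_inertial_of_mem O.S _ (wpm_mem_inertia_out O hτ)

/-- the inertia group preserves the valuation ring of `w_P`. -/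
theorem wpm_mem_out_iff (hq : q.Prime) (hA : A.LiesOverPrime q) (hqM : ¬ q ∣ M₀)
    (hS0 : IsGaussRed M₀ A S0) {τ : Qb ≃ₐ[ℚ] Qb} (hτ : τ ∈ A.inertiaSubgroupIn ℚ)
    (f : FBar (M₀ * q * q)) : galFun (M₀ * q * q) τ f ∈ O.S.Ov ↔ f ∈ O.S.Ov :=
  (wpm_stable_at O hq hA hqM hS0 hτ f).symm

theorem wpm_mem_out (hq : q.Prime) (hA : A.LiesOverPrime q) (hqM : ¬ q ∣ M₀)
    (hS0 : IsGaussRed M₀ A S0) {τ : Qb ≃ₐ[ℚ] Qb} (hτ : τ ∈ A.inertiaSubgroupIn ℚ)
    {f : FBar (M₀ * q * q)} (hf : f ∈ O.S.Ov) : galFun (M₀ * q * q) τ f ∈ O.S.Ov :=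
  (wpm_mem_out_iff O hq hA hqM hS0 hτ f).mpr hf

/-- the automorphism of the residue field `k(H_P)` induced by an element of the inertia
group. -/
def wpmEquiv (hq : q.Prime) (hA : A.LiesOverPrime q) (hqM : ¬ q ∣ M₀)
    (hS0 : IsGaussRed M₀ A S0) (τ : Qb ≃ₐ[ℚ] Qb) (hτ : τ ∈ A.inertiaSubgroupIn ℚ) :
    FkP ≃ₐ[IsLocalRing.ResidueField A] FkP :=
  wpiEquiv O.S (arithmeticGalois (modularFunctionFieldFull (M₀ * q * q)) τ)
    (wpm_stable_at O hq hA hqM hS0 hτ) (wpm_inertial_at O hτ)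

/-- `red (τ f) = e_τ (red f)`. -/
theorem wpm_red_out (hq : q.Prime) (hA : A.LiesOverPrime q) (hqM : ¬ q ∣ M₀)
    (hS0 : IsGaussRed M₀ A S0) {τ : Qb ≃ₐ[ℚ] Qb} (hτ : τ ∈ A.inertiaSubgroupIn ℚ)
    {f : FBar (M₀ * q * q)} (hf : f ∈ O.S.Ov) :
    O.S.red (galFun (M₀ * q * q) τ f) = wpmEquiv O hq hA hqM hS0 τ hτ (O.S.red f) :=
  (wpiEquiv_red (wpm_stable_at O hq hA hqM hS0 hτ) (wpm_inertial_at O hτ) hf).symm

/-- `red (τ f) = e_τ (red f)`, total form. -/
theorem wpm_red_out' (hq : q.Prime) (hA : A.LiesOverPrime q) (hqM : ¬ q ∣ M₀)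
    (hS0 : IsGaussRed M₀ A S0) {τ : Qb ≃ₐ[ℚ] Qb} (hτ : τ ∈ A.inertiaSubgroupIn ℚ)
    (f : FBar (M₀ * q * q)) :
    O.S.red (galFun (M₀ * q * q) τ f) = wpmEquiv O hq hA hqM hS0 τ hτ (O.S.red f) := by
  by_cases hf : f ∈ O.S.Ov
  · exact wpm_red_out O hq hA hqM hS0 hτ hf
  · rw [O.S.red_of_not_mem hf,
      O.S.red_of_not_mem (fun h => hf ((wpm_mem_out_iff O hq hA hqM hS0 hτ f).mp h)), map_zero]

/-- **the hypothesis `hinv` of Step 2 (`step2_final`) at the vertex `w_P`**: for a function `g`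
whose class modulo constants and `n`-th powers is fixed by the inertia group of `A`. -/
theorem wpm_hinv_out (hq : q.Prime) (hA : A.LiesOverPrime q) (hqM : ¬ q ∣ M₀)
    (hS0 : IsGaussRed M₀ A S0) (n : ℕ) {g : FBar (M₀ * q * q)} (hg : g ≠ 0)
    (hfix : ∀ τ ∈ A.inertiaSubgroupIn ℚ, ∃ (u : FBar (M₀ * q * q)) (a : Qb),
      galFun (M₀ * q * q) τ g = algebraMap Qb (FBar (M₀ * q * q)) a * u ^ n * g) :
    ∀ (f : FBar (M₀ * q * q)) (a : Qb), f ∈ O.S.Ov → f⁻¹ ∈ O.S.Ov →
      g = algebraMap Qb (FBar (M₀ * q * q)) a * f →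
      ∀ σ ∈ O.H.galK, ∃ (b : IsLocalRing.ResidueField A) (v : FkP),
        σ (O.S.red f) = algebraMap (IsLocalRing.ResidueField A) FkP b * v ^ n * O.S.red f := by
  intro f a hf hf' hfg
  haveI : IsAlgClosed (IsLocalRing.ResidueField A) := isAlgClosed_residue A
  have hA' : O.S.A.LiesOverPrime q := by rw [O.A_eq]; exact hA
  have hτA : ∀ τ : Qb ≃ₐ[ℚ] Qb, τ ∈ O.S.A.inertiaSubgroupIn ℚ → τ ∈ A.inertiaSubgroupIn ℚ :=
    fun τ hτ => by rw [← O.A_eq]; exact hτ
  exact wpm_hinv O.H (wpg_hq1 hq hA) hq hA' (wpm_stable_out O hq hA hqM hS0) O.ϖ_pow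
    O.W_mem O.Z_mem O.red_W O.red_Z
    (fun τ hτ => wpg_x0_fixed O hq hA (hτA τ hτ))
    (fun τ hτ => wpg_x2_fixed O hq hA (hτA τ hτ)) n hg
    (fun τ hτ => hfix τ (hτA τ hτ)) hf hf' hfg

/-- `wpm_hinv_out` for `InertiaFixedFun` (`S36/G/Defs.lean`). -/
theorem wpm_hinv_out_of_fixedFun (hq : q.Prime) (hA : A.LiesOverPrime q) (hqM : ¬ q ∣ M₀)
    (hS0 : IsGaussRed M₀ A S0) (n : ℕ) {g : FBar (M₀ * q * q)} (hg : g ≠ 0)
    (hfix : InertiaFixedFun (M₀ * q * q) A n g) :
    ∀ (f : FBar (M₀ * q * q)) (a : Qb), f ∈ O.S.Ov → f⁻¹ ∈ O.S.Ov →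
      g = algebraMap Qb (FBar (M₀ * q * q)) a * f →
      ∀ σ ∈ O.H.galK, ∃ (b : IsLocalRing.ResidueField A) (v : FkP),
        σ (O.S.red f) = algebraMap (IsLocalRing.ResidueField A) FkP b * v ^ n * O.S.red f :=
  wpm_hinv_out O hq hA hqM hS0 n hg (fun τ hτ => by
    obtain ⟨u, a, -, h⟩ := hfix τ hτ
    exact ⟨u, a, h⟩)

end Fermat.Agent.S36G
end
end MergeWrap_S36_HPVal_InertFinal
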