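import Mathlib
import Fermat.Prelude.Def_ModularCurve_LaurentCoeff
import Fermat.Agent.MUL.S36.HPVal.Reg
import Fermat.Agent.MUL.Lib.BadRed.Final.Sep
import Fermat.Agent.MUL.Orig.Lib.BadRed.Mod.FrobAut
import Fermat.Agent.MUL.Lib.BadRed.PeuD.SlopeLoc
import Fermat.Agent.MUL.E.Desc.Kp.Ann
import Fermat.Agent.MUL.S36.HPVal.KCtRat
import Fermat.Agent.MUL.S36.HPVal.KCtPole
import Fermat.Agent.MUL.S36.HPVal.DiscMod
import Fermat.Agent.MUL.S36.HPVal.KCt
import Fermat.Agent.MUL.Lib.BadRed.Mod.ALDegeneracy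
import Fermat.Agent.MUL.S36.HPVal.RegNoPole
import Fermat.Agent.MUL.S36.Reg.RegInt
import Fermat.Agent.MUL.S36.Seed.OldSep
import Fermat.Agent.MUL.S36.Genus.Hno23
import Fermat.Agent.MUL.R38.P.Eps
import Fermat.Agent.MUL.E.Desc.Kp.ModDefs
import Fermat.Agent.MUL.Lib.BadRed.Final.Nodal
import Fermat.Agent.MUL.S36.HPVal.DiscModG
import Fermat.Agent.MUL.Lib.BadRed.Nodal.Setup
import Fermat.Agent.MUL.S36.HPVal.Val
import Fermat.Agent.MUL.S36.HPVal.Centres
import Fermat.Agent.MUL.Lib.RR.Weil
import Fermat.Agent.MUL.E.S15.CuspRed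
import Fermat.Agent.MUL.Orig.Lib.RR.Hurwitz.LocalTrace
import Fermat.Agent.MUL.S24.GlobalDatum
import Fermat.Agent.MUL.Lib.GaussInt.ModularInst
import Fermat.Agent.MUL.Lib.BadRed.PeuD.GaussMod
import Fermat.Agent.MUL.Lib.FF.RedRat.Core
import Fermat.Agent.MUL.Lib.Deuring.RedSpace
import Fermat.Agent.MUL.S17.Rat.Modular
import Fermat.Agent.MUL.Lib.BadRed.Mod.OldSep
import Fermat.Agent.MUL.Lib.Deuring.Construct
import Fermat.Agent.MUL.Orig.Lib.RR.Riemann
import Fermat.Agent.MUL.S36.HPVal.ExTDefs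
import Fermat.Agent.MUL.R38.D.SpJD
import Fermat.Agent.MUL.Lib.GenusEq.Inputs
import Fermat.Agent.MUL.Lib.RR.Hurwitz.Count
import Fermat.Agent.MUL.S36.HPVal.ValAt
import Fermat.Agent.MUL.S36.Seed.OldFinal3

section MergeWrap_Lib_BadRed_PeuD_Pivot -- from Lib/BadRed/PeuD/Pivot.lean

set_option autoImplicit false
set_option linter.unusedSectionVars false

namespace Fermat.Agent.PeuD

open Submodule

section Pivot

variable {K0 K : Type*} [Field K0] [Field K] [Algebra K0 K]
variable {Γ₀ : Type*} [LinearOrderedCommGroupWithZero Γ₀] (v : Valuation K Γ₀)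
variable {V : Type*} [AddCommGroup V] [Module K V] [Module K0 V] [IsScalarTower K0 K V]
variable {ι : Type*} (lam : ι → V →ₗ[K] K)

/-- a pivot system `(e_i)_{i ∈ s}` of the `K0`-subspace `W` (inside `V0`). -/
structure PivotSys (V0 W : Submodule K0 V) (s : Finset ι) (e : ι → V) : Prop where
  mem : ∀ i ∈ s, e i ∈ V0
  span : W = Submodule.span K0 (e '' (s : Set ι))
  le_one : ∀ i ∈ s, ∀ m, v (lam m (e i)) ≤ 1
  pivot_self : ∀ i ∈ s, lam i (e i) = 1
  pivot_ne : ∀ i ∈ s, ∀ j ∈ s, i ≠ j → lam i (e j) = 0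

theorem pivot_lam_smul (m : ι) (c : K0) (x : V) :
    lam m (c • x) = algebraMap K0 K c * lam m x := by
  rw [← algebraMap_smul K c x, map_smul, smul_eq_mul]

variable {v lam}

/-- the pivot functional reads off the coefficient. -/
theorem PivotSys.coeff {V0 W : Submodule K0 V} {s : Finset ι} {e : ι → V}
    (h : PivotSys v lam V0 W s e) (c : ι → K) {i : ι} (hi : i ∈ s) :
    lam i (∑ j ∈ s, c j • e j) = c i := by
  rw [map_sum, Finset.sum_eq_single i]
  · rw [map_smul, h.pivot_self i hi, smul_eq_mul, mul_one]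
  · intro j hj hji
    rw [map_smul, h.pivot_ne i hi j hj (Ne.symm hji), smul_zero]
  · intro hi'
    exact absurd hi hi'

/-- the pivot functional reads off the coefficient (coefficients in `K0`). -/
theorem PivotSys.coeff₀ {V0 W : Submodule K0 V} {s : Finset ι} {e : ι → V}
    (h : PivotSys v lam V0 W s e) (c : ι → K0) {i : ι} (hi : i ∈ s) :
    lam i (∑ j ∈ s, c j • e j) = algebraMap K0 K (c i) := by
  have h1 : ∑ j ∈ s, c j • e j = ∑ j ∈ s, (algebraMap K0 K (c j)) • e j :=
    Finset.sum_congr rfl fun j _ => (algebraMap_smul K (c j) (e j)).symm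
  rw [h1]
  exact h.coeff (fun j => algebraMap K0 K (c j)) hi

/-- **the pivot basis is orthonormal over `K`.** -/
theorem PivotSys.le_iff {V0 W : Submodule K0 V} {s : Finset ι} {e : ι → V}
    (h : PivotSys v lam V0 W s e) (c : ι → K) (B : Γ₀) :
    (∀ m, v (lam m (∑ j ∈ s, c j • e j)) ≤ B) ↔ ∀ i ∈ s, v (c i) ≤ B := by
  constructor
  · intro hB i hi
    have := hB i
    rwa [h.coeff c hi] at this
  · intro hc m
    rw [map_sum]
    apply Valuation.map_sum_le
    intro j hj
    rw [map_smul, smul_eq_mul, map_mul]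
    calc v (c j) * v (lam m (e j)) ≤ B * 1 := mul_le_mul' (hc j hj) (h.le_one j hj m)
      _ = B := mul_one B

theorem PivotSys.le {V0 W : Submodule K0 V} {s : Finset ι} {e : ι → V}
    (h : PivotSys v lam V0 W s e) : W ≤ V0 := by
  rw [h.span, Submodule.span_le]
  rintro _ ⟨i, hi, rfl⟩
  exact h.mem i hi

theorem PivotSys.mem_W {V0 W : Submodule K0 V} {s : Finset ι} {e : ι → V}
    (h : PivotSys v lam V0 W s e) {i : ι} (hi : i ∈ s) : e i ∈ W := by
  rw [h.span]
  exact Submodule.subset_span ⟨i, hi, rfl⟩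

theorem PivotSys.sum_mem₀ {V0 W : Submodule K0 V} {s : Finset ι} {e : ι → V}
    (h : PivotSys v lam V0 W s e) (c : ι → K0) : ∑ j ∈ s, c j • e j ∈ W :=
  Submodule.sum_mem _ fun _ hj => Submodule.smul_mem _ _ (h.mem_W hj)

/-- every element of `W` is a `K0`-combination of the pivot basis. -/
theorem PivotSys.exists_sum₀ {V0 W : Submodule K0 V} {s : Finset ι} {e : ι → V}
    (h : PivotSys v lam V0 W s e) {f : V} (hf : f ∈ W) :
    ∃ c : ι → K0, f = ∑ j ∈ s, c j • e j := by
  classical
  rw [h.span] at hf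
  induction hf using Submodule.span_induction with
  | mem x hx =>
    obtain ⟨i, hi, rfl⟩ := hx
    refine ⟨fun j => if j = i then 1 else 0, ?_⟩
    simp only [ite_smul, one_smul, zero_smul]
    rw [Finset.sum_ite_eq' s i, if_pos (Finset.mem_coe.mp hi)]
  | zero => exact ⟨fun _ => 0, by simp⟩
  | add x y _ _ hx hy =>
    obtain ⟨c, rfl⟩ := hx
    obtain ⟨d, rfl⟩ := hy
    exact ⟨fun j => c j + d j, by simp only [add_smul, Finset.sum_add_distrib]⟩
  | smul a x _ hx =>
    obtain ⟨c, rfl⟩ := hx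
    exact ⟨fun j => a * c j, by simp only [Finset.smul_sum, mul_smul]⟩

/-- every element of `K · W` is a `K`-combination of the pivot basis. -/
theorem PivotSys.exists_sum {V0 W : Submodule K0 V} {s : Finset ι} {e : ι → V}
    (h : PivotSys v lam V0 W s e) {f : V} (hf : f ∈ Submodule.span K (W : Set V)) :
    ∃ c : ι → K, f = ∑ j ∈ s, c j • e j := by
  induction hf using Submodule.span_induction with
  | mem x hx =>
    obtain ⟨c, rfl⟩ := h.exists_sum₀ hx
    exact ⟨fun j => algebraMap K0 K (c j),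
      Finset.sum_congr rfl fun j _ => (algebraMap_smul K (c j) (e j)).symm⟩
  | zero => exact ⟨fun _ => 0, by simp⟩
  | add x y _ _ hx hy =>
    obtain ⟨c, rfl⟩ := hx
    obtain ⟨d, rfl⟩ := hy
    exact ⟨fun j => c j + d j, by simp only [add_smul, Finset.sum_add_distrib]⟩
  | smul a x _ hx =>
    obtain ⟨c, rfl⟩ := hx
    exact ⟨fun j => a * c j, by simp only [Finset.smul_sum, mul_smul]⟩

/-! ### existence: elimination with maximal pivots -/

/-- the empty pivot system. -/
theorem pivotSys_bot (V0 : Submodule K0 V) (e : ι → V) :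
    PivotSys v lam V0 (⊥ : Submodule K0 V) ∅ e where
  mem := fun i hi => absurd hi (Finset.notMem_empty i)
  span := by simp
  le_one := fun i hi => absurd hi (Finset.notMem_empty i)
  pivot_self := fun i hi => absurd hi (Finset.notMem_empty i)
  pivot_ne := fun i hi => absurd hi (Finset.notMem_empty i)

variable (v lam) in
/-- the hypotheses on `V0`: rationality of the coefficients and attained sup-norm. -/
structure PivotHyp (V0 : Submodule K0 V) : Prop where
  rat : ∀ f ∈ V0, ∀ n, ∃ c : K0, lam n f = algebraMap K0 K c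
  max : ∀ f ∈ V0, f ≠ 0 → ∃ n0, lam n0 f ≠ 0 ∧ ∀ n, v (lam n f) ≤ v (lam n0 f)

/-- the elimination step: a pivot system of `W` and `f ∈ V0` give a pivot system of
`W + K0 f`. -/
theorem PivotSys.step {V0 W : Submodule K0 V} (H : PivotHyp v lam V0) {s : Finset ι}
    {e : ι → V} (h : PivotSys v lam V0 W s e) {f : V} (hf : f ∈ V0) :
    ∃ (s' : Finset ι) (e' : ι → V), PivotSys v lam V0 (W ⊔ Submodule.span K0 {f}) s' e' := by
  classical
  -- the coefficients of `f` at the pivots
  choose c hc using H.rat f hf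
  set f' : V := f - ∑ j ∈ s, c j • e j with hf'
  have hsumW : ∑ j ∈ s, c j • e j ∈ W := h.sum_mem₀ c
  have hf'V0 : f' ∈ V0 := Submodule.sub_mem _ hf (h.le hsumW)
  have hlamf' : ∀ i ∈ s, lam i f' = 0 := by
    intro i hi
    rw [hf', map_sub, h.coeff₀ c hi, hc i, sub_self]
  have hfeq : f = f' + ∑ j ∈ s, c j • e j := by rw [hf']; abel
  by_cases h0 : f' = 0
  · -- `f ∈ W`
    refine ⟨s, e, ?_⟩
    have hfW : f ∈ W := by
      rw [hfeq, h0, zero_add]
      exact hsumW
    have hle : Submodule.span K0 {f} ≤ W := by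
      rw [Submodule.span_le]
      rintro x hx
      rw [Set.mem_singleton_iff.mp hx]
      exact hfW
    rw [sup_eq_left.mpr hle]
    exact h
  · -- a new pivot
    obtain ⟨n, hn0, hnmax⟩ := H.max f' hf'V0 h0
    obtain ⟨a, ha⟩ := H.rat f' hf'V0 n
    have ha0 : a ≠ 0 := by
      rintro rfl
      rw [map_zero] at ha
      exact hn0 ha
    have haK : algebraMap K0 K a ≠ 0 := by rw [← ha]; exact hn0
    have hns : n ∉ s := fun hn => hn0 (hlamf' n hn)
    set es : V := a⁻¹ • f' with hes
    have hesV0 : es ∈ V0 := Submodule.smul_mem _ _ hf'V0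
    have hlam_es : ∀ m, lam m es = (algebraMap K0 K a)⁻¹ * lam m f' := by
      intro m
      rw [hes, pivot_lam_smul, map_inv₀]
    have hes_n : lam n es = 1 := by
      rw [hlam_es, ← ha, inv_mul_cancel₀ hn0]
    have hes_s : ∀ i ∈ s, lam i es = 0 := by
      intro i hi
      rw [hlam_es, hlamf' i hi, mul_zero]
    have hes_le : ∀ m, v (lam m es) ≤ 1 := by
      intro m
      rw [hlam_es, map_mul, map_inv₀, ← ha]
      have hv0 : v (lam n f') ≠ 0 := (Valuation.ne_zero_iff v).mpr hn0
      rw [inv_mul_le_iff₀ (zero_lt_iff.mpr hv0), mul_one]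
      exact hnmax m
    -- the coefficients of the old `e i` at the new pivot
    have hb : ∀ i, ∃ b : K0, i ∈ s → lam n (e i) = algebraMap K0 K b := by
      intro i
      by_cases hi : i ∈ s
      · obtain ⟨b, hb⟩ := H.rat (e i) (h.mem i hi) n
        exact ⟨b, fun _ => hb⟩
      · exact ⟨0, fun hi' => absurd hi' hi⟩
    choose b hb using hb
    set e' : ι → V := fun i => if i = n then es else e i - b i • es with he'
    have he'n : e' n = es := by rw [he']; exact if_pos rfl
    have he's : ∀ i ∈ s, e' i = e i - b i • es := by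
      intro i hi
      have hin : i ≠ n := fun hin => hns (hin ▸ hi)
      rw [he']
      exact if_neg hin
    have hlam_e' : ∀ i ∈ s, ∀ m, lam m (e' i) = lam m (e i) - lam n (e i) * lam m es := by
      intro i hi m
      rw [he's i hi, map_sub, pivot_lam_smul, ← hb i hi]
    refine ⟨insert n s, e', ?_⟩
    refine
      { mem := ?_
        span := ?_
        le_one := ?_
        pivot_self := ?_
        pivot_ne := ?_ }
    · intro i hi
      rcases Finset.mem_insert.mp hi with rfl | hi
      · rw [he'n]; exact hesV0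
      · rw [he's i hi]
        exact Submodule.sub_mem _ (h.mem i hi) (Submodule.smul_mem _ _ hesV0)
    · apply le_antisymm
      · -- `W + K0 f ≤ span e'`
        have hes_mem : es ∈ Submodule.span K0 (e' '' ((insert n s : Finset ι) : Set ι)) := by
          rw [← he'n]
          exact Submodule.subset_span ⟨n, Finset.mem_insert_self n s, rfl⟩
        have hei_mem : ∀ i ∈ s,
            e i ∈ Submodule.span K0 (e' '' ((insert n s : Finset ι) : Set ι)) := by
          intro i hi
          have h1 : e i = e' i + b i • es := by rw [he's i hi]; abel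
          rw [h1]
          exact Submodule.add_mem _
            (Submodule.subset_span ⟨i, Finset.mem_insert_of_mem hi, rfl⟩)
            (Submodule.smul_mem _ _ hes_mem)
        have hW : W ≤ Submodule.span K0 (e' '' ((insert n s : Finset ι) : Set ι)) := by
          rw [h.span, Submodule.span_le]
          rintro _ ⟨i, hi, rfl⟩
          exact hei_mem i hi
        refine sup_le hW ?_
        rw [Submodule.span_le]
        rintro x hx
        rw [Set.mem_singleton_iff.mp hx, hfeq]
        refine Submodule.add_mem _ ?_ (hW hsumW)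
        have h2 : f' = a • es := by rw [hes, smul_smul, mul_inv_cancel₀ ha0, one_smul]
        rw [h2]
        exact Submodule.smul_mem _ _ hes_mem
      · -- `span e' ≤ W + K0 f`
        have hf'mem : f' ∈ W ⊔ Submodule.span K0 {f} := by
          rw [hf']
          exact Submodule.sub_mem _
            ((le_sup_right : Submodule.span K0 {f} ≤ W ⊔ Submodule.span K0 {f})
              (Submodule.subset_span rfl))
            ((le_sup_left : W ≤ W ⊔ Submodule.span K0 {f}) hsumW)
        have hes_mem : es ∈ W ⊔ Submodule.span K0 {f} := Submodule.smul_mem _ _ hf'mem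
        rw [Submodule.span_le]
        rintro _ ⟨i, hi, rfl⟩
        rcases Finset.mem_insert.mp (Finset.mem_coe.mp hi) with rfl | hi
        · rw [he'n]; exact hes_mem
        · rw [he's i hi]
          exact Submodule.sub_mem _ ((le_sup_left : W ≤ W ⊔ Submodule.span K0 {f}) (h.mem_W hi))
            (Submodule.smul_mem _ _ hes_mem)
    · intro i hi m
      rcases Finset.mem_insert.mp hi with rfl | hi
      · rw [he'n]; exact hes_le m
      · rw [hlam_e' i hi m]
        refine le_trans (Valuation.map_sub _ _ _) (max_le (h.le_one i hi m) ?_)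
        rw [map_mul]
        calc v (lam n (e i)) * v (lam m es) ≤ 1 * 1 := mul_le_mul' (h.le_one i hi n) (hes_le m)
          _ = 1 := mul_one 1
    · intro i hi
      rcases Finset.mem_insert.mp hi with rfl | hi
      · rw [he'n]; exact hes_n
      · rw [hlam_e' i hi i, h.pivot_self i hi, hes_s i hi, mul_zero, sub_zero]
    · intro i hi j hj hij
      by_cases hin : i = n
      · by_cases hjn : j = n
        · exact absurd (hin.trans hjn.symm) hij
        · have hj' : j ∈ s := (Finset.mem_insert.mp hj).resolve_left hjn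
          rw [hin, hlam_e' j hj', hes_n, mul_one, sub_self]
      · have hi' : i ∈ s := (Finset.mem_insert.mp hi).resolve_left hin
        by_cases hjn : j = n
        · rw [hjn, he'n]; exact hes_s i hi'
        · have hj' : j ∈ s := (Finset.mem_insert.mp hj).resolve_left hjn
          rw [hlam_e' j hj' i, h.pivot_ne i hi' j hj' hij, hes_s i hi', mul_zero, sub_zero]

/-- a pivot system of the span of a finite subset of `V0`. -/
theorem pivotSys_span_finset {V0 : Submodule K0 V} (H : PivotHyp v lam V0) (t : Finset V)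
    (ht : ∀ x ∈ t, x ∈ V0) :
    ∃ (s : Finset ι) (e : ι → V), PivotSys v lam V0 (Submodule.span K0 (t : Set V)) s e := by
  classical
  induction t using Finset.induction_on with
  | empty =>
    refine ⟨∅, fun _ => 0, ?_⟩
    rw [Finset.coe_empty, Submodule.span_empty]
    exact pivotSys_bot V0 _
  | insert f t hft ih =>
    obtain ⟨s, e, h⟩ := ih fun x hx => ht x (Finset.mem_insert_of_mem hx)
    obtain ⟨s', e', h'⟩ := h.step H (ht f (Finset.mem_insert_self f t))
    refine ⟨s', e', ?_⟩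
    have : Submodule.span K0 ((insert f t : Finset V) : Set V) =
        Submodule.span K0 (t : Set V) ⊔ Submodule.span K0 {f} := by
      rw [Finset.coe_insert, Submodule.span_insert, sup_comm]
    rw [this]
    exact h'

/-- **the pivot basis** of a finitely generated `K0`-subspace `V0`. -/
theorem pivot_basis {V0 : Submodule K0 V} (H : PivotHyp v lam V0) (hfg : V0.FG) :
    ∃ (s : Finset ι) (e : ι → V), PivotSys v lam V0 V0 s e := by
  obtain ⟨t, ht⟩ := hfg
  have ht' : ∀ x ∈ t, x ∈ V0 := by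
    intro x hx
    rw [← ht]
    exact Submodule.subset_span hx
  obtain ⟨s, e, h⟩ := pivotSys_span_finset H t ht'
  rw [ht] at h
  exact ⟨s, e, h⟩

/-- **the lifting lemma**: if `K0` and `K` have the same residue field, every element of
`K · V0` of sup-norm `≤ 1` is congruent modulo the open unit ball to an element of `V0`. -/
theorem pivot_lift {V0 : Submodule K0 V} (H : PivotHyp v lam V0) (hfg : V0.FG)
    (hres : ∀ c : K, v c ≤ 1 → ∃ c0 : K0, v (c - algebraMap K0 K c0) < 1)
    {f : V} (hf : f ∈ Submodule.span K (V0 : Set V)) (hf1 : ∀ n, v (lam n f) ≤ 1) :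
    ∃ f0 ∈ V0, (∀ n, v (lam n f0) ≤ 1) ∧ ∃ B : Γ₀, B < 1 ∧ ∀ n, v (lam n (f - f0)) ≤ B := by
  classical
  obtain ⟨s, e, h⟩ := pivot_basis H hfg
  obtain ⟨c, rfl⟩ := h.exists_sum hf
  have hc1 : ∀ i ∈ s, v (c i) ≤ 1 := (h.le_iff c 1).mp hf1
  have hex : ∀ i, ∃ c0 : K0, i ∈ s → v (c i - algebraMap K0 K c0) < 1 := by
    intro i
    by_cases hi : i ∈ s
    · obtain ⟨c0, h0⟩ := hres (c i) (hc1 i hi)
      exact ⟨c0, fun _ => h0⟩
    · exact ⟨0, fun hi' => absurd hi' hi⟩
  choose c0 hc0 using hex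
  have hsum0 : ∑ j ∈ s, c0 j • e j = ∑ j ∈ s, (algebraMap K0 K (c0 j)) • e j :=
    Finset.sum_congr rfl fun j _ => (algebraMap_smul K (c0 j) (e j)).symm
  have hc01 : ∀ i ∈ s, v (algebraMap K0 K (c0 i)) ≤ 1 := by
    intro i hi
    have h1 : algebraMap K0 K (c0 i) = c i - (c i - algebraMap K0 K (c0 i)) := by ring
    rw [h1]
    exact le_trans (Valuation.map_sub _ _ _) (max_le (hc1 i hi) (le_of_lt (hc0 i hi)))
  refine ⟨∑ j ∈ s, c0 j • e j, h.sum_mem₀ c0, ?_, ?_⟩
  · rw [hsum0]
    exact (h.le_iff _ 1).mpr hc01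
  · have hdiff : ∑ j ∈ s, c j • e j - ∑ j ∈ s, c0 j • e j =
        ∑ j ∈ s, (c j - algebraMap K0 K (c0 j)) • e j := by
      rw [hsum0, ← Finset.sum_sub_distrib]
      exact Finset.sum_congr rfl fun j _ => (sub_smul _ _ _).symm
    rw [hdiff]
    by_cases hs : s.Nonempty
    · refine ⟨s.sup' hs fun i => v (c i - algebraMap K0 K (c0 i)), ?_, ?_⟩
      · rw [Finset.sup'_lt_iff]
        exact fun i hi => hc0 i hi
      · exact (h.le_iff _ _).mpr fun i hi =>
          Finset.le_sup' (fun i => v (c i - algebraMap K0 K (c0 i))) hi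
    · rw [Finset.not_nonempty_iff_eq_empty] at hs
      refine ⟨0, zero_lt_one, fun n => ?_⟩
      rw [hs, Finset.sum_empty, map_zero, map_zero]

/-! ### the attained sup-norm from discreteness -/

/-- **(max) from discreteness**: if the values of `v` on `K0` are the powers of `v π`, the
functionals separate the points of `V0` and are bounded on each element of `V0`, then the
sup-norm is attained. -/
theorem pivot_max_of_discrete {V0 : Submodule K0 V}
    (hrat : ∀ f ∈ V0, ∀ n, ∃ c : K0, lam n f = algebraMap K0 K c)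
    {π : K} (hπ0 : π ≠ 0) (hπ : v π < 1)
    (hdisc : ∀ c : K0, c ≠ 0 → ∃ k : ℤ, v (algebraMap K0 K c) = v π ^ k)
    (hsep : ∀ f ∈ V0, (∀ n, lam n f = 0) → f = 0)
    (hbdd : ∀ f ∈ V0, ∃ N : ℤ, ∀ n, v (lam n f) ≤ v π ^ N) :
    PivotHyp v lam V0 := by
  refine ⟨hrat, ?_⟩
  intro f hf hf0
  have hvπ0 : 0 < v π := zero_lt_iff.mpr ((Valuation.ne_zero_iff v).mpr hπ0)
  -- exponents
  have hexp : ∀ n, lam n f ≠ 0 → ∃ k : ℤ, v (lam n f) = v π ^ k := by
    intro n hn
    obtain ⟨c, hc⟩ := hrat f hf n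
    have hc0 : c ≠ 0 := by
      rintro rfl
      rw [map_zero] at hc
      exact hn hc
    obtain ⟨k, hk⟩ := hdisc c hc0
    exact ⟨k, by rw [hc, hk]⟩
  obtain ⟨N, hN⟩ := hbdd f hf
  have hanti : ∀ {k l : ℤ}, v π ^ k ≤ v π ^ l ↔ l ≤ k := by
    intro k l
    exact zpow_le_zpow_iff_right_of_lt_one₀ hvπ0 hπ
  obtain ⟨n1, hn1⟩ : ∃ n1, lam n1 f ≠ 0 := by
    by_contra hcon
    push Not at hcon
    exact hf0 (hsep f hf hcon)
  obtain ⟨k1, hk1⟩ := hexp n1 hn1
  -- the least exponent
  have hex : ∃ k : ℤ, ∃ n, lam n f ≠ 0 ∧ v (lam n f) = v π ^ k := ⟨k1, n1, hn1, hk1⟩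
  have hbd : ∀ k : ℤ, (∃ n, lam n f ≠ 0 ∧ v (lam n f) = v π ^ k) → N ≤ k := by
    rintro k ⟨n, -, hk⟩
    have := hN n
    rw [hk] at this
    exact hanti.mp this
  obtain ⟨k0, ⟨n0, hn0, hk0⟩, hleast⟩ := Int.exists_least_of_bdd ⟨N, hbd⟩ hex
  refine ⟨n0, hn0, fun n => ?_⟩
  by_cases hn : lam n f = 0
  · rw [hn, map_zero]
    exact zero_le
  · obtain ⟨k, hk⟩ := hexp n hn
    rw [hk, hk0]
    exact hanti.mpr (hleast k ⟨n, hn, hk⟩)

end Pivot

end Fermat.Agent.PeuD
end MergeWrap_Lib_BadRed_PeuD_Pivot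

section MergeWrap_S36_HPVal_RegKC -- from S36/HPVal/RegKC.lean

set_option autoImplicit false
set_option linter.style.haveILetI false
set_option linter.unusedSectionVars false
set_option linter.unusedVariables false
set_option synthInstance.maxHeartbeats 400000

noncomputable section
attribute [local instance 10000] SubalgebraClass.toAlgebra HahnSeries.powerSeriesAlgebra

namespace Fermat.Agent.S36G

open IntermediateField ModularCurve AlgebraicCurve Fermat.Agent.F3 Fermat.Agent.F3G
  Fermat.Agent.GaussInt Fermat.Agent.AtkinLehner Fermat.Agent.Deuring Fermat.Agent.RR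
  Fermat.Agent.BadRed Fermat.Agent.EKp Fermat.Agent.PeuD Polynomial

local notation "Qb" => AlgebraicClosure ℚ

/-! ### generic lemmas on places -/

section Abs

variable {k Fk : Type*} [Field k] [Field Fk] [Algebra k Fk]

/-- (simple pole) × (simple zero) has a nonzero value. -/
theorem reg_value_of_ord (h : IsRRField k Fk) (P : Place k Fk) {d z : Fk} (hd : P.ord d = -1)
    (hz : P.ord z = 1) : ∃ c : k, c ≠ 0 ∧ ValAt P (d * z) c := by
  have hd0 : d ≠ 0 := by
    rintro rfl
    rw [Place.ord_zero] at hd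
    omega
  have hz0 : z ≠ 0 := by
    rintro rfl
    rw [Place.ord_zero] at hz
    omega
  have hord : P.ord (d * z) = 0 := by
    rw [Place.ord_mul _ hd0 hz0, hd, hz]
    norm_num
  obtain ⟨c, hc⟩ := Fermat.Agent.BadRed.Gluing.exists_valAt h P hord.ge
  refine ⟨c, ?_, hc⟩
  rintro rfl
  rcases (valAt_zero_right_iff _ _).mp hc with h0 | h0
  · exact mul_ne_zero hd0 hz0 h0
  · rw [hord] at h0
    exact lt_irrefl _ h0

/-- the value of `∑ r_i f^i` at a zero of `f` is the value of `r₀`. -/
theorem reg_valAt_sum_pow (P : Place k Fk) (n : ℕ) (r : ℕ → Fk) (c : ℕ → k)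
    (hr : ∀ i, ValAt P (r i) (c i)) {f : Fk} (hf : ValAt P f 0) :
    ValAt P (∑ i ∈ Finset.range (n + 1), r i * f ^ i) (c 0) := by
  have h1 : ValAt P (∑ i ∈ Finset.range (n + 1), r i * f ^ i)
      (∑ i ∈ Finset.range (n + 1), c i * (0 : k) ^ i) :=
    ValAt.sum _ _ _ fun i _ =>
      Fermat.Agent.BadRed.Gluing.valAt_mul (hr i) (Fermat.Agent.BadRed.Gluing.valAt_pow hf i)
  have e : ∑ i ∈ Finset.range (n + 1), c i * (0 : k) ^ i = c 0 := by
    rw [Finset.sum_eq_single 0]
    · rw [pow_zero, mul_one]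
    · intro i _ hi
      rw [zero_pow hi, mul_zero]
    · intro h0
      exact absurd (Finset.mem_range.mpr (Nat.succ_pos n)) h0
  rwa [e] at h1

/-- a function with positive order has the value `0`. -/
theorem reg_valAt_zero_of_ord_pos (P : Place k Fk) {f : Fk} (hf : 0 < P.ord f) : ValAt P f 0 :=
  (valAt_zero_right_iff _ _).mpr (Or.inr hf)

/-- the reduction of a finite sum of integral elements. -/
theorem reg_red_sum {K F : Type*} [Field K] [Field F] [Algebra K F] (S : ValSetup K F k Fk)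
    {J : Type*} (s : Finset J) (f : J → F) (hf : ∀ j ∈ s, f j ∈ S.Ov) :
    ∑ j ∈ s, f j ∈ S.Ov ∧ S.red (∑ j ∈ s, f j) = ∑ j ∈ s, S.red (f j) := by
  classical
  induction s using Finset.induction_on with
  | empty =>
    refine ⟨by simp, ?_⟩
    rw [Finset.sum_empty, Finset.sum_empty, S.red_zero]
  | insert a s ha ih =>
    obtain ⟨h1, h2⟩ := ih fun j hj => hf j (Finset.mem_insert_of_mem hj)
    have ha' := hf a (Finset.mem_insert_self a s)
    rw [Finset.sum_insert ha, Finset.sum_insert ha]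
    exact ⟨add_mem ha' h1, by rw [S.red_add ha' h1, h2]⟩

end Abs

/-! ### the Frobenius -/

section Frob

variable (k : Type*) [Field k] (N₀ q : ℕ) [NeZero N₀] [Fact q.Prime] [CharP k q] [PerfectRing k q]

/-- a function with coefficients in `𝔽_q` is fixed by the coefficientwise Frobenius. -/
theorem reg_frob_fix (f : modularFunctionFieldFullC k N₀)
    (h : ∀ n : ℤ, ((f : LaurentSeries k).coeff n) ^ q = (f : LaurentSeries k).coeff n) :
    frobAut k N₀ q • f = f := by
  apply Subtype.ext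
  rw [coe_frobAut_smul]
  ext n
  rw [coeffMap_coeff]
  exact h n

/-- a simple pole of a Frobenius-fixed function at `Frob⁻¹ • P` is a simple pole at `P`. -/
theorem reg_pole_self_of_s₂ {f : modularFunctionFieldFullC k N₀}
    (hF : frobAut k N₀ q • f = f)
    (P : Place k (modularFunctionFieldFullC k N₀)) {n : ℤ}
    (h : ((frobAut k N₀ q)⁻¹ • P).ord f = n) : P.ord f = n := by
  rw [← Fermat.Agent.BadRed.Gluing.sl_ord_smul, hF] at h
  exact h

end Frob

/-! ### the Kronecker form -/

section KC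

variable (D : ALData) [NeZero D.Q] [NeZero D.R] [NeZero (D.Q * D.R)]

/-- the Kronecker relation gives `δ z = E`. -/
theorem regEps_eq_of_kc (t : modularFunctionFieldBar D.R)
    (E : modularFunctionFieldBar (D.Q * D.R))
    (hkc : (betaQ D t - alphaQ D t ^ D.Q) * (betaQ D t ^ D.Q - alphaQ D t) +
      (D.Q : modularFunctionFieldBar (D.Q * D.R)) * E = 0) : regEps D t = E := by
  have hq0 : (D.Q : modularFunctionFieldBar (D.Q * D.R)) ≠ 0 := by
    have h1 : ((D.Q : Qb)) ≠ 0 := by exact_mod_cast NeZero.ne D.Q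
    have h2 := (_root_.map_ne_zero (algebraMap Qb (modularFunctionFieldBar (D.Q * D.R)))).mpr h1
    rwa [map_natCast] at h2
  unfold regEps regDelta regZ
  rw [map_natCast]
  field_simp
  linear_combination (-1 : modularFunctionFieldBar (D.Q * D.R)) * hkc

/-- the Kronecker form `Ψ = (X - t^q)(X^q - t) + q R`, `Ψ^α (β t) = 0`, gives `δ z = R^α (β t)`. -/
theorem regEps_eq_eval₂ (t : modularFunctionFieldBar D.R)
    (R Ψ : Polynomial (modularFunctionFieldBar D.R))
    (hΨ : Ψ = (X - C (t ^ D.Q)) * (X ^ D.Q - C t) +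
      C (D.Q : modularFunctionFieldBar D.R) * R)
    (hroot : Ψ.eval₂ (alphaQ D : modularFunctionFieldBar D.R →+*
      modularFunctionFieldBar (D.Q * D.R)) (betaQ D t) = 0) :
    regEps D t = R.eval₂ (alphaQ D : modularFunctionFieldBar D.R →+*
      modularFunctionFieldBar (D.Q * D.R)) (betaQ D t) := by
  apply regEps_eq_of_kc
  rw [hΨ] at hroot
  simpa [eval₂_add, eval₂_mul, eval₂_sub, eval₂_pow, eval₂_X, eval₂_C, map_pow, map_natCast]
    using hroot

end KC

/-! ### the reduction of `R^α (b)` and the final statement -/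

section Final

variable (D : ALData) [NeZero D.Q] [NeZero D.R] [NeZero (D.Q * D.R)]
  (A : ValuationSubring Qb) (hq : D.Q.Prime) (hA : A.LiesOverPrime D.Q) (hqR : ¬ D.Q ∣ D.R)
  [Fact D.Q.Prime] [CharP (IsLocalRing.ResidueField A) D.Q]
  [PerfectRing (IsLocalRing.ResidueField A) D.Q]

/-- `red_∞ (R^α (b)) = ∑ r̄_i (red_∞ b)^i`. -/
theorem red_eval₂_alphaQ (R : Polynomial (modularFunctionFieldBar D.R))
    (hR : ∀ n, R.coeff n ∈ (modularValSetup A D.Q D.R hq hA hqR).Ov)
    {b : modularFunctionFieldBar (D.Q * D.R)} (hb : b ∈ (kpS D A hq hA hqR).Ov) :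
    R.eval₂ (alphaQ D : modularFunctionFieldBar D.R →+*
        modularFunctionFieldBar (D.Q * D.R)) b ∈ (kpS D A hq hA hqR).Ov ∧
      (kpS D A hq hA hqR).red (R.eval₂ (alphaQ D : modularFunctionFieldBar D.R →+*
        modularFunctionFieldBar (D.Q * D.R)) b) =
      ∑ i ∈ Finset.range (R.natDegree + 1),
        (modularValSetup A D.Q D.R hq hA hqR).red (R.coeff i) * (kpS D A hq hA hqR).red b ^ i := by
  have hS := isGaussSetup_gaussSetupBad D hq hqR A hA
  have hmem : ∀ i, alphaQ D (R.coeff i) ∈ (kpS D A hq hA hqR).Ov := fun i =>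
    alphaQ_mem_Ov D A hq hA hqR (kpS D A hq hA hqR) hS _ (hR i)
  have hterm : ∀ i ∈ Finset.range (R.natDegree + 1),
      alphaQ D (R.coeff i) * b ^ i ∈ (kpS D A hq hA hqR).Ov := fun i _ =>
    mul_mem (hmem i) (pow_mem hb _)
  obtain ⟨h1, h2⟩ := reg_red_sum (kpS D A hq hA hqR) (Finset.range (R.natDegree + 1))
    (fun i => alphaQ D (R.coeff i) * b ^ i) hterm
  have e : R.eval₂ (alphaQ D : modularFunctionFieldBar D.R →+*
      modularFunctionFieldBar (D.Q * D.R)) b =
      ∑ i ∈ Finset.range (R.natDegree + 1), alphaQ D (R.coeff i) * b ^ i := by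
    rw [eval₂_eq_sum_range]
    rfl
  rw [e]
  refine ⟨h1, ?_⟩
  rw [h2]
  refine Finset.sum_congr rfl fun i _ => ?_
  rw [(kpS D A hq hA hqR).red_mul (hmem i) (pow_mem hb _), (kpS D A hq hA hqR).red_pow hb,
    red_alphaQ D A hq hA hqR (kpS D A hq hA hqR) hS _ (hR i)]

variable {D A hq hA hqR}

/-- `red_∞ z = t̄ - t̄^(q²)` has a simple zero where `t̄` has one. -/
theorem reg_ord_red_regZ {t : modularFunctionFieldBar D.R}
    (halpha : alphaQ D t ∈ (kpS D A hq hA hqR).Ov) (hbeta : betaQ D t ∈ (kpS D A hq hA hqR).Ov)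
    (hfrob : (kpS D A hq hA hqR).red (betaQ D t) = (kpS D A hq hA hqR).red (alphaQ D t) ^ D.Q)
    (P : Place (IsLocalRing.ResidueField A)
      (modularFunctionFieldFullC (IsLocalRing.ResidueField A) D.R))
    (hP : P.ord ((kpS D A hq hA hqR).red (alphaQ D t)) = 1) :
    P.ord ((kpS D A hq hA hqR).red (regZ D t)) = 1 := by
  have e : (kpS D A hq hA hqR).red (regZ D t) =
      (kpS D A hq hA hqR).red (alphaQ D t) - (kpS D A hq hA hqR).red (alphaQ D t) ^ (D.Q ^ 2) := by
    unfold regZ
    rw [(kpS D A hq hA hqR).red_sub halpha (pow_mem hbeta _),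
      (kpS D A hq hA hqR).red_pow hbeta, hfrob, ← pow_mul, pow_two]
  rw [e]
  refine reg_ord_sub_pow D.Q P (c := 0) (zero_pow (pow_ne_zero _ (NeZero.ne D.Q))) ?_
  rw [map_zero, sub_zero]
  exact hP

/-- **REG, final form**: the constant term `r₀` of `R` (Kronecker form of `t`) reduces to a
function with a NONZERO value at `P`. -/
theorem reg_kc_final {t : modularFunctionFieldBar D.R}
    (halpha : alphaQ D t ∈ (kpS D A hq hA hqR).Ov) (hbeta : betaQ D t ∈ (kpS D A hq hA hqR).Ov)
    (hdelta : regDelta D t ∈ (kpS D A hq hA hqR).Ov)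
    (hfrob : (kpS D A hq hA hqR).red (betaQ D t) = (kpS D A hq hA hqR).red (alphaQ D t) ^ D.Q)
    (P : Place (IsLocalRing.ResidueField A)
      (modularFunctionFieldFullC (IsLocalRing.ResidueField A) D.R))
    (hP : P.ord ((kpS D A hq hA hqR).red (alphaQ D t)) = 1)
    (hpole : P.ord ((kpS D A hq hA hqR).red (regDelta D t)) = -1)
    (R Ψ : Polynomial (modularFunctionFieldBar D.R))
    (hΨ : Ψ = (X - C (t ^ D.Q)) * (X ^ D.Q - C t) +
      C (D.Q : modularFunctionFieldBar D.R) * R)
    (hroot : Ψ.eval₂ (alphaQ D : modularFunctionFieldBar D.R →+*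
      modularFunctionFieldBar (D.Q * D.R)) (betaQ D t) = 0)
    (hRmem : ∀ n, R.coeff n ∈ (modularValSetup A D.Q D.R hq hA hqR).Ov)
    (hRreg : ∀ n, 0 ≤ P.ord ((modularValSetup A D.Q D.R hq hA hqR).red (R.coeff n))) :
    ∃ c : IsLocalRing.ResidueField A, c ≠ 0 ∧
      ValAt P ((modularValSetup A D.Q D.R hq hA hqR).red (R.coeff 0)) c := by
  haveI := Fermat.Agent.GaussInt.isAlgClosed_residue A
  have hRR := Fermat.Agent.RRMod.isRRField_fullC' (IsLocalRing.ResidueField A) D.R
  have hz := reg_ord_red_regZ halpha hbeta hfrob P hP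
  obtain ⟨c, hc0, hc⟩ := reg_value_of_ord hRR P hpole hz
  have hzmem : regZ D t ∈ (kpS D A hq hA hqR).Ov := sub_mem halpha (pow_mem hbeta _)
  have e1 : (kpS D A hq hA hqR).red (regEps D t) =
      (kpS D A hq hA hqR).red (regDelta D t) * (kpS D A hq hA hqR).red (regZ D t) :=
    (kpS D A hq hA hqR).red_mul hdelta hzmem
  rw [← e1, regEps_eq_eval₂ D t R Ψ hΨ hroot,
    (red_eval₂_alphaQ D A hq hA hqR R hRmem hbeta).2] at hc
  have hval : ∀ i, ∃ ci : IsLocalRing.ResidueField A,
      ValAt P ((modularValSetup A D.Q D.R hq hA hqR).red (R.coeff i)) ci := fun i =>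
    Fermat.Agent.BadRed.Gluing.exists_valAt hRR P (hRreg i)
  choose ci hci using hval
  have hb0 : ValAt P ((kpS D A hq hA hqR).red (betaQ D t)) 0 := by
    apply reg_valAt_zero_of_ord_pos
    rw [hfrob, Fermat.Agent.BadRed.Gluing.ord_pow_nat, hP, mul_one]
    exact_mod_cast Nat.pos_of_ne_zero (NeZero.ne D.Q)
  have hsum := reg_valAt_sum_pow P R.natDegree
    (fun i => (modularValSetup A D.Q D.R hq hA hqR).red (R.coeff i)) ci hci hb0
  have := ValAt.unique hsum hc
  exact ⟨ci 0, this ▸ hc0, hci 0⟩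

end Final

end Fermat.Agent.S36G
end
end MergeWrap_S36_HPVal_RegKC

section MergeWrap_S36_Reg_CoordLoc -- from S36/Reg/CoordLoc.lean

set_option autoImplicit false
set_option linter.unusedSectionVars false
set_option linter.unusedVariables false

noncomputable section
attribute [local instance 10000] SubalgebraClass.toAlgebra HahnSeries.powerSeriesAlgebra

open AlgebraicCurve Fermat.Agent.RR Fermat.Agent.Deuring Fermat.Agent.BadRed Fermat.Agent.EKp
  Fermat.Agent.FF Fermat.Agent.PeuD

namespace Fermat.Agent.S36Reg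

variable {K F k Fk₁ Fk₂ : Type*} [Field K] [Field F] [Algebra K F]
  [Field k] [Field Fk₁] [Algebra k Fk₁] [Field Fk₂] [Algebra k Fk₂] {ι : Type*} [Fintype ι]

/-- **the data of a coordinate at ONE node `i₀`**. -/
structure CoordLoc (N : NodalSeed K F k Fk₁ Fk₂ ι) (u : F) (ϖ p0 : K) (e : ℕ) (z : F) (i₀ : ι) :
    Prop where
  ann : AnnulusData N u ϖ
  e_pos : 0 < e
  val_varpi : N.S₁.A.valuation ϖ = N.S₁.A.valuation p0 ^ e
  eps₁ : (N.s₁ i₀).ord (N.S₁.red u) = e
  eps₂ : (N.s₂ i₀).ord (N.S₂.red (algebraMap K F ϖ * u⁻¹)) = e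
  z_mem₁ : z ∈ N.S₁.Ov
  z_mem₂ : z / algebraMap K F p0 ∈ N.S₂.Ov
  z_pole : NoPoleAtNode N i₀ z
  z_node : (N.s₁ i₀).ord (N.S₁.red z) = 1

namespace CoordLoc

variable {N : NodalSeed K F k Fk₁ Fk₂ ι} {u : F} {ϖ p0 : K} {e : ℕ} {z : F} {i₀ : ι}

theorem p0_ne (h : CoordLoc N u ϖ p0 e z i₀) : p0 ≠ 0 := by
  rintro rfl
  have h1 := h.val_varpi
  rw [map_zero, zero_pow h.e_pos.ne'] at h1
  exact h.ann.varpi_ne ((Valuation.zero_iff _).mp h1)

theorem u_ne (h : CoordLoc N u ϖ p0 e z i₀) : u ≠ 0 :=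
  N.S₁.ne_zero_of_red_ne_zero h.ann.red₁_ne

theorem red₁_ne (h : CoordLoc N u ϖ p0 e z i₀) : N.S₁.red z ≠ 0 := by
  intro h0
  have h1 := h.z_node
  rw [h0, Place.ord_zero] at h1
  exact zero_ne_one h1

theorem z_ne (h : CoordLoc N u ϖ p0 e z i₀) : z ≠ 0 :=
  N.S₁.ne_zero_of_red_ne_zero h.red₁_ne

/-- the constant `p0 ^ e / ϖ` is a unit of `A`. -/
theorem unit_mem (h : CoordLoc N u ϖ p0 e z i₀) :
    p0 ^ e * ϖ⁻¹ ∈ N.S₁.A ∧ (p0 ^ e * ϖ⁻¹)⁻¹ ∈ N.S₁.A := by
  have hϖ : N.S₁.A.valuation ϖ ≠ 0 := (Valuation.ne_zero_iff _).mpr h.ann.varpi_ne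
  constructor
  · rw [← N.S₁.A.valuation_le_one_iff, map_mul, map_pow, map_inv₀, ← h.val_varpi,
      mul_inv_cancel₀ hϖ]
  · rw [← N.S₁.A.valuation_le_one_iff, map_inv₀, map_mul, map_pow, map_inv₀, ← h.val_varpi,
      mul_inv_cancel₀ hϖ, inv_one]

/-! ### the yardstick `H = z ^ e / u` -/

theorem H_mem₁ (h : CoordLoc N u ϖ p0 e z i₀) : z ^ e * u⁻¹ ∈ N.S₁.Ov :=
  mul_mem (pow_mem h.z_mem₁ e) (N.S₁.inv_mem_of_red_ne_zero h.ann.red₁_ne)

theorem H_eq (h : CoordLoc N u ϖ p0 e z i₀) :
    z ^ e * u⁻¹ = (z / algebraMap K F p0) ^ e * algebraMap K F (p0 ^ e * ϖ⁻¹) *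
      (algebraMap K F ϖ / u) := by
  have h1 : algebraMap K F p0 ≠ 0 := (map_ne_zero (algebraMap K F)).mpr h.p0_ne
  have h2 : algebraMap K F ϖ ≠ 0 := (map_ne_zero (algebraMap K F)).mpr h.ann.varpi_ne
  have h3 := h.u_ne
  rw [map_mul, map_pow, map_inv₀, div_pow]
  field_simp

theorem H_mem₂ (h : CoordLoc N u ϖ p0 e z i₀) : z ^ e * u⁻¹ ∈ N.S₂.Ov := by
  rw [h.H_eq]
  exact mul_mem (mul_mem (pow_mem h.z_mem₂ e)
    (N.S₂.algebraMap_mem (N.toNodalCore.mem_A₂ h.unit_mem.1)))
    (N.S₂.mem_of_red_ne_zero h.ann.red₂_ne)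

theorem H_ord (h : CoordLoc N u ϖ p0 e z i₀) {P : Place K F} (hP : N.rmap P = none) :
    P.ord (z ^ e * u⁻¹) = e * P.ord z := by
  rw [P.ord_mul (pow_ne_zero e h.z_ne) (inv_ne_zero h.u_ne), Gluing.ord_pow_nat, P.ord_inv,
    h.ann.ord_N P hP, neg_zero, add_zero]

theorem H_pole (h : CoordLoc N u ϖ p0 e z i₀) : NoPoleAtNode N i₀ (z ^ e * u⁻¹) := by
  intro P hP
  rw [h.H_ord hP.1]
  exact mul_nonneg (Int.natCast_nonneg e) (h.z_pole P hP)

theorem H_red₁ (h : CoordLoc N u ϖ p0 e z i₀) :
    N.S₁.red (z ^ e * u⁻¹) = N.S₁.red z ^ e * (N.S₁.red u)⁻¹ := by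
  rw [N.S₁.red_mul (pow_mem h.z_mem₁ e) (N.S₁.inv_mem_of_red_ne_zero h.ann.red₁_ne),
    N.S₁.red_pow h.z_mem₁,
    N.S₁.red_inv (N.S₁.mem_of_red_ne_zero h.ann.red₁_ne)
      (N.S₁.inv_mem_of_red_ne_zero h.ann.red₁_ne) h.u_ne]

theorem H_red₁_ne (h : CoordLoc N u ϖ p0 e z i₀) : N.S₁.red (z ^ e * u⁻¹) ≠ 0 := by
  rw [h.H_red₁]
  exact mul_ne_zero (pow_ne_zero e h.red₁_ne) (inv_ne_zero h.ann.red₁_ne)

theorem H_ord₁ (h : CoordLoc N u ϖ p0 e z i₀) :
    (N.s₁ i₀).ord (N.S₁.red (z ^ e * u⁻¹)) = 0 := by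
  rw [h.H_red₁, (N.s₁ i₀).ord_mul (pow_ne_zero e h.red₁_ne) (inv_ne_zero h.ann.red₁_ne),
    Gluing.ord_pow_nat, h.z_node, (N.s₁ i₀).ord_inv, h.eps₁]
  ring

variable [Infinite k]

/-- the yardstick takes a nonzero value at the node `i₀`. -/
theorem H_node (h : CoordLoc N u ϖ p0 e z i₀) :
    ∃ d : k, d ≠ 0 ∧ NodeValAt N i₀ (z ^ e * u⁻¹) d := by
  obtain ⟨-, -, d, hd⟩ := node_loc h.H_mem₁ h.H_mem₂ h.H_pole
  refine ⟨d, ?_, hd⟩
  rintro rfl
  rcases (valAt_zero_right_iff _ _).mp hd.1 with h0 | h0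
  · exact h.H_red₁_ne h0
  · rw [h.H_ord₁] at h0
    exact lt_irrefl _ h0

theorem H_red₂_ne (h : CoordLoc N u ϖ p0 e z i₀) : N.S₂.red (z ^ e * u⁻¹) ≠ 0 := by
  obtain ⟨d, hd0, hd⟩ := h.H_node
  exact ev_ne_zero_of_valAt hd.2 hd0

/-- **(1)** `z / p0` is a unit of `O₂`. -/
theorem red₂_ne (h : CoordLoc N u ϖ p0 e z i₀) : N.S₂.red (z / algebraMap K F p0) ≠ 0 := by
  intro h0
  apply h.H_red₂_ne
  rw [h.H_eq, N.S₂.red_mul (mul_mem (pow_mem h.z_mem₂ e)
    (N.S₂.algebraMap_mem (N.toNodalCore.mem_A₂ h.unit_mem.1)))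
    (N.S₂.mem_of_red_ne_zero h.ann.red₂_ne),
    N.S₂.red_mul (pow_mem h.z_mem₂ e) (N.S₂.algebraMap_mem (N.toNodalCore.mem_A₂ h.unit_mem.1)),
    N.S₂.red_pow h.z_mem₂, h0, zero_pow h.e_pos.ne', zero_mul, zero_mul]

/-- **(2)** `z` has no zero at the places of type N with node `i₀`. -/
theorem ord_z_N (h : CoordLoc N u ϖ p0 e z i₀) : NoDivAtNode N i₀ z := by
  intro P hi
  by_contra hne
  have hpos : 0 < P.ord z := lt_of_le_of_ne (h.z_pole P hi) (Ne.symm hne)
  have hH : 0 < P.ord (z ^ e * u⁻¹) := by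
    rw [h.H_ord hi.1]
    exact mul_pos (by exact_mod_cast h.e_pos) hpos
  have hv : ValAt P (z ^ e * u⁻¹) 0 := (valAt_zero_right_iff _ _).mpr (Or.inr hH)
  obtain ⟨h0A, hval⟩ := eval_loc h.H_mem₁ h.H_mem₂ h.H_pole hi hv
  have h0 : N.S₁.res ⟨0, h0A⟩ = 0 := map_zero N.S₁.res
  rw [h0] at hval
  obtain ⟨d, hd0, hd⟩ := h.H_node
  exact hd0 (hd.unique hval)

/-- `u` has neither zero nor pole at the places of type N. -/
theorem u_noDiv (h : CoordLoc N u ϖ p0 e z i₀) : NoDivAtNode N i₀ u :=
  fun P hP => h.ann.ord_N P hP.1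

/-- **(3)** the reduction of `z / p0` for the second valuation has a SIMPLE POLE at the node. -/
theorem ord₂ (h : CoordLoc N u ϖ p0 e z i₀) :
    (N.s₂ i₀).ord (N.S₂.red (z / algebraMap K F p0)) = -1 := by
  have hw₂ : N.S₂.red (algebraMap K F ϖ * u⁻¹) ≠ 0 := by
    rw [← div_eq_mul_inv]
    exact h.ann.red₂_ne
  have h₁ : N.S₁.red (z / algebraMap K F (1 : K)) ≠ 0 := by
    rw [map_one, div_one]
    exact h.red₁_ne
  have hR1 : ∃ (b : ℕ) (a : ℤ), 0 < b ∧
      N.S₁.A.valuation ((p0 / 1) ^ b) = N.S₁.A.valuation (ϖ ^ a) :=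
    ⟨e, 1, h.e_pos, by rw [div_one, zpow_one, map_pow, h.val_varpi]⟩
  obtain ⟨hord, -⟩ := slope_loc h.ann.varpi_ne h.ann.red₁_ne hw₂ h.eps₁ h.eps₂ h.u_noDiv
    h.ord_z_N h₁ h.red₂_ne hR1
  rw [hord, map_one, div_one, h.z_node]

/-- **(3')** the same with the valuation of the second normalisation made explicit:
`z / p0 ∈ O₂ˣ` and the order at the node is `-1`. -/
theorem unit₂_and_ord₂ (h : CoordLoc N u ϖ p0 e z i₀) :
    N.S₂.red (z / algebraMap K F p0) ≠ 0 ∧
      (N.s₂ i₀).ord (N.S₂.red (z / algebraMap K F p0)) = -1 :=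
  ⟨h.red₂_ne, h.ord₂⟩

end CoordLoc

end Fermat.Agent.S36Reg
end
end MergeWrap_S36_Reg_CoordLoc

section MergeWrap_S36_HPVal_RegWire -- from S36/HPVal/RegWire.lean

set_option autoImplicit false
set_option linter.style.haveILetI false
set_option linter.unusedSectionVars false
set_option linter.unusedVariables false
set_option synthInstance.maxHeartbeats 400000
set_option maxHeartbeats 2000000

noncomputable section
attribute [local instance 10000] SubalgebraClass.toAlgebra HahnSeries.powerSeriesAlgebra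

namespace Fermat.Agent.S36G

open IntermediateField ModularCurve AlgebraicCurve Fermat.Agent.F3 Fermat.Agent.F3G
  Fermat.Agent.GaussInt Fermat.Agent.AtkinLehner Fermat.Agent.Deuring Fermat.Agent.RR
  Fermat.Agent.BadRed Fermat.Agent.EKp Fermat.Agent.PeuD Polynomial Fermat.Agent.S36Reg

local notation "Qb" => AlgebraicClosure ℚ

attribute [local instance] Fermat.Agent.BadRed.fwFintype

variable (D : ALData) [NeZero D.Q] [NeZero D.R] [NeZero (D.Q * D.R)]
  (A : ValuationSubring Qb) (hq : D.Q.Prime) (hA : A.LiesOverPrime D.Q) (hqR : ¬ D.Q ∣ D.R)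
  [Fact D.Q.Prime] [CharP (IsLocalRing.ResidueField A) D.Q]
  [PerfectRing (IsLocalRing.ResidueField A) D.Q]

variable {D A hq hA hqR}
variable {haux : AuxLevelOK D.Q D.R} {t : modularFunctionFieldBar D.R}

/-- the thickness at the Frobenius image of a supersingular place. -/
theorem regw_ord_frob (P : Place (IsLocalRing.ResidueField A)
      (modularFunctionFieldFullC (IsLocalRing.ResidueField A) D.R)) :
    (frobAut (IsLocalRing.ResidueField A) D.R D.Q • P).ord ((kpS D A hq hA hqR).red (fwU D)) =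
      P.ord ((kpS D A hq hA hqR).red (fwU D)) :=
  ord_frobAut_smul_of_coe_ssFun _ _ _ D.Q
    (fw_coe_red_uF D A hq hA (kpS D A hq hA hqR) (isGaussSetup_gaussSetupBad D hq hqR A hA)) P

/-- **the local coordinate datum** at the node `i₀`. -/
theorem regw_coordLoc (i₀ : kpIota D A hq hA hqR)
    (heps : i₀.1.ord ((kpS D A hq hA hqR).red (fwU D)) = 12)
    (halpha : alphaQ D t ∈ (kpS D A hq hA hqR).Ov) (hbeta : betaQ D t ∈ (kpS D A hq hA hqR).Ov)
    (hdelta : regDelta D t ∈ (kpS D A hq hA hqR).Ov)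
    (hnp : ∀ Q : Place Qb (modularFunctionFieldBar (D.Q * D.R)),
      (kpSeed D A hq hA hqR haux).rmap Q = none →
        0 ≤ Q.ord (alphaQ D t) ∧ 0 ≤ Q.ord (betaQ D t))
    (hnode : i₀.1.ord ((kpS D A hq hA hqR).red (regZ D t)) = 1) :
    CoordLoc (kpSeed D A hq hA hqR haux) (fwU D) (fwPi D) (D.Q : Qb) 12 (regZ D t) i₀ := by
  have h1 : ((kpSeed D A hq hA hqR haux).s₁ i₀).ord
      ((kpSeed D A hq hA hqR haux).S₁.red (fwU D)) = ((12 : ℕ) : ℤ) := by
    refine (wu_eps₁ D A hq hA hqR haux i₀).trans ?_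
    rw [kpEps_cast D A hq hA hqR i₀, heps]
    norm_num
  have h2 : ((kpSeed D A hq hA hqR haux).s₂ i₀).ord
      ((kpSeed D A hq hA hqR haux).S₂.red
        (algebraMap Qb (modularFunctionFieldBar (D.Q * D.R)) (fwPi D) * (fwU D)⁻¹)) =
      ((12 : ℕ) : ℤ) := by
    refine (wu_eps₂ D A hq hA hqR haux i₀).trans ?_
    rw [kpEps_cast D A hq hA hqR i₀, heps]
    norm_num
  have h3 : regZ D t ∈ (kpSeed D A hq hA hqR haux).S₁.Ov :=
    sub_mem halpha (pow_mem hbeta _)
  have h4 : regZ D t / algebraMap Qb (modularFunctionFieldBar (D.Q * D.R)) (D.Q : Qb) ∈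
      (kpSeed D A hq hA hqR haux).S₂.Ov := by
    show regZ D t / algebraMap Qb (modularFunctionFieldBar (D.Q * D.R)) (D.Q : Qb) ∈
      (valSetupZero D (kpS D A hq hA hqR)).Ov
    rw [mem_valSetupZero_Ov, atkinLehner_regZ_div]
    exact hdelta
  have h5 : NoPoleAtNode (kpSeed D A hq hA hqR haux) i₀ (regZ D t) := by
    intro Q hQ
    apply Fermat.Agent.S24Res.ord_nonneg_of_mem
    exact sub_mem (Fermat.Agent.FF.mem_of_ord_nonneg' Q (hnp Q hQ.1).1)
      (pow_mem (Fermat.Agent.FF.mem_of_ord_nonneg' Q (hnp Q hQ.1).2) _)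
  exact ⟨wu_annulus D A hq hA hqR haux, by norm_num, wu_val_pi D A hq hA hqR haux, h1, h2, h3, h4,
    h5, hnode⟩

/-- **LOCAL REGULARITY**: `red_∞ δ` has a simple pole at the second branch `s₂ i₀` of the node. -/
theorem regw_pole_s₂ (i₀ : kpIota D A hq hA hqR)
    (heps : i₀.1.ord ((kpS D A hq hA hqR).red (fwU D)) = 12)
    (halpha : alphaQ D t ∈ (kpS D A hq hA hqR).Ov) (hbeta : betaQ D t ∈ (kpS D A hq hA hqR).Ov)
    (hdelta : regDelta D t ∈ (kpS D A hq hA hqR).Ov)
    (hnp : ∀ Q : Place Qb (modularFunctionFieldBar (D.Q * D.R)),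
      (kpSeed D A hq hA hqR haux).rmap Q = none →
        0 ≤ Q.ord (alphaQ D t) ∧ 0 ≤ Q.ord (betaQ D t))
    (hnode : i₀.1.ord ((kpS D A hq hA hqR).red (regZ D t)) = 1) :
    ((kpSeed D A hq hA hqR haux).s₂ i₀).ord ((kpS D A hq hA hqR).red (regDelta D t)) = -1 := by
  haveI := infinite_residue A
  haveI := fw_nonempty D A hq hA (kpS D A hq hA hqR) (isGaussSetup_gaussSetupBad D hq hqR A hA)
  have h := (regw_coordLoc (haux := haux) i₀ heps halpha hbeta hdelta hnp hnode).ord₂
  have e : (kpSeed D A hq hA hqR haux).S₂.red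
      (regZ D t / algebraMap Qb (modularFunctionFieldBar (D.Q * D.R)) (D.Q : Qb)) =
      (kpS D A hq hA hqR).red (regDelta D t) := by
    show (valSetupZero D (kpS D A hq hA hqR)).red _ = _
    rw [valSetupZero_red, atkinLehner_regZ_div]
  rwa [e] at h

/-- **LOCAL REGULARITY at `P`**: `red_∞ δ` has a simple pole at the supersingular place `P`, for `t̄`
a Frobenius-fixed uniformiser at `P`. -/
theorem regw_pole (P : Place (IsLocalRing.ResidueField A)
      (modularFunctionFieldFullC (IsLocalRing.ResidueField A) D.R))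
    (heps : P.ord ((kpS D A hq hA hqR).red (fwU D)) = 12)
    (halpha : alphaQ D t ∈ (kpS D A hq hA hqR).Ov) (hbeta : betaQ D t ∈ (kpS D A hq hA hqR).Ov)
    (hdelta : regDelta D t ∈ (kpS D A hq hA hqR).Ov)
    (hfrob : (kpS D A hq hA hqR).red (betaQ D t) = (kpS D A hq hA hqR).red (alphaQ D t) ^ D.Q)
    (hnp : ∀ Q : Place Qb (modularFunctionFieldBar (D.Q * D.R)),
      (kpSeed D A hq hA hqR haux).rmap Q = none →
        0 ≤ Q.ord (alphaQ D t) ∧ 0 ≤ Q.ord (betaQ D t))
    (hP : P.ord ((kpS D A hq hA hqR).red (alphaQ D t)) = 1)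
    (hFix : frobAut (IsLocalRing.ResidueField A) D.R D.Q • (kpS D A hq hA hqR).red (alphaQ D t) =
      (kpS D A hq hA hqR).red (alphaQ D t)) :
    P.ord ((kpS D A hq hA hqR).red (regDelta D t)) = -1 := by
  have hss : 0 < P.ord ((kpS D A hq hA hqR).red (fwU D)) := by
    rw [heps]
    norm_num
  set j : kpIota D A hq hA hqR := ⟨P, hss⟩ with hj
  have heps' : (regFrobNode (hqR := hqR) j).1.ord ((kpS D A hq hA hqR).red (fwU D)) = 12 := by
    show (frobAut (IsLocalRing.ResidueField A) D.R D.Q • P).ord _ = 12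
    rw [regw_ord_frob, heps]
  have hFix' : (frobAut (IsLocalRing.ResidueField A) D.R D.Q)⁻¹ •
      (kpS D A hq hA hqR).red (alphaQ D t) = (kpS D A hq hA hqR).red (alphaQ D t) :=
    inv_smul_eq_iff.mpr hFix.symm
  have hP' : (frobAut (IsLocalRing.ResidueField A) D.R D.Q • P).ord
      ((kpS D A hq hA hqR).red (alphaQ D t)) = 1 := by
    have h1 := Fermat.Agent.BadRed.Gluing.sl_ord_smul
      ((frobAut (IsLocalRing.ResidueField A) D.R D.Q)⁻¹) P ((kpS D A hq hA hqR).red (alphaQ D t))
    rw [hFix', inv_inv] at h1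
    rw [← h1]
    exact hP
  have hnode : (regFrobNode (hqR := hqR) j).1.ord ((kpS D A hq hA hqR).red (regZ D t)) = 1 :=
    reg_ord_red_regZ halpha hbeta hfrob _ hP'
  have h := regw_pole_s₂ (haux := haux) (regFrobNode (hqR := hqR) j) heps' halpha hbeta hdelta
    hnp hnode
  rwa [regFrobNode_s₂] at h

/-- **REG, final local form**: for the Kronecker form `Ψ = (X - t^q)(X^q - t) + q R`,
`Ψ^α (β t) = 0`, the reduction of the constant term `R.coeff 0` has a NONZERO value at `P`. -/
theorem regw_final (P : Place (IsLocalRing.ResidueField A)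
      (modularFunctionFieldFullC (IsLocalRing.ResidueField A) D.R))
    (heps : P.ord ((kpS D A hq hA hqR).red (fwU D)) = 12)
    (hnp : ∀ Q : Place Qb (modularFunctionFieldBar (D.Q * D.R)),
      (kpSeed D A hq hA hqR haux).rmap Q = none →
        0 ≤ Q.ord (alphaQ D t) ∧ 0 ≤ Q.ord (betaQ D t))
    (hE : alphaQ D t ∈ (kpS D A hq hA hqR).Ov ∧ betaQ D t ∈ (kpS D A hq hA hqR).Ov ∧
      regDelta D t ∈ (kpS D A hq hA hqR).Ov ∧
      (kpS D A hq hA hqR).red (betaQ D t) = (kpS D A hq hA hqR).red (alphaQ D t) ^ D.Q ∧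
      P.ord ((kpS D A hq hA hqR).red (alphaQ D t)) = 1 ∧
      frobAut (IsLocalRing.ResidueField A) D.R D.Q • (kpS D A hq hA hqR).red (alphaQ D t) =
        (kpS D A hq hA hqR).red (alphaQ D t))
    (R Ψ : Polynomial (modularFunctionFieldBar D.R))
    (hΨ : Ψ = (X - C (t ^ D.Q)) * (X ^ D.Q - C t) +
      C (D.Q : modularFunctionFieldBar D.R) * R)
    (hroot : Ψ.eval₂ (alphaQ D : modularFunctionFieldBar D.R →+*
      modularFunctionFieldBar (D.Q * D.R)) (betaQ D t) = 0)
    (hR : ∀ n, R.coeff n ∈ (modularValSetup A D.Q D.R hq hA hqR).Ov ∧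
      0 ≤ P.ord ((modularValSetup A D.Q D.R hq hA hqR).red (R.coeff n))) :
    ∃ c : IsLocalRing.ResidueField A, c ≠ 0 ∧
      ValAt P ((modularValSetup A D.Q D.R hq hA hqR).red (R.coeff 0)) c := by
  obtain ⟨halpha, hbeta, hdelta, hfrob, hP, hFix⟩ := hE
  have hpole := regw_pole (haux := haux) P heps halpha hbeta hdelta hfrob hnp hP hFix
  exact reg_kc_final halpha hbeta hdelta hfrob P hP hpole R Ψ hΨ hroot (fun n => (hR n).1)
    (fun n => (hR n).2)

end Fermat.Agent.S36G
end
end MergeWrap_S36_HPVal_RegWire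

section MergeWrap_S36_HPVal_RegR -- from S36/HPVal/RegR.lean

set_option autoImplicit false
set_option linter.style.haveILetI false
set_option linter.unusedSectionVars false
set_option linter.unusedVariables false
set_option synthInstance.maxHeartbeats 400000

noncomputable section
attribute [local instance 10000] SubalgebraClass.toAlgebra HahnSeries.powerSeriesAlgebra

namespace Fermat.Agent.S36G

open ModularCurve AlgebraicCurve Fermat.Agent.GaussInt Fermat.Agent.Deuring Fermat.Agent.AtkinLehner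
  Fermat.Agent.BadRed Fermat.Agent.HPVal Polynomial

local notation "Qb" => AlgebraicClosure ℚ

section General

variable (A : ValuationSubring Qb) (q M : ℕ) [NeZero M] [NeZero q]
  (hq : q.Prime) (hA : A.LiesOverPrime q) (hqM : ¬ q ∣ M)
  (hg : genusFF Qb (modularFunctionFieldBar M) =
    genusFF (IsLocalRing.ResidueField A)
      (modularFunctionFieldFullC (IsLocalRing.ResidueField A) M))
  {P : Place (IsLocalRing.ResidueField A)
    (modularFunctionFieldFullC (IsLocalRing.ResidueField A) M)}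
  {t0 : LaurentSeries ℚ}

/-- the coefficients of `R_t` are Gauss-integral (the form with `wpdT`). -/
theorem regR_mem_Ov (hT : ExTDatum A q M hq hA hqM P t0) (n : ℕ) :
    (Fermat.Agent.S36.kctR M hq hqM (wpdT M t0 hT.mem)).coeff n ∈
      (modularValSetup A q M hq hA hqM).Ov :=
  Fermat.Agent.S36.kctR_coeff_mem_rat M hq A hA hqM t0 hT.int (wpdT M t0 hT.mem).2 n

/-- the coefficients of `R_t` have poles only at the poles of `j`. -/
theorem regR_poles (hT : ExTDatum A q M hq hA hqM P t0) (n : ℕ)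
    (v : Place Qb (modularFunctionFieldBar M)) (hv : 0 ≤ v.ord (Fermat.Agent.S24.jBar M)) :
    0 ≤ v.ord ((Fermat.Agent.S36.kctR M hq hqM (wpdT M t0 hT.mem)).coeff n) :=
  Fermat.Agent.S36.kcp_kctR_coeff M hq hqM (wpdT M t0 hT.mem)
    (hT.poles (wpdT M t0 hT.mem).2) v hv n

/-- **the coefficients of `R_t` lie in `R_P`**, for every non-cuspidal place `P`. -/
theorem regR_mem_discRing (hT : ExTDatum A q M hq hA hqM P t0)
    {P' : Place (IsLocalRing.ResidueField A)
      (modularFunctionFieldFullC (IsLocalRing.ResidueField A) M)}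
    (hP' : 0 ≤ P'.ord (Fermat.Agent.RRMod.jC (IsLocalRing.ResidueField A) M)) (n : ℕ) :
    (Fermat.Agent.S36.kctR M hq hqM (wpdT M t0 hT.mem)).coeff n ∈
      discRing (wpdSetup A q M hq hA hqM hg) P' :=
  wpd_mem_discRing A q M hq hA hqM hg (regR_mem_Ov A q M hq hA hqM hT n)
    (regR_poles A q M hq hA hqM hT n) hP'

/-- the same for `Ψ_t` itself. -/
theorem regPsi_poles (hT : ExTDatum A q M hq hA hqM P t0) (n : ℕ)
    (v : Place Qb (modularFunctionFieldBar M)) (hv : 0 ≤ v.ord (Fermat.Agent.S24.jBar M)) :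
    0 ≤ v.ord ((Fermat.Agent.S36.kctPsi M hq hqM (wpdT M t0 hT.mem)).coeff n) :=
  Fermat.Agent.S36.kcp_kctPsi_coeff M hq hqM (wpdT M t0 hT.mem)
    (hT.poles (wpdT M t0 hT.mem).2) v hv n

end General

section Kp

variable (D : ALData) [NeZero D.Q] [NeZero D.R]
  (A : ValuationSubring Qb) (hq : D.Q.Prime) (hA : A.LiesOverPrime D.Q) (hqR : ¬ D.Q ∣ D.R)
  {P : Place (IsLocalRing.ResidueField A)
    (modularFunctionFieldFullC (IsLocalRing.ResidueField A) D.R)}
  {t0 : LaurentSeries ℚ}

/-- **RegR** (shape of helper89's `RegWire.lean`): the coefficients of `R_t` are Gauss-integral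
and their reductions are regular at the non-cuspidal place `P`. -/
theorem regR
    (hg : genusFF Qb (modularFunctionFieldBar D.R) =
      genusFF (IsLocalRing.ResidueField A)
        (modularFunctionFieldFullC (IsLocalRing.ResidueField A) D.R))
    (hT : ExTDatum A D.Q D.R hq hA hqR P t0)
    (hP : 0 ≤ P.ord (Fermat.Agent.RRMod.jC (IsLocalRing.ResidueField A) D.R)) (n : ℕ) :
    (Fermat.Agent.S36.kctR D.R hq hqR (wpdT D.R t0 hT.mem)).coeff n ∈
        (modularValSetup A D.Q D.R hq hA hqR).Ov ∧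
    0 ≤ P.ord ((modularValSetup A D.Q D.R hq hA hqR).red
      ((Fermat.Agent.S36.kctR D.R hq hqR (wpdT D.R t0 hT.mem)).coeff n)) := by
  refine ⟨regR_mem_Ov A D.Q D.R hq hA hqR hT n, ?_⟩
  have h := ord_red_nonneg_of_mem (regR_mem_discRing A D.Q D.R hq hA hqR hg hT hP n)
  rw [wpdSetup_red] at h
  exact h

end Kp

end Fermat.Agent.S36G
end
end MergeWrap_S36_HPVal_RegR

section MergeWrap_S36_HPVal_RegRoot -- from S36/HPVal/RegRoot.lean

set_option autoImplicit false
set_option linter.style.haveILetI false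
set_option linter.unusedSectionVars false
set_option linter.unusedVariables false
set_option synthInstance.maxHeartbeats 400000

noncomputable section
attribute [local instance 10000] SubalgebraClass.toAlgebra HahnSeries.powerSeriesAlgebra

namespace Fermat.Agent.S36G

open ModularCurve AlgebraicCurve Fermat.Agent.GaussInt Fermat.Agent.AtkinLehner Polynomial

local notation "Qb" => AlgebraicClosure ℚ

section RegRoot

/-- the coercion to `q`-expansions of a finite sum. -/
theorem regRoot_coe_sum (N : ℕ) [NeZero N] (s : Finset ℕ) (f : ℕ → modularFunctionFieldBar N) :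
    ((∑ i ∈ s, f i : modularFunctionFieldBar N) : LaurentSeries Qb) =
      ∑ i ∈ s, (f i : LaurentSeries Qb) := by
  classical
  induction s using Finset.induction_on with
  | empty => simp
  | insert a s ha ih =>
    rw [Finset.sum_insert ha, Finset.sum_insert ha, ← ih]
    rfl

variable (D : ALData) [NeZero D.Q] [NeZero D.R] [NeZero (D.Q * D.R)]

/-- the `q`-expansion of `p ^ α (x)`, `α = alphaQ D`. -/
theorem regRoot_coe_alphaQ (p : Polynomial (modularFunctionFieldBar D.R))
    (x : modularFunctionFieldBar (D.Q * D.R)) :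
    ((p.eval₂ (alphaQ D : modularFunctionFieldBar D.R →+*
        modularFunctionFieldBar (D.Q * D.R)) x : modularFunctionFieldBar (D.Q * D.R)) :
      LaurentSeries Qb) =
    ∑ i ∈ Finset.range (p.natDegree + 1),
      ((p.coeff i : modularFunctionFieldBar D.R) : LaurentSeries Qb) *
        (x : LaurentSeries Qb) ^ i := by
  rw [Polynomial.eval₂_eq_sum_range, regRoot_coe_sum]
  refine Finset.sum_congr rfl fun i _ => ?_
  have h : ((alphaQ D : modularFunctionFieldBar D.R →+*
        modularFunctionFieldBar (D.Q * D.R)) (p.coeff i)) = alphaQ D (p.coeff i) := rfl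
  rw [h]
  have h2 : ((alphaQ D (p.coeff i) * x ^ i : modularFunctionFieldBar (D.Q * D.R)) :
      LaurentSeries Qb) = ((alphaQ D (p.coeff i) : modularFunctionFieldBar (D.Q * D.R)) :
      LaurentSeries Qb) * (x : LaurentSeries Qb) ^ i := rfl
  rw [h2, coe_alphaQ]

/-- the `q`-expansion of `p ^ α (y)`, `α = heckeAlphaBar`. -/
theorem regRoot_coe_heckeAlpha (p : Polynomial (modularFunctionFieldBar D.R))
    (y : modularFunctionFieldBar (D.R * D.Q)) :
    ((p.eval₂ (heckeAlphaBar Qb D.R D.Q : modularFunctionFieldBar D.R →+*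
        modularFunctionFieldBar (D.R * D.Q)) y : modularFunctionFieldBar (D.R * D.Q)) :
      LaurentSeries Qb) =
    ∑ i ∈ Finset.range (p.natDegree + 1),
      ((p.coeff i : modularFunctionFieldBar D.R) : LaurentSeries Qb) *
        (y : LaurentSeries Qb) ^ i := by
  rw [Polynomial.eval₂_eq_sum_range, regRoot_coe_sum]
  refine Finset.sum_congr rfl fun i _ => ?_
  have h : ((heckeAlphaBar Qb D.R D.Q : modularFunctionFieldBar D.R →+*
        modularFunctionFieldBar (D.R * D.Q)) (p.coeff i)) =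
      heckeAlphaBar Qb D.R D.Q (p.coeff i) := rfl
  rw [h]
  have h2 : ((heckeAlphaBar Qb D.R D.Q (p.coeff i) * y ^ i :
      modularFunctionFieldBar (D.R * D.Q)) : LaurentSeries Qb) =
      ((heckeAlphaBar Qb D.R D.Q (p.coeff i) : modularFunctionFieldBar (D.R * D.Q)) :
      LaurentSeries Qb) * (y : LaurentSeries Qb) ^ i := rfl
  rw [h2, coe_heckeAlphaBar]

/-- evaluation of a polynomial over `F_R` at a function of level `Q R` along `alphaQ`, resp. at a
function of level `R Q` along `heckeAlphaBar`: the same `q`-expansion. -/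
theorem regRoot_coe_eval₂ (p : Polynomial (modularFunctionFieldBar D.R))
    (x : modularFunctionFieldBar (D.Q * D.R)) (y : modularFunctionFieldBar (D.R * D.Q))
    (hxy : (x : LaurentSeries Qb) = (y : LaurentSeries Qb)) :
    ((p.eval₂ (alphaQ D : modularFunctionFieldBar D.R →+*
        modularFunctionFieldBar (D.Q * D.R)) x : modularFunctionFieldBar (D.Q * D.R)) :
      LaurentSeries Qb) =
    ((p.eval₂ (heckeAlphaBar Qb D.R D.Q : modularFunctionFieldBar D.R →+*
        modularFunctionFieldBar (D.R * D.Q)) y : modularFunctionFieldBar (D.R * D.Q)) :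
      LaurentSeries Qb) := by
  rw [regRoot_coe_alphaQ, regRoot_coe_heckeAlpha, hxy]

/-- the same for `x = betaQ D t`, `y = heckeBetaBar t`. -/
theorem regRoot_R (p : Polynomial (modularFunctionFieldBar D.R))
    (t : modularFunctionFieldBar D.R) :
    ((p.eval₂ (alphaQ D : modularFunctionFieldBar D.R →+*
        modularFunctionFieldBar (D.Q * D.R)) (betaQ D t) : modularFunctionFieldBar (D.Q * D.R)) :
      LaurentSeries Qb) =
    ((p.eval₂ (heckeAlphaBar Qb D.R D.Q : modularFunctionFieldBar D.R →+*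
        modularFunctionFieldBar (D.R * D.Q)) (heckeBetaBar Qb D.R D.Q t) :
        modularFunctionFieldBar (D.R * D.Q)) : LaurentSeries Qb) :=
  regRoot_coe_eval₂ D p _ _ (coe_betaQ_eq_heckeBetaBar D t)

variable (hq : D.Q.Prime) (hqR : ¬ D.Q ∣ D.R)

/-- **`β t` is a root of `Ψ_t`** (coefficients through `α`), in the language of cluster T. -/
theorem regRoot (t : modularFunctionFieldBar D.R) :
    (Fermat.Agent.S36.kctPsi D.R hq hqR t).eval₂
      (alphaQ D : modularFunctionFieldBar D.R →+* modularFunctionFieldBar (D.Q * D.R))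
      (betaQ D t) = 0 := by
  have h0 : (((0 : modularFunctionFieldBar (D.R * D.Q)) : LaurentSeries Qb)) = 0 := rfl
  have h0' : (((0 : modularFunctionFieldBar (D.Q * D.R)) : LaurentSeries Qb)) = 0 := rfl
  apply Subtype.ext
  rw [regRoot_R D _ t, Fermat.Agent.S36.kctPsi_root D.R hq hqR t, h0, h0']

/-- **the Kronecker form** `Ψ_t = (X - t ^ q) (X ^ q - t) + q R_t`. -/
theorem regRoot_eq (t : modularFunctionFieldBar D.R) :
    Fermat.Agent.S36.kctPsi D.R hq hqR t =
      (X - C (t ^ D.Q)) * (X ^ D.Q - C t) +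
        C (D.Q : modularFunctionFieldBar D.R) * Fermat.Agent.S36.kctR D.R hq hqR t :=
  Fermat.Agent.S36.kctPsi_eq D.R hq hqR t

end RegRoot

end Fermat.Agent.S36G
end
end MergeWrap_S36_HPVal_RegRoot

section MergeWrap_S36_HPVal_RegFinal -- from S36/HPVal/RegFinal.lean

set_option autoImplicit false
set_option linter.style.haveILetI false
set_option linter.unusedSectionVars false
set_option linter.unusedVariables false
set_option synthInstance.maxHeartbeats 400000
set_option maxHeartbeats 2000000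

noncomputable section
attribute [local instance 10000] SubalgebraClass.toAlgebra HahnSeries.powerSeriesAlgebra

namespace Fermat.Agent.S36G

open IntermediateField ModularCurve AlgebraicCurve Fermat.Agent.F3 Fermat.Agent.F3G
  Fermat.Agent.GaussInt Fermat.Agent.AtkinLehner Fermat.Agent.Deuring Fermat.Agent.RR
  Fermat.Agent.BadRed Fermat.Agent.EKp Fermat.Agent.PeuD Polynomial

local notation "Qb" => AlgebraicClosure ℚ

attribute [local instance] Fermat.Agent.BadRed.fwFintype

variable (D : ALData) [NeZero D.Q] [NeZero D.R] [NeZero (D.Q * D.R)]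
  (A : ValuationSubring Qb) (hq : D.Q.Prime) (hA : A.LiesOverPrime D.Q) (hqR : ¬ D.Q ∣ D.R)
  [Fact D.Q.Prime] [CharP (IsLocalRing.ResidueField A) D.Q]
  [PerfectRing (IsLocalRing.ResidueField A) D.Q]
  {P : Place (IsLocalRing.ResidueField A)
    (modularFunctionFieldFullC (IsLocalRing.ResidueField A) D.R)}
  {t0 : LaurentSeries ℚ}

/-- the datum of EX_t has a Frobenius-stable integral expansion. -/
theorem regf_isFrobInt (hT : ExTDatum A D.Q D.R hq hA hqR P t0) :
    Fermat.Agent.S36RegN.IsFrobInt D A (wpdT D.R t0 hT.mem)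
      (Fermat.Agent.S36.kctLift A t0 hT.int) :=
  ⟨Fermat.Agent.S36.emb_kctLift A t0 hT.int,
    Fermat.Agent.S36.kct_frobStable_rat A hq hA t0 hT.int⟩

/-- the integrality and Frobenius inputs of `regw_final`, from EX_t. -/
theorem regf_exT (hT : ExTDatum A D.Q D.R hq hA hqR P t0) :
    alphaQ D (wpdT D.R t0 hT.mem) ∈ (kpS D A hq hA hqR).Ov ∧
    betaQ D (wpdT D.R t0 hT.mem) ∈ (kpS D A hq hA hqR).Ov ∧
    regDelta D (wpdT D.R t0 hT.mem) ∈ (kpS D A hq hA hqR).Ov ∧
    (kpS D A hq hA hqR).red (betaQ D (wpdT D.R t0 hT.mem)) =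
      (kpS D A hq hA hqR).red (alphaQ D (wpdT D.R t0 hT.mem)) ^ D.Q ∧
    P.ord ((kpS D A hq hA hqR).red (alphaQ D (wpdT D.R t0 hT.mem))) = 1 ∧
    frobAut (IsLocalRing.ResidueField A) D.R D.Q •
        (kpS D A hq hA hqR).red (alphaQ D (wpdT D.R t0 hT.mem)) =
      (kpS D A hq hA hqR).red (alphaQ D (wpdT D.R t0 hT.mem)) := by
  have hS := isGaussSetup_gaussSetupBad D hq hqR A hA
  have h := regf_isFrobInt D A hq hA hqR hT
  refine ⟨h.alpha_mem hS, h.beta_mem hS, h.delta_mem hS hA, h.red_beta hS, ?_, ?_⟩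
  · have hmem : wpdT D.R t0 hT.mem ∈ (modularValSetup A D.Q D.R hq hA hqR).Ov := hT.mem_Ov _
    rw [red_alphaQ D A hq hA hqR (kpS D A hq hA hqR) hS (wpdT D.R t0 hT.mem) hmem]
    exact hT.unif _
  · apply Subtype.ext
    rw [coe_frobAut_smul]
    exact h.coeffMap_frobenius_red_alpha hS

/-- **REG, final form** (thickness `12` at `P`). -/
theorem reg_final (haux : AuxLevelOK D.Q D.R)
    (hg : genusFF Qb (modularFunctionFieldBar D.R) =
      genusFF (IsLocalRing.ResidueField A)
        (modularFunctionFieldFullC (IsLocalRing.ResidueField A) D.R))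
    (hT : ExTDatum A D.Q D.R hq hA hqR P t0)
    (heps : P.ord ((kpS D A hq hA hqR).red (fwU D)) = 12) :
    ∃ c : IsLocalRing.ResidueField A, c ≠ 0 ∧
      ValAt P ((modularValSetup A D.Q D.R hq hA hqR).red
        ((Fermat.Agent.S36.kctR D.R hq hqR (wpdT D.R t0 hT.mem)).coeff 0)) c := by
  have hS := isGaussSetup_gaussSetupBad D hq hqR A hA
  have hss : IsSSPlace (IsLocalRing.ResidueField A) D.R D.Q P :=
    ⟨_, fw_coe_red_uF D A hq hA (kpS D A hq hA hqR) hS, by rw [heps]; norm_num⟩
  have hP := seedOld_ord_jC_nonneg D.R hq hA hss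
  exact regw_final (haux := haux) P heps
    (fun Q hQ => reg_noPole D A hq hA hqR haux _ (hT.poles _) Q hQ)
    (regf_exT D A hq hA hqR hT) _ _ (regRoot_eq D hq hqR _) (regRoot D hq hqR _)
    (fun n => regR D A hq hA hqR hg hT hP n)

/-- **REG, final form** at a supersingular place, with the thickness in the shape of `hno`. -/
theorem reg_final_ss (haux : AuxLevelOK D.Q D.R)
    (hg : genusFF Qb (modularFunctionFieldBar D.R) =
      genusFF (IsLocalRing.ResidueField A)
        (modularFunctionFieldFullC (IsLocalRing.ResidueField A) D.R))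
    (hT : ExTDatum A D.Q D.R hq hA hqR P t0)
    (hno : ∀ u : modularFunctionFieldFullC (IsLocalRing.ResidueField A) D.R,
      (u : LaurentSeries (IsLocalRing.ResidueField A)) = ssFun (IsLocalRing.ResidueField A) D.Q →
        P.ord u = 12) :
    ∃ c : IsLocalRing.ResidueField A, c ≠ 0 ∧
      ValAt P ((modularValSetup A D.Q D.R hq hA hqR).red
        ((Fermat.Agent.S36.kctR D.R hq hqR (wpdT D.R t0 hT.mem)).coeff 0)) c :=
  reg_final D A hq hA hqR haux hg hT
    (hno _ (fw_coe_red_uF D A hq hA (kpS D A hq hA hqR)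
      (isGaussSetup_gaussSetupBad D hq hqR A hA)))

end Fermat.Agent.S36G
end
end MergeWrap_S36_HPVal_RegFinal

section MergeWrap_S36_HPVal_Reg23 -- from S36/HPVal/Reg23.lean

set_option autoImplicit false
set_option linter.style.haveILetI false
set_option linter.unusedSectionVars false
set_option synthInstance.maxHeartbeats 400000
set_option maxHeartbeats 1000000

noncomputable section
attribute [local instance 10000] SubalgebraClass.toAlgebra HahnSeries.powerSeriesAlgebra

namespace Fermat.Agent.S36G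

open IntermediateField ModularCurve AlgebraicCurve Fermat.Agent.AtkinLehner Fermat.Agent.Deuring
  Fermat.Agent.RR Fermat.Agent.BadRed Fermat.Agent.EKp Fermat.Agent.R38

local notation "Qb" => AlgebraicClosure ℚ

attribute [local instance] Fermat.Agent.BadRed.fwFintype

variable (D : ALData) [NeZero D.Q] [NeZero D.R] [NeZero (D.Q * D.R)]
  (A : ValuationSubring Qb) (hq : D.Q.Prime) (hA : A.LiesOverPrime D.Q) (hqR : ¬ D.Q ∣ D.R)
  [Fact D.Q.Prime] [CharP (IsLocalRing.ResidueField A) D.Q]
  [PerfectRing (IsLocalRing.ResidueField A) D.Q]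

/-- **REG-23, place form**: `ord_P ū = 12` at every zero `P` of `ū` (`q = 2, 3`). -/
theorem reg23_ord_red_u (hq23 : D.Q = 2 ∨ D.Q = 3)
    (h2 : D.Q = 2 → 3 ∣ D.R) (h3 : D.Q = 3 → 2 ∣ D.R)
    (hν2 : D.Q = 3 → nuTwo D.R = 0) (hν3 : D.Q = 2 → nuThree D.R = 0)
    (P : Place (IsLocalRing.ResidueField A)
      (modularFunctionFieldFullC (IsLocalRing.ResidueField A) D.R))
    (hP : 0 < P.ord ((kpS D A hq hA hqR).red (fwU D))) :
    P.ord ((kpS D A hq hA hqR).red (fwU D)) = 12 := by
  have hred := fw_coe_red_uF D A hq hA (kpS D A hq hA hqR)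
    (isGaussSetup_gaussSetupBad D hq hqR A hA)
  exact hno23_ord_ssFun D.R hq23 hqR h2 h3 hν2 hν3 hA P _ hred hP

/-- **REG-23**: the multiplicity of every node is `12` at `q = 2, 3`. -/
theorem reg23_kpEps_eq_twelve (hq23 : D.Q = 2 ∨ D.Q = 3)
    (h2 : D.Q = 2 → 3 ∣ D.R) (h3 : D.Q = 3 → 2 ∣ D.R)
    (hν2 : D.Q = 3 → nuTwo D.R = 0) (hν3 : D.Q = 2 → nuThree D.R = 0)
    (i : kpIota D A hq hA hqR) : kpEps D A hq hA hqR i = 12 := by
  have h12 := reg23_ord_red_u D A hq hA hqR hq23 h2 h3 hν2 hν3 i.1 i.2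
  have hc := kpEps_cast D A hq hA hqR i
  have hZ : ((kpEps D A hq hA hqR i : ℕ) : ℤ) = 12 := by
    rw [hc]
    exact h12
  exact_mod_cast hZ

/-- **REG-23**, with the auxiliary-level hypothesis `AuxLevelOK`. -/
theorem reg23_kpEps_eq_twelve' (hq23 : D.Q = 2 ∨ D.Q = 3) (haux : AuxLevelOK D.Q D.R)
    (hν2 : nuTwo D.R = 0) (hν3 : nuThree D.R = 0)
    (i : kpIota D A hq hA hqR) : kpEps D A hq hA hqR i = 12 :=
  reg23_kpEps_eq_twelve D A hq hA hqR hq23 haux.1 haux.2 (fun _ => hν2) (fun _ => hν3) i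

/-- a prime is `2`, `3` or `≥ 5`. -/
theorem reg23_prime_cases {q : ℕ} (hq : q.Prime) : (q = 2 ∨ q = 3) ∨ 5 ≤ q := by
  rcases Nat.lt_or_ge q 5 with h | h
  · left
    have h2 := hq.two_le
    interval_cases q
    · exact Or.inl rfl
    · exact Or.inr rfl
    · exact absurd hq (by decide)
  · exact Or.inr h

/-- **REG, all primes**: the multiplicity of every node of `X₀(q R)` mod `q` is `12`
(`AuxLevelOK q R`, `ν₂(R) = ν₃(R) = 0`). -/
theorem reg_kpEps_eq_twelve (haux : AuxLevelOK D.Q D.R)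
    (hν2 : nuTwo D.R = 0) (hν3 : nuThree D.R = 0)
    (i : kpIota D A hq hA hqR) : kpEps D A hq hA hqR i = 12 := by
  rcases reg23_prime_cases hq with h23 | h5
  · exact reg23_kpEps_eq_twelve' D A hq hA hqR h23 haux hν2 hν3 i
  · exact r38_kpEps_eq_twelve D A hq hA hqR h5 hν2 hν3 i

/-- **REG, all primes, place form**: `ord_P ū = 12` at every zero `P` of `ū`. -/
theorem reg_ord_red_u (haux : AuxLevelOK D.Q D.R)
    (hν2 : nuTwo D.R = 0) (hν3 : nuThree D.R = 0)
    (P : Place (IsLocalRing.ResidueField A)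
      (modularFunctionFieldFullC (IsLocalRing.ResidueField A) D.R))
    (hP : 0 < P.ord ((kpS D A hq hA hqR).red (fwU D))) :
    P.ord ((kpS D A hq hA hqR).red (fwU D)) = 12 := by
  have h12 := reg_kpEps_eq_twelve D A hq hA hqR haux hν2 hν3 ⟨P, hP⟩
  have hc := kpEps_cast D A hq hA hqR ⟨P, hP⟩
  have hc' : ((kpEps D A hq hA hqR ⟨P, hP⟩ : ℕ) : ℤ) =
      P.ord ((kpS D A hq hA hqR).red (fwU D)) := hc
  rw [← hc', h12]
  rfl

/-- the multiplicity of a node is positive. -/
theorem reg_kpEps_pos (haux : AuxLevelOK D.Q D.R)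
    (hν2 : nuTwo D.R = 0) (hν3 : nuThree D.R = 0)
    (i : kpIota D A hq hA hqR) : 0 < kpEps D A hq hA hqR i := by
  rw [reg_kpEps_eq_twelve D A hq hA hqR haux hν2 hν3 i]
  norm_num

end Fermat.Agent.S36G
end
end MergeWrap_S36_HPVal_Reg23

section MergeWrap_S36_HPVal_RegBridge -- from S36/HPVal/RegBridge.lean

set_option autoImplicit false
set_option linter.style.haveILetI false
set_option linter.unusedSectionVars false
set_option linter.unusedVariables false
set_option synthInstance.maxHeartbeats 400000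

noncomputable section
attribute [local instance 10000] SubalgebraClass.toAlgebra HahnSeries.powerSeriesAlgebra

namespace Fermat.Agent.S36G

open ModularCurve AlgebraicCurve Fermat.Agent.Deuring Fermat.Agent.GaussInt Fermat.Agent.FF
  Fermat.Agent.HPVal Fermat.Agent.S18Key Fermat.Agent.RR Fermat.Agent.BadRed

local notation "Qb" => AlgebraicClosure ℚ

/-! ### abstract part: values and the evaluation of the disc ring -/

section Abs

variable {K F k Fk : Type*} [Field K] [Field F] [Algebra K F] [Field k] [Field Fk] [Algebra k Fk]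
  {S : RedSetup K F k Fk} {P : Place k Fk}

/-- the reduction of a function of `R_P` lies in the valuation ring of `P`. -/
theorem rbr_red_mem (g : discRing S P) : S.red (g : F) ∈ P.toValuationSubring :=
  Fermat.Agent.S24Res.mem_of_ord_nonneg P (ord_red_nonneg_of_mem g.2)

/-- the evaluation is a value of the reduction. -/
theorem rbr_valAt_discEv (hFk : IsRRField k Fk) (g : discRing S P) :
    ValAt P (S.red (g : F)) (discEv S P hFk g) := by
  rw [discEv_apply]
  exact valueAt_spec hFk P (rbr_red_mem g)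

/-- **a value of the reduction is the evaluation.** -/
theorem rbr_discEv_eq_of_valAt (hFk : IsRRField k Fk) (g : discRing S P) {c : k}
    (h : ValAt P (S.red (g : F)) c) : discEv S P hFk g = c := by
  rw [discEv_apply]
  exact (valueAt_eq_iff hFk P (rbr_red_mem g) c).mpr h

/-- a nonzero value of the reduction gives a nonzero evaluation. -/
theorem rbr_discEv_ne_zero_of_valAt (hFk : IsRRField k Fk) (g : discRing S P) {c : k}
    (hc : c ≠ 0) (h : ValAt P (S.red (g : F)) c) : discEv S P hFk g ≠ 0 := by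
  rw [rbr_discEv_eq_of_valAt hFk g h]
  exact hc

end Abs

/-! ### modular part: Gauss reduction packages -/

section Mod

variable {A : ValuationSubring Qb} {q M : ℕ} [NeZero M]
  {S0 : RedSetup Qb (modularFunctionFieldBar M) (IsLocalRing.ResidueField A)
    ↥(modularFunctionFieldFullC (IsLocalRing.ResidueField A) M)}
  {P : Place (IsLocalRing.ResidueField A)
    ↥(modularFunctionFieldFullC (IsLocalRing.ResidueField A) M)}

/-- **REG-BRIDGE, value form**: a value of the `modularValSetup`-reduction of `r ∈ R_P` is the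
evaluation `discEv S0 P r`, for every Gauss reduction package `S0`. -/
theorem rbr_discEv_eq (hS : IsGaussRed M A S0) (hq : q.Prime) (hA : A.LiesOverPrime q)
    (hqM : ¬ q ∣ M)
    (hFk : IsRRField (IsLocalRing.ResidueField A)
      ↥(modularFunctionFieldFullC (IsLocalRing.ResidueField A) M))
    {r : modularFunctionFieldBar M} (hr : r ∈ discRing S0 P) {c : IsLocalRing.ResidueField A}
    (h : ValAt P ((modularValSetup A q M hq hA hqM).red r) c) :
    discEv S0 P hFk ⟨r, hr⟩ = c := by
  apply rbr_discEv_eq_of_valAt hFk ⟨r, hr⟩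
  show ValAt P (S0.red r) c
  rw [hS.red_eq hq hA hqM r]
  exact h

/-- **REG-BRIDGE**: a NONZERO value of the `modularValSetup`-reduction of `r ∈ R_P` gives
`discEv S0 P r ≠ 0`. -/
theorem rbr_discEv_ne_zero (hS : IsGaussRed M A S0) (hq : q.Prime) (hA : A.LiesOverPrime q)
    (hqM : ¬ q ∣ M)
    (hFk : IsRRField (IsLocalRing.ResidueField A)
      ↥(modularFunctionFieldFullC (IsLocalRing.ResidueField A) M))
    {r : modularFunctionFieldBar M} (hr : r ∈ discRing S0 P)
    (h : ∃ c : IsLocalRing.ResidueField A, c ≠ 0 ∧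
      ValAt P ((modularValSetup A q M hq hA hqM).red r) c) :
    discEv S0 P hFk ⟨r, hr⟩ ≠ 0 := by
  obtain ⟨c, hc, hv⟩ := h
  rw [rbr_discEv_eq hS hq hA hqM hFk hr hv]
  exact hc

/-- the converse direction: the evaluation is a value of the `modularValSetup`-reduction. -/
theorem rbr_valAt_modular (hS : IsGaussRed M A S0) (hq : q.Prime) (hA : A.LiesOverPrime q)
    (hqM : ¬ q ∣ M)
    (hFk : IsRRField (IsLocalRing.ResidueField A)
      ↥(modularFunctionFieldFullC (IsLocalRing.ResidueField A) M))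
    {r : modularFunctionFieldBar M} (hr : r ∈ discRing S0 P) :
    ValAt P ((modularValSetup A q M hq hA hqM).red r) (discEv S0 P hFk ⟨r, hr⟩) := by
  rw [← hS.red_eq hq hA hqM r]
  exact rbr_valAt_discEv hFk ⟨r, hr⟩

variable [NeZero q]

/-- **REG-BRIDGE for the Kronecker remainder, value form** (`ρ_R0` of `CoreModIn`). -/
theorem rbr_kctR_eq (hS : IsGaussRed M A S0) (hq : q.Prime) (hA : A.LiesOverPrime q)
    (hqM : ¬ q ∣ M)
    (hFk : IsRRField (IsLocalRing.ResidueField A)
      ↥(modularFunctionFieldFullC (IsLocalRing.ResidueField A) M))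
    (t : modularFunctionFieldBar M)
    (hR0 : (Fermat.Agent.S36.kctR M hq hqM t).coeff 0 ∈ discRing S0 P)
    {c : IsLocalRing.ResidueField A}
    (h : ValAt P ((modularValSetup A q M hq hA hqM).red
      ((Fermat.Agent.S36.kctR M hq hqM t).coeff 0)) c) :
    discEv S0 P hFk ⟨(Fermat.Agent.S36.kctR M hq hqM t).coeff 0, hR0⟩ = c :=
  rbr_discEv_eq hS hq hA hqM hFk hR0 h

/-- **REG-BRIDGE for the Kronecker remainder** (`c_ne` of `CoreModIn`): the conclusion of REG
(`reg_kc_final` / `reg_final`) gives `c₀ = (r̄₀)(P) ≠ 0`. -/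
theorem rbr_kctR_ne_zero (hS : IsGaussRed M A S0) (hq : q.Prime) (hA : A.LiesOverPrime q)
    (hqM : ¬ q ∣ M)
    (hFk : IsRRField (IsLocalRing.ResidueField A)
      ↥(modularFunctionFieldFullC (IsLocalRing.ResidueField A) M))
    (t : modularFunctionFieldBar M)
    (hR0 : (Fermat.Agent.S36.kctR M hq hqM t).coeff 0 ∈ discRing S0 P)
    (h : ∃ c : IsLocalRing.ResidueField A, c ≠ 0 ∧
      ValAt P ((modularValSetup A q M hq hA hqM).red
        ((Fermat.Agent.S36.kctR M hq hqM t).coeff 0)) c) :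
    discEv S0 P hFk ⟨(Fermat.Agent.S36.kctR M hq hqM t).coeff 0, hR0⟩ ≠ 0 :=
  rbr_discEv_ne_zero hS hq hA hqM hFk hR0 h

end Mod

end Fermat.Agent.S36G
end
end MergeWrap_S36_HPVal_RegBridge

section MergeWrap_S36_HPVal_CoreModFinal -- from S36/HPVal/CoreModFinal.lean

set_option autoImplicit false
set_option linter.style.haveILetI false
set_option linter.unusedSectionVars false
set_option linter.unusedVariables false
set_option synthInstance.maxHeartbeats 400000

noncomputable section

namespace Fermat.Agent.S36G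

open ModularCurve AlgebraicCurve Fermat.Agent.F3 Fermat.Agent.F3G Fermat.Agent.GaussInt
  Fermat.Agent.Deuring Fermat.Agent.BadRed Fermat.Agent.HPVal Fermat.Agent.S18Key
  Fermat.Agent.RR Fermat.Agent.S36

local notation "Qb" => AlgebraicClosure ℚ

attribute [local instance 10000] SubalgebraClass.toAlgebra HahnSeries.powerSeriesAlgebra

section Final

variable (M₀ q : ℕ) [NeZero M₀] [NeZero q]

/-- **(REG) at every supersingular place**, in the `(M₀, q)` language: the reduction of the
constant term of the Kronecker remainder `R_t` has a NONZERO value at `P'`, for every datum `t`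
of EX_t at `P'`. -/
def WPRegAt : Prop :=
  ∀ (hq : q.Prime) (hqM : ¬ q ∣ M₀) (A : ValuationSubring Qb) (hA : A.LiesOverPrime q)
    (hg : genusFF Qb (modularFunctionFieldBar M₀) =
      genusFF (IsLocalRing.ResidueField A)
        (modularFunctionFieldFullC (IsLocalRing.ResidueField A) M₀))
    [Fact q.Prime] [CharP (IsLocalRing.ResidueField A) q]
    [PerfectRing (IsLocalRing.ResidueField A) q]
    (P' : Place (IsLocalRing.ResidueField A)
      ↥(modularFunctionFieldFullC (IsLocalRing.ResidueField A) M₀)),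
    IsSSPlace (IsLocalRing.ResidueField A) M₀ q P' →
    ∀ (t0 : LaurentSeries ℚ) (E : ExTDatum A q M₀ hq hA hqM P' t0),
      ∃ c : IsLocalRing.ResidueField A, c ≠ 0 ∧
        ValAt P' ((modularValSetup A q M₀ hq hA hqM).red
          ((kctR M₀ hq hqM (wpdT M₀ t0 E.mem)).coeff 0)) c

variable {M₀ q}

/-- **the bundle at one supersingular centre `P'`** from the REG value at `P'`. -/
theorem wpCoreMod_at (hq : q.Prime) (hqM : ¬ q ∣ M₀) (A : ValuationSubring Qb)
    (hA : A.LiesOverPrime q)
    (hg : genusFF Qb (modularFunctionFieldBar M₀) =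
      genusFF (IsLocalRing.ResidueField A)
        (modularFunctionFieldFullC (IsLocalRing.ResidueField A) M₀))
    {P' : Place (IsLocalRing.ResidueField A)
      ↥(modularFunctionFieldFullC (IsLocalRing.ResidueField A) M₀)}
    (hP' : IsSSPlace (IsLocalRing.ResidueField A) M₀ q P')
    {t0 : LaurentSeries ℚ} (E : ExTDatum A q M₀ hq hA hqM P' t0) {ϖ : Qb}
    (hϖ : ϖ ^ (q + 1) = (q : Qb))
    (hreg : ∃ c : IsLocalRing.ResidueField A, c ≠ 0 ∧
      ValAt P' ((modularValSetup A q M₀ hq hA hqM).red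
        ((kctR M₀ hq hqM (wpdT M₀ t0 E.mem)).coeff 0)) c) :
    ∃ (c₀ : IsLocalRing.ResidueField A) (V : ValuationSubring (FBar M₀))
      (ρ : V →+* RatFunc (IsLocalRing.ResidueField A)) (Dc : CscData V q),
      CoreModIn (wpdSetup A q M₀ hq hA hqM hg) P' (wpd_hFk A M₀) hq hqM
        (wpdT M₀ t0 E.mem) ϖ c₀ V ρ Dc := by
  have hnc : 0 ≤ P'.ord (Fermat.Agent.RRMod.jC (IsLocalRing.ResidueField A) M₀) :=
    seedOld_ord_jC_nonneg M₀ hq hA hP'
  obtain ⟨Pt, Dp⟩ := wpd_discPoint_of_exT A q M₀ hq hA hqM hg hnc E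
  obtain ⟨hϖ0, hϖA, hϖinv⟩ := cmod_pi_props A q hq hA hϖ
  have hR := cmod_kctR_mem_discRing A q M₀ hq hA hqM hg hnc E
  have hne := rbr_kctR_ne_zero (isGaussRed_wpdSetup A q M₀ hq hA hqM hg) hq hA hqM
    (wpd_hFk A M₀) (wpdT M₀ t0 E.mem) (hR 0) hreg
  obtain ⟨V, ρ, Dc, h⟩ := coreMod_exists (wpdSetup A q M₀ hq hA hqM hg) P' (wpd_hFk A M₀) hq hqM
    Dp hϖ hϖA (wpd_res_eq_zero A q M₀ hq hA hqM hg hϖA hϖinv) (wpd_arch hq hA hϖ0 hϖinv)
    (d1m_res_surjective A q M₀ hq hA hqM hg) hR hne
  exact ⟨_, V, ρ, Dc, h⟩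

variable (M₀ q)

/-- **CORE-MOD, final form**: REG ⟹ the CORE-MOD input of `Val.lean`. -/
theorem wpCoreModExists_of_reg (hReg : WPRegAt M₀ q) : WPCoreModExists M₀ q := by
  intro hq hqM A hA hg _ _ _ P hP t0 D ϖ hϖ
  have hP' : IsSSPlace (IsLocalRing.ResidueField A) M₀ q
      (frobAut (IsLocalRing.ResidueField A) M₀ q • P) :=
    centres_isSS_frob (IsLocalRing.ResidueField A) M₀ q hP
  exact wpCoreMod_at hq hqM A hA hg hP' D.frob hϖ (hReg hq hqM A hA hg _ hP' t0 D.frob)

/-- REG + OLD ⟹ the value part of W-P at every supersingular place. -/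
theorem wpValStatement_of_reg (hReg : WPRegAt M₀ q) (hO : WPOldExists M₀ q) :
    WPValStatement M₀ q :=
  wpValStatement_of M₀ q (wpCoreModExists_of_reg M₀ q hReg) hO

/-- EX_t + REG + OLD ⟹ a `WPOut` at every supersingular place. -/
theorem wpExists_of_reg (hT : ExTStatement q M₀) (hReg : WPRegAt M₀ q)
    (hO : WPOldExists M₀ q) : WPExists M₀ q :=
  wpExists_of M₀ q hT (wpCoreModExists_of_reg M₀ q hReg) hO

end Final

end Fermat.Agent.S36G
end
end MergeWrap_S36_HPVal_CoreModFinal

section MergeWrap_S36_HPVal_ExTAbs -- from S36/HPVal/ExTAbs.lean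

set_option autoImplicit false

noncomputable section
attribute [local instance 10000] SubalgebraClass.toAlgebra HahnSeries.powerSeriesAlgebra

namespace Fermat.Agent.S36G

open AlgebraicCurve Polynomial Fermat.Agent.RR Fermat.Agent.S24Res

variable {k Fk : Type*} [Field k] [Field Fk] [Algebra k Fk]

/-! ### elementary `ord` lemmas -/

theorem exT_ord_neg (P : Place k Fk) (x : Fk) : P.ord (-x) = P.ord x := by
  rcases eq_or_ne x 0 with rfl | hx
  · simp
  have h1 : algebraMap k Fk (-1) ≠ 0 := by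
    rw [map_neg, map_one]
    exact neg_ne_zero.mpr one_ne_zero
  have h2 : -x = algebraMap k Fk (-1) * x := by
    rw [map_neg, map_one]
    ring
  rw [h2, P.ord_mul h1 hx, ord_algebraMap, zero_add]

theorem exT_ord_smul (P : Place k Fk) {l : k} (hl : l ≠ 0) (x : Fk) :
    P.ord (l • x) = P.ord x := by
  rcases eq_or_ne x 0 with rfl | hx
  · simp
  have h1 : algebraMap k Fk l ≠ 0 := by
    intro h0
    exact hl ((map_eq_zero (algebraMap k Fk)).mp h0)
  rw [Algebra.smul_def, P.ord_mul h1 hx, ord_algebraMap, zero_add]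

/-- the set of `x` with `x = 0` or `n ≤ ord x` is stable under addition. -/
theorem exT_ge_add (P : Place k Fk) (n : ℤ) {x y : Fk} (hx : x = 0 ∨ n ≤ P.ord x)
    (hy : y = 0 ∨ n ≤ P.ord y) : x + y = 0 ∨ n ≤ P.ord (x + y) := by
  rcases eq_or_ne (x + y) 0 with h0 | h0
  · exact Or.inl h0
  right
  rcases eq_or_ne x 0 with rfl | hx0
  · rw [zero_add] at h0 ⊢
    exact hy.resolve_left h0
  rcases eq_or_ne y 0 with rfl | hy0
  · rw [add_zero]
    exact hx.resolve_left hx0
  have h1 := ord_add_ge P hx0 hy0 h0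
  have h2 := hx.resolve_left hx0
  have h3 := hy.resolve_left hy0
  exact (le_min h2 h3).trans h1

/-! ### (B1) Riemann-Roch: a function with a simple zero at `P` and poles in `m D` -/

/-- **(B1)** -/
theorem exT_exists_ord_one (h : IsRRField k Fk) (D : Divisor k Fk)
    (hdeg : 0 < Divisor.degree D) (P : Place k Fk) (hP : D P = 0) :
    ∃ m₀ : ℕ, ∀ m : ℕ, m₀ ≤ m → ∃ f ∈ riemannRochSpace (m • D), P.ord f = 1 := by
  classical
  refine ⟨2 * genusFF k Fk + 1, fun m hm => ?_⟩
  set E : Divisor k Fk := m • D - Finsupp.single P 2 with hE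
  have hdegE : Divisor.degree E = (m : ℤ) * Divisor.degree D - 2 := by
    rw [hE, map_sub, map_nsmul, Divisor.degree_single, h.deg_one]
    simp
  have hmD : (m : ℤ) ≤ (m : ℤ) * Divisor.degree D := by
    have h1 : (1 : ℤ) ≤ Divisor.degree D := hdeg
    have h2 : (0 : ℤ) ≤ (m : ℤ) := Int.natCast_nonneg m
    nlinarith
  have hm' : (2 * (genusFF k Fk : ℤ) + 1) ≤ (m : ℤ) := by exact_mod_cast hm
  have hgt : 2 * (genusFF k Fk : ℤ) - 2 < Divisor.degree E := by
    rw [hdegE]
    linarith
  have hgt' : 2 * (genusFF k Fk : ℤ) - 2 < Divisor.degree (E + Finsupp.single P 1) := by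
    rw [degree_add_single h]
    linarith
  have h1 := ell_of_degree_gt h hgt
  have h2 := ell_of_degree_gt h hgt'
  rw [degree_add_single h] at h2
  have h3 : ell (E + Finsupp.single P 1) = ell E + 1 := by
    have : (ell (E + Finsupp.single P 1) : ℤ) = (ell E : ℤ) + 1 := by linarith
    exact_mod_cast this
  obtain ⟨f, hf, hfE⟩ := (ell_add_single_eq_iff h E P).mp h3
  obtain ⟨-, hord⟩ := ord_eq_of_mem_add_single_of_not_mem hf hfE
  refine ⟨f, ?_, ?_⟩
  · refine riemannRochSpace_mono ?_ hf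
    rw [hE]
    intro v
    simp only [Finsupp.coe_add, Finsupp.coe_sub, Pi.add_apply, Pi.sub_apply]
    by_cases hv : v = P
    · subst hv
      simp
    · rw [Finsupp.single_apply, Finsupp.single_apply, if_neg (Ne.symm hv),
        if_neg (Ne.symm hv)]
      simp
  · rw [hord, hE]
    simp only [Finsupp.coe_sub, Pi.sub_apply, Finsupp.coe_smul, Pi.smul_apply,
      Finsupp.single_eq_same, hP]
    simp

/-! ### (B2) selection from a spanning set -/

/-- **(B2)** -/
theorem exT_selection (h : IsRRField k Fk) (P : Place k Fk) (E : Set Fk)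
    (hE : ∀ e ∈ E, 0 ≤ P.ord e) {f : Fk} (hf : f ∈ Submodule.span k E) (hord : P.ord f = 1) :
    ∃ e ∈ E, ∃ c : k, P.ord (e - algebraMap k Fk c) = 1 := by
  by_contra hcon
  push Not at hcon
  -- every element of the span is congruent to a constant modulo `m_P ^ 2`
  have key : ∀ x ∈ Submodule.span k E,
      ∃ c : k, x - algebraMap k Fk c = 0 ∨ 2 ≤ P.ord (x - algebraMap k Fk c) := by
    intro x hx
    induction hx using Submodule.span_induction with
    | mem e he =>
      obtain ⟨c, hc⟩ := exists_const_sub h P (hE e he)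
      refine ⟨c, ?_⟩
      rcases hc with hc | hc
      · left
        rw [hc, sub_self]
      · right
        have := hcon e he c
        omega
    | zero =>
      exact ⟨0, Or.inl (by simp)⟩
    | add x y _ _ hx hy =>
      obtain ⟨c, hc⟩ := hx
      obtain ⟨d, hd⟩ := hy
      refine ⟨c + d, ?_⟩
      have := exT_ge_add P 2 hc hd
      have heq : x + y - algebraMap k Fk (c + d) =
          (x - algebraMap k Fk c) + (y - algebraMap k Fk d) := by
        rw [map_add]
        ring
      rw [heq]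
      exact this
    | smul l x _ hx =>
      obtain ⟨c, hc⟩ := hx
      refine ⟨l * c, ?_⟩
      have heq : l • x - algebraMap k Fk (l * c) = l • (x - algebraMap k Fk c) := by
        rw [map_mul, smul_sub, Algebra.smul_def, Algebra.smul_def]
      rw [heq]
      rcases eq_or_ne l 0 with rfl | hl
      · left
        simp
      rcases hc with hc | hc
      · left
        rw [hc, smul_zero]
      · right
        rw [exT_ord_smul P hl]
        exact hc
  obtain ⟨c, hc⟩ := key f hf
  have hf0 : f ≠ 0 := by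
    rintro rfl
    simp at hord
  -- `c = f - (f - c)` has order `≥ 1`, so `c = 0`
  have hc0 : c = 0 := by
    by_contra hc0
    have hcne : algebraMap k Fk c ≠ 0 := fun h0 => hc0 ((map_eq_zero (algebraMap k Fk)).mp h0)
    have hordc : P.ord (algebraMap k Fk c) = 0 := ord_algebraMap P c
    rcases hc with hc | hc
    · rw [sub_eq_zero] at hc
      rw [hc, hordc] at hord
      exact zero_ne_one hord
    · have hne : f - algebraMap k Fk c ≠ 0 := by
        intro h0
        rw [h0] at hc
        simp at hc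
      have hneg : -(f - algebraMap k Fk c) ≠ 0 := neg_ne_zero.mpr hne
      have hsum : f + -(f - algebraMap k Fk c) = algebraMap k Fk c := by ring
      have h1 := ord_add_ge P hf0 hneg (by rw [hsum]; exact hcne)
      rw [hsum, hordc, exT_ord_neg, hord] at h1
      have : (1 : ℤ) ≤ min 1 (P.ord (f - algebraMap k Fk c)) := le_min le_rfl (by omega)
      omega
  subst hc0
  rw [map_zero, sub_zero] at hc
  rcases hc with hc | hc
  · exact hf0 hc
  · omega

/-! ### (B3) the minimal polynomial trick -/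

/-- a separable polynomial over a field with a root `c` factors as `(X - c) g`, `g(c) ≠ 0`. -/
theorem exT_factor {ν : k[X]} (hsep : ν.Separable) {c : k} (hroot : ν.eval c = 0) :
    ∃ g : k[X], ν = (X - C c) * g ∧ g.eval c ≠ 0 := by
  have hdvd : X - C c ∣ ν := dvd_iff_isRoot.mpr hroot
  obtain ⟨g, hg⟩ := hdvd
  refine ⟨g, hg, ?_⟩
  intro hg0
  have h1 : (derivative ν).eval c = 0 := by
    rw [hg, derivative_mul]
    simp [hg0]
  have h2 := hsep.eval₂_derivative_ne_zero (RingHom.id k) (x := c) (by simpa using hroot)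
  apply h2
  simpa using h1

/-- **(B3)** -/
theorem exT_minpoly_trick (q : ℕ) [Fact q.Prime] [Algebra (ZMod q) k] (P : Place k Fk)
    {e : Fk} {c : k} (hc : IsAlgebraic (ZMod q) c)
    (hord : P.ord (e - algebraMap k Fk c) = 1) :
    ∃ μ : ℤ[X], μ.Monic ∧ P.ord (Polynomial.eval₂ (Int.castRingHom Fk) e μ) = 1 := by
  classical
  -- the minimal polynomial of `c` and a monic integral lift
  set ν₀ : (ZMod q)[X] := minpoly (ZMod q) c with hν₀
  have hint : IsIntegral (ZMod q) c := hc.isIntegral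
  have hmonic₀ : ν₀.Monic := minpoly.monic hint
  have hsep₀ : ν₀.Separable := PerfectField.separable_of_irreducible (minpoly.irreducible hint)
  have hlift : ν₀ ∈ Polynomial.lifts (Int.castRingHom (ZMod q)) := by
    rw [Polynomial.lifts_iff_coeff_lifts]
    intro n
    exact ZMod.intCast_surjective _
  obtain ⟨μ, hμmap, -, hμmonic⟩ := Polynomial.lifts_and_degree_eq_and_monic hlift hmonic₀
  refine ⟨μ, hμmonic, ?_⟩
  -- the polynomial over `k`
  set ν : k[X] := ν₀.map (algebraMap (ZMod q) k) with hν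
  have hsep : ν.Separable := hsep₀.map
  have hroot : ν.eval c = 0 := by
    rw [hν, eval_map, ← aeval_def]
    exact minpoly.aeval (ZMod q) c
  obtain ⟨g, hg, hgc⟩ := exT_factor hsep hroot
  -- `μ(e) = (e - c) g(e)`
  have hhom : (Int.castRingHom Fk) =
      ((algebraMap k Fk).comp (algebraMap (ZMod q) k)).comp (Int.castRingHom (ZMod q)) :=
    RingHom.ext_int _ _
  have hev : Polynomial.eval₂ (Int.castRingHom Fk) e μ =
      (e - algebraMap k Fk c) * (g.map (algebraMap k Fk)).eval e := by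
    rw [hhom, ← Polynomial.eval_map, ← Polynomial.map_map, hμmap, ← Polynomial.map_map,
      ← hν, hg, Polynomial.map_mul, Polynomial.eval_mul]
    simp
  -- `e` and `e - c` in the valuation ring
  have hec0 : e - algebraMap k Fk c ≠ 0 := by
    intro h0
    rw [h0] at hord
    simp at hord
  have hecO : e - algebraMap k Fk c ∈ P.toValuationSubring :=
    mem_of_ord_nonneg P (by omega)
  have hcO : algebraMap k Fk c ∈ P.toValuationSubring := P.algebraMap_mem' c
  have heO : e ∈ P.toValuationSubring := by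
    have := add_mem hecO hcO
    simpa using this
  set O := P.toValuationSubring with hO
  set a : O := ⟨e, heO⟩ with ha
  set b : O := algebraMap k O c with hb
  have hbcoe : (b : Fk) = algebraMap k Fk c := rfl
  have hab : a - b ∈ IsLocalRing.maximalIdeal O := by
    have hne : a - b ≠ 0 := by
      intro h0
      apply hec0
      exact congrArg (Subtype.val) h0
    rw [mem_maximalIdeal_iff_ord_pos P hne]
    have : ((a - b : O) : Fk) = e - algebraMap k Fk c := rfl
    rw [this, hord]
    exact one_pos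
  -- `g(a)` is a unit of the valuation ring
  set p : O[X] := g.map (algebraMap k O) with hp
  have hpb : p.eval b = algebraMap k O (g.eval c) := by
    rw [hp, hb, Polynomial.eval_map, Polynomial.eval₂_at_apply]
  have hunit : IsUnit (p.eval b) := by
    rw [hpb]
    exact (isUnit_iff_ne_zero.mpr hgc).map _
  have hdiff : p.eval a - p.eval b ∈ IsLocalRing.maximalIdeal O := by
    obtain ⟨w, hw⟩ := Polynomial.sub_dvd_eval_sub a b p
    rw [hw]
    exact Ideal.mul_mem_right _ _ hab
  have hunit_a : IsUnit (p.eval a) := by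
    rw [← IsLocalRing.notMem_maximalIdeal]
    intro hmem
    have : p.eval b ∈ IsLocalRing.maximalIdeal O := by
      have := Ideal.sub_mem _ hmem hdiff
      simpa using this
    exact (IsLocalRing.notMem_maximalIdeal.mpr hunit) this
  have hcomp : O.subtype.comp (algebraMap k O) = algebraMap k Fk := RingHom.ext fun _ => rfl
  have hcoe : ((p.eval a : O) : Fk) = (g.map (algebraMap k Fk)).eval e := by
    rw [hp, Polynomial.eval_map, Polynomial.eval_map, ← hcomp]
    exact Polynomial.hom_eval₂ g (algebraMap k O) O.subtype a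
  have hordg : P.ord ((g.map (algebraMap k Fk)).eval e) = 0 := by
    rw [← hcoe]
    exact ord_eq_zero_of_isUnit P hunit_a
  have hg0 : (g.map (algebraMap k Fk)).eval e ≠ 0 := by
    rw [← hcoe]
    intro h0
    have : (p.eval a : O) = 0 := Subtype.ext h0
    rw [this] at hunit_a
    exact not_isUnit_zero hunit_a
  rw [hev, P.ord_mul hec0 hg0, hord, hordg, add_zero]

/-! ### the three steps together -/

/-- **EX_t, abstract form**: if the Riemann-Roch spaces `L(m D)` (`D` of positive degree,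
`P ∉ supp D`) lie, for arbitrarily large `m`, in the `k`-span of a set `E` of functions regular at
`P`, then there are `e ∈ E` and a monic `μ ∈ ℤ[X]` with `ord_P (μ(e)) = 1`. -/
theorem exT_abs (h : IsRRField k Fk) (q : ℕ) [Fact q.Prime] [Algebra (ZMod q) k]
    (halg : ∀ c : k, IsAlgebraic (ZMod q) c)
    (D : Divisor k Fk) (hdeg : 0 < Divisor.degree D) (P : Place k Fk) (hP : D P = 0)
    (E : Set Fk) (hE : ∀ e ∈ E, 0 ≤ P.ord e)
    (hspan : ∀ m : ℕ, ∃ m' : ℕ, m ≤ m' ∧ riemannRochSpace (m' • D) ≤ Submodule.span k E) :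
    ∃ e ∈ E, ∃ μ : ℤ[X], μ.Monic ∧ P.ord (Polynomial.eval₂ (Int.castRingHom Fk) e μ) = 1 := by
  obtain ⟨m₀, hm₀⟩ := exT_exists_ord_one h D hdeg P hP
  obtain ⟨m', hm', hle⟩ := hspan m₀
  obtain ⟨f, hf, hord⟩ := hm₀ m' hm'
  obtain ⟨e, he, c, hc⟩ := exT_selection h P E hE (hle hf) hord
  obtain ⟨μ, hμ, hμord⟩ := exT_minpoly_trick q P (halg c) hc
  exact ⟨e, he, μ, hμ, hμord⟩

end Fermat.Agent.S36G
end
end MergeWrap_S36_HPVal_ExTAbs

section MergeWrap_S36_HPVal_ExTBdd -- from S36/HPVal/ExTBdd.lean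

set_option autoImplicit false
set_option linter.style.haveILetI false
set_option linter.unusedSectionVars false
set_option linter.unusedVariables false
set_option synthInstance.maxHeartbeats 400000

open ModularCurve Polynomial AlgebraicCurve

noncomputable section
attribute [local instance 10000] SubalgebraClass.toAlgebra HahnSeries.powerSeriesAlgebra

namespace Fermat.Agent.S36G

/-! ### (3) `ℤ((X))` is integrally closed -/

/-- `ℤ((X))` is integrally closed. -/
theorem exT_isIntegrallyClosed_laurentInt : IsIntegrallyClosed (LaurentSeries ℤ) := by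
  haveI : IsIntegrallyClosed (PowerSeries ℤ) := inferInstance
  refine isIntegrallyClosed_of_isLocalization (R := PowerSeries ℤ) (S := LaurentSeries ℤ)
    (Submonoid.powers (PowerSeries.X : PowerSeries ℤ)) ?_
  intro x hx
  obtain ⟨n, rfl⟩ := hx
  exact mem_nonZeroDivisors_of_ne_zero (pow_ne_zero _ PowerSeries.X_ne_zero)

theorem exT_coeffMap_int_injective :
    Function.Injective (coeffMap (Int.castRingHom ℚ)) := by
  intro x y h
  ext n
  have := congrArg (fun z => z.coeff n) h
  simp only [coeffMap_coeff] at this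
  exact Int.cast_injective this

/-- **normality of `ℤ((X))` inside `ℚ((X))`**: a series which is a quotient of integral series
and integral over `ℤ((X))` is integral. -/
theorem exT_mem_range_of_isIntegralElem (g : LaurentSeries ℚ)
    (hfrac : ∃ P Q : LaurentSeries ℤ, Q ≠ 0 ∧
      g * coeffMap (Int.castRingHom ℚ) Q = coeffMap (Int.castRingHom ℚ) P)
    (hint : (coeffMap (Int.castRingHom ℚ)).IsIntegralElem g) :
    ∃ Z : LaurentSeries ℤ, coeffMap (Int.castRingHom ℚ) Z = g := by
  haveI := exT_isIntegrallyClosed_laurentInt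
  obtain ⟨P, Q, hQ, hPQ⟩ := hfrac
  obtain ⟨p, hp, hp0⟩ := hint
  set ι := coeffMap (Int.castRingHom ℚ) with hι
  have hinj : Function.Injective ι := exT_coeffMap_int_injective
  let φ : FractionRing (LaurentSeries ℤ) →+* LaurentSeries ℚ := IsFractionRing.lift hinj
  have hφ : ∀ z : LaurentSeries ℤ, φ (algebraMap _ _ z) = ι z := fun z =>
    IsFractionRing.lift_algebraMap hinj z
  have hQ' : ι Q ≠ 0 := fun h => hQ (hinj (by rw [h, map_zero]))
  have hQ'' : algebraMap (LaurentSeries ℤ) (FractionRing (LaurentSeries ℤ)) Q ≠ 0 := by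
    intro h
    apply hQ
    exact (IsFractionRing.injective (LaurentSeries ℤ) (FractionRing (LaurentSeries ℤ)))
      (by rw [h, map_zero])
  set x : FractionRing (LaurentSeries ℤ) :=
    algebraMap _ _ P / algebraMap _ _ Q with hx
  have hφx : φ x = g := by
    rw [hx, map_div₀, hφ, hφ, ← hPQ, mul_div_cancel_right₀ _ hQ']
  have hxint : IsIntegral (LaurentSeries ℤ) x := by
    refine ⟨p, hp, ?_⟩
    apply φ.injective
    rw [map_zero, Polynomial.hom_eval₂, hφx]
    have : φ.comp (algebraMap (LaurentSeries ℤ) (FractionRing (LaurentSeries ℤ))) = ι :=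
      RingHom.ext hφ
    rw [this]
    exact hp0
  obtain ⟨Z, hZ⟩ := IsIntegrallyClosed.algebraMap_eq_of_integral hxint
  exact ⟨Z, by rw [← hφ, hZ, hφx]⟩

/-! ### (2) quotients of integral series -/

/-- `g` is a quotient of two integral series. -/
def ExTFrac (g : LaurentSeries ℚ) : Prop :=
  ∃ P Q : LaurentSeries ℤ, Q ≠ 0 ∧
    g * coeffMap (Int.castRingHom ℚ) Q = coeffMap (Int.castRingHom ℚ) P

theorem ExTFrac.of_int (Z : LaurentSeries ℤ) : ExTFrac (coeffMap (Int.castRingHom ℚ) Z) :=
  ⟨Z, 1, one_ne_zero, by rw [map_one, mul_one]⟩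

theorem exT_algebraMap_eq_single (c : ℚ) :
    algebraMap ℚ (LaurentSeries ℚ) c = HahnSeries.single 0 c := by
  have h1 : algebraMap ℚ (PowerSeries ℚ) c = PowerSeries.C c := by simp
  rw [HahnSeries.algebraMap_apply', h1, HahnSeries.ofPowerSeries_C]
  rfl

theorem ExTFrac.algebraMap (c : ℚ) : ExTFrac (algebraMap ℚ (LaurentSeries ℚ) c) := by
  refine ⟨HahnSeries.single 0 c.num, HahnSeries.single 0 (c.den : ℤ), ?_, ?_⟩
  · intro h
    have h1 := congrArg (fun z => z.coeff 0) h
    simp only [HahnSeries.coeff_single_same, HahnSeries.coeff_zero] at h1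
    exact c.den_ne_zero (by exact_mod_cast h1)
  · rw [exT_algebraMap_eq_single, coeffMap_single, coeffMap_single, HahnSeries.single_mul_single]
    congr 1
    simp only [eq_intCast, Int.cast_natCast]
    exact Rat.mul_den_eq_num c

theorem ExTFrac.add {g h : LaurentSeries ℚ} (hg : ExTFrac g) (hh : ExTFrac h) :
    ExTFrac (g + h) := by
  obtain ⟨P, Q, hQ, e⟩ := hg
  obtain ⟨P', Q', hQ', e'⟩ := hh
  refine ⟨P * Q' + P' * Q, Q * Q', mul_ne_zero hQ hQ', ?_⟩
  rw [map_add, map_mul, map_mul, map_mul, ← e, ← e']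
  ring

theorem ExTFrac.mul {g h : LaurentSeries ℚ} (hg : ExTFrac g) (hh : ExTFrac h) :
    ExTFrac (g * h) := by
  obtain ⟨P, Q, hQ, e⟩ := hg
  obtain ⟨P', Q', hQ', e'⟩ := hh
  refine ⟨P * P', Q * Q', mul_ne_zero hQ hQ', ?_⟩
  rw [map_mul, map_mul, ← e, ← e']
  ring

theorem ExTFrac.inv {g : LaurentSeries ℚ} (hg : ExTFrac g) : ExTFrac g⁻¹ := by
  rcases eq_or_ne g 0 with rfl | hg0
  · rw [inv_zero]
    exact ⟨0, 1, one_ne_zero, by simp⟩
  obtain ⟨P, Q, hQ, e⟩ := hg
  have hQ' : coeffMap (Int.castRingHom ℚ) Q ≠ 0 := fun h =>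
    hQ (exT_coeffMap_int_injective (by rw [h, map_zero]))
  have hP : P ≠ 0 := by
    rintro rfl
    rw [map_zero] at e
    exact (mul_ne_zero hg0 hQ') e
  refine ⟨Q, P, hP, ?_⟩
  rw [← e]
  field_simp

/-- every rational modular function is a quotient of two integral series. -/
theorem exTFrac_of_mem_full (N : ℕ) {g : LaurentSeries ℚ} (hg : g ∈ modularFunctionFieldFull N) :
    ExTFrac g := by
  unfold modularFunctionFieldFull at hg
  induction hg using IntermediateField.adjoin_induction with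
  | mem x hx =>
    obtain ⟨d, hd, -, rfl⟩ := hx
    have e : coeffMap (Int.castRingHom ℚ) (Fermat.Agent.ES15C.jdSer ℤ d) = qExpand ℚ d jq := by
      rw [Fermat.Agent.ES15C.coeffMap_jdSer]
      rfl
    rw [← e]
    exact ExTFrac.of_int _
  | algebraMap c => exact ExTFrac.algebraMap c
  | add x y _ _ hx hy => exact hx.add hy
  | inv x _ hx => exact hx.inv
  | mul x y _ _ hx hy => exact hx.mul hy

/-! ### (1) integrality -/

/-- clearing denominators: integral over `ℚ[x]` implies a multiple is integral over `ℤ[x]`. -/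
theorem exT_clear_denoms {S : Type*} [CommRing S] [Algebra ℚ S] (x t : S)
    (hint : (Polynomial.eval₂RingHom (algebraMap ℚ S) x).IsIntegralElem t) :
    ∃ c : ℤ, c ≠ 0 ∧
      (Polynomial.eval₂RingHom (Int.castRingHom S) x).IsIntegralElem ((c : S) * t) := by
  letI : Algebra ℤ[X] ℚ[X] := Polynomial.algebra ℤ ℚ
  haveI : IsLocalization ((nonZeroDivisors ℤ).map (C : ℤ →+* ℤ[X])) ℚ[X] :=
    Polynomial.isLocalization (nonZeroDivisors ℤ) ℚ
  letI : Algebra ℚ[X] S := (Polynomial.eval₂RingHom (algebraMap ℚ S) x).toAlgebra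
  letI : Algebra ℤ[X] S := (Polynomial.eval₂RingHom (Int.castRingHom S) x).toAlgebra
  haveI : IsScalarTower ℤ[X] ℚ[X] S := by
    refine IsScalarTower.of_algebraMap_eq fun p => ?_
    show Polynomial.eval₂ (Int.castRingHom S) x p =
      Polynomial.eval₂ (algebraMap ℚ S) x (p.map (algebraMap ℤ ℚ))
    rw [Polynomial.eval₂_map]
    congr 1
    exact RingHom.ext_int _ _
  have hx : IsIntegral ℚ[X] t := hint
  obtain ⟨⟨m, hm⟩, hmint⟩ := IsIntegral.exists_multiple_integral_of_isLocalization
    ((nonZeroDivisors ℤ).map (C : ℤ →+* ℤ[X])) t hx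
  obtain ⟨d, hd, rfl⟩ := hm
  refine ⟨d, nonZeroDivisors.ne_zero hd, ?_⟩
  have e : ((⟨C d, ⟨d, hd, rfl⟩⟩ : (nonZeroDivisors ℤ).map (C : ℤ →+* ℤ[X])) • t : S) =
      (d : S) * t := by
    rw [Submonoid.smul_def, Algebra.smul_def]
    show Polynomial.eval₂ (Int.castRingHom S) x (C d) * t = _
    rw [Polynomial.eval₂_C]
    rfl
  rw [e] at hmint
  exact hmint

/-- transitivity: an element integral over `K[x]` (`K / ℚ` algebraic) is integral over `ℚ[x]`. -/
theorem exT_isIntegralElem_of_adjoin {K F : Type*} [Field K] [Field F] [Algebra K F]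
    [Algebra ℚ K] [Algebra.IsIntegral ℚ K]
    (x u : F) (hu : IsIntegral (Algebra.adjoin K {x}) u) :
    (Polynomial.eval₂RingHom ((algebraMap K F).comp (algebraMap ℚ K)) x).IsIntegralElem u := by
  set ψ : ℚ[X] →+* F := Polynomial.eval₂RingHom ((algebraMap K F).comp (algebraMap ℚ K)) x
    with hψ
  letI : Algebra ℚ[X] F := ψ.toAlgebra
  -- constants are integral
  have h1 : ∀ c : K, algebraMap K F c ∈ integralClosure ℚ[X] F := by
    intro c
    obtain ⟨p, hp, hp0⟩ := Algebra.IsIntegral.isIntegral (R := ℚ) c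
    refine ⟨p.map (C : ℚ →+* ℚ[X]), hp.map _, ?_⟩
    rw [Polynomial.eval₂_map]
    have e : (algebraMap ℚ[X] F).comp (C : ℚ →+* ℚ[X]) =
        (algebraMap K F).comp (algebraMap ℚ K) := by
      ext r
      show ψ (C r) = _
      rw [hψ, Polynomial.coe_eval₂RingHom, Polynomial.eval₂_C]
    rw [e, ← Polynomial.hom_eval₂, hp0, map_zero]
  have h2 : x ∈ integralClosure ℚ[X] F := by
    have e : x = algebraMap ℚ[X] F X := by
      show x = ψ X
      rw [hψ, Polynomial.coe_eval₂RingHom, Polynomial.eval₂_X]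
    rw [e]
    exact isIntegral_algebraMap
  have h3 : ∀ y ∈ Algebra.adjoin K {x}, y ∈ integralClosure ℚ[X] F := by
    intro y hy
    induction hy using Algebra.adjoin_induction with
    | mem z hz =>
      rw [Set.mem_singleton_iff] at hz
      rw [hz]
      exact h2
    | algebraMap c => exact h1 c
    | add a b _ _ ha hb => exact add_mem ha hb
    | mul a b _ _ ha hb => exact mul_mem ha hb
  -- `u` is integral over the integral closure
  obtain ⟨p, hp, hp0⟩ := hu
  let θ : (Algebra.adjoin K {x}) →+* (integralClosure ℚ[X] F) :=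
    { toFun := fun y => ⟨(y : F), h3 y y.2⟩
      map_one' := rfl
      map_mul' := fun _ _ => rfl
      map_zero' := rfl
      map_add' := fun _ _ => rfl }
  have h4 : IsIntegral (integralClosure ℚ[X] F) u := by
    refine ⟨p.map θ, hp.map θ, ?_⟩
    rw [Polynomial.eval₂_map]
    exact hp0
  exact isIntegral_trans (R := ℚ[X]) (A := integralClosure ℚ[X] F) u h4

/-! ### the modular statement -/

local notation "Qb" => AlgebraicClosure ℚ

theorem exT_algebraMap_eq_single' {K : Type*} [Field K] (c : K) :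
    algebraMap K (LaurentSeries K) c = HahnSeries.single 0 c := by
  have h1 : algebraMap K (PowerSeries K) c = PowerSeries.C c := by simp
  rw [HahnSeries.algebraMap_apply', h1, HahnSeries.ofPowerSeries_C]
  rfl

/-- a function with poles only at the poles of `j` is integral over `ℚ[j]` (as a series). -/
theorem exT_isIntegralElem_rat (M0 : ℕ) [NeZero M0] {t0 : LaurentSeries ℚ}
    (hmem : coeffEmb Qb t0 ∈ modularFunctionFieldBar M0)
    (hpoles : ∀ Q : Place Qb (modularFunctionFieldBar M0),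
      0 ≤ Q.ord (Fermat.Agent.S24.jBar M0) →
        0 ≤ Q.ord (⟨coeffEmb Qb t0, hmem⟩ : modularFunctionFieldBar M0)) :
    (Polynomial.eval₂RingHom (algebraMap ℚ (LaurentSeries ℚ)) jq).IsIntegralElem t0 := by
  haveI := Fermat.Agent.S24.finiteDimensional_adjoin_jBar M0
  haveI : Algebra.IsIntegral ℚ Qb := (AlgebraicClosure.isAlgebraic ℚ).isIntegral
  have hu : IsIntegral (Algebra.adjoin Qb {Fermat.Agent.S24.jBar M0})
      (⟨coeffEmb Qb t0, hmem⟩ : modularFunctionFieldBar M0) :=
    Fermat.Agent.RRHur.mem_integralClosure_of_forall_mem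
      (Fermat.Agent.S24.transcendental_jBar M0) _
      (fun Q hQ => Fermat.Agent.S24Res.mem_of_ord_nonneg Q (hpoles Q hQ))
  obtain ⟨p, hp, hp0⟩ := exT_isIntegralElem_of_adjoin (K := Qb) _ _ hu
  refine ⟨p, hp, ?_⟩
  set v : modularFunctionFieldBar M0 →+* LaurentSeries Qb :=
    (IntermediateField.val (modularFunctionFieldBar M0)).toRingHom with hv
  have h1 := congrArg v hp0
  rw [map_zero, Polynomial.hom_eval₂] at h1
  have e : v.comp (Polynomial.eval₂RingHom
      ((algebraMap Qb (modularFunctionFieldBar M0)).comp (algebraMap ℚ Qb))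
        (Fermat.Agent.S24.jBar M0)) =
      (coeffEmb Qb).comp (Polynomial.eval₂RingHom (algebraMap ℚ (LaurentSeries ℚ)) jq) := by
    apply Polynomial.ringHom_ext
    · intro r
      simp only [RingHom.comp_apply, Polynomial.coe_eval₂RingHom, Polynomial.eval₂_C]
      show algebraMap Qb (LaurentSeries Qb) (algebraMap ℚ Qb r) = _
      rw [exT_algebraMap_eq_single', exT_algebraMap_eq_single']
      unfold coeffEmb
      rw [coeffMap_single]
    · simp only [RingHom.comp_apply, Polynomial.coe_eval₂RingHom, Polynomial.eval₂_X]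
      rfl
  rw [e] at h1
  have h2 : v (⟨coeffEmb Qb t0, hmem⟩ : modularFunctionFieldBar M0) = coeffEmb Qb t0 := rfl
  rw [h2, ← Polynomial.hom_eval₂] at h1
  exact (coeffEmb Qb).injective (by rw [h1, map_zero])

/-- **bounded denominators**: a rational modular function with poles only at the cusps is
`c⁻¹ ·` an element of `ℤ((X))`. -/
theorem exT_bdd (M0 : ℕ) [NeZero M0] {t0 : LaurentSeries ℚ}
    (hmem : t0 ∈ modularFunctionFieldFull M0)
    (hpoles : ∀ Q : Place Qb (modularFunctionFieldBar M0),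
      0 ≤ Q.ord (Fermat.Agent.S24.jBar M0) →
        0 ≤ Q.ord (⟨coeffEmb Qb t0, coeffEmb_mem_laurentBaseChange Qb hmem⟩ :
          modularFunctionFieldBar M0)) :
    ∃ c : ℤ, c ≠ 0 ∧ ∃ Z : LaurentSeries ℤ,
      coeffMap (Int.castRingHom ℚ) Z = (c : LaurentSeries ℚ) * t0 := by
  have h1 := exT_isIntegralElem_rat M0 (coeffEmb_mem_laurentBaseChange Qb hmem) hpoles
  obtain ⟨c, hc, p, hp, hp0⟩ := exT_clear_denoms jq t0 h1
  refine ⟨c, hc, ?_⟩
  apply exT_mem_range_of_isIntegralElem
  · have hc' : ExTFrac ((c : LaurentSeries ℚ)) := by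
      have := ExTFrac.of_int (c : LaurentSeries ℤ)
      rwa [map_intCast] at this
    exact hc'.mul (exTFrac_of_mem_full M0 hmem)
  · set χ : ℤ[X] →+* LaurentSeries ℤ :=
      Polynomial.eval₂RingHom (Int.castRingHom (LaurentSeries ℤ)) (jqModC ℤ) with hχ
    refine ⟨p.map χ, hp.map χ, ?_⟩
    rw [Polynomial.eval₂_map]
    have e : (coeffMap (Int.castRingHom ℚ)).comp χ =
        Polynomial.eval₂RingHom (Int.castRingHom (LaurentSeries ℚ)) jq := by
      apply Polynomial.ringHom_ext
      · intro r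
        simp only [hχ, RingHom.comp_apply, Polynomial.coe_eval₂RingHom, Polynomial.eval₂_C]
        simp
      · simp only [hχ, RingHom.comp_apply, Polynomial.coe_eval₂RingHom, Polynomial.eval₂_X]
        rw [coeffMap_jqModC]
        rfl
    rw [e]
    exact hp0

/-- **bounded denominators**, coefficient form. -/
theorem exT_bdd_coeff (M0 : ℕ) [NeZero M0] {t0 : LaurentSeries ℚ}
    (hmem : t0 ∈ modularFunctionFieldFull M0)
    (hpoles : ∀ Q : Place Qb (modularFunctionFieldBar M0),
      0 ≤ Q.ord (Fermat.Agent.S24.jBar M0) →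
        0 ≤ Q.ord (⟨coeffEmb Qb t0, coeffEmb_mem_laurentBaseChange Qb hmem⟩ :
          modularFunctionFieldBar M0)) :
    ∃ c : ℤ, c ≠ 0 ∧ ∀ n : ℤ, ∃ z : ℤ, (c : ℚ) * t0.coeff n = z := by
  obtain ⟨c, hc, Z, hZ⟩ := exT_bdd M0 hmem hpoles
  refine ⟨c, hc, fun n => ⟨Z.coeff n, ?_⟩⟩
  have h := congrArg (fun z => z.coeff n) hZ
  simp only [coeffMap_coeff] at h
  have e : ((c : LaurentSeries ℚ) * t0).coeff n = (c : ℚ) * t0.coeff n := by
    have e1 : (c : LaurentSeries ℚ) = HahnSeries.single 0 (c : ℚ) := by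
      rw [← exT_algebraMap_eq_single', map_intCast]
    rw [e1, HahnSeries.coeff_single_zero_mul]
  rw [e] at h
  rw [← h]
  simp

end Fermat.Agent.S36G
end
end MergeWrap_S36_HPVal_ExTBdd

section MergeWrap_S36_HPVal_ExTRed -- from S36/HPVal/ExTRed.lean

set_option autoImplicit false
set_option linter.style.haveILetI false
set_option linter.unusedSectionVars false
set_option linter.unusedVariables false
set_option synthInstance.maxHeartbeats 400000
set_option maxHeartbeats 1000000

open ModularCurve AlgebraicCurve HahnSeries Fermat.Agent.Deuring Fermat.Agent.GaussInt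
  Fermat.Agent.PeuD Fermat.Agent.S17

noncomputable section
attribute [local instance 10000] SubalgebraClass.toAlgebra HahnSeries.powerSeriesAlgebra

namespace Fermat.Agent.S36G

local notation "Qb" => AlgebraicClosure ℚ

variable (A : ValuationSubring Qb) (q M0 : ℕ) [NeZero M0]
  (hq : q.Prime) (hA : A.LiesOverPrime q) (hqM : ¬ q ∣ M0)

/-! ### integral elements and their reductions -/

/-- a function with `A`-integral `q`-expansion is Gauss-integral. -/
theorem exT_mem_Ov_of_int (f : modularFunctionFieldBar M0)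
    (h : ∀ n, (f : LaurentSeries Qb).coeff n ∈ A) :
    f ∈ (modularValSetup A q M0 hq hA hqM).Ov :=
  (mem_modularValSetup_Ov_iff A q M0 hq hA hqM f).mpr (gf_mem_of_int f.2 h)

/-- the reduction of a function with `A`-integral `q`-expansion is the coefficientwise
reduction. -/
theorem exT_red_coeff (f : modularFunctionFieldBar M0)
    (h : ∀ n, (f : LaurentSeries Qb).coeff n ∈ A) (n : ℤ) :
    (((modularValSetup A q M0 hq hA hqM).red f :
        modularFunctionFieldFullC (IsLocalRing.ResidueField A) M0) :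
        LaurentSeries (IsLocalRing.ResidueField A)).coeff n =
      IsLocalRing.residue A ⟨(f : LaurentSeries Qb).coeff n, h n⟩ := by
  have hmem : (f : LaurentSeries Qb) ∈ gaussSub A (modularFunctionFieldBar M0) :=
    gf_mem_of_int f.2 h
  rw [coe_modularValSetup_red A q M0 hq hA hqM hmem]
  have hemb : emb A (liftA A (f : LaurentSeries Qb) h) = (f : LaurentSeries Qb) :=
    emb_liftA A _ h
  have hF : emb A (liftA A (f : LaurentSeries Qb) h) ∈ modularFunctionFieldBar M0 := by
    rw [hemb]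
    exact f.2
  have h2 := gaussResFun_emb (A := A) hF
  rw [hemb] at h2
  rw [h2]
  rfl

/-! ### the coefficient functionals -/

/-- the `n`-th coefficient of the `q`-expansion, as a linear functional. -/
def exTLam (n : ℤ) : modularFunctionFieldBar M0 →ₗ[Qb] Qb where
  toFun f := (f : LaurentSeries Qb).coeff n
  map_add' f g := rfl
  map_smul' c f := by
    show ((c • f : modularFunctionFieldBar M0) : LaurentSeries Qb).coeff n = c • _
    rw [Algebra.smul_def]
    show (algebraMap Qb (LaurentSeries Qb) c * (f : LaurentSeries Qb)).coeff n = c • _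
    rw [exT_algebraMap_eq_single', HahnSeries.coeff_single_zero_mul, smul_eq_mul]

@[simp] theorem exTLam_apply (n : ℤ) (f : modularFunctionFieldBar M0) :
    exTLam M0 n f = (f : LaurentSeries Qb).coeff n := rfl

/-- the `n`-th coefficient of the `q`-expansion in characteristic `q`. -/
def exTLamC (k : Type*) [Field k] (n : ℤ) : modularFunctionFieldFullC k M0 →ₗ[k] k where
  toFun f := (f : LaurentSeries k).coeff n
  map_add' f g := rfl
  map_smul' c f := by
    show ((c • f : modularFunctionFieldFullC k M0) : LaurentSeries k).coeff n = c • _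
    rw [Algebra.smul_def]
    show (algebraMap k (LaurentSeries k) c * (f : LaurentSeries k)).coeff n = c • _
    rw [exT_algebraMap_eq_single', HahnSeries.coeff_single_zero_mul, smul_eq_mul]


/-! ### rational functions -/

section Rational

variable {M0}

/-- the `ℚ`-span of a family of `G_ℚ`-fixed functions consists of functions with rational
coefficients. -/
theorem exT_rat_of_span {n : ℕ} (b : Fin n → modularFunctionFieldBar M0)
    (hb : ∀ (i : Fin n) (σ : GQ),
      arithmeticGalois (modularFunctionFieldFull M0) σ • b i = b i)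
    {f : modularFunctionFieldBar M0} (hf : f ∈ Submodule.span ℚ (Set.range b)) (m : ℤ) :
    ∃ c : ℚ, exTLam M0 m f = algebraMap ℚ Qb c := by
  induction hf using Submodule.span_induction with
  | mem x hx =>
    obtain ⟨i, rfl⟩ := hx
    obtain ⟨c, hc⟩ := RatDesc.coeff_rat_of_fixed _ (b i) (hb i) m
    exact ⟨c, hc.symm⟩
  | zero => exact ⟨0, by simp⟩
  | add x y _ _ hx hy =>
    obtain ⟨c, hc⟩ := hx
    obtain ⟨d, hd⟩ := hy
    exact ⟨c + d, by rw [map_add, hc, hd, map_add]⟩
  | smul a x _ hx =>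
    obtain ⟨c, hc⟩ := hx
    exact ⟨a * c, by rw [pivot_lam_smul, hc, map_mul]⟩

/-- DESCENT: a function with rational coefficients is a rational modular function. -/
theorem exT_exists_rat (A : ValuationSubring Qb) {f : modularFunctionFieldBar M0}
    (hrat : ∀ m, ∃ c : ℚ, exTLam M0 m f = algebraMap ℚ Qb c) :
    ∃ t0 : LaurentSeries ℚ, t0 ∈ modularFunctionFieldFull M0 ∧
      coeffEmb Qb t0 = (f : LaurentSeries Qb) := by
  obtain ⟨z, hz⟩ := Fermat.Agent.FF.RedRat.exists_coeffEmb_eq (L := Qb)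
    (f := (f : LaurentSeries Qb)) (fun n => by
      obtain ⟨c, hc⟩ := hrat n
      exact ⟨c, hc.symm⟩)
  refine ⟨z, Fermat.Agent.FF.RedRat.mem_of_coeffEmb_mem (A := A)
    (isIntGen_modularFunctionFieldFull M0) ?_, hz⟩
  rw [hz]
  exact f.2

end Rational

/-! ### discreteness of the valuation on `ℚ` -/

section Disc

include hq hA

theorem exT_val_rat_eq_zpow {c : ℚ} (hc : c ≠ 0) :
    ∃ e : ℤ, A.valuation (algebraMap ℚ Qb c) = A.valuation ((q : ℕ) : Qb) ^ e := by
  have hnum : c.num ≠ 0 := Rat.num_ne_zero.mpr hc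
  have hden : (c.den : ℤ) ≠ 0 := by exact_mod_cast c.den_ne_zero
  obtain ⟨e₁, he₁⟩ := valuation_intCast_eq_pow hq hA (K := Qb) hnum
  obtain ⟨e₂, he₂⟩ := valuation_intCast_eq_pow hq hA (K := Qb) hden
  have hcK : algebraMap ℚ Qb c = ((c.num : ℤ) : Qb) / (((c.den : ℤ)) : Qb) := by
    conv_lhs => rw [← Rat.num_div_den c]
    simp
  have hq0 : A.valuation ((q : ℕ) : Qb) ≠ 0 := by
    rw [Valuation.ne_zero_iff]
    exact_mod_cast hq.ne_zero
  refine ⟨(e₁ : ℤ) - (e₂ : ℤ), ?_⟩
  rw [hcK, map_div₀, he₁, he₂, zpow_sub₀ hq0, zpow_natCast, zpow_natCast]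

end Disc


/-! ### the pivot basis -/

section Pivot

variable {M0}

/-- **the rational integral orthonormal basis** of a `G_ℚ`-stable space of functions with poles at
the cusps only. -/
theorem exT_pivot (U : Submodule Qb (modularFunctionFieldBar M0)) [FiniteDimensional Qb U]
    (hU : ∀ σ : GQ, ∀ f ∈ U, arithmeticGalois (modularFunctionFieldFull M0) σ • f ∈ U)
    (hpoles : ∀ f ∈ U, ∀ Q : Place Qb (modularFunctionFieldBar M0),
      0 ≤ Q.ord (Fermat.Agent.S24.jBar M0) → 0 ≤ Q.ord f) :
    ∃ (n : ℕ) (w : Fin n → modularFunctionFieldBar M0),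
      (∀ i, w i ∈ U) ∧ (∀ i m, (w i : LaurentSeries Qb).coeff m ∈ A) ∧
      (∀ i, ∃ t0 : LaurentSeries ℚ, t0 ∈ modularFunctionFieldFull M0 ∧
        coeffEmb Qb t0 = (w i : LaurentSeries Qb)) ∧
      Submodule.span Qb (Set.range w) = U ∧
      LinearIndependent (IsLocalRing.ResidueField A)
        (fun i => (modularValSetup A q M0 hq hA hqM).red (w i)) := by
  classical
  obtain ⟨n, b, hbli, hbspan, hbfix⟩ :=
    RatDesc.exists_fixed_family_general (modularFunctionFieldFull M0) U hU
  set V0 : Submodule ℚ (modularFunctionFieldBar M0) := Submodule.span ℚ (Set.range b) with hV0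
  have hV0U : ∀ f ∈ V0, f ∈ U := by
    intro f hf
    induction hf using Submodule.span_induction with
    | mem x hx =>
      obtain ⟨i, rfl⟩ := hx
      rw [← hbspan]
      exact Submodule.subset_span ⟨i, rfl⟩
    | zero => exact zero_mem _
    | add x y _ _ hx hy => exact add_mem hx hy
    | smul a x _ hx =>
      rw [← algebraMap_smul Qb a x]
      exact U.smul_mem _ hx
  have hrat : ∀ f ∈ V0, ∀ m, ∃ c : ℚ, exTLam M0 m f = algebraMap ℚ Qb c :=
    fun f hf m => exT_rat_of_span b hbfix hf m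
  have hπ : A.valuation ((q : ℕ) : Qb) < 1 := valuation_prime_lt_one hq hA
  have hπ0 : ((q : ℕ) : Qb) ≠ 0 := by exact_mod_cast hq.ne_zero
  have hbdd : ∀ f ∈ V0, ∃ N : ℤ, ∀ m,
      A.valuation (exTLam M0 m f) ≤ A.valuation ((q : ℕ) : Qb) ^ N := by
    intro f hf
    obtain ⟨t0, ht0, hcoe⟩ := exT_exists_rat A (hrat f hf)
    have hfeq : (⟨coeffEmb Qb t0, coeffEmb_mem_laurentBaseChange Qb ht0⟩ :
        modularFunctionFieldBar M0) = f := Subtype.ext hcoe
    obtain ⟨c, hc, hz⟩ := exT_bdd_coeff M0 ht0 (fun Q hQ => by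
      rw [hfeq]
      exact hpoles f (hV0U f hf) Q hQ)
    obtain ⟨e, he⟩ := valuation_intCast_eq_pow hq hA (K := Qb) hc
    refine ⟨-(e : ℤ), fun m => ?_⟩
    obtain ⟨z, hzm⟩ := hz m
    have h1 : exTLam M0 m f = algebraMap ℚ Qb (t0.coeff m) := by
      rw [exTLam_apply, ← hcoe, coeffEmb_coeff]
    have h2 : (c : Qb) * algebraMap ℚ Qb (t0.coeff m) = (z : Qb) := by
      have := congrArg (algebraMap ℚ Qb) hzm
      simpa using this
    have hc0 : (c : Qb) ≠ 0 := by exact_mod_cast hc
    have hvc0 : A.valuation (c : Qb) ≠ 0 := (Valuation.ne_zero_iff _).mpr hc0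
    have h3 : A.valuation (exTLam M0 m f) = A.valuation (z : Qb) / A.valuation (c : Qb) := by
      rw [h1, ← h2, map_mul, mul_div_cancel_left₀ _ hvc0]
    have h4 : A.valuation (z : Qb) ≤ 1 := (A.valuation_le_one_iff _).mpr (intCast_mem A z)
    rw [h3, zpow_neg, zpow_natCast, ← he, div_eq_mul_inv]
    exact mul_le_of_le_one_left' h4
  have H : PivotHyp A.valuation (exTLam M0) V0 :=
    pivot_max_of_discrete hrat hπ0 hπ
      (fun c hc => exT_val_rat_eq_zpow A q hq hA hc)
      (fun f _ h0 => Subtype.ext (HahnSeries.ext (funext h0)))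
      hbdd
  have hfg : V0.FG := Submodule.fg_span (Set.finite_range b)
  obtain ⟨s, e, hP⟩ := pivot_basis H hfg
  let w : Fin s.card → modularFunctionFieldBar M0 := fun j => e ((s.equivFin.symm j : s) : ℤ)
  have hws : ∀ j, ((s.equivFin.symm j : s) : ℤ) ∈ s := fun j => (s.equivFin.symm j).2
  have hwV0 : ∀ j, w j ∈ V0 := fun j => hP.mem _ (hws j)
  have hwint : ∀ j m, (w j : LaurentSeries Qb).coeff m ∈ A := fun j m =>
    (A.valuation_le_one_iff _).mp (hP.le_one _ (hws j) m)
  refine ⟨s.card, w, fun j => hV0U _ (hwV0 j), hwint,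
    fun j => exT_exists_rat A (hrat _ (hwV0 j)), ?_, ?_⟩
  · apply le_antisymm
    · rw [Submodule.span_le]
      rintro _ ⟨j, rfl⟩
      exact hV0U _ (hwV0 j)
    · rw [← hbspan, Submodule.span_le]
      rintro _ ⟨i, rfl⟩
      have hbi : b i ∈ V0 := Submodule.subset_span ⟨i, rfl⟩
      rw [hP.span] at hbi
      have hle : Submodule.span ℚ (e '' (s : Set ℤ)) ≤
          (Submodule.span Qb (Set.range w)).restrictScalars ℚ := by
        rw [Submodule.span_le]
        rintro _ ⟨i, hi, rfl⟩
        refine Submodule.subset_span ⟨s.equivFin ⟨i, hi⟩, ?_⟩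
        show e ((s.equivFin.symm (s.equivFin ⟨i, hi⟩) : s) : ℤ) = e i
        rw [Equiv.symm_apply_apply]
      exact hle hbi
  · rw [Fintype.linearIndependent_iff]
    intro x hx j₀
    have h1 := congrArg (exTLamC M0 (IsLocalRing.ResidueField A)
      ((s.equivFin.symm j₀ : s) : ℤ)) hx
    rw [map_sum, map_zero] at h1
    have h2 : ∀ j, exTLamC M0 (IsLocalRing.ResidueField A) ((s.equivFin.symm j₀ : s) : ℤ)
        (x j • (modularValSetup A q M0 hq hA hqM).red (w j)) = if j = j₀ then x j else 0 := by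
      intro j
      rw [map_smul]
      show x j • (((modularValSetup A q M0 hq hA hqM).red (w j) :
        modularFunctionFieldFullC (IsLocalRing.ResidueField A) M0) :
        LaurentSeries (IsLocalRing.ResidueField A)).coeff _ = _
      rw [exT_red_coeff A q M0 hq hA hqM (w j) (hwint j)]
      by_cases hj : j = j₀
      · subst hj
        rw [if_pos rfl]
        have h3 : (w j : LaurentSeries Qb).coeff ((s.equivFin.symm j : s) : ℤ) = 1 :=
          hP.pivot_self _ (hws j)
        have h4 : (⟨(w j : LaurentSeries Qb).coeff ((s.equivFin.symm j : s) : ℤ),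
            hwint j _⟩ : A) = 1 := Subtype.ext h3
        rw [h4, map_one, smul_eq_mul, mul_one]
      · rw [if_neg hj]
        have hne : ((s.equivFin.symm j₀ : s) : ℤ) ≠ ((s.equivFin.symm j : s) : ℤ) := by
          intro h
          apply hj
          have := Subtype.ext h
          exact (s.equivFin.symm.injective this).symm
        have h3 : (w j : LaurentSeries Qb).coeff ((s.equivFin.symm j₀ : s) : ℤ) = 0 :=
          hP.pivot_ne _ (hws j₀) _ (hws j) hne
        have h4 : (⟨(w j : LaurentSeries Qb).coeff ((s.equivFin.symm j₀ : s) : ℤ),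
            hwint j _⟩ : A) = 0 := Subtype.ext h3
        rw [h4, map_zero, smul_zero]
    rw [Finset.sum_congr rfl (fun j _ => h2 j), Finset.sum_ite_eq' Finset.univ j₀,
      if_pos (Finset.mem_univ _)] at h1
    exact h1

/-- the reduction of `U` is the span of the reductions of the rational integral basis. -/
theorem exT_redSpace_eq_span (U : Submodule Qb (modularFunctionFieldBar M0))
    [FiniteDimensional Qb U]
    (hU : ∀ σ : GQ, ∀ f ∈ U, arithmeticGalois (modularFunctionFieldFull M0) σ • f ∈ U)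
    (hpoles : ∀ f ∈ U, ∀ Q : Place Qb (modularFunctionFieldBar M0),
      0 ≤ Q.ord (Fermat.Agent.S24.jBar M0) → 0 ≤ Q.ord f) :
    ∃ (n : ℕ) (w : Fin n → modularFunctionFieldBar M0),
      (∀ i, w i ∈ U) ∧ (∀ i m, (w i : LaurentSeries Qb).coeff m ∈ A) ∧
      (∀ i, ∃ t0 : LaurentSeries ℚ, t0 ∈ modularFunctionFieldFull M0 ∧
        coeffEmb Qb t0 = (w i : LaurentSeries Qb)) ∧
      redSpace (modularValSetup A q M0 hq hA hqM) U =
        Submodule.span (IsLocalRing.ResidueField A)
          (Set.range fun i => (modularValSetup A q M0 hq hA hqM).red (w i)) := by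
  obtain ⟨n, w, hwU, hwint, hwrat, hspan, hli⟩ := exT_pivot A q hq hA hqM U hU hpoles
  refine ⟨n, w, hwU, hwint, hwrat, ?_⟩
  rw [← hspan]
  exact redSpace_span _ w (fun i => exT_mem_Ov_of_int A q M0 hq hA hqM (w i) (hwint i)) hli

end Pivot

end Fermat.Agent.S36G
end
end MergeWrap_S36_HPVal_ExTRed

section MergeWrap_S36_HPVal_ExTDeu -- from S36/HPVal/ExTDeu.lean

set_option autoImplicit false
set_option linter.style.haveILetI false
set_option synthInstance.maxHeartbeats 400000

noncomputable section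
attribute [local instance 10000] SubalgebraClass.toAlgebra HahnSeries.powerSeriesAlgebra

namespace Fermat.Agent.S36G

open ModularCurve AlgebraicCurve Fermat.Agent.RR Fermat.Agent.Deuring Fermat.Agent.FF
  Fermat.Agent.GaussInt

variable (A : ValuationSubring (AlgebraicClosure ℚ)) (q M0 : ℕ) [NeZero M0]
  (hq : q.Prime) (hA : A.LiesOverPrime q) (hqM : ¬ q ∣ M0)

/-- `r_* (j)_∞ = (j̄)_∞` for every Deuring reduction map of the Gauss valuation. -/
theorem exT_redDiv_poleDiv
    {r : Place (AlgebraicClosure ℚ) (modularFunctionFieldBar M0) →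
      Place (IsLocalRing.ResidueField A)
        (modularFunctionFieldFullC (IsLocalRing.ResidueField A) M0)}
    (hr : IsReduction (modularValSetup A q M0 hq hA hqM) r) :
    redDiv r (poleDiv (modularValSetup A q M0 hq hA hqM).hF (Fermat.Agent.S24.jBar M0)) =
      poleDiv (modularValSetup A q M0 hq hA hqM).hFk
        (Fermat.Agent.RRMod.jC (IsLocalRing.ResidueField A) M0) := by
  haveI := isAlgClosed_residue A
  have hred := Fermat.Agent.BadRed.oldSep_red_jBar A q M0 hq hA hqM
  have hx0 : (modularValSetup A q M0 hq hA hqM).red (Fermat.Agent.S24.jBar M0) ≠ 0 := by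
    intro h0
    have htr := Fermat.Agent.RRMod.transcendental_jC (IsLocalRing.ResidueField A) M0
    rw [← hred, h0] at htr
    exact htr isAlgebraic_zero
  have hdeg : Divisor.degree (poleDiv (modularValSetup A q M0 hq hA hqM).hF
        (Fermat.Agent.S24.jBar M0)) ≤
      Divisor.degree (poleDiv (modularValSetup A q M0 hq hA hqM).hFk
        ((modularValSetup A q M0 hq hA hqM).red (Fermat.Agent.S24.jBar M0))) := by
    rw [hred]
    exact ((Fermat.Agent.BadRed.oldSep_degree_poleDiv_jBar M0).trans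
      (Fermat.Agent.BadRed.oldSep_degree_poleDiv_jC A q M0 hq hA hqM).symm).le
  have h := Fermat.Agent.BadRed.oldSep_redDiv_poleDiv hr
    (Fermat.Agent.BadRed.oldSep_jBar_mem A q M0 hq hA hqM) hx0 hdeg
  rw [hred] at h
  exact h

/-- `deg (j̄)_∞ > 0`. -/
theorem exT_degree_poleDiv_jC_pos :
    0 < Divisor.degree (poleDiv (modularValSetup A q M0 hq hA hqM).hFk
      (Fermat.Agent.RRMod.jC (IsLocalRing.ResidueField A) M0)) := by
  rw [Fermat.Agent.BadRed.oldSep_degree_poleDiv_jC A q M0 hq hA hqM]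
  exact_mod_cast Fermat.Agent.GoodRed.index_Gamma0_pos M0

/-- `deg (j)_∞ > 0`. -/
theorem exT_degree_poleDiv_jBar_pos :
    0 < Divisor.degree (poleDiv (modularValSetup A q M0 hq hA hqM).hF
      (Fermat.Agent.S24.jBar M0)) := by
  rw [Fermat.Agent.BadRed.oldSep_degree_poleDiv_jBar M0]
  exact_mod_cast Fermat.Agent.GoodRed.index_Gamma0_pos M0

/-- `(j̄)_∞` is effective. -/
theorem exT_poleDiv_jC_nonneg :
    0 ≤ poleDiv (modularValSetup A q M0 hq hA hqM).hFk
      (Fermat.Agent.RRMod.jC (IsLocalRing.ResidueField A) M0) :=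
  poleDiv_nonneg _ _

/-- the non-cuspidal places are not in the support of `(j̄)_∞`. -/
theorem exT_poleDiv_apply_eq_zero
    {P : Place (IsLocalRing.ResidueField A)
      (modularFunctionFieldFullC (IsLocalRing.ResidueField A) M0)}
    (hP : 0 ≤ P.ord (Fermat.Agent.RRMod.jC (IsLocalRing.ResidueField A) M0)) :
    (poleDiv (modularValSetup A q M0 hq hA hqM).hFk
      (Fermat.Agent.RRMod.jC (IsLocalRing.ResidueField A) M0)) P = 0 := by
  rw [poleDiv_apply, max_eq_right (by omega)]

/-- **(A3)**: `red (L(m (j)_∞) ∩ Ov) = L_k (m (j̄)_∞)` for `m ≥ 2 g`, under genus equality. -/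
theorem exT_redSpace_poleDiv
    (hg : genusFF (AlgebraicClosure ℚ) ↥(modularFunctionFieldBar M0) =
      genusFF (IsLocalRing.ResidueField A)
        ↥(modularFunctionFieldFullC (IsLocalRing.ResidueField A) M0))
    (m : ℕ) (hm : 2 * genusFF (AlgebraicClosure ℚ) ↥(modularFunctionFieldBar M0) ≤ m) :
    redSpace (modularValSetup A q M0 hq hA hqM)
        (riemannRochSpace (m • poleDiv (modularValSetup A q M0 hq hA hqM).hF
          (Fermat.Agent.S24.jBar M0))) =
      riemannRochSpace (m • poleDiv (modularValSetup A q M0 hq hA hqM).hFk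
        (Fermat.Agent.RRMod.jC (IsLocalRing.ResidueField A) M0)) := by
  haveI := isAlgClosed_residue A
  haveI := infinite_residue A
  obtain ⟨r, hr⟩ := exists_isReduction (modularValSetup A q M0 hq hA hqM)
    (hasLattice_modularValSetup A q M0 hq hA hqM) hg
  have hpole := exT_redDiv_poleDiv A q M0 hq hA hqM hr
  have hpos := exT_degree_poleDiv_jBar_pos A q M0 hq hA hqM
  have hdeg : 2 * (genusFF (AlgebraicClosure ℚ) ↥(modularFunctionFieldBar M0) : ℤ) ≤
      Divisor.degree (m • poleDiv (modularValSetup A q M0 hq hA hqM).hF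
        (Fermat.Agent.S24.jBar M0)) := by
    rw [map_nsmul, nsmul_eq_mul]
    have h1 : (2 * genusFF (AlgebraicClosure ℚ) ↥(modularFunctionFieldBar M0) : ℤ) ≤ (m : ℤ) := by
      exact_mod_cast hm
    have h2 : (0 : ℤ) ≤ (m : ℤ) := Int.natCast_nonneg m
    nlinarith
  rw [hr.gr _ hdeg, Finsupp.mapDomain_smul]
  have h3 : Finsupp.mapDomain r (poleDiv (modularValSetup A q M0 hq hA hqM).hF
      (Fermat.Agent.S24.jBar M0)) =
      poleDiv (modularValSetup A q M0 hq hA hqM).hFk
        (Fermat.Agent.RRMod.jC (IsLocalRing.ResidueField A) M0) := hpole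
  rw [h3]

end Fermat.Agent.S36G
end
end MergeWrap_S36_HPVal_ExTDeu

section MergeWrap_S36_HPVal_ExTPoly -- from S36/HPVal/ExTPoly.lean

set_option autoImplicit false
set_option linter.unusedSectionVars false
set_option linter.unusedVariables false
set_option synthInstance.maxHeartbeats 400000
set_option maxHeartbeats 1000000

open ModularCurve AlgebraicCurve Polynomial Fermat.Agent.Deuring Fermat.Agent.GaussInt
  Fermat.Agent.RR

noncomputable section
attribute [local instance 10000] SubalgebraClass.toAlgebra HahnSeries.powerSeriesAlgebra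

namespace Fermat.Agent.S36G

local notation "Qb" => AlgebraicClosure ℚ

/-! ### abstract closure lemmas -/

/-- `A`-integral Laurent series are stable under integral polynomials. -/
theorem exT_int_eval₂ {K : Type*} [Field K] (A : ValuationSubring K) {P : LaurentSeries K}
    (hP : ∀ n, P.coeff n ∈ A) (μ : ℤ[X]) (n : ℤ) :
    (eval₂ (Int.castRingHom (LaurentSeries K)) P μ).coeff n ∈ A := by
  have h1 : eval₂ (Int.castRingHom (LaurentSeries K)) P μ =
      emb A (eval₂ (Int.castRingHom (LaurentSeries A)) (liftA A P hP) μ) := by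
    rw [Polynomial.hom_eval₂, emb_liftA]
    congr 1
    exact RingHom.ext_int _ _
  rw [h1]
  exact ((eval₂ (Int.castRingHom (LaurentSeries A)) (liftA A P hP) μ).coeff n).2

/-- powers stay in the multiples of the pole bound. -/
theorem exT_rr_pow {K F : Type*} [Field K] [Field F] [Algebra K F] {D : Divisor K F}
    (hD : 0 ≤ D) {m : ℕ} {w : F} (hw : w ∈ riemannRochSpace (m • D)) (i : ℕ) :
    w ^ i ∈ riemannRochSpace ((i * m) • D) := by
  induction i with
  | zero =>
    rw [pow_zero, zero_mul, zero_smul]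
    exact one_mem_riemannRochSpace_of_nonneg le_rfl
  | succ i ih =>
    rw [pow_succ, add_mul, one_mul, add_smul]
    exact mul_mem_riemannRochSpace_add ih hw

/-- `w ∈ L(m • D)`, `D ≥ 0` ⟹ `μ(w) ∈ L((deg μ · m) • D)`. -/
theorem exT_rr_eval₂ {K F : Type*} [Field K] [Field F] [Algebra K F] {D : Divisor K F}
    (hD : 0 ≤ D) {m : ℕ} {w : F} (hw : w ∈ riemannRochSpace (m • D)) (μ : ℤ[X]) :
    eval₂ (Int.castRingHom F) w μ ∈ riemannRochSpace ((μ.natDegree * m) • D) := by
  rw [Polynomial.eval₂_eq_sum_range]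
  refine Submodule.sum_mem _ fun i hi => ?_
  have hi' : i ≤ μ.natDegree := Nat.lt_succ_iff.mp (Finset.mem_range.mp hi)
  have hle : (i * m) • D ≤ (μ.natDegree * m) • D :=
    nsmul_le_nsmul_left hD (Nat.mul_le_mul_right m hi')
  have hpow : w ^ i ∈ riemannRochSpace ((μ.natDegree * m) • D) :=
    riemannRochSpace_mono hle (exT_rr_pow hD hw i)
  have e : Int.castRingHom F (μ.coeff i) * w ^ i = ((μ.coeff i : ℤ) : K) • w ^ i := by
    rw [Algebra.smul_def, map_intCast, eq_intCast]
  rw [e]
  exact Submodule.smul_mem _ _ hpow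

/-! ### the three closure lemmas of `ExT.lean` -/

variable (A : ValuationSubring Qb) (q M0 : ℕ) [NeZero M0]
  (hq : q.Prime) (hA : A.LiesOverPrime q) (hqM : ¬ q ∣ M0)

/-- **(P1)** rationality and integrality are stable under `μ ∈ ℤ[X]`. -/
theorem exT_poly_rat {t0 : LaurentSeries ℚ} (ht0 : t0 ∈ modularFunctionFieldFull M0)
    (hint : ∀ n, algebraMap ℚ Qb (t0.coeff n) ∈ A) (μ : ℤ[X]) :
    eval₂ (Int.castRingHom (LaurentSeries ℚ)) t0 μ ∈ modularFunctionFieldFull M0 ∧
    (∀ n, algebraMap ℚ Qb ((eval₂ (Int.castRingHom (LaurentSeries ℚ)) t0 μ).coeff n) ∈ A) ∧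
    coeffEmb Qb (eval₂ (Int.castRingHom (LaurentSeries ℚ)) t0 μ)
      = eval₂ (Int.castRingHom (LaurentSeries Qb)) (coeffEmb Qb t0) μ := by
  have hc : coeffEmb Qb (eval₂ (Int.castRingHom (LaurentSeries ℚ)) t0 μ)
      = eval₂ (Int.castRingHom (LaurentSeries Qb)) (coeffEmb Qb t0) μ := by
    rw [Polynomial.hom_eval₂]
    congr 1
    exact RingHom.ext_int _ _
  refine ⟨?_, fun n => ?_, hc⟩
  · rw [Polynomial.eval₂_eq_sum_range]
    refine sum_mem fun i _ => mul_mem ?_ (pow_mem ht0 i)
    rw [eq_intCast]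
    exact intCast_mem _ _
  · have h1 : algebraMap ℚ Qb ((eval₂ (Int.castRingHom (LaurentSeries ℚ)) t0 μ).coeff n) =
        (coeffEmb Qb (eval₂ (Int.castRingHom (LaurentSeries ℚ)) t0 μ)).coeff n := rfl
    rw [h1, hc]
    exact exT_int_eval₂ A (P := coeffEmb Qb t0) hint μ n

/-- the coercion to Laurent series commutes with `μ`. -/
theorem exTPoly_coe_eval₂ (w : modularFunctionFieldBar M0) (μ : ℤ[X]) :
    ((eval₂ (Int.castRingHom (modularFunctionFieldBar M0)) w μ : modularFunctionFieldBar M0) :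
        LaurentSeries Qb) =
      eval₂ (Int.castRingHom (LaurentSeries Qb)) (w : LaurentSeries Qb) μ := by
  have h := Polynomial.hom_eval₂ μ (Int.castRingHom (modularFunctionFieldBar M0))
    ((modularFunctionFieldBar M0).val : modularFunctionFieldBar M0 →+* LaurentSeries Qb) w
  have e : ((modularFunctionFieldBar M0).val :
      modularFunctionFieldBar M0 →+* LaurentSeries Qb).comp
        (Int.castRingHom (modularFunctionFieldBar M0)) = Int.castRingHom (LaurentSeries Qb) :=
    RingHom.ext_int _ _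
  rw [e] at h
  exact h

/-- **(P2)** integrality is stable under `μ ∈ ℤ[X]` and the reduction commutes with `μ`. -/
theorem exT_poly_red (w : modularFunctionFieldBar M0)
    (hw : ∀ n, (w : LaurentSeries Qb).coeff n ∈ A) (μ : ℤ[X]) :
    (∀ n, ((eval₂ (Int.castRingHom (modularFunctionFieldBar M0)) w μ :
        modularFunctionFieldBar M0) : LaurentSeries Qb).coeff n ∈ A) ∧
    (modularValSetup A q M0 hq hA hqM).red
        (eval₂ (Int.castRingHom (modularFunctionFieldBar M0)) w μ)
      = eval₂ (Int.castRingHom (modularFunctionFieldFullC (IsLocalRing.ResidueField A) M0))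
          ((modularValSetup A q M0 hq hA hqM).red w) μ := by
  refine ⟨fun n => ?_, ?_⟩
  · rw [exTPoly_coe_eval₂]
    exact exT_int_eval₂ A hw μ n
  · set S := modularValSetup A q M0 hq hA hqM with hS
    have hwOv : w ∈ S.Ov := exT_mem_Ov_of_int A q M0 hq hA hqM w hw
    have h1 : eval₂ (Int.castRingHom (modularFunctionFieldBar M0)) w μ =
        ((eval₂ (Int.castRingHom S.Ov) (⟨w, hwOv⟩ : S.Ov) μ : S.Ov) :
          modularFunctionFieldBar M0) := by
      have h := Polynomial.hom_eval₂ μ (Int.castRingHom S.Ov) S.Ov.subtype (⟨w, hwOv⟩ : S.Ov)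
      have e : S.Ov.subtype.comp (Int.castRingHom S.Ov) =
          Int.castRingHom (modularFunctionFieldBar M0) := RingHom.ext_int _ _
      rw [e] at h
      exact h.symm
    rw [h1, S.red_of_mem (Subtype.mem _), S.red_of_mem hwOv]
    have h2 := Polynomial.hom_eval₂ μ (Int.castRingHom S.Ov) S.ρ (⟨w, hwOv⟩ : S.Ov)
    have e2 : S.ρ.comp (Int.castRingHom S.Ov) =
        Int.castRingHom (modularFunctionFieldFullC (IsLocalRing.ResidueField A) M0) :=
      RingHom.ext_int _ _
    rw [e2] at h2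
    exact h2

/-- **(P3)** the pole bound `L(m • (j)_∞)` under `μ ∈ ℤ[X]`. -/
theorem exT_poly_poles (m : ℕ) (w : modularFunctionFieldBar M0)
    (hw : w ∈ riemannRochSpace
      (m • poleDiv (modularValSetup A q M0 hq hA hqM).hF (Fermat.Agent.S24.jBar M0)))
    (μ : ℤ[X]) :
    eval₂ (Int.castRingHom (modularFunctionFieldBar M0)) w μ ∈
      riemannRochSpace ((μ.natDegree * m) •
        poleDiv (modularValSetup A q M0 hq hA hqM).hF (Fermat.Agent.S24.jBar M0)) :=
  exT_rr_eval₂ (poleDiv_nonneg _ _) hw μ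

end Fermat.Agent.S36G
end
end MergeWrap_S36_HPVal_ExTPoly

section MergeWrap_S36_HPVal_ExT -- from S36/HPVal/ExT.lean

set_option autoImplicit false
set_option linter.style.haveILetI false
set_option linter.unusedSectionVars false
set_option linter.unusedVariables false
set_option synthInstance.maxHeartbeats 400000
set_option maxHeartbeats 1000000

open ModularCurve AlgebraicCurve HahnSeries Polynomial Fermat.Agent.Deuring Fermat.Agent.GaussInt
  Fermat.Agent.RR Fermat.Agent.S17

noncomputable section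
attribute [local instance 10000] SubalgebraClass.toAlgebra HahnSeries.powerSeriesAlgebra

namespace Fermat.Agent.S36G

local notation "Qb" => AlgebraicClosure ℚ

variable (A : ValuationSubring Qb) (q M0 : ℕ) [NeZero M0]
  (hq : q.Prime) (hA : A.LiesOverPrime q) (hqM : ¬ q ∣ M0)

/-! ### the pole divisor of `j` -/

/-- `j` is `G_ℚ`-fixed. -/
theorem exT_smul_jBar (σ : GQ) :
    arithmeticGalois (modularFunctionFieldFull M0) σ • Fermat.Agent.S24.jBar M0 =
      Fermat.Agent.S24.jBar M0 := by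
  apply Subtype.ext
  rw [coe_arithmeticGalois_smul]
  ext n
  rw [coeffMap_coeff]
  show σ ((coeffEmb Qb jq).coeff n) = (coeffEmb Qb jq).coeff n
  rw [coeffEmb_coeff]
  exact σ.commutes _

/-- `L(m (j)_∞)` is `G_ℚ`-stable. -/
theorem exT_rr_stable (h : IsRRField Qb (modularFunctionFieldBar M0)) (m : ℕ) (σ : GQ)
    (f : modularFunctionFieldBar M0)
    (hf : f ∈ riemannRochSpace (m • poleDiv h (Fermat.Agent.S24.jBar M0))) :
    arithmeticGalois (modularFunctionFieldFull M0) σ • f ∈
      riemannRochSpace (m • poleDiv h (Fermat.Agent.S24.jBar M0)) := by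
  rw [mem_riemannRochSpace_iff] at hf ⊢
  intro v
  rcases hf ((arithmeticGalois (modularFunctionFieldFull M0) σ)⁻¹ • v) with h0 | h0
  · left
    rw [h0, smul_zero]
  · right
    have h1 := SemilinearAut.ord_smul (arithmeticGalois (modularFunctionFieldFull M0) σ)
      ((arithmeticGalois (modularFunctionFieldFull M0) σ)⁻¹ • v) f
    rw [smul_inv_smul] at h1
    have h2 := SemilinearAut.ord_smul (arithmeticGalois (modularFunctionFieldFull M0) σ)
      ((arithmeticGalois (modularFunctionFieldFull M0) σ)⁻¹ • v) (Fermat.Agent.S24.jBar M0)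
    rw [smul_inv_smul, exT_smul_jBar] at h2
    rw [h1]
    simp only [Finsupp.smul_apply, poleDiv_apply] at h0 ⊢
    rw [h2]
    exact h0

/-- the elements of `L(m (j)_∞)` have poles only at the poles of `j`. -/
theorem exT_rr_poles (h : IsRRField Qb (modularFunctionFieldBar M0)) (m : ℕ)
    (f : modularFunctionFieldBar M0)
    (hf : f ∈ riemannRochSpace (m • poleDiv h (Fermat.Agent.S24.jBar M0)))
    (Q : Place Qb (modularFunctionFieldBar M0)) (hQ : 0 ≤ Q.ord (Fermat.Agent.S24.jBar M0)) :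
    0 ≤ Q.ord f := by
  rw [mem_riemannRochSpace_iff] at hf
  rcases hf Q with h0 | h0
  · rw [h0, Place.ord_zero]
  · simp only [Finsupp.smul_apply, poleDiv_apply] at h0
    have h1 : max (-Q.ord (Fermat.Agent.S24.jBar M0)) 0 = 0 := max_eq_right (by omega)
    rw [h1, smul_zero, neg_zero] at h0
    exact h0


/-! ### the core: existence of `t` from the Deuring input and the polynomial stability -/

section Core

variable {M0}

/-- the coercion of an integral polynomial in `w`. -/
theorem exT_coe_eval₂ (w : modularFunctionFieldBar M0) (μ : ℤ[X]) :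
    ((eval₂ (Int.castRingHom (modularFunctionFieldBar M0)) w μ : modularFunctionFieldBar M0) :
      LaurentSeries Qb) = eval₂ (Int.castRingHom (LaurentSeries Qb)) (w : LaurentSeries Qb) μ := by
  have h := Polynomial.hom_eval₂ μ (Int.castRingHom (modularFunctionFieldBar M0))
    (IntermediateField.val (modularFunctionFieldBar M0)).toRingHom w
  have e : (IntermediateField.val (modularFunctionFieldBar M0)).toRingHom.comp
      (Int.castRingHom (modularFunctionFieldBar M0)) = Int.castRingHom (LaurentSeries Qb) :=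
    RingHom.ext_int _ _
  rw [e] at h
  exact h

theorem exT_core
    (hDeu : ∀ m : ℕ, 2 * genusFF Qb ↥(modularFunctionFieldBar M0) ≤ m →
      redSpace (modularValSetup A q M0 hq hA hqM)
          (riemannRochSpace (m • poleDiv (modularValSetup A q M0 hq hA hqM).hF
            (Fermat.Agent.S24.jBar M0))) =
        riemannRochSpace (m • poleDiv (modularValSetup A q M0 hq hA hqM).hFk
          (Fermat.Agent.RRMod.jC (IsLocalRing.ResidueField A) M0)))
    (hP1 : ∀ {t0 : LaurentSeries ℚ}, t0 ∈ modularFunctionFieldFull M0 →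
      (∀ n, algebraMap ℚ Qb (t0.coeff n) ∈ A) → ∀ μ : ℤ[X],
        eval₂ (Int.castRingHom (LaurentSeries ℚ)) t0 μ ∈ modularFunctionFieldFull M0 ∧
        (∀ n, algebraMap ℚ Qb ((eval₂ (Int.castRingHom (LaurentSeries ℚ)) t0 μ).coeff n) ∈ A) ∧
        coeffEmb Qb (eval₂ (Int.castRingHom (LaurentSeries ℚ)) t0 μ) =
          eval₂ (Int.castRingHom (LaurentSeries Qb)) (coeffEmb Qb t0) μ)
    (hP2 : ∀ (w : modularFunctionFieldBar M0), (∀ n, (w : LaurentSeries Qb).coeff n ∈ A) →
      ∀ μ : ℤ[X],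
        (modularValSetup A q M0 hq hA hqM).red
            (eval₂ (Int.castRingHom (modularFunctionFieldBar M0)) w μ) =
          eval₂ (Int.castRingHom (modularFunctionFieldFullC (IsLocalRing.ResidueField A) M0))
            ((modularValSetup A q M0 hq hA hqM).red w) μ)
    (hP3 : ∀ (m : ℕ) (w : modularFunctionFieldBar M0),
      w ∈ riemannRochSpace (m • poleDiv (modularValSetup A q M0 hq hA hqM).hF
        (Fermat.Agent.S24.jBar M0)) → ∀ μ : ℤ[X],
        eval₂ (Int.castRingHom (modularFunctionFieldBar M0)) w μ ∈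
          riemannRochSpace ((μ.natDegree * m) • poleDiv (modularValSetup A q M0 hq hA hqM).hF
            (Fermat.Agent.S24.jBar M0)))
    (P : Place (IsLocalRing.ResidueField A)
      (modularFunctionFieldFullC (IsLocalRing.ResidueField A) M0))
    (hP : 0 ≤ P.ord (Fermat.Agent.RRMod.jC (IsLocalRing.ResidueField A) M0)) :
    ∃ t0 : LaurentSeries ℚ, ExTDatum A q M0 hq hA hqM P t0 := by
  classical
  haveI : IsAlgClosed (IsLocalRing.ResidueField A) := isAlgClosed_residue A
  haveI : Fact q.Prime := ⟨hq⟩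
  haveI : CharP (IsLocalRing.ResidueField A) q := Fermat.Agent.PeuD.resLift_charP A hq hA
  letI : Algebra (ZMod q) (IsLocalRing.ResidueField A) := ZMod.algebra _ q
  have halg : ∀ c : IsLocalRing.ResidueField A, IsAlgebraic (ZMod q) c := by
    intro c
    obtain ⟨a, rfl⟩ := IsLocalRing.residue_surjective c
    exact Fermat.Agent.PeuD.resLift_isAlgebraic A a
  set S := modularValSetup A q M0 hq hA hqM with hS
  set D0 := poleDiv S.hF (Fermat.Agent.S24.jBar M0) with hD0
  set Dbar := poleDiv S.hFk (Fermat.Agent.RRMod.jC (IsLocalRing.ResidueField A) M0) with hDbar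
  -- the divisor of poles of `j̄`
  have hDbarP : Dbar P = 0 := by
    rw [hDbar, poleDiv_apply]
    exact max_eq_right (by omega)
  have hdeg : 0 < Divisor.degree Dbar := by
    haveI := Fermat.Agent.RRMod.finiteDimensional_fullC' (IsLocalRing.ResidueField A) M0
    rw [hDbar, Fermat.Agent.RRHur.degree_poleDiv_eq_finrank S.hFk
      (Fermat.Agent.RRMod.transcendental_jC (IsLocalRing.ResidueField A) M0)]
    exact_mod_cast Module.finrank_pos
  -- the set of reductions of the rational integral functions with poles at the cusps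
  set E : Set (modularFunctionFieldFullC (IsLocalRing.ResidueField A) M0) :=
    {y | ∃ (m : ℕ) (w : modularFunctionFieldBar M0), w ∈ riemannRochSpace (m • D0) ∧
      (∀ n, (w : LaurentSeries Qb).coeff n ∈ A) ∧
      (∃ t0 : LaurentSeries ℚ, t0 ∈ modularFunctionFieldFull M0 ∧
        coeffEmb Qb t0 = (w : LaurentSeries Qb)) ∧ y = S.red w} with hEdef
  have hmono : ∀ {m m' : ℕ}, m ≤ m' → riemannRochSpace (m • D0) ≤ riemannRochSpace (m' • D0) := by
    intro m m' hmm
    apply riemannRochSpace_mono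
    rw [Finsupp.le_def]
    intro v
    simp only [Finsupp.smul_apply, nsmul_eq_mul]
    have h0 : 0 ≤ D0 v := by
      have := Finsupp.le_def.mp (poleDiv_nonneg S.hF (Fermat.Agent.S24.jBar M0)) v
      simpa using this
    have h1 : (m : ℤ) ≤ (m' : ℤ) := by exact_mod_cast hmm
    exact mul_le_mul_of_nonneg_right h1 h0
  have hE : ∀ e ∈ E, 0 ≤ P.ord e := by
    rintro e ⟨m, w, hwL, hwint, -, rfl⟩
    set m' := max m (2 * genusFF Qb ↥(modularFunctionFieldBar M0)) with hm'
    have h1 : w ∈ riemannRochSpace (m' • D0) := hmono (le_max_left _ _) hwL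
    have h2 : S.red w ∈ redSpace S (riemannRochSpace (m' • D0)) :=
      red_mem_redSpace S _ h1 (exT_mem_Ov_of_int A q M0 hq hA hqM w hwint)
    rw [hDeu m' (le_max_right _ _), mem_riemannRochSpace_iff] at h2
    rcases h2 P with h0 | h0
    · rw [h0, Place.ord_zero]
    · simp only [Finsupp.smul_apply] at h0
      rw [hDbarP, smul_zero, neg_zero] at h0
      exact h0
  have hspan : ∀ m : ℕ, ∃ m' : ℕ, m ≤ m' ∧
      riemannRochSpace (m' • Dbar) ≤ Submodule.span (IsLocalRing.ResidueField A) E := by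
    intro m
    refine ⟨max m (2 * genusFF Qb ↥(modularFunctionFieldBar M0)), le_max_left _ _, ?_⟩
    set m' := max m (2 * genusFF Qb ↥(modularFunctionFieldBar M0)) with hm'
    haveI : FiniteDimensional Qb (riemannRochSpace (m' • D0)) :=
      finite_riemannRochSpace S.hF _
    obtain ⟨n, w, hwU, hwint, hwrat, hred⟩ := exT_redSpace_eq_span A q hq hA hqM
      (riemannRochSpace (m' • D0)) (fun σ f hf => exT_rr_stable M0 S.hF m' σ f hf)
      (fun f hf Q hQ => exT_rr_poles M0 S.hF m' f hf Q hQ)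
    rw [← hDeu m' (le_max_right _ _), hred]
    apply Submodule.span_mono
    rintro _ ⟨i, rfl⟩
    exact ⟨m', w i, hwU i, hwint i, hwrat i, rfl⟩
  obtain ⟨e, he, μ, hμ, hμord⟩ := exT_abs S.hFk q halg Dbar hdeg P hDbarP E hE hspan
  obtain ⟨m, w, hwL, hwint, ⟨t0w, ht0w, hcoe⟩, rfl⟩ := he
  have hintw : ∀ n, algebraMap ℚ Qb (t0w.coeff n) ∈ A := by
    intro n
    have := hwint n
    rwa [← hcoe, coeffEmb_coeff] at this
  obtain ⟨ht0, hint, hemb⟩ := hP1 ht0w hintw μ
  set t0 := eval₂ (Int.castRingHom (LaurentSeries ℚ)) t0w μ with ht0def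
  have hid : ∀ h : coeffEmb Qb t0 ∈ modularFunctionFieldBar M0,
      (⟨coeffEmb Qb t0, h⟩ : modularFunctionFieldBar M0) =
        eval₂ (Int.castRingHom (modularFunctionFieldBar M0)) w μ := by
    intro h
    apply Subtype.ext
    rw [exT_coe_eval₂, ← hcoe]
    exact hemb
  refine ⟨t0, ⟨ht0, hint, ?_, ?_, ?_, ?_⟩⟩
  · intro h
    exact exT_mem_Ov_of_int A q M0 hq hA hqM _ (fun n => hint n)
  · intro h n hn
    exact exT_red_coeff A q M0 hq hA hqM ⟨coeffEmb Qb t0, h⟩ (fun n => hint n) n
  · intro h Q hQ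
    rw [hid h]
    exact exT_rr_poles M0 S.hF (μ.natDegree * m) _ (hP3 m w hwL μ) Q hQ
  · intro h
    rw [hid h, hP2 w hwint μ]
    exact hμord

end Core

/-! ### the theorem -/

/-- **EX_t**: the datum `t` of W-P exists at every non-cuspidal place. -/
theorem exT : ExTStatement q M0 := by
  intro A hq hA hqM hg P hP
  exact exT_core A q hq hA hqM
    (fun m hm => exT_redSpace_poleDiv A q M0 hq hA hqM hg m hm)
    (fun ht0 hint μ => exT_poly_rat A M0 ht0 hint μ)
    (fun w hw μ => (exT_poly_red A q M0 hq hA hqM w hw μ).2)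
    (fun m w hw μ => exT_poly_poles A q M0 hq hA hqM m w hw μ)
    P hP

end Fermat.Agent.S36G
end
end MergeWrap_S36_HPVal_ExT

section MergeWrap_S36_HPVal_RegAt -- from S36/HPVal/RegAt.lean

set_option autoImplicit false
set_option linter.style.haveILetI false
set_option linter.unusedSectionVars false
set_option linter.unusedVariables false
set_option synthInstance.maxHeartbeats 400000

noncomputable section

namespace Fermat.Agent.S36G

open IntermediateField ModularCurve AlgebraicCurve Fermat.Agent.F3 Fermat.Agent.F3G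
  Fermat.Agent.GaussInt Fermat.Agent.AtkinLehner Fermat.Agent.Deuring Fermat.Agent.RR
  Fermat.Agent.BadRed Fermat.Agent.EKp Fermat.Agent.PeuD

local notation "Qb" => AlgebraicClosure ℚ

attribute [local instance 10000] SubalgebraClass.toAlgebra HahnSeries.powerSeriesAlgebra

attribute [local instance] Fermat.Agent.BadRed.fwFintype

section DLevel

variable (D : ALData) [NeZero D.Q] [NeZero D.R] [NeZero (D.Q * D.R)]
  (A : ValuationSubring Qb) (hq : D.Q.Prime) (hA : A.LiesOverPrime D.Q) (hqR : ¬ D.Q ∣ D.R)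
  [Fact D.Q.Prime] [CharP (IsLocalRing.ResidueField A) D.Q]
  [PerfectRing (IsLocalRing.ResidueField A) D.Q]
  {P : Place (IsLocalRing.ResidueField A)
    (modularFunctionFieldFullC (IsLocalRing.ResidueField A) D.R)}
  {t0 : LaurentSeries ℚ}

/-- a supersingular place is a zero of `ū`, `u = Δ(z) / Δ(qz)`. -/
theorem regAt_ord_pos (hss : IsSSPlace (IsLocalRing.ResidueField A) D.R D.Q P) :
    0 < P.ord ((kpS D A hq hA hqR).red (fwU D)) := by
  obtain ⟨u, hu, hpos⟩ := hss
  have h1 : u = (kpS D A hq hA hqR).red (fwU D) :=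
    Subtype.ext (hu.trans (fw_coe_red_uF D A hq hA (kpS D A hq hA hqR)
      (isGaussSetup_gaussSetupBad D hq hqR A hA)).symm)
  rw [← h1]
  exact hpos

/-- **REG at a supersingular place** (rigid auxiliary level): the reduction of the constant term
of the Kronecker remainder of the datum `t` of EX_t has a nonzero value at `P`. -/
theorem regAt_ss (haux : AuxLevelOK D.Q D.R) (hν2 : nuTwo D.R = 0) (hν3 : nuThree D.R = 0)
    (hg : genusFF Qb (modularFunctionFieldBar D.R) =
      genusFF (IsLocalRing.ResidueField A)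
        (modularFunctionFieldFullC (IsLocalRing.ResidueField A) D.R))
    (hss : IsSSPlace (IsLocalRing.ResidueField A) D.R D.Q P)
    (hT : ExTDatum A D.Q D.R hq hA hqR P t0) :
    ∃ c : IsLocalRing.ResidueField A, c ≠ 0 ∧
      ValAt P ((modularValSetup A D.Q D.R hq hA hqR).red
        ((Fermat.Agent.S36.kctR D.R hq hqR (wpdT D.R t0 hT.mem)).coeff 0)) c :=
  reg_final D A hq hA hqR haux hg hT
    (reg_ord_red_u D A hq hA hqR haux hν2 hν3 P (regAt_ord_pos D A hq hA hqR hss))

end DLevel

section Final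

variable (M₀ q : ℕ) [NeZero M₀] [NeZero q]

/-- **(REG) at every supersingular place**, `(M₀, q)` language, under rigidity. -/
theorem wpRegAt (haux : AuxLevelOK q M₀) (hν2 : nuTwo M₀ = 0) (hν3 : nuThree M₀ = 0) :
    WPRegAt M₀ q := by
  intro hq hqM A hA hg _ _ _ P' hP' t0 E
  obtain ⟨D, hQ, hR⟩ := ALData.exists_of_coprime (Q := q) (R := M₀)
    (Nat.pos_of_ne_zero (NeZero.ne q)) (Nat.pos_of_ne_zero (NeZero.ne M₀))
    ((Nat.Prime.coprime_iff_not_dvd hq).mpr hqM)
  subst hQ
  subst hR
  haveI : NeZero (D.Q * D.R) := ⟨mul_ne_zero (NeZero.ne _) (NeZero.ne _)⟩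
  exact regAt_ss D A hq hA hqM haux hν2 hν3 hg hP' E

/-- **CORE-MOD, unconditional** (rigid auxiliary level): the CORE-MOD input of `Val.lean`. -/
theorem wpCoreModExists (haux : AuxLevelOK q M₀) (hν2 : nuTwo M₀ = 0) (hν3 : nuThree M₀ = 0) :
    WPCoreModExists M₀ q :=
  wpCoreModExists_of_reg M₀ q (wpRegAt M₀ q haux hν2 hν3)

/-- **W-P from OLD** (rigid auxiliary level): a `WPOut` at every supersingular place. -/
theorem wpExists_of_old (haux : AuxLevelOK q M₀) (hν2 : nuTwo M₀ = 0) (hν3 : nuThree M₀ = 0)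
    (hO : WPOldExists M₀ q) : WPExists M₀ q :=
  wpExists_of M₀ q (exT q M₀) (wpCoreModExists M₀ q haux hν2 hν3) hO

end Final

end Fermat.Agent.S36G
end
end MergeWrap_S36_HPVal_RegAt

section MergeWrap_S36_HPVal_WPFinal -- from S36/HPVal/WPFinal.lean

set_option autoImplicit false
set_option linter.unusedSectionVars false
set_option linter.unusedVariables false
set_option synthInstance.maxHeartbeats 400000

noncomputable section

namespace Fermat.Agent.S36G

open IntermediateField ModularCurve AlgebraicCurve Fermat.Agent.F3 Fermat.Agent.F3G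
  Fermat.Agent.GaussInt Fermat.Agent.AtkinLehner Fermat.Agent.Deuring Fermat.Agent.RR
  Fermat.Agent.BadRed Fermat.Agent.EKp Fermat.Agent.PeuD

variable (M₀ q : ℕ) [NeZero M₀] [NeZero q]

/-- **W-P, the final export**: for a rigid auxiliary level `M₀` there is a `WPOut` at every
supersingular place of `X₀(M₀)` mod `q` (at the reduction package `wpdSetup`). -/
theorem wpExists_aux (haux : AuxLevelOK q M₀) (hν2 : nuTwo M₀ = 0) (hν3 : nuThree M₀ = 0) :
    WPExists M₀ q :=
  wpExists_of_old M₀ q haux hν2 hν3 (oldFin_wpOldExists_main M₀ q haux)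

/-- **W-P, the final export with exported witnesses**: for every root `ϖ` of `X ^ (q + 1) = q`
and every supersingular place `P` a `WPOut` `O` with `O.ϖ = ϖ`, `O.a = 0`,
`O.P' = frobAut • P`. -/
theorem wpExistsAt_aux (haux : AuxLevelOK q M₀) (hν2 : nuTwo M₀ = 0) (hν3 : nuThree M₀ = 0) :
    WPExistsAt M₀ q :=
  wpExistsAt_of M₀ q (exT q M₀) (wpCoreModExists M₀ q haux hν2 hν3)
    (oldFin_wpOldExists_main M₀ q haux)

end Fermat.Agent.S36G
end
end MergeWrap_S36_HPVal_WPFinal
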