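import Mathlib
import Fermat.Agent.MUL.S36.HPVal.WPFinal
import Fermat.Agent.MUL.S36.HPVal.ValFamily
import Fermat.Agent.MUL.S36.G.AuxNu

section MergeWrap_S36_HPVal_ValAtT -- from S36/HPVal/ValAtT.lean

set_option autoImplicit false
set_option linter.style.haveILetI false
set_option linter.unusedSectionVars false
set_option linter.unusedVariables false
set_option synthInstance.maxHeartbeats 400000

noncomputable section

namespace Fermat.Agent.S36G

open ModularCurve AlgebraicCurve IntermediateField Fermat.Agent.F3 Fermat.Agent.F3G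
  Fermat.Agent.GaussInt Fermat.Agent.AtkinLehner Fermat.Agent.Deuring Fermat.Agent.RR
  Fermat.Agent.BadRed Fermat.Agent.HPVal Fermat.Agent.HP Fermat.Agent.EKp Fermat.Agent.PeuD

local notation "Qb" => AlgebraicClosure ℚ

/-- **the `t`-datum**: `t` has a rational, `q`-integral `q`-expansion and its poles are at the
cusps (the poles of `j`). -/
def WPTDat (M₀ : ℕ) [NeZero M₀] (A : ValuationSubring Qb) (t : FBar M₀) : Prop :=
  ∃ t0 : LaurentSeries ℚ, ((t : FBar M₀) : LaurentSeries Qb) = coeffEmb Qb t0 ∧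
    (∀ n : ℤ, algebraMap ℚ Qb (t0.coeff n) ∈ A) ∧
    ∀ Q' : Place Qb (FBar M₀), 0 ≤ Q'.ord (Fermat.Agent.S24.jBar M₀) → 0 ≤ Q'.ord t

/-- the datum of EX_t has the `t`-datum. -/
theorem wpTDat_of_exT {M₀ q : ℕ} [NeZero M₀] {A : ValuationSubring Qb} {hq : q.Prime}
    {hA : A.LiesOverPrime q} {hqM : ¬ q ∣ M₀}
    {P : Place (IsLocalRing.ResidueField A)
      ↥(modularFunctionFieldFullC (IsLocalRing.ResidueField A) M₀)}
    {t0 : LaurentSeries ℚ} (D : ExTDatum A q M₀ hq hA hqM P t0) :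
    WPTDat M₀ A (wpdT M₀ t0 D.mem) :=
  ⟨t0, rfl, D.int, fun Q' hQ' => D.poles (wpdT M₀ t0 D.mem).2 Q' hQ'⟩

/-- **W-P at `wpdSetup`, with exported witnesses and exported `t`-datum.** -/
def WPExistsAtT (M₀ q : ℕ) [NeZero M₀] [NeZero q] : Prop :=
  ∀ (hq : q.Prime) (hqM : ¬ q ∣ M₀) (A : ValuationSubring Qb) (hA : A.LiesOverPrime q)
    (hg : genusFF Qb (modularFunctionFieldBar M₀) =
      genusFF (IsLocalRing.ResidueField A)
        (modularFunctionFieldFullC (IsLocalRing.ResidueField A) M₀))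
    [Fact q.Prime] [CharP (IsLocalRing.ResidueField A) q]
    [PerfectRing (IsLocalRing.ResidueField A) q]
    (ϖ : Qb), ϖ ^ (q + 1) = (q : Qb) →
    ∀ P : Place (IsLocalRing.ResidueField A)
      ↥(modularFunctionFieldFullC (IsLocalRing.ResidueField A) M₀),
    IsSSPlace (IsLocalRing.ResidueField A) M₀ q P →
    ∃ (FkP : Type) (_ : Field FkP) (_ : Algebra (IsLocalRing.ResidueField A) FkP)
      (O : WPOut M₀ q A (wpdSetup A q M₀ hq hA hqM hg) P FkP),
      O.ϖ = ϖ ∧ O.a = 0 ∧ O.P' = frobAut (IsLocalRing.ResidueField A) M₀ q • P ∧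
        WPTDat M₀ A O.t

/-- **VAL-AT-T**: EX_t + the value part ⟹ `WPOut` with the prescribed `ϖ`, `a = 0`,
`P' = frobAut • P` and the `t`-datum, at every supersingular place. -/
theorem wpExistsAtT_of_val (M₀ q : ℕ) [NeZero M₀] [NeZero q] (hT : ExTStatement q M₀)
    (hV : WPValStatement M₀ q) : WPExistsAtT M₀ q := by
  intro hq hqM A hA hg _ _ _ ϖ hϖ P hP
  haveI : IsAlgClosed (IsLocalRing.ResidueField A) := isAlgClosed_residue A
  obtain ⟨t0, D⟩ := hT A hq hA hqM hg P (seedOld_ord_jC_nonneg M₀ hq hA hP)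
  obtain ⟨FkP, i₁, i₂, ⟨V⟩⟩ := hV hq hqM A hA hg P hP t0 D ϖ hϖ
  have hres0 : IsLocalRing.residue A ⟨(0 : Qb), A.zero_mem⟩ = 0 := map_zero _
  have hres0' : IsLocalRing.residue A ⟨(0 : Qb) ^ q, pow_mem A.zero_mem q⟩ = 0 := by
    have e : (⟨(0 : Qb) ^ q, pow_mem A.zero_mem q⟩ : A) = 0 :=
      Subtype.ext (zero_pow hq.ne_zero)
    rw [e, map_zero]
  refine ⟨FkP, i₁, i₂,
    WPOut.ofVal V (centres_isSS_frob _ M₀ q hP) (wpdT_rat M₀ t0 D.mem)
      (wpdT_mem_discRing_ss A q M₀ hq hA hqM hg D) A.zero_mem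
      (zero_pow (pow_ne_zero 2 hq.ne_zero)) ?_ ?_ hϖ, rfl, rfl, rfl, wpTDat_of_exT D⟩
  · rw [hres0, map_zero, sub_zero, wpdSetup_red]
    exact D.unif _
  · rw [hres0', map_zero, sub_zero, wpdSetup_red]
    exact D.frob.unif _

/-- **W-P with exported witnesses and `t`-datum, the assembly**: EX_t + CORE-MOD + OLD. -/
theorem wpExistsAtT_of (M₀ q : ℕ) [NeZero M₀] [NeZero q] (hT : ExTStatement q M₀)
    (hC : WPCoreModExists M₀ q) (hO : WPOldExists M₀ q) : WPExistsAtT M₀ q :=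
  wpExistsAtT_of_val M₀ q hT (wpValStatement_of M₀ q hC hO)

/-- **W-P, the final export with exported witnesses and `t`-datum** (rigid auxiliary level). -/
theorem wpExistsAtT_aux (M₀ q : ℕ) [NeZero M₀] [NeZero q] (haux : AuxLevelOK q M₀)
    (hν2 : nuTwo M₀ = 0) (hν3 : nuThree M₀ = 0) : WPExistsAtT M₀ q :=
  wpExistsAtT_of M₀ q (exT q M₀) (wpCoreModExists M₀ q haux hν2 hν3)
    (oldFin_wpOldExists_main M₀ q haux)

/-- forgetting the `t`-datum. -/
theorem wpExistsAt_of_atT (M₀ q : ℕ) [NeZero M₀] [NeZero q] (h : WPExistsAtT M₀ q) :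
    WPExistsAt M₀ q := by
  intro hq hqM A hA hg _ _ _ ϖ hϖ P hP
  obtain ⟨FkP, i₁, i₂, O, h1, h2, h3, -⟩ := h hq hqM A hA hg ϖ hϖ P hP
  exact ⟨FkP, i₁, i₂, O, h1, h2, h3⟩

section Choice

variable {M₀ q : ℕ} [NeZero M₀] [NeZero q] {A : ValuationSubring Qb}
  [Fact q.Prime] [CharP (IsLocalRing.ResidueField A) q]
  [PerfectRing (IsLocalRing.ResidueField A) q]
  {S0 : Fermat.Agent.S18Key.RedSetup Qb (FBar M₀) (IsLocalRing.ResidueField A)
    ↥(modularFunctionFieldFullC (IsLocalRing.ResidueField A) M₀)} {ϖ : Qb}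

/-- **the choice step with the `t`-datum**: a family over `ModSS A M₀ q` with ONE uniformiser,
every member with the `t`-datum. -/
theorem wpFamilyT_nonempty
    (h : ∀ P : Place (IsLocalRing.ResidueField A)
        ↥(modularFunctionFieldFullC (IsLocalRing.ResidueField A) M₀),
      IsSSPlace (IsLocalRing.ResidueField A) M₀ q P →
      ∃ (FkP : Type) (_ : Field FkP) (_ : Algebra (IsLocalRing.ResidueField A) FkP)
        (O : WPOut M₀ q A S0 P FkP),
        O.ϖ = ϖ ∧ O.a = 0 ∧ O.P' = frobAut (IsLocalRing.ResidueField A) M₀ q • P ∧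
          WPTDat M₀ A O.t) :
    ∃ W : WPFamily M₀ q A S0 ϖ, ∀ P : ModSS A M₀ q, WPTDat M₀ A (W.O P).t := by
  choose FkP iF iA O hϖ ha hP' ht using fun P : ModSS A M₀ q => h P.place P.isSS
  exact ⟨{ FkP := FkP, instField := iF, instAlgebra := iA, O := O, ϖ_eq := hϖ, a_eq := ha,
           P'_eq := hP' }, ht⟩

end Choice

/-- **the family of the `w_P` at `wpdSetup`**, with ONE uniformiser `ϖ` and the `t`-datum, for
a rigid auxiliary level. -/
theorem wpFamilyT_aux (M₀ q : ℕ) [NeZero M₀] [NeZero q] (haux : AuxLevelOK q M₀)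
    (hν2 : nuTwo M₀ = 0) (hν3 : nuThree M₀ = 0)
    (hq : q.Prime) (hqM : ¬ q ∣ M₀) (A : ValuationSubring Qb) (hA : A.LiesOverPrime q)
    (hg : genusFF Qb (modularFunctionFieldBar M₀) =
      genusFF (IsLocalRing.ResidueField A)
        (modularFunctionFieldFullC (IsLocalRing.ResidueField A) M₀))
    [Fact q.Prime] [CharP (IsLocalRing.ResidueField A) q]
    [PerfectRing (IsLocalRing.ResidueField A) q]
    (ϖ : Qb) (hϖ : ϖ ^ (q + 1) = (q : Qb)) :
    ∃ W : WPFamily M₀ q A (wpdSetup A q M₀ hq hA hqM hg) ϖ,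
      ∀ P : ModSS A M₀ q, WPTDat M₀ A (W.O P).t :=
  wpFamilyT_nonempty
    (fun P hP => wpExistsAtT_aux M₀ q haux hν2 hν3 hq hqM A hA hg ϖ hϖ P hP)

end Fermat.Agent.S36G
end
end MergeWrap_S36_HPVal_ValAtT
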