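import Mathlib
import Fermat.Agent.MUL.S36.HPVal.DistFinal
import Fermat.Agent.MUL.S36.G.ModIndep
import Fermat.Agent.MUL.Lib.HP.Sep

section MergeWrap_S36_HPVal_DistFinalWire -- from S36/HPVal/DistFinalWire.lean

set_option autoImplicit false
set_option linter.style.haveILetI false
set_option linter.unusedSectionVars false
set_option synthInstance.maxHeartbeats 400000

noncomputable section
attribute [local instance 10000] SubalgebraClass.toAlgebra HahnSeries.powerSeriesAlgebra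

namespace Fermat.Agent.S36G

open ModularCurve AlgebraicCurve IntermediateField Fermat.Agent.F3 Fermat.Agent.F3G
  Fermat.Agent.GaussInt Fermat.Agent.Deuring Fermat.Agent.BadRed Fermat.Agent.HPVal
  Fermat.Agent.HP Fermat.Agent.AtkinLehner

local notation "Qb" => AlgebraicClosure ℚ

section Wire

variable {M₀ q : ℕ} [NeZero M₀] [NeZero q] (hq : q.Prime) (hqM : ¬ q ∣ M₀)
  (A : ValuationSubring Qb) (hA : A.LiesOverPrime q)
  {S0 : Fermat.Agent.S18Key.RedSetup Qb (FBar M₀) (IsLocalRing.ResidueField A)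
    ↥(modularFunctionFieldFullC (IsLocalRing.ResidueField A) M₀)}
  (hS0 : IsGaussRed M₀ A S0)
  {N₂ : ℕ} [NeZero N₂]
  (Soo : ValSetup Qb (FBar (M₀ * q * q)) (IsLocalRing.ResidueField A)
    (modularFunctionFieldFullC (IsLocalRing.ResidueField A) N₂))
  (hoo : IsGaussSetup (M₀ * q * q) N₂ A Soo)
  (D : ALData) (hDQ : D.Q = q ^ 2) (hM : M₀ * q * q = D.Q * D.R)
  {Mid SS : Type}
  {FkM : Mid → Type} [∀ m, Field (FkM m)] [∀ m, Algebra (IsLocalRing.ResidueField A) (FkM m)]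
  {FkP : SS → Type} [∀ P, Field (FkP P)] [∀ P, Algebra (IsLocalRing.ResidueField A) (FkP P)]
  (Sm : ∀ m, ValSetup Qb (FBar (M₀ * q * q)) (IsLocalRing.ResidueField A) (FkM m))
  (z : Mid → Qbˣ)
  (ε : Mid → (↥(modularFunctionFieldBar (M₀ * q * q)) →ₐ[Qb] LaurentSeries Qb))
  (hz : ∀ m, IsPrimitiveRoot (z m) q) (hε : ∀ m, IsMidExp M₀ q (z m) (ε m))
  (hSm : ∀ (m : Mid) (f : FBar (M₀ * q * q)), f ∈ (Sm m).Ov ↔ f ∈ expOv (ε m) A)
  (hAm : ∀ m, (Sm m).A = A)
  (pt : SS → Place (IsLocalRing.ResidueField A)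
    ↥(modularFunctionFieldFullC (IsLocalRing.ResidueField A) M₀))
  (O : ∀ P : SS, WPOut M₀ q A S0 (pt P) (FkP P))

include hS0 hA hoo in
/-- the hypothesis `h_oo_P` of `modIndep`. -/
theorem distFinal_h_oo_P (P : SS) : ¬ Soo.Ov ≤ (O P).S.Ov :=
  (distFinal_inf_hor (O P) hS0 hA hoo).1

include hq hS0 hA hoo hDQ in
/-- the hypothesis `h_0_P` of `modIndep`. -/
theorem distFinal_h_0_P (P : SS) : ¬ (valSetupZeroAt D hM Soo).Ov ≤ (O P).S.Ov := by
  have hR : D.R = M₀ := modIndep_R_eq hq D hDQ hM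
  haveI : NeZero D.Q := ⟨by rw [hDQ]; exact pow_ne_zero 2 hq.ne_zero⟩
  haveI : NeZero D.R := ⟨by rw [hR]; exact NeZero.ne M₀⟩
  haveI : NeZero (D.Q * D.R) := ⟨by rw [← hM]; exact NeZero.ne _⟩
  exact (distFinal_zero_hor (O P) hS0 hA hoo D hM hR.symm).1

include hS0 hA hε hSm hAm in
/-- the hypothesis `h_m_P` of `modIndep`. -/
theorem distFinal_h_m_P (m : Mid) (P : SS) : ¬ (Sm m).Ov ≤ (O P).S.Ov :=
  (distFinal_mid_hor (O P) hS0 hA (Sm m) (hAm m) (hε m) (hSm m)).1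

include hq hqM hS0 hA in
/-- the hypothesis `h_P_P` of `modIndep`. -/
theorem distFinal_h_P_P (haux : AuxLevelOK q M₀) (hpt : Function.Injective pt)
    (hss : ∀ P, IsSSPlace (IsLocalRing.ResidueField A) M₀ q (pt P)) (P P' : SS) (hne : P ≠ P') :
    ¬ (O P).S.Ov ≤ (O P').S.Ov :=
  (distFinal_hor_hor hS0 hq hqM haux hA (hss P) (hss P') (fun h => hne (hpt h)) (O P) (O P')).1

include hq hqM hS0 hA hoo hDQ hz hε hSm hAm in
/-- **`indep` of the modular family** with the outputs of block W-P at the horizontal vertices. -/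
theorem modIndep_wp (haux : AuxLevelOK q M₀) (hpt : Function.Injective pt)
    (hss : ∀ P, IsSSPlace (IsLocalRing.ResidueField A) M₀ q (pt P))
    (h_m_m : ∀ m m', m ≠ m' → ¬ (Sm m).Ov ≤ (Sm m').Ov)
    (c c' : Vtx Mid SS) (hne : c ≠ c') :
    ¬ (vtxFamily Soo (valSetupZeroAt D hM Soo) Sm (fun P => (O P).S) c).Ov ≤
      (vtxFamily Soo (valSetupZeroAt D hM Soo) Sm (fun P => (O P).S) c').Ov :=
  modIndep hq hqM A hA Soo hoo D hDQ hM Sm z ε hz hε hSm hAm (fun P => (O P).S)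
    (fun P => (O P).A_eq) h_m_m
    (distFinal_h_oo_P A hA hS0 Soo hoo pt O)
    (distFinal_h_0_P hq A hA hS0 Soo hoo D hDQ hM pt O)
    (distFinal_h_m_P A hA hS0 Sm z ε hε hSm hAm pt O)
    (distFinal_h_P_P hq hqM A hA hS0 pt O haux hpt hss) c c' hne

end Wire

end Fermat.Agent.S36G
end
end MergeWrap_S36_HPVal_DistFinalWire
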